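import Fermat.Agent.LOC.Node
import Fermat.Agent.ECRed.Good
import Fermat.Agent.ECRed.Inertia
import Fermat.Prelude.Def_FLTPrelim_Modularity
import Fermat.Prelude.Def_EllipticCurve_FrobeniusTrace

/-! # Inertia acts unipotently on prime-to-`q` torsion at a semistable prime `q` -/

set_option autoImplicit false

namespace Fermat.Agent.LOC

open WeierstrassCurve WeierstrassCurve.Affine Fermat.Agent.ECRed
open scoped Pointwise

section decomposition

variable {L : Type*} [Field L] {K : Type*} [Field K] [Algebra K L]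

lemma mem_iff_of_decomposition (A : ValuationSubring L) {σ : L ≃ₐ[K] L}
    (hσ : σ ∈ A.decompositionSubgroup K) (x : L) : σ x ∈ A ↔ x ∈ A := by
  have h : σ • A = A := hσ
  constructor
  · intro hx
    rw [← h] at hx
    obtain ⟨y, hy, e⟩ := (ValuationSubring.mem_smul_pointwise_iff_exists _ _ _).mp hx
    have : y = x := σ.injective e
    rwa [← this]
  · intro hx
    rw [← h]
    exact (ValuationSubring.mem_smul_pointwise_iff_exists _ _ _).mpr ⟨x, hx, rfl⟩

lemma mem_decomposition_of_inertia (A : ValuationSubring L) {σ : L ≃ₐ[K] L}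
    (hσ : σ ∈ A.inertiaSubgroupIn K) : σ ∈ A.decompositionSubgroup K := by
  obtain ⟨τ, -, rfl⟩ := hσ
  exact τ.2

lemma valuation_le_iff_div_mem (A : ValuationSubring L) {x y : L} (hy : y ≠ 0) :
    A.valuation x ≤ A.valuation y ↔ x / y ∈ A := by
  rw [← A.valuation_le_one_iff, map_div₀, div_le_one₀ ((A.valuation).pos_iff.mpr hy)]

/-- The decomposition group preserves the order relation given by the valuation. -/
lemma decomposition_le_iff (A : ValuationSubring L) {σ : L ≃ₐ[K] L}
    (hσ : σ ∈ A.decompositionSubgroup K) (x y : L) :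
    A.valuation (σ x) ≤ A.valuation (σ y) ↔ A.valuation x ≤ A.valuation y := by
  by_cases hy : y = 0
  · subst hy
    simp
  · have hy' : σ y ≠ 0 := by simpa using hy
    rw [valuation_le_iff_div_mem A hy, valuation_le_iff_div_mem A hy', ← map_div₀,
      mem_iff_of_decomposition A hσ]

/-- The decomposition group preserves the valuation, for algebraic extensions. -/
theorem decomposition_valuation [Algebra.IsAlgebraic K L] (A : ValuationSubring L)
    {σ : L ≃ₐ[K] L} (hσ : σ ∈ A.decompositionSubgroup K) (x : L) :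
    A.valuation (σ x) = A.valuation x := by
  have hle := decomposition_le_iff A hσ
  have hlt : ∀ a b : L, A.valuation (σ a) < A.valuation (σ b) ↔ A.valuation a < A.valuation b := by
    intro a b
    rw [← not_le, ← not_le, hle]
  obtain ⟨m, n, hmn, e⟩ : ∃ m n : ℕ, m < n ∧ (σ ^ m) x = (σ ^ n) x := by
    have hint : IsIntegral K x := Algebra.IsIntegral.isIntegral x
    refine Set.Finite.exists_lt_map_eq_of_forall_mem (t := (minpoly K x).rootSet L)
      (f := fun n : ℕ => (σ ^ n) x) ?_ ((minpoly K x).rootSet_finite L)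
    intro n
    rw [Polynomial.mem_rootSet]
    refine ⟨minpoly.ne_zero hint, ?_⟩
    have : (Polynomial.aeval ((σ ^ n) x)) (minpoly K x) =
        (σ ^ n) ((Polynomial.aeval x) (minpoly K x)) := by
      exact Polynomial.aeval_algHom_apply ((σ ^ n : L ≃ₐ[K] L) : L →ₐ[K] L) x _
    rw [this, minpoly.aeval, map_zero]
  have e' : (σ ^ (n - m)) x = x := by
    apply (σ ^ m).injective
    rw [← AlgEquiv.mul_apply, ← pow_add, Nat.add_sub_cancel' hmn.le, e]
  have hd : 0 < n - m := Nat.sub_pos_of_lt hmn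
  have key : ∀ y z : L, A.valuation y < A.valuation z → ∀ k : ℕ,
      A.valuation ((σ ^ k) y) < A.valuation ((σ ^ k) z) := by
    intro y z h k
    induction k with
    | zero => simpa using h
    | succ k ih => rw [pow_succ', AlgEquiv.mul_apply, AlgEquiv.mul_apply, hlt]; exact ih
  apply le_antisymm
  · by_contra hcon
    push Not at hcon
    have h1 : ∀ k : ℕ, 0 < k → A.valuation x < A.valuation ((σ ^ k) x) := by
      intro k hk
      induction k with
      | zero => exact absurd hk (lt_irrefl _)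
      | succ k ih =>
        rcases Nat.eq_zero_or_pos k with rfl | hk'
        · simpa using hcon
        · refine (ih hk').trans ?_
          have := key _ _ hcon k
          rwa [← AlgEquiv.mul_apply, ← pow_succ] at this
    have := h1 _ hd
    rw [e'] at this
    exact lt_irrefl _ this
  · by_contra hcon
    push Not at hcon
    have h1 : ∀ k : ℕ, 0 < k → A.valuation ((σ ^ k) x) < A.valuation x := by
      intro k hk
      induction k with
      | zero => exact absurd hk (lt_irrefl _)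
      | succ k ih =>
        rcases Nat.eq_zero_or_pos k with rfl | hk'
        · simpa using hcon
        · refine lt_trans ?_ (ih hk')
          have := key _ _ hcon k
          rwa [← AlgEquiv.mul_apply, ← pow_succ] at this
    have := h1 _ hd
    rw [e'] at this
    exact lt_irrefl _ this

end decomposition

section general

variable {K Γ₀ : Type*} [Field K] [LinearOrderedCommGroupWithZero Γ₀] {v : Valuation K Γ₀}
variable {W : WeierstrassCurve K} [DecidableEq K]

/-- nonsingular reduction of an affine point with integral coordinates -/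
def NonsingAt (v : Valuation K Γ₀) (W : WeierstrassCurve K) (x y : K) : Prop :=
  v (2 * y + W.a₁ * x + W.a₃) = 1 ∨ v (3 * x ^ 2 + 2 * W.a₂ * x + W.a₄ - W.a₁ * y) = 1

omit [DecidableEq K] in
lemma lt_one_of_not_nonsingAt (hI : IntCoeff v W) {x y : K} (hx : v x ≤ 1) (hy : v y ≤ 1)
    (h : ¬ NonsingAt v W x y) : v (2 * y + W.a₁ * x + W.a₃) < 1 ∧
      v (3 * x ^ 2 + 2 * W.a₂ * x + W.a₄ - W.a₁ * y) < 1 := by
  rw [NonsingAt, not_or] at h
  constructor
  · refine lt_of_le_of_ne ?_ h.1
    exact v.map_add_le (v.map_add_le (v_imul_le v_two_le_one hy) (v_imul_le hI.a₁ hx)) hI.a₃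
  · refine lt_of_le_of_ne ?_ h.2
    refine v.map_sub_le (v.map_add_le (v.map_add_le ?_ ?_) hI.a₄) (v_imul_le hI.a₁ hy)
    · exact v_imul_le v_three_le_one (by rw [map_pow]; exact pow_le_one₀ zero_le hx)
    · exact v_imul_le (v_imul_le v_two_le_one hI.a₂) hx

/-- A torsion point (order prime to the residue characteristic) with nonsingular reduction is fixed
by inertia. -/
theorem fixed_of_nonsingAt (hI : IntCoeff v W) {n : ℕ} (hn : v (n : K) = 1)
    {σ : K → K} (hσ : ∀ x, v x ≤ 1 → v (σ x - x) < 1)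
    (s : W.toAffine.Point →+ W.toAffine.Point)
    (hs : ∀ x y h, ∃ h', s (.some x y h) = .some (σ x) (σ y) h')
    {x y : K} {h : W.toAffine.Nonsingular x y} (hP : n • (.some x y h : W.toAffine.Point) = 0)
    (hns : NonsingAt v W x y) :
    s (.some x y h : W.toAffine.Point) = .some x y h := by
  obtain ⟨h', e⟩ := hs x y h
  obtain ⟨hx, hy⟩ := v_le_one_of_torsion hI h hn hP
  rw [e]
  symm
  refine eq_of_close hI h h' hx hy ?_ ?_ hns hn hP ?_
  · rw [Valuation.map_sub_swap]; exact hσ x hx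
  · rw [Valuation.map_sub_swap]; exact hσ y hy
  · rw [← e, ← map_nsmul, hP, map_zero]

/-- **`σ P - P` has nonsingular reduction** for an integral point `P` reducing to a node. -/
theorem sub_nonsingAt_of_node [IsAlgClosed K] (h2 : (2 : K) ≠ 0) (hI : IntCoeff v W)
    (hc4 : v W.c₄ = 1) (σ : K →+* K) (hσ : ∀ x, v x ≤ 1 → v (σ x - x) < 1)
    (hσv : ∀ x, v (σ x) = v x) (h₁ : σ W.a₁ = W.a₁)
    (h₂ : σ W.a₂ = W.a₂) (h₃ : σ W.a₃ = W.a₃) (h₄ : σ W.a₄ = W.a₄)
    {x y : K} (h : W.toAffine.Nonsingular x y) (h' : W.toAffine.Nonsingular (σ x) (σ y))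
    (hx : v x ≤ 1) (hy : v y ≤ 1) (hns : ¬ NonsingAt v W x y) :
    (.some (σ x) (σ y) h' - .some x y h : W.toAffine.Point) = 0 ∨
      ∃ (x₃ y₃ : K) (h₃ : W.toAffine.Nonsingular x₃ y₃),
        (.some (σ x) (σ y) h' - .some x y h : W.toAffine.Point) = .some x₃ y₃ h₃ ∧
          (v x₃ ≤ 1 → v y₃ ≤ 1 → NonsingAt v W x₃ y₃) := by
  obtain ⟨hs, ht⟩ := lt_one_of_not_nonsingAt hI hx hy hns
  obtain ⟨x₀, y₀, α, β, hc, hxx, hyy⟩ := exists_nodeCentre h2 hI hc4 h.1 hx hy hs ht
  obtain ⟨f1, f2, f3, f4⟩ := hc.fixed h2 σ hσ h₁ h₂ h₃ h₄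
  have e1 : σ x - x₀ = σ (x - x₀) := by rw [map_sub, f1]
  have e2 : σ y - y₀ - β * (σ x - x₀) = σ (y - y₀ - β * (x - x₀)) := by
    rw [map_sub, map_sub, map_mul, map_sub, f1, f2, f4]
  have e3 : σ y - y₀ - α * (σ x - x₀) = σ (y - y₀ - α * (x - x₀)) := by
    rw [map_sub, map_sub, map_mul, map_sub, f1, f2, f3]
  rcases sub_far hc h h' hxx (by rw [e1, hσv]) (by rw [e2, hσv]) (by rw [e3, hσv]) with h0 | h0
  · exact Or.inl h0
  · obtain ⟨x₃, y₃, h₃, e, hfar⟩ := h0
    refine Or.inr ⟨x₃, y₃, h₃, e, fun hx₃ hy₃ => ?_⟩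
    refine nonsing_of_far hc h₃.1 hx₃ hy₃ (le_antisymm ?_ hfar) hI
    exact v.map_sub_le hx₃ hc.int_x

/-- **Inertia acts unipotently**: if `v Δ = 1` or `v c₄ = 1`, `σ` in inertia, `P` torsion of order
prime to the residue characteristic then `σ (σ P - P) = σ P - P`. -/
theorem inertia_unipotent [IsAlgClosed K] (h2 : (2 : K) ≠ 0) (hI : IntCoeff v W)
    (hss : v W.Δ = 1 ∨ v W.c₄ = 1) {n : ℕ} (hn : v (n : K) = 1)
    (σ : K →+* K) (hσ : ∀ x, v x ≤ 1 → v (σ x - x) < 1) (hσv : ∀ x, v (σ x) = v x)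
    (h₁ : σ W.a₁ = W.a₁) (h₂ : σ W.a₂ = W.a₂) (h₃ : σ W.a₃ = W.a₃) (h₄ : σ W.a₄ = W.a₄)
    (s : W.toAffine.Point →+ W.toAffine.Point)
    (hs : ∀ x y h, ∃ h', s (.some x y h) = .some (σ x) (σ y) h')
    {P : W.toAffine.Point} (hP : n • P = 0) : s (s P - P) = s P - P := by
  rcases P with _ | ⟨x, y, h⟩
  · change s (s 0 - 0) = s 0 - 0
    simp
  obtain ⟨hx, hy⟩ := v_le_one_of_torsion hI h hn hP
  by_cases hns : NonsingAt v W x y
  · rw [fixed_of_nonsingAt hI hn hσ s hs hP hns, sub_self, map_zero]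
  have hc4 : v W.c₄ = 1 := by
    rcases hss with hss | hss
    · exact absurd (nonsing_of_Δ hI hss h.1 hx hy) hns
    · exact hss
  obtain ⟨h', e⟩ := hs x y h
  have htors : n • (s (.some x y h) - .some x y h : W.toAffine.Point) = 0 := by
    rw [smul_sub, ← map_nsmul, hP, map_zero, sub_zero]
  rw [e] at htors ⊢
  rcases sub_nonsingAt_of_node h2 hI hc4 σ hσ hσv h₁ h₂ h₃ h₄ h h' hx hy hns with h0 | h0
  · rw [h0, map_zero]
  · obtain ⟨x₃, y₃, h₃', e₃, hns₃⟩ := h0
    rw [e₃] at htors ⊢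
    obtain ⟨hx₃, hy₃⟩ := v_le_one_of_torsion hI h₃' hn htors
    exact fixed_of_nonsingAt hI hn hσ s hs htors (hns₃ hx₃ hy₃)

end general

section integral

open scoped WeierstrassCurve.Affine

variable {L : Type*} [Field L] [Algebra ℚ L]

lemma baseChange_int_a₁ (W : WeierstrassCurve ℤ) :
    ((W.map (Int.castRingHom ℚ)).baseChange L).a₁ = (W.a₁ : L) := by
  simp [WeierstrassCurve.baseChange]
lemma baseChange_int_a₂ (W : WeierstrassCurve ℤ) :
    ((W.map (Int.castRingHom ℚ)).baseChange L).a₂ = (W.a₂ : L) := by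
  simp [WeierstrassCurve.baseChange]
lemma baseChange_int_a₃ (W : WeierstrassCurve ℤ) :
    ((W.map (Int.castRingHom ℚ)).baseChange L).a₃ = (W.a₃ : L) := by
  simp [WeierstrassCurve.baseChange]
lemma baseChange_int_a₄ (W : WeierstrassCurve ℤ) :
    ((W.map (Int.castRingHom ℚ)).baseChange L).a₄ = (W.a₄ : L) := by
  simp [WeierstrassCurve.baseChange]
lemma baseChange_int_a₆ (W : WeierstrassCurve ℤ) :
    ((W.map (Int.castRingHom ℚ)).baseChange L).a₆ = (W.a₆ : L) := by
  simp [WeierstrassCurve.baseChange]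
lemma baseChange_int_Δ (W : WeierstrassCurve ℤ) :
    ((W.map (Int.castRingHom ℚ)).baseChange L).Δ = (W.Δ : L) := by
  simp [WeierstrassCurve.baseChange]
lemma baseChange_int_c₄ (W : WeierstrassCurve ℤ) :
    ((W.map (Int.castRingHom ℚ)).baseChange L).c₄ = (W.c₄ : L) := by
  simp [WeierstrassCurve.baseChange]

lemma intCoeff_baseChange_int (W : WeierstrassCurve ℤ) {Γ₀ : Type*}
    [LinearOrderedCommGroupWithZero Γ₀] (v : Valuation L Γ₀) :
    IntCoeff v ((W.map (Int.castRingHom ℚ)).baseChange L) where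
  a₁ := by rw [baseChange_int_a₁]; exact v_int_le_one _
  a₂ := by rw [baseChange_int_a₂]; exact v_int_le_one _
  a₃ := by rw [baseChange_int_a₃]; exact v_int_le_one _
  a₄ := by rw [baseChange_int_a₄]; exact v_int_le_one _
  a₆ := by rw [baseChange_int_a₆]; exact v_int_le_one _

variable [DecidableEq L] [IsAlgClosed L] [Algebra.IsAlgebraic ℚ L]

/-- **Unipotence of inertia at a semistable prime** `q`, on the `m`-torsion, `q ∤ m`, for an
integral Weierstrass equation. -/
theorem inertia_smul_sub (W : WeierstrassCurve ℤ) {q : ℕ} (hq : q.Prime)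
    (hss : (q : ℤ) ∣ W.Δ → ¬ (q : ℤ) ∣ W.c₄) (A : ValuationSubring L) (hA : A.LiesOverPrime q)
    {m : ℕ} (hm : ¬ q ∣ m) {σ : L ≃ₐ[ℚ] L} (hσ : σ ∈ A.inertiaSubgroupIn ℚ)
    {P : ((W.map (Int.castRingHom ℚ)).toAffine.baseChange L).Point} (hP : m • P = 0) :
    σ • (σ • P - P) = σ • P - P := by
  have hchar : CharZero L := algebraRat.charZero L
  have hcop : ∀ n : ℤ, ¬ (q : ℤ) ∣ n → IsCoprime n (q : ℤ) := fun n hn =>
    ((Nat.prime_iff_prime_int.mp hq).coprime_iff_not_dvd.mpr hn).symm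
  refine inertia_unipotent (v := A.valuation)
    (W := (W.map (Int.castRingHom ℚ)).baseChange L) two_ne_zero
    (intCoeff_baseChange_int W _) ?_
    (valuation_nat_eq_one A hA ((Nat.Prime.coprime_iff_not_dvd hq).mpr hm).symm)
    (σ : L →+* L) (fun x hx => inertia_sub A hσ hx)
    (decomposition_valuation A (mem_decomposition_of_inertia A hσ)) ?_ ?_ ?_ ?_
    (DistribSMul.toAddMonoidHom ((W.map (Int.castRingHom ℚ)).toAffine.baseChange L).Point σ)
    (fun x y h => ⟨_, rfl⟩) hP
  · by_cases hΔ : (q : ℤ) ∣ W.Δ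
    · right
      rw [baseChange_int_c₄]
      exact valuation_int_eq_one A hA (hcop _ (hss hΔ))
    · left
      rw [baseChange_int_Δ]
      exact valuation_int_eq_one A hA (hcop _ hΔ)
  · rw [baseChange_int_a₁]; exact map_intCast σ _
  · rw [baseChange_int_a₂]; exact map_intCast σ _
  · rw [baseChange_int_a₃]; exact map_intCast σ _
  · rw [baseChange_int_a₄]; exact map_intCast σ _

end integral

end Fermat.Agent.LOC
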