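import Fermat.Agent.LOC.Multiplicative
import Fermat.Agent.EllRed.Equivariance
import Fermat.Agent.QbarInst
import Fermat.Prelude.Def_EllipticCurve_ZeroComponentAt

/-! # Inertia and the identity component at a semistable prime

* `exists_identityComponent` : valuation form.
* `smul_sub_mem_E0` : `σ P - P` has nonsingular reduction for `σ` in inertia (all `P`).
* `smul_sub_smul_sub` : `σ (σ P - P) = σ P - P` on prime-to-`q` torsion.
* `galoisRepModuleEnd_sub_one_mul_sub_one` : `(ρ σ - 1) * (ρ σ - 1) = 0`.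
-/

set_option autoImplicit false

namespace Fermat.Agent.LOC

open WeierstrassCurve WeierstrassCurve.Affine WeierstrassCurve.Affine.Point Fermat.Agent.ECRed
open Fermat.Agent.RedHom
open scoped Pointwise

section residue

variable {L k : Type*} [Field L] [Field k] {A : ValuationSubring L} {φ : A →+* k}

/-- `φ x ≠ 0` iff `x` is a unit, for a local homomorphism. -/
lemma redTo_ne_zero_iff [IsLocalHom φ] {a : L} {b : k} (h : RedTo φ a b) :
    b ≠ 0 ↔ A.valuation a = 1 := by
  rw [Ne, h.eq_zero_iff, ValuationSubring.mem_nonunits_iff]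
  constructor
  · intro h1
    exact le_antisymm ((A.valuation_le_one_iff a).mpr h.mem) (not_lt.mp h1)
  · intro h1
    rw [h1]
    exact lt_irrefl _

variable {V : WeierstrassCurve L} {U : WeierstrassCurve k}

lemma nonsingular_iff_nonsingAt [IsLocalHom φ] (h : CurveRed φ V U) {x y : L} {u v : k}
    (hxy : V.toAffine.Equation x y) (hx : RedTo φ x u) (hy : RedTo φ y v) :
    U.toAffine.Nonsingular u v ↔ NonsingAt A.valuation V x y := by
  have e1 : RedTo φ (2 * y + V.a₁ * x + V.a₃) (2 * v + U.a₁ * u + U.a₃) :=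
    (((redTo_ofNat φ 2).mul hy).add (h.a₁.mul hx)).add h.a₃
  have e2 : RedTo φ (3 * x ^ 2 + 2 * V.a₂ * x + V.a₄ - V.a₁ * y)
      (3 * u ^ 2 + 2 * U.a₂ * u + U.a₄ - U.a₁ * v) :=
    (((((redTo_ofNat φ 3).mul (hx.pow 2)).add (((redTo_ofNat φ 2).mul h.a₂).mul hx)).add h.a₄).sub
      (h.a₁.mul hy))
  rw [NonsingAt, ← redTo_ne_zero_iff e1, ← redTo_ne_zero_iff e2,
    WeierstrassCurve.Affine.nonsingular_iff]
  constructor
  · rintro ⟨-, h1 | h1⟩
    · right
      intro h2
      apply h1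
      linear_combination -h2
    · left
      intro h2
      apply h1
      linear_combination h2
  · intro h1
    refine ⟨h.equation hxy hx hy, ?_⟩
    rcases h1 with h1 | h1
    · right
      intro h2
      apply h1
      linear_combination h2
    · left
      intro h2
      apply h1
      linear_combination -h2

lemma intCoeff_of_red (h : CurveRed φ V U) : IntCoeff A.valuation V where
  a₁ := (A.valuation_le_one_iff _).mpr h.a₁.mem
  a₂ := (A.valuation_le_one_iff _).mpr h.a₂.mem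
  a₃ := (A.valuation_le_one_iff _).mpr h.a₃.mem
  a₄ := (A.valuation_le_one_iff _).mpr h.a₄.mem
  a₆ := (A.valuation_le_one_iff _).mpr h.a₆.mem

variable [DecidableEq L] [DecidableEq k]

/-- Membership in `E0` in terms of the valuation. -/
theorem some_mem_E0_iff_valuation [IsLocalHom φ] (h : CurveRed φ V U) {x y : L}
    (hxy : V.toAffine.Nonsingular x y) :
    (.some x y hxy : V.toAffine.Point) ∈ E0 h ↔
      1 < A.valuation x ∨ NonsingAt A.valuation V x y := by
  rw [some_mem_E0_iff]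
  constructor
  · rintro (h1 | ⟨hx, hy, h1⟩)
    · left
      rw [← A.valuation_le_one_iff, not_le] at h1
      exact h1
    · right
      exact (nonsingular_iff_nonsingAt h hxy.1 (redTo_of_mem hx) (redTo_of_mem hy)).mp h1
  · intro h1
    by_cases hx : x ∈ A
    · right
      have hy := h.mem_y hxy.1 hx
      refine ⟨hx, hy, ?_⟩
      rw [nonsingular_iff_nonsingAt h hxy.1 (redTo_of_mem hx) (redTo_of_mem hy)]
      rcases h1 with h1 | h1
      · exact absurd ((A.valuation_le_one_iff _).mpr hx) (not_le.mpr h1)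
      · exact h1
    · exact Or.inl hx

/-- **`σ P - P` has nonsingular reduction**, for all points `P`, for a (possibly nodal) semistable
reduction and `σ` in the inertia group. -/
theorem sub_mem_E0 [IsLocalHom φ] [IsAlgClosed L] (h2 : (2 : L) ≠ 0) (h : CurveRed φ V U)
    (hss : U.Δ ≠ 0 ∨ U.c₄ ≠ 0) (σ : L →+* L)
    (hσ : ∀ x, A.valuation x ≤ 1 → A.valuation (σ x - x) < 1)
    (hσv : ∀ x, A.valuation (σ x) = A.valuation x) (h₁ : σ V.a₁ = V.a₁)
    (h₂ : σ V.a₂ = V.a₂) (h₃ : σ V.a₃ = V.a₃) (h₄ : σ V.a₄ = V.a₄)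
    {x y : L} (hxy : V.toAffine.Nonsingular x y) (hxy' : V.toAffine.Nonsingular (σ x) (σ y)) :
    (.some (σ x) (σ y) hxy' - .some x y hxy : V.toAffine.Point) ∈ E0 h := by
  have hI := intCoeff_of_red h
  have hmem : (.some x y hxy : V.toAffine.Point) ∈ E0 h →
      (.some (σ x) (σ y) hxy' - .some x y hxy : V.toAffine.Point) ∈ E0 h := by
    intro h5
    refine (E0 h).sub_mem ?_ h5
    rw [some_mem_E0_iff_valuation] at h5 ⊢
    rw [hσv]
    refine h5.imp_right ?_
    rw [NonsingAt, NonsingAt]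
    have e1 : 2 * σ y + V.a₁ * σ x + V.a₃ = σ (2 * y + V.a₁ * x + V.a₃) := by
      simp only [map_add, map_mul, map_ofNat, h₁, h₃]
    have e2 : 3 * σ x ^ 2 + 2 * V.a₂ * σ x + V.a₄ - V.a₁ * σ y =
        σ (3 * x ^ 2 + 2 * V.a₂ * x + V.a₄ - V.a₁ * y) := by
      simp only [map_add, map_mul, map_ofNat, map_pow, map_sub, h₁, h₂, h₄]
    rw [e1, e2, hσv, hσv]
    exact id
  by_cases h5 : (.some x y hxy : V.toAffine.Point) ∈ E0 h
  · exact hmem h5
  · have h6 := h5
    rw [some_mem_E0_iff_valuation, not_or, not_lt] at h6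
    obtain ⟨hx, hns⟩ := h6
    have hy : A.valuation y ≤ 1 := (A.valuation_le_one_iff _).mpr (h.mem_y hxy.1 ((A.valuation_le_one_iff _).mp hx))
    have hc4 : A.valuation V.c₄ = 1 := by
      rcases hss with hss | hss
      · exact absurd (mem_E0_of_Δ_ne_zero h hss _) h5
      · exact (redTo_ne_zero_iff h.c₄).mp hss
    rcases sub_nonsingAt_of_node h2 hI hc4 σ hσ hσv h₁ h₂ h₃ h₄ hxy hxy' hx hy hns with h0 | h0
    · rw [h0]
      exact (E0 h).zero_mem
    · obtain ⟨x₃, y₃, h₃', e₃, hns₃⟩ := h0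
      rw [e₃, some_mem_E0_iff_valuation]
      by_cases hx₃ : A.valuation x₃ ≤ 1
      · right
        exact hns₃ hx₃ ((A.valuation_le_one_iff _).mpr
          (h.mem_y h₃'.1 ((A.valuation_le_one_iff _).mp hx₃)))
      · left
        exact not_le.mp hx₃

end residue

section identityComponent

/-- The identity component, valuation form. -/
theorem exists_identityComponent {F Γ : Type*} [Field F] [LinearOrderedCommGroupWithZero Γ]
    [IsAlgClosed F] [DecidableEq F] (h2 : (2 : F) ≠ 0) {v : Valuation F Γ} {W : WeierstrassCurve F}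
    (hI : IntCoeff v W) (hss : v W.Δ = 1 ∨ v W.c₄ = 1) :
    ∃ E : AddSubgroup W.toAffine.Point,
      (∀ x y h, (.some x y h : W.toAffine.Point) ∈ E ↔ 1 < v x ∨ NonsingAt v W x y) ∧
      (∀ σ : F →+* F, σ W.a₁ = W.a₁ → σ W.a₂ = W.a₂ → σ W.a₃ = W.a₃ → σ W.a₄ = W.a₄ →
        (∀ x, v (σ x) = v x) → (∀ x, v x ≤ 1 → v (σ x - x) < 1) →
        ∀ x y h h', (.some (σ x) (σ y) h' - .some x y h : W.toAffine.Point) ∈ E) := by
  classical
  have heq := v.isEquiv_valuation_valuationSubring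
  set A := v.valuationSubring with hA
  have hle : ∀ x, A.valuation x ≤ 1 ↔ v x ≤ 1 := fun x => (heq.le_one_iff_le_one).symm
  have hlt : ∀ x, A.valuation x < 1 ↔ v x < 1 := fun x => (heq.lt_one_iff_lt_one).symm
  have h1 : ∀ x, A.valuation x = 1 ↔ v x = 1 := fun x => (heq.eq_one_iff_eq_one).symm
  have hmem : ∀ x, v x ≤ 1 → x ∈ A := fun x hx => (v.mem_valuationSubring_iff x).mpr hx
  let W₀ : WeierstrassCurve A := ⟨⟨W.a₁, hmem _ hI.a₁⟩, ⟨W.a₂, hmem _ hI.a₂⟩, ⟨W.a₃, hmem _ hI.a₃⟩,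
    ⟨W.a₄, hmem _ hI.a₄⟩, ⟨W.a₆, hmem _ hI.a₆⟩⟩
  have hW₀ : W₀.map A.subtype = W := rfl
  have hred : CurveRed (IsLocalRing.residue A) W (W₀.map (IsLocalRing.residue A)) :=
    curveRed_map _ W₀
  have hns : ∀ x y, NonsingAt A.valuation W x y ↔ NonsingAt v W x y := by
    intro x y
    rw [NonsingAt, NonsingAt, h1, h1]
  refine ⟨E0 hred, fun x y h => ?_, fun σ h₁ h₂ h₃ h₄ hσv hσ x y h h' => ?_⟩
  · rw [some_mem_E0_iff_valuation, hns]
    refine or_congr_left ?_
    rw [← not_le, ← not_le, hle]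
  · refine sub_mem_E0 h2 hred ?_ σ (fun x hx => (hlt _).mpr (hσ x ((hle x).mp hx)))
      (fun x => ?_) h₁ h₂ h₃ h₄ h h'
    · rw [redTo_ne_zero_iff hred.c₄, redTo_ne_zero_iff hred.Δ, h1, h1]
      exact hss
    · rcases eq_or_ne x 0 with rfl | hx
      · simp
      · have h5 : A.valuation (σ x / x) = 1 := by
          rw [h1, map_div₀, hσv, div_self]
          rwa [Ne, map_eq_zero]
        rw [map_div₀, div_eq_one_iff_eq (by rwa [Ne, map_eq_zero])] at h5
        exact h5

end identityComponent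

section Galois

variable {L k : Type*} [Field L] [Field k] {A : ValuationSubring L} {φ : A →+* k}
  [DecidableEq L] [DecidableEq k] {R S : Type*} [CommRing R] [Field S] {W' : Affine R} [Algebra R S] [Algebra R L]
  [Algebra S L] [IsScalarTower R S L] [IsLocalHom φ]

/-- **`σ P - P ∈ E₀`** for all points `P` and `σ` in the inertia group, at a semistable place. -/
theorem smul_sub_mem_E0 [IsAlgClosed L] [Algebra.IsAlgebraic S L] (h2 : (2 : L) ≠ 0)
    {U : WeierstrassCurve k} (h : CurveRed φ (W'⁄L) U) (hss : U.Δ ≠ 0 ∨ U.c₄ ≠ 0)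
    {σ : L ≃ₐ[S] L} (hσ : σ ∈ A.inertiaSubgroupIn S) (P : (W'⁄L).Point) :
    σ • P - P ∈ E0 h := by
  rcases P with _ | ⟨x, y, hxy⟩
  · rw [← zero_def, smul_zero, sub_zero]
    exact (E0 h).zero_mem
  · have key : ∀ r : R, σ (algebraMap R L r) = algebraMap R L r := by
      intro r
      rw [IsScalarTower.algebraMap_apply R S L, AlgEquiv.commutes]
    refine sub_mem_E0 h2 h hss (σ : L →+* L) (fun x hx => inertia_sub A hσ hx)
      (decomposition_valuation A (mem_decomposition_of_inertia A hσ)) (key _) (key _) (key _)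
      (key _) hxy _

/-- **Inertia acts unipotently** on the prime-to-`q` torsion at a semistable place. -/
theorem smul_smul_sub_eq [IsAlgClosed L] [Algebra.IsAlgebraic S L] (h2 : (2 : L) ≠ 0)
    {U : WeierstrassCurve k} (h : CurveRed φ (W'⁄L) U) (hss : U.Δ ≠ 0 ∨ U.c₄ ≠ 0)
    [WeierstrassCurve.IsElliptic (W'⁄L)] {n : ℕ} (hn : (n : k) ≠ 0)
    {σ τ : L ≃ₐ[S] L} (hσ : σ ∈ A.inertiaSubgroupIn S) (hτ : τ ∈ A.inertiaSubgroupIn S)
    {P : (W'⁄L).Point} (hP : n • P = 0) :
    τ • (σ • P - P) = σ • P - P := by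
  refine Fermat.Agent.EllRed.smul_eq_of_mem_E0 h hn hτ (smul_sub_mem_E0 h2 h hss hσ P) ?_
  rw [smul_sub, smul_comm, hP, smul_zero, sub_zero]

end Galois

section integral

variable {K : Type*} [Field K] [DecidableEq K] [Algebra ℚ K] [IsAlgClosed K]
  [Algebra.IsAlgebraic ℚ K]

/-- For an integral Weierstrass equation `W`, at a prime `q` of semistable reduction, inertia acts
unipotently on `E[n]`, `q ∤ n`: `(τ - 1)(σ - 1) = 0` for all `σ, τ` in the inertia group. -/
theorem inertia_sub_one_mul_sub_one (W : WeierstrassCurve ℤ) (hΔ : W.Δ ≠ 0) {q : ℕ} (hq : q.Prime)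
    (hss : (q : ℤ) ∣ W.Δ → ¬ (q : ℤ) ∣ W.c₄) {n : ℕ} (hn : ¬ q ∣ n) (A : ValuationSubring K)
    (hA : A.LiesOverPrime q) {σ τ : K ≃ₐ[ℚ] K} (hσ : σ ∈ A.inertiaSubgroupIn ℚ)
    (hτ : τ ∈ A.inertiaSubgroupIn ℚ) :
    (galoisRepModuleEnd ℚ (W.map (Int.castRingHom ℚ)) n τ - 1 :
      Module.End (ZMod n) (Submodule.torsionBy ℤ ((W.map (Int.castRingHom ℚ))⁄K).Point n)) *
      (galoisRepModuleEnd ℚ (W.map (Int.castRingHom ℚ)) n σ - 1) = 0 := by
  have hchar : CharZero K := algebraRat.charZero K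
  classical
  refine LinearMap.ext fun x => ?_
  have hx := (Submodule.mem_torsionBy_iff (n : ℤ) x.1).1 x.2
  rw [Nat.cast_smul_eq_nsmul] at hx
  have hell : WeierstrassCurve.IsElliptic ((W.map (Int.castRingHom ℚ))⁄K) := by
    refine ⟨?_⟩
    rw [baseChange_int_Δ]
    exact isUnit_iff_ne_zero.mpr (Int.cast_ne_zero.mpr hΔ)
  have key : τ • (σ • (x : ((W.map (Int.castRingHom ℚ))⁄K).Point) - x) =
      σ • (x : ((W.map (Int.castRingHom ℚ))⁄K).Point) - x := by
    refine smul_smul_sub_eq (φ := IsLocalRing.residue A) two_ne_zero (curveRed_int _ W) ?_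
      (Fermat.Agent.EllRed.natCast_residueField_ne_zero hq hA hn) hσ hτ hx
    rw [WeierstrassCurve.map_Δ, WeierstrassCurve.map_c₄]
    by_cases h : (q : ℤ) ∣ W.Δ
    · right
      exact Fermat.Agent.EllRed.intCast_residueField_ne_zero hq hA (hss h)
    · left
      exact Fermat.Agent.EllRed.intCast_residueField_ne_zero hq hA h
  apply Subtype.ext
  change τ • (σ • (x : ((W.map (Int.castRingHom ℚ))⁄K).Point) - x) -
    (σ • (x : ((W.map (Int.castRingHom ℚ))⁄K).Point) - x) = 0
  rw [key, sub_self]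

end integral

section zeroComponent

open scoped Classical in
/-- The prelude's zero component is the subgroup `E0`. -/
theorem inZeroComponentAt_iff (W : WeierstrassCurve ℤ) (A : ValuationSubring (AlgebraicClosure ℚ))
    (P : ((W.map (Int.castRingHom ℚ))⁄(AlgebraicClosure ℚ)).Point) :
    W.InZeroComponentAt A P ↔ P ∈ E0 (curveRed_int (IsLocalRing.residue A) W) := by
  rcases P with _ | ⟨x, y, hxy⟩
  · rw [← zero_def]
    exact iff_of_true (Or.inl rfl) (zero_mem _)
  · rw [some_mem_E0_iff]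
    constructor
    · rintro (h0 | ⟨x', y', h', e, h1⟩)
      · exact absurd h0 (some_ne_zero hxy)
      · cases e
        exact h1
    · intro h1
      exact Or.inr ⟨x, y, hxy, rfl, h1⟩

open scoped Classical in
/-- `σ P - P` lies in the zero component, `σ` in the inertia group, at semistable places. -/
theorem smul_sub_inZeroComponentAt (W : WeierstrassCurve ℤ) {q : ℕ} (hq : q.Prime)
    (hss : (q : ℤ) ∣ W.Δ → ¬ (q : ℤ) ∣ W.c₄) (A : ValuationSubring (AlgebraicClosure ℚ))
    (hA : A.LiesOverPrime q) {σ : AlgebraicClosure ℚ ≃ₐ[ℚ] AlgebraicClosure ℚ}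
    (hσ : σ ∈ A.inertiaSubgroupIn ℚ)
    (P : ((W.map (Int.castRingHom ℚ))⁄(AlgebraicClosure ℚ)).Point) :
    W.InZeroComponentAt A (σ • P - P) := by
  rw [inZeroComponentAt_iff]
  refine smul_sub_mem_E0 two_ne_zero (curveRed_int _ W) ?_ hσ P
  rw [WeierstrassCurve.map_Δ, WeierstrassCurve.map_c₄]
  by_cases h : (q : ℤ) ∣ W.Δ
  · right
    exact Fermat.Agent.EllRed.intCast_residueField_ne_zero hq hA (hss h)
  · left
    exact Fermat.Agent.EllRed.intCast_residueField_ne_zero hq hA h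

end zeroComponent

end Fermat.Agent.LOC
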