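import Mathlib
import Fermat.Agent.QbarInst
import Fermat.Agent.FrobExists
import Fermat.Agent.FlatOrd.InertiaLift

/-! # Minkowski: an open normal subgroup of `Gal(L/ℚ)` containing all inertia groups is everything -/

set_option autoImplicit false

open Pointwise NumberField
open Fermat.Agent.FrobExists Fermat.Agent.FlatOrd.InertiaLift

namespace Fermat.Agent.LOC.Minkowski

variable {L : Type} [Field L] [CharZero L] [Algebra ℚ L] [IsGalois ℚ L]

/-- A nontrivial Galois number field is ramified somewhere: some element of some inertia group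
acts nontrivially. -/
theorem exists_inertia_ne (K : Type) [Field K] [NumberField K] [IsGalois ℚ K] (i : K →+* L)
    (hrank : 1 < Module.finrank ℚ K) :
    ∃ p : ℕ, p.Prime ∧ ∃ A : ValuationSubring L, A.LiesOverPrime p ∧
      ∃ σ ∈ A.inertiaSubgroupIn ℚ, ∃ x : K, σ (i x) ≠ i x := by
  obtain ⟨p, hp, hram⟩ :=
    NumberField.exists_not_isUnramifiedAt_int_of_isGalois (K := K) (𝒪 := 𝓞 K) hrank
  obtain ⟨A, hA⟩ := exists_liesOverPrime L hp
  refine ⟨p, hp, A, hA, ?_⟩
  -- the prime of `𝓞 K` below the centre of `A`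
  let j : 𝓞 K →+* integralClosure ℤ L :=
    { toFun := fun x => ⟨i (x : K), by
        have hx : IsIntegral ℤ (x : K) := x.isIntegral_coe
        exact hx.map (RingHom.toIntAlgHom i)⟩
      map_one' := Subtype.ext (by simp)
      map_mul' := fun _ _ => Subtype.ext (by simp)
      map_zero' := Subtype.ext (by simp)
      map_add' := fun _ _ => Subtype.ext (by simp) }
  let P : Ideal (𝓞 K) := (center A).comap j
  have hc := center_liesOver A hp hA
  have hPprime : P.IsPrime := Ideal.IsPrime.comap j
  have hPp : (p : 𝓞 K) ∈ P := by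
    change j (p : 𝓞 K) ∈ center A
    rw [map_natCast, mem_center]
    simpa using! hA
  have hPram := hram P hPprime hPp
  by_contra hall
  push Not at hall
  apply hPram
  -- the inertia group of `P` is trivial
  have hinert : Nat.card (P.inertia Gal(K/ℚ)) = 1 := by
    rw [Nat.card_eq_one_iff_unique]
    refine ⟨⟨fun a b => ?_⟩, ⟨1⟩⟩
    have htriv : ∀ c : P.inertia Gal(K/ℚ), (c : Gal(K/ℚ)) = 1 := by
      rintro ⟨g, hg⟩
      change g = 1
      let _ : Algebra K L := i.toAlgebra
      have : IsScalarTower ℚ K L := IsScalarTower.of_algebraMap_eq' (Subsingleton.elim _ _)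
      let G : L ≃ₐ[ℚ] L := g.liftNormal L
      have hG : ∀ x : K, G (i x) = i (g x) := fun x => g.liftNormal_commutes L x
      obtain ⟨σ, hσ, hσG⟩ := exists_mul_mem_inertia_of_intermediateField
        (IsScalarTower.toAlgHom ℚ K L).fieldRange A hp hA G (by
          rintro x ⟨y, hy⟩
          have hy' : i y = (x : L) := hy
          have hyint : IsIntegral ℤ y := by
            have hx : IsIntegral ℤ (x : L) := x.2
            rw [← hy'] at hx
            exact (isIntegral_algHom_iff (RingHom.toIntAlgHom i) i.injective).mp hx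
          obtain ⟨y', hy''⟩ : ∃ y' : 𝓞 K, (y' : K) = y := ⟨⟨y, hyint⟩, rfl⟩
          have h2 : j (g • y' - y') ∈ center A := hg y'
          have h3 : j (g • y' - y') = G • x - x := by
            rw [map_sub]
            apply Subtype.ext
            change i (g (y' : K)) - i (y' : K) = G (x : L) - (x : L)
            rw [hy'', ← hy', hG]
          rw [← h3]; exact h2)
      ext x
      apply i.injective
      have h1 := hσG (i x) ⟨x, rfl⟩
      rw [hall σ hσ x, hG] at h1
      exact h1.symm
    exact Subtype.ext ((htriv a).trans (htriv b).symm)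
  have hcenter := hc.over
  have hover : P.LiesOver (Ideal.span {(p : ℤ)}) := by
    refine ⟨?_⟩
    rw [hcenter]
    ext z
    change algebraMap ℤ (integralClosure ℤ L) z ∈ center A ↔ j (algebraMap ℤ (𝓞 K) z) ∈ center A
    rw [eq_intCast, eq_intCast, map_intCast]
  have hpprime : (Ideal.span {(p : ℤ)}).IsPrime := by
    rw [Ideal.span_singleton_prime (by exact_mod_cast hp.ne_zero)]
    exact Nat.prime_iff_prime_int.mp hp
  rw [Ideal.card_inertia_eq_ramificationIdxIn (Ideal.span {(p : ℤ)}) P,
    Ideal.ramificationIdxIn_eq_ramificationIdx _ P Gal(K/ℚ)] at hinert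
  rwa [← Ideal.ramificationIdx_eq_one_iff]

/-- An open normal subgroup of `Gal(L/ℚ)` containing all inertia groups is everything. -/
theorem eq_top_of_inertia_le (H : Subgroup (L ≃ₐ[ℚ] L)) [hN : H.Normal]
    (hopen : IsOpen (H : Set (L ≃ₐ[ℚ] L)))
    (h : ∀ q : ℕ, q.Prime → ∀ A : ValuationSubring L, A.LiesOverPrime q →
      A.inertiaSubgroupIn ℚ ≤ H) : H = ⊤ := by
  have hclosed : IsClosed (H : Set (L ≃ₐ[ℚ] L)) := H.isClosed_of_isOpen hopen
  obtain ⟨F, hF⟩ : ∃ F : IntermediateField ℚ L, F = IntermediateField.fixedField H := ⟨_, rfl⟩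
  have hHF : F.fixingSubgroup = H := by
    rw [hF]
    exact InfiniteGalois.fixingSubgroup_fixedField ⟨H, hclosed⟩
  have hfin : FiniteDimensional ℚ F := by
    rw [← InfiniteGalois.isOpen_iff_finite, hHF]; exact hopen
  have hgal : @IsGalois ℚ _ F _ F.algebra' := by
    rw [← InfiniteGalois.normal_iff_isGalois, hHF]; exact hN
  have halg : (DivisionRing.toRatAlgebra : Algebra ℚ F) = F.algebra' := Subsingleton.elim _ _
  have hfin' : @FiniteDimensional ℚ F _ _ (DivisionRing.toRatAlgebra : Algebra ℚ F).toModule := by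
    rw [halg]; exact hfin
  have hNF : NumberField F := { to_charZero := inferInstance, to_finiteDimensional := hfin' }
  have hgal' : @IsGalois ℚ _ F _ DivisionRing.toRatAlgebra := by
    rw [halg]; exact hgal
  by_contra hne
  have hrank : 1 < @Module.finrank ℚ F _ _ (DivisionRing.toRatAlgebra : Algebra ℚ F).toModule := by
    rw [halg]
    have h0 : 0 < Module.finrank ℚ F := Module.finrank_pos
    rcases Nat.lt_or_ge 1 (Module.finrank ℚ F) with h1 | h1
    · exact h1
    · exfalso
      have h2 : Module.finrank ℚ F = 1 := by omega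
      rw [IntermediateField.finrank_eq_one_iff] at h2
      rw [h2, IntermediateField.fixingSubgroup_bot] at hHF
      exact hne hHF.symm
  obtain ⟨p, hp, A, hA, σ, hσ, x, hx⟩ := exists_inertia_ne (L := L) F (algebraMap F L) hrank
  apply hx
  have h1 := h p hp A hA hσ
  rw [← hHF] at h1
  exact (IntermediateField.mem_fixingSubgroup_iff F σ).mp h1 x x.2

/-- A homomorphism with open kernel from the absolute Galois group, trivial on all inertia groups,
is trivial. -/
theorem eq_one_of_inertia {M : Type*} [Group M] (χ : (L ≃ₐ[ℚ] L) →* M)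
    (hopen : IsOpen (χ.ker : Set (L ≃ₐ[ℚ] L)))
    (h : ∀ q : ℕ, q.Prime → ∀ A : ValuationSubring L, A.LiesOverPrime q →
      ∀ σ ∈ A.inertiaSubgroupIn ℚ, χ σ = 1) (σ : L ≃ₐ[ℚ] L) : χ σ = 1 := by
  have := eq_top_of_inertia_le χ.ker hopen (fun q hq A hA σ hσ => h q hq A hA σ hσ)
  have h1 : σ ∈ χ.ker := by rw [this]; trivial
  exact h1

end Fermat.Agent.LOC.Minkowski
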