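import Fermat.Agent.LOC.TateGalois
import Fermat.Agent.LOC.Multiplicative
import Fermat.Agent.FlatOrd.Unramified
import Fermat.Agent.EllRed.Equivariance
import Fermat.Agent.EllTate.Main
import Fermat.Agent.QbarInst

/-! # Multiplicative reduction: arithmetic consequences

* `exists_isOrdLine`: at a prime `p` of multiplicative reduction, the kernel of reduction gives an
  ordinary line of `T_p E`, with the decomposition group acting on the quotient by signs;
* `tate_isStrictOrdinaryAt`, `tate_isOrdinaryAt`;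
* `inertia_fixes_iff`: for `q` semistable and `q ∤ n`, inertia at `q` acts trivially on `E[n]` if
  and only if `n ∣ v_q(Δ)`.
-/

set_option autoImplicit false

namespace Fermat.Agent.LOC

open WeierstrassCurve WeierstrassCurve.Affine Fermat.Agent.ECRed Fermat.Agent.LOC.TateHom
open scoped WeierstrassCurve.Affine

section general

variable {L : Type} [Field L] [Algebra ℚ L] [DecidableEq L] [IsAlgClosed L]
  [Algebra.IsAlgebraic ℚ L]

lemma isCoprime_of_not_dvd {q : ℕ} (hq : q.Prime) {n : ℤ} (hn : ¬ (q : ℤ) ∣ n) :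
    IsCoprime n (q : ℤ) :=
  ((Nat.prime_iff_prime_int.mp hq).coprime_iff_not_dvd.mpr hn).symm

/-- The data at a multiplicative prime needed to apply the abstract results. -/
lemma mult_hyps (W : WeierstrassCurve ℤ) {q : ℕ} (hq : q.Prime) (hc4 : ¬ (q : ℤ) ∣ W.c₄)
    (hΔ : (q : ℤ) ∣ W.Δ) (A : ValuationSubring L) (hA : A.LiesOverPrime q) :
    A.valuation ((W.map (Int.castRingHom ℚ)).baseChange L).c₄ = 1 ∧
    A.valuation ((W.map (Int.castRingHom ℚ)).baseChange L).Δ < 1 := by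
  rw [baseChange_int_c₄, baseChange_int_Δ]
  exact ⟨valuation_int_eq_one A hA (isCoprime_of_not_dvd hq hc4), valuation_int_lt_one A hA hΔ⟩

lemma baseChange_Δ_ne_zero (W : WeierstrassCurve ℤ) (hΔ : W.Δ ≠ 0) :
    ((W.map (Int.castRingHom ℚ)).baseChange L).Δ ≠ 0 := by
  have hchar : CharZero L := algebraRat.charZero L
  rw [baseChange_int_Δ]
  exact_mod_cast hΔ

/-- The points of the kernel of reduction, as a subgroup. -/
noncomputable def kerSub (W : WeierstrassCurve ℤ) (A : ValuationSubring L) :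
    AddSubgroup ((W.map (Int.castRingHom ℚ)).toAffine.baseChange L).Point where
  carrier := {P | InKer A.valuation P}
  zero_mem' := inKer_zero
  add_mem' := by
    intro P Q hP hQ
    have hint := intCoeff_baseChange_int (L := L) W A.valuation
    have h1 := v_zc_lt_one hint hP
    have h2 := v_zc_lt_one hint hQ
    exact (ker_add hint hP hQ (r := max (A.valuation (zc P)) (A.valuation (zc Q)))
      (max_lt h1 h2) (le_max_left _ _) (le_max_right _ _)).1
  neg_mem' := by
    intro P hP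
    rcases P with _ | ⟨x, y, h⟩
    · exact hP
    · change InKer A.valuation (-Point.some x y h)
      rw [Point.neg_some, inKer_some]
      exact (inKer_some h).mp hP

lemma mem_kerSub {W : WeierstrassCurve ℤ} {A : ValuationSubring L}
    {P : ((W.map (Int.castRingHom ℚ)).toAffine.baseChange L).Point} :
    P ∈ kerSub W A ↔ InKer A.valuation P := Iff.rfl

/-- **Order of `E₁[p^n]`** at a multiplicative place over `p`. -/
theorem card_kerSub (W : WeierstrassCurve ℤ) (hΔ0 : W.Δ ≠ 0) {p : ℕ} (hp : p.Prime)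
    (hc4 : ¬ (p : ℤ) ∣ W.c₄) (hΔ : (p : ℤ) ∣ W.Δ) (A : ValuationSubring L)
    (hA : A.LiesOverPrime p) (n : ℕ) :
    Nat.card {P : ((W.map (Int.castRingHom ℚ)).toAffine.baseChange L).Point //
      P ∈ kerSub W A ∧ p ^ n • P = 0} = p ^ n := by
  have hchar : CharZero L := algebraRat.charZero L
  obtain ⟨h1, h2⟩ := mult_hyps W hp hc4 hΔ A hA
  exact card_inKer_torsion (v := A.valuation) (W := (W.map (Int.castRingHom ℚ)).baseChange L)
    two_ne_zero three_ne_zero (intCoeff_baseChange_int W _) h1 h2 (baseChange_Δ_ne_zero W hΔ0) hp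
    (A.mem_nonunits_iff.mp hA) (Nat.cast_ne_zero.mpr hp.ne_zero) n

/-- **The action of the decomposition group on `E[p^n]` modulo the kernel of reduction.** -/
theorem exists_sign_decomposition (W : WeierstrassCurve ℤ) (hΔ0 : W.Δ ≠ 0) {p : ℕ} (hp : p.Prime)
    (hc4 : ¬ (p : ℤ) ∣ W.c₄) (hΔ : (p : ℤ) ∣ W.Δ) (A : ValuationSubring L)
    (hA : A.LiesOverPrime p) {σ : L ≃ₐ[ℚ] L} (hσ : σ ∈ A.decompositionSubgroup ℚ) :
    ∃ ε : ℤ, ε * ε = 1 ∧ (σ ∈ A.inertiaSubgroupIn ℚ → ε = 1) ∧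
      ∀ (n : ℕ) (P : ((W.map (Int.castRingHom ℚ)).toAffine.baseChange L).Point), p ^ n • P = 0 →
        σ • P - ε • P ∈ kerSub W A := by
  have hchar : CharZero L := algebraRat.charZero L
  obtain ⟨h1, h2⟩ := mult_hyps W hp hc4 hΔ A hA
  obtain ⟨ε, hε, hε1, h⟩ := exists_sign (v := A.valuation)
    (W := (W.map (Int.castRingHom ℚ)).baseChange L)
    two_ne_zero three_ne_zero (intCoeff_baseChange_int W _) h1 h2 (baseChange_Δ_ne_zero W hΔ0) hp
    (A.mem_nonunits_iff.mp hA) (σ : L →+* L) (decomposition_valuation A hσ)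
    (by rw [baseChange_int_a₁]; exact map_intCast σ _)
    (by rw [baseChange_int_a₂]; exact map_intCast σ _)
    (by rw [baseChange_int_a₃]; exact map_intCast σ _)
    (by rw [baseChange_int_a₄]; exact map_intCast σ _)
    (by rw [baseChange_int_a₆]; exact map_intCast σ _)
    (DistribSMul.toAddMonoidHom ((W.map (Int.castRingHom ℚ)).toAffine.baseChange L).Point σ)
    (fun x y h => ⟨_, rfl⟩)
  exact ⟨ε, hε, fun hI => hε1 fun z hz => inertia_sub A hI hz, h⟩

/-- The kernel of reduction is stable under the decomposition group. -/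
lemma smul_mem_kerSub (W : WeierstrassCurve ℤ) (A : ValuationSubring L) {σ : L ≃ₐ[ℚ] L}
    (hσ : σ ∈ A.decompositionSubgroup ℚ)
    {P : ((W.map (Int.castRingHom ℚ)).toAffine.baseChange L).Point} (hP : P ∈ kerSub W A) :
    σ • P ∈ kerSub W A := by
  rcases P with _ | ⟨x, y, h⟩
  · exact hP
  · rw [Point.algEquiv_smul_def, Point.map_some, mem_kerSub, inKer_some]
    have h1 : 1 < A.valuation x := (inKer_some h).mp hP
    have h2 := decomposition_valuation A hσ x
    change 1 < A.valuation (σ x)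
    rw [h2]; exact h1

end general

section overQbar

/-- **The ordinary line of `T_p E` at a multiplicative place.** -/
theorem exists_isOrdLine (W : WeierstrassCurve ℤ) (hΔ0 : W.Δ ≠ 0) {p : ℕ} (hp : p.Prime)
    (hc4 : ¬ (p : ℤ) ∣ W.c₄) (hΔ : (p : ℤ) ∣ W.Δ) (A : ValuationSubring (AlgebraicClosure ℚ))
    (hA : A.LiesOverPrime p) :
    ∃ L : AddSubgroup ((W.map (Int.castRingHom ℚ))⁄(AlgebraicClosure ℚ)).Point,
      Tate.IsOrdLine p A L ∧
      ∀ σ ∈ A.decompositionSubgroup ℚ, ∃ ε : ℤ, ε * ε = 1 ∧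
        ∀ (n : ℕ) (x : ((W.map (Int.castRingHom ℚ))⁄(AlgebraicClosure ℚ)).Point),
          p ^ n • x = 0 → σ • x - ε • x ∈ L := by
  refine ⟨kerSub W A, Tate.IsOrdLine.mk_of_card hp (card_kerSub W hΔ0 hp hc4 hΔ A hA) ?_ ?_, ?_⟩
  · intro σ hσ n x hx _
    exact smul_mem_kerSub W A hσ hx
  · intro σ hσ n x hx
    obtain ⟨ε, -, hε1, h⟩ := exists_sign_decomposition W hΔ0 hp hc4 hΔ A hA
      (mem_decomposition_of_inertia A hσ)
    have := h n x hx
    rwa [hε1 hσ, one_smul] at this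
  · intro σ hσ
    obtain ⟨ε, hε, -, h⟩ := exists_sign_decomposition W hΔ0 hp hc4 hΔ A hA hσ
    exact ⟨ε, hε, h⟩

/-- **`T_p E` is strictly ordinary at a multiplicative prime `p`.** -/
theorem tate_isStrictOrdinaryAt {W : WeierstrassCurve ℤ} (hΔ0 : W.Δ ≠ 0) {p : ℕ}
    [hp : Fact p.Prime] (hc4 : ¬ (p : ℤ) ∣ W.c₄) (hΔ : (p : ℤ) ∣ W.Δ) :
    (EllTate.tate W hΔ0 p).IsStrictOrdinaryAt p := by
  have := EllTate.isElliptic_of_Δ_ne_zero hΔ0
  exact EllTate.isStrictOrdinaryAt (W := W.map (Int.castRingHom ℚ)) (p := p)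
    (EllTate.tate_detIsCyclotomic hΔ0) fun A hA => exists_isOrdLine W hΔ0 hp.out hc4 hΔ A hA

/-- **`T_p E` is ordinary at a multiplicative prime `p`.** -/
theorem tate_isOrdinaryAt {W : WeierstrassCurve ℤ} (hΔ0 : W.Δ ≠ 0) {p : ℕ}
    [hp : Fact p.Prime] (hc4 : ¬ (p : ℤ) ∣ W.c₄) (hΔ : (p : ℤ) ∣ W.Δ) :
    (EllTate.tate W hΔ0 p).IsOrdinaryAt p :=
  (tate_isStrictOrdinaryAt hΔ0 hc4 hΔ).isOrdinaryAt

end overQbar

end Fermat.Agent.LOC
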