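import Fermat.Agent.LOC.TateArith

/-! # The ramification criterion at semistable primes

For `q` a semistable prime of an integral Weierstrass equation `W` and `q ∤ n`, the Galois module
`E[n]` is unramified at `q` if and only if `n ∣ v_q(Δ)`. -/

set_option autoImplicit false

namespace Fermat.Agent.LOC

open WeierstrassCurve WeierstrassCurve.Affine Fermat.Agent.ECRed Fermat.Agent.LOC.TateHom
open scoped WeierstrassCurve.Affine

/-- The value group of the inertia field is generated by `v q`. -/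
lemma exists_valuation_eq_pow (A : ValuationSubring (AlgebraicClosure ℚ)) {q : ℕ} (hq : q.Prime)
    (hA : A.LiesOverPrime q) {t : AlgebraicClosure ℚ} (ht0 : t ≠ 0)
    (ht : ∀ σ ∈ A.inertiaSubgroupIn ℚ, σ t = t) (ht1 : A.valuation t ≤ 1) :
    ∃ k : ℕ, A.valuation t = A.valuation (q : AlgebraicClosure ℚ) ^ k := by
  classical
  have hq0 : (q : AlgebraicClosure ℚ) ≠ 0 := Nat.cast_ne_zero.mpr hq.ne_zero
  have hex := Fermat.Agent.FlatOrd.Unramified.exists_div_pow_notMem A hq hA t ht0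
  set n := Nat.find hex with hn
  have h1 : t / (q : AlgebraicClosure ℚ) ^ n ∉ A := Nat.find_spec hex
  have hn0 : n ≠ 0 := by
    intro h0
    rw [h0, pow_zero, div_one] at h1
    exact h1 ((A.valuation_le_one_iff t).mp ht1)
  obtain ⟨k, hk⟩ := Nat.exists_eq_succ_of_ne_zero hn0
  have h2 : t / (q : AlgebraicClosure ℚ) ^ k ∈ A := by
    by_contra h
    exact Nat.find_min hex (m := k) (by omega) h
  refine ⟨k, ?_⟩
  have h3 : A.valuation (t / (q : AlgebraicClosure ℚ) ^ k) = 1 := by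
    refine le_antisymm ((A.valuation_le_one_iff _).mpr h2) ?_
    by_contra hlt
    push Not at hlt
    have h4 : t / (q : AlgebraicClosure ℚ) ^ k ∈ A.nonunits := A.mem_nonunits_iff.mpr hlt
    obtain ⟨s, hs, e⟩ := Fermat.Agent.FlatOrd.Unramified.exists_eq_mul_of_fixed A hq hA
      (t / (q : AlgebraicClosure ℚ) ^ k) (fun σ hσ => by
        rw [map_div₀, map_pow, map_natCast, ht σ hσ]) h4
    apply h1
    have : t / (q : AlgebraicClosure ℚ) ^ n = s := by
      rw [hk, Nat.succ_eq_add_one, pow_succ, ← div_div, e, mul_div_cancel_left₀ _ hq0]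
    rw [this]; exact hs
  rw [map_div₀, map_pow] at h3
  have hq0' : A.valuation (q : AlgebraicClosure ℚ) ^ k ≠ 0 :=
    pow_ne_zero k ((Valuation.ne_zero_iff _).mpr hq0)
  exact (div_eq_one_iff_eq hq0').mp h3

lemma valuation_int_eq_pow {L : Type} [Field L] (A : ValuationSubring L) {q : ℕ} (hq : q.Prime)
    (hA : A.LiesOverPrime q) {n : ℤ} (hn : n ≠ 0) :
    A.valuation (n : L) = A.valuation (q : L) ^ padicValInt q n := by
  have : Fact q.Prime := ⟨hq⟩
  obtain ⟨m, hm⟩ : ((q : ℤ) ^ padicValInt q n) ∣ n := padicValInt_dvd n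
  have hndvd : ¬ (q : ℤ) ∣ m := by
    rintro ⟨r, hr⟩
    have hdvd : (q : ℤ) ^ (padicValInt q n + 1) ∣ n := ⟨r, by rw [pow_succ, mul_assoc, ← hr]; exact hm⟩
    rw [padicValInt_dvd_iff] at hdvd
    rcases hdvd with h | h
    · exact hn h
    · omega
  conv_lhs => rw [hm]
  push_cast
  rw [map_mul, map_pow, valuation_int_eq_one A hA (isCoprime_of_not_dvd hq hndvd), mul_one]

lemma pow_injective_of_lt_one {Γ₀ : Type*} [LinearOrderedCommGroupWithZero Γ₀] {a : Γ₀}
    (h0 : a ≠ 0) (h1 : a < 1) {m n : ℕ} (h : a ^ m = a ^ n) : m = n := by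
  have hpos : 0 < a := zero_lt_iff.mpr h0
  exact (pow_right_strictAnti₀ hpos h1).injective h

/-- If `n ∣ v_q(Δ)` then inertia at `q` acts trivially on `E[n]` (`q` semistable, `q ∤ n`). -/
theorem smul_eq_of_dvd (W : WeierstrassCurve ℤ) (hΔ0 : W.Δ ≠ 0) {q : ℕ} (hq : q.Prime)
    (hss : (q : ℤ) ∣ W.Δ → ¬ (q : ℤ) ∣ W.c₄) {n : ℕ} (hn : ¬ q ∣ n)
    (A : ValuationSubring (AlgebraicClosure ℚ)) (hA : A.LiesOverPrime q)
    (hdvd : n ∣ padicValInt q W.Δ) {σ : AlgebraicClosure ℚ ≃ₐ[ℚ] AlgebraicClosure ℚ}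
    (hσ : σ ∈ A.inertiaSubgroupIn ℚ)
    {P : ((W.map (Int.castRingHom ℚ))⁄(AlgebraicClosure ℚ)).Point} (hP : n • P = 0) :
    σ • P = P := by
  have hvn : A.valuation (n : AlgebraicClosure ℚ) = 1 :=
    valuation_nat_eq_one A hA ((Nat.Prime.coprime_iff_not_dvd hq).mpr hn).symm
  by_cases hΔ : (q : ℤ) ∣ W.Δ
  · obtain ⟨h1, h2⟩ := mult_hyps (L := AlgebraicClosure ℚ) W hq (hss hΔ) hΔ A hA
    obtain ⟨k, hk⟩ := hdvd
    refine fixed_of_dvd (v := A.valuation)
      (W := (W.map (Int.castRingHom ℚ)).baseChange (AlgebraicClosure ℚ))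
      two_ne_zero three_ne_zero (intCoeff_baseChange_int W _) h1 h2 (baseChange_Δ_ne_zero W hΔ0)
      hvn (σ : AlgebraicClosure ℚ →+* AlgebraicClosure ℚ)
      (decomposition_valuation A (mem_decomposition_of_inertia A hσ))
      (fun x hx => inertia_sub A hσ hx)
      (by rw [baseChange_int_a₁]; exact map_intCast σ _)
      (by rw [baseChange_int_a₂]; exact map_intCast σ _)
      (by rw [baseChange_int_a₃]; exact map_intCast σ _)
      (by rw [baseChange_int_a₄]; exact map_intCast σ _)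
      (by rw [baseChange_int_a₆]; exact map_intCast σ _)
      (DistribSMul.toAddMonoidHom
        ((W.map (Int.castRingHom ℚ)).toAffine.baseChange (AlgebraicClosure ℚ)).Point σ)
      (fun x y h => ⟨_, rfl⟩) (b := (q : AlgebraicClosure ℚ) ^ k)
      (by rw [map_pow]; congr 1; exact map_natCast σ q) ?_ hP
    rw [baseChange_int_Δ, valuation_int_eq_pow A hq hA hΔ0, hk, map_pow, ← pow_mul, mul_comm]
  · have hgood := EllRed.galoisRepUnramifiedAt_of_good (K := AlgebraicClosure ℚ) W hq hΔ hn A hA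
      σ hσ ⟨P, by rw [Submodule.mem_torsionBy_iff, Nat.cast_smul_eq_nsmul]; exact hP⟩
    exact congrArg Subtype.val hgood

/-- If inertia at `q` acts trivially on `E[n]` then `n ∣ v_q(Δ)` (`q` semistable, `q ∤ n`). -/
theorem dvd_of_smul_eq (W : WeierstrassCurve ℤ) (hΔ0 : W.Δ ≠ 0) {q : ℕ} (hq : q.Prime)
    (hss : (q : ℤ) ∣ W.Δ → ¬ (q : ℤ) ∣ W.c₄) {n : ℕ} (hn : ¬ q ∣ n)
    (A : ValuationSubring (AlgebraicClosure ℚ)) (hA : A.LiesOverPrime q)
    (H : ∀ σ ∈ A.inertiaSubgroupIn ℚ,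
      ∀ P : ((W.map (Int.castRingHom ℚ))⁄(AlgebraicClosure ℚ)).Point, n • P = 0 → σ • P = P) :
    n ∣ padicValInt q W.Δ := by
  by_cases hΔ : (q : ℤ) ∣ W.Δ
  · have hvn : A.valuation (n : AlgebraicClosure ℚ) = 1 :=
      valuation_nat_eq_one A hA ((Nat.Prime.coprime_iff_not_dvd hq).mpr hn).symm
    have hn0 : n ≠ 0 := by rintro rfl; exact hn (dvd_zero q)
    obtain ⟨h1, h2⟩ := mult_hyps (L := AlgebraicClosure ℚ) W hq (hss hΔ) hΔ A hA
    obtain ⟨t, ht, ht'⟩ := exists_root_fixed (v := A.valuation)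
      (W := (W.map (Int.castRingHom ℚ)).baseChange (AlgebraicClosure ℚ))
      two_ne_zero three_ne_zero (intCoeff_baseChange_int W _) h1 h2 (baseChange_Δ_ne_zero W hΔ0)
      hvn
    have hfix : ∀ σ ∈ A.inertiaSubgroupIn ℚ, σ t = t := by
      intro σ hσ
      exact ht' (σ : AlgebraicClosure ℚ →+* AlgebraicClosure ℚ)
        (decomposition_valuation A (mem_decomposition_of_inertia A hσ))
        (fun x hx => inertia_sub A hσ hx)
        (by rw [baseChange_int_a₁]; exact map_intCast σ _)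
        (by rw [baseChange_int_a₂]; exact map_intCast σ _)
        (by rw [baseChange_int_a₃]; exact map_intCast σ _)
        (by rw [baseChange_int_a₄]; exact map_intCast σ _)
        (by rw [baseChange_int_a₆]; exact map_intCast σ _)
        (DistribSMul.toAddMonoidHom
          ((W.map (Int.castRingHom ℚ)).toAffine.baseChange (AlgebraicClosure ℚ)).Point σ)
        (fun x y h => ⟨_, rfl⟩) (fun P hP => H σ hσ P hP)
    have ht0 : t ≠ 0 := by
      rintro rfl
      rw [map_zero, zero_pow hn0] at ht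
      exact baseChange_Δ_ne_zero (L := AlgebraicClosure ℚ) W hΔ0 (by simpa using ht.symm)
    have ht1 : A.valuation t ≤ 1 := by
      by_contra hlt
      push Not at hlt
      have := one_le_pow₀ hlt.le (n := n)
      rw [ht] at this
      exact absurd h2 (not_lt.mpr this)
    obtain ⟨k, hk⟩ := exists_valuation_eq_pow A hq hA ht0 hfix ht1
    have hvq : A.valuation (q : AlgebraicClosure ℚ) < 1 := A.mem_nonunits_iff.mp hA
    have hvq0 : A.valuation (q : AlgebraicClosure ℚ) ≠ 0 :=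
      (Valuation.ne_zero_iff _).mpr (Nat.cast_ne_zero.mpr hq.ne_zero)
    rw [hk, ← pow_mul, baseChange_int_Δ, valuation_int_eq_pow A hq hA hΔ0] at ht
    exact ⟨k, by rw [← pow_injective_of_lt_one hvq0 hvq ht, mul_comm]⟩
  · rw [padicValInt.eq_zero_of_not_dvd hΔ]
    exact dvd_zero n

/-- **The ramification criterion** in terms of one place. -/
theorem inertia_fixes_iff (W : WeierstrassCurve ℤ) (hΔ0 : W.Δ ≠ 0) {q : ℕ} (hq : q.Prime)
    (hss : (q : ℤ) ∣ W.Δ → ¬ (q : ℤ) ∣ W.c₄) {n : ℕ} (hn : ¬ q ∣ n)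
    (A : ValuationSubring (AlgebraicClosure ℚ)) (hA : A.LiesOverPrime q) :
    (∀ σ ∈ A.inertiaSubgroupIn ℚ,
      ∀ P : ((W.map (Int.castRingHom ℚ))⁄(AlgebraicClosure ℚ)).Point, n • P = 0 → σ • P = P) ↔
    n ∣ padicValInt q W.Δ :=
  ⟨dvd_of_smul_eq W hΔ0 hq hss hn A hA, fun h _ hσ _ hP =>
    smul_eq_of_dvd W hΔ0 hq hss hn A hA h hσ hP⟩

/-- **The ramification criterion**: `E[n]` is unramified at `q` iff `n ∣ v_q(Δ)`. -/
theorem galoisRepUnramifiedAt_iff (W : WeierstrassCurve ℤ) (hΔ0 : W.Δ ≠ 0) {q : ℕ} (hq : q.Prime)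
    (hss : (q : ℤ) ∣ W.Δ → ¬ (q : ℤ) ∣ W.c₄) {n : ℕ} (hn : ¬ q ∣ n)
    (hA : ∃ A : ValuationSubring (AlgebraicClosure ℚ), A.LiesOverPrime q) :
    WeierstrassCurve.Affine.Point.GaloisRepUnramifiedAt ℚ (AlgebraicClosure ℚ)
      (W.map (Int.castRingHom ℚ)) n q ↔ n ∣ padicValInt q W.Δ := by
  constructor
  · intro h
    obtain ⟨A, hA⟩ := hA
    refine dvd_of_smul_eq W hΔ0 hq hss hn A hA fun σ hσ P hP => ?_
    have := h A hA σ hσ ⟨P, by rw [Submodule.mem_torsionBy_iff, Nat.cast_smul_eq_nsmul]; exact hP⟩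
    exact congrArg Subtype.val this
  · intro h A hA σ hσ x
    apply Subtype.ext
    have hx := (Submodule.mem_torsionBy_iff (n : ℤ) x.1).1 x.2
    rw [Nat.cast_smul_eq_nsmul] at hx
    exact smul_eq_of_dvd W hΔ0 hq hss hn A hA h hσ hx

end Fermat.Agent.LOC
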