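import Fermat.Agent.LOC.PeuMain
import Fermat.Agent.RT.PStep.Kummer

/-! # `τ` acts trivially on `E[p]` iff `p ∣ v_p(Δ)`, at a prime `p` of multiplicative reduction -/

set_option autoImplicit false

namespace Fermat.Agent.LOC.TauTorsion

open WeierstrassCurve WeierstrassCurve.Affine Fermat.Agent.ECRed Fermat.Agent.LOC.TateHom
open Fermat.Agent.LOC.PeuDiv Fermat.Agent.LOC.PeuRam Fermat.Agent.DR.AtP Finset
open Fermat.Agent.LOC.PeuMain Fermat.Agent.LOC.TatePhi
open scoped WeierstrassCurve.Affine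

section LemmaN

variable {K Γ₀ : Type*} [Field K] [LinearOrderedCommGroupWithZero Γ₀] {v : Valuation K Γ₀}
  {G : Type*} [Group G] [MulSemiringAction G K] {p : ℕ}

/-- `(1 + δ) ^ i ≡ 1 + i δ` modulo `δ²` -/
lemma v_pow_sub_le {δ : K} (hδ : v δ ≤ 1) (i : ℕ) :
    v ((1 + δ) ^ i - 1 - i * δ) ≤ v δ ^ 2 := by
  induction i with
  | zero => simp
  | succ i ih =>
    have e : (1 + δ) ^ (i + 1) - 1 - ((i + 1 : ℕ) : K) * δ =
        ((1 + δ) ^ i - 1 - i * δ) * (1 + δ) + (i : K) * δ ^ 2 := by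
      push_cast; ring
    rw [e]
    refine v.map_add_le ?_ ?_
    · rw [map_mul]
      calc v ((1 + δ) ^ i - 1 - i * δ) * v (1 + δ) ≤ v δ ^ 2 * 1 :=
            mul_le_mul' ih (v.map_add_le (by simp) hδ)
        _ = v δ ^ 2 := mul_one _
    · rw [map_mul, map_pow]
      calc v (i : K) * v δ ^ 2 ≤ 1 * v δ ^ 2 := mul_le_mul' (DR.AtP.v_natCast_le i) le_rfl
        _ = v δ ^ 2 := one_mul _

lemma v_pow_sub_one_eq {δ : K} (hδ : v δ < 1) {i : ℕ} (hi : v (i : K) = 1) :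
    v ((1 + δ) ^ i - 1) = v δ := by
  rcases eq_or_ne δ 0 with rfl | hδ0
  · simp
  have hpos : 0 < v δ := by rwa [Valuation.pos_iff]
  have h1 := v_pow_sub_le hδ.le i
  have h2 : v δ ^ 2 < v δ := by
    calc v δ ^ 2 = v δ * v δ := sq _
      _ < v δ * 1 := mul_lt_mul_of_pos_left hδ hpos
      _ = v δ := mul_one _
  have e : (1 + δ) ^ i - 1 = i * δ + ((1 + δ) ^ i - 1 - i * δ) := by ring
  rw [e, v.map_add_eq_of_lt_left, map_mul, hi, one_mul]
  rw [map_mul, hi, one_mul]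
  exact h1.trans_lt h2

/-- **Lemma N'**: for `w ∈ K₀(μ)`, `μ ^ p = 1 + p v'`, whose valuation is not in the value group
of `K₀`, and `σ μ = ζ μ`: `v (σ w / w - 1) = v (ζ - 1) / v (μ - 1)`. -/
theorem v_smul_div_sub_one (I : InertialAction v G p) {ζ μ v' : K} (hζ : IsPrimitiveRoot ζ p)
    (hμ : μ ^ p = 1 + p * v') (hv' : v v' = 1) (hfix : ∀ σ : G, σ • v' = v') {w : K}
    (hw : ∀ σ : G, σ • μ = μ → σ • w = w) (hw0 : w ≠ 0) {a : ℤ} (ha : v w = v (μ - 1) ^ a)
    (hpa : ¬ (p : ℤ) ∣ a) {σ : G} (hσ : σ • μ = ζ * μ) :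
    v (σ • w / w - 1) * v (μ - 1) = v (ζ - 1) := by
  classical
  obtain ⟨b, hb, hab, hle, hbv, -⟩ := I.exists_decomp_max hζ hμ hv' hfix hw hw0
  have hT0 := I.v_t_pos hμ hv'
  have hT1 := I.v_t_lt hμ hv'
  have hTρ := I.v_zeta_sub_one_lt_t hζ hμ hv'
  have hvμ := I.v_mu hμ hv'
  have hvw0 : 0 < v w := by rwa [Valuation.pos_iff]
  have hpz : (0 : ℤ) < p := by exact_mod_cast I.prime.pos
  set t := μ - 1 with ht
  have ht0 : t ≠ 0 := I.t_ne_zero hμ hv'
  set δ : K := (ζ - 1) * μ / t with hδdef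
  have hvδ : v δ * v t = v (ζ - 1) := by
    rw [hδdef, map_div₀, map_mul, hvμ, mul_one, div_mul_cancel₀ _ hT0.ne']
  have hρ0 : 0 < v (ζ - 1) := by
    rw [Valuation.pos_iff]; exact zeta_sub_one_ne_zero I.prime hζ
  have hvδ0 : 0 < v δ := by
    rw [pos_iff_ne_zero]
    intro h0
    rw [h0, zero_mul] at hvδ
    exact hρ0.ne hvδ
  have hvδ1 : v δ < 1 := by
    by_contra hle'
    push Not at hle'
    have : v t ≤ v (ζ - 1) := by
      rw [← hvδ]
      exact le_mul_of_one_le_left zero_le hle'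
    exact absurd hTρ (not_lt.mpr this)
  have hσt : σ • t = t * (1 + δ) := by
    rw [ht, smul_sub, smul_one, hσ, ← ht, hδdef]
    field_simp
    rw [ht]; ring
  -- the dominating index
  set i₀ : ℕ := (a % p).toNat with hi₀
  have hi₀' : (i₀ : ℤ) = a % p := Int.toNat_of_nonneg (Int.emod_nonneg _ hpz.ne')
  have hi₀p : i₀ < p := by
    have := Int.emod_lt_of_pos a hpz
    omega
  have hi₀dvd : ¬ p ∣ i₀ := by
    intro hdvd
    apply hpa
    have h1 : (p : ℤ) ∣ a % p := by rw [← hi₀']; exact_mod_cast hdvd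
    have h2 := Int.emod_add_mul_ediv a p
    rw [← h2]
    exact dvd_add h1 (dvd_mul_right _ _)
  have hlt : ∀ i ∈ (range p).erase i₀, v (b i * t ^ i) < v w := by
    intro i hi
    rw [Finset.mem_erase, Finset.mem_range] at hi
    refine lt_of_le_of_ne (hle i (Finset.mem_range.mpr hi.2)) fun heq => ?_
    have hbi : b i ≠ 0 := by
      intro h0
      rw [h0, zero_mul, map_zero] at heq
      exact hvw0.ne heq
    obtain ⟨n, hn⟩ := hbv i (Finset.mem_range.mpr hi.2) hbi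
    rw [map_mul, map_pow, hn, ← zpow_natCast, ← zpow_add₀ hT0.ne', ha] at heq
    have h1 := zpow_right_injective₀ hT0 hT1.ne heq
    apply hi.1
    have h2 : a % p = i := by
      rw [← h1]
      have h3 : (i : ℤ) % p = i := Int.emod_eq_of_lt (by omega) (by omega)
      rw [Int.add_comm, Int.add_mul_emod_self_left, h3]
    omega
  have hmem : i₀ ∈ range p := Finset.mem_range.mpr hi₀p
  have hdom : v (b i₀ * t ^ i₀) = v w := by
    have e : b i₀ * t ^ i₀ = w - ∑ i ∈ (range p).erase i₀, b i * t ^ i := by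
      conv_rhs => rw [hab]
      rw [← Finset.add_sum_erase _ _ hmem]
      ring
    rw [e, v.map_sub_eq_of_lt_left]
    exact v.map_sum_lt hvw0.ne' hlt
  have hvi₀ : v (i₀ : K) = 1 := by
    exact PeuDiv.v_natCast_eq_one I.v_p_lt ((I.prime.coprime_iff_not_dvd.mpr hi₀dvd).symm)
  have hkey : v (σ • w - w) = v w * v δ := by
    have e : σ • w - w = ∑ i ∈ range p, b i * t ^ i * ((1 + δ) ^ i - 1) := by
      conv_lhs => rw [hab]
      rw [Finset.smul_sum, ← Finset.sum_sub_distrib]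
      refine Finset.sum_congr rfl fun i _ => ?_
      rw [smul_mul', smul_pow', hb, hσt, mul_pow]
      ring
    rw [e, ← Finset.add_sum_erase _ _ hmem, v.map_add_eq_of_lt_left]
    · rw [map_mul, hdom, v_pow_sub_one_eq hvδ1 hvi₀]
    · rw [map_mul v (b i₀ * t ^ i₀), hdom, v_pow_sub_one_eq hvδ1 hvi₀]
      refine v.map_sum_lt (mul_pos hvw0 hvδ0).ne' fun i hi => ?_
      rw [map_mul]
      have h1 : v ((1 + δ) ^ i - 1) ≤ v δ := by
        have := v_pow_sub_one_le (v := v) (a := 1 + δ) (v.map_add_le (by simp) hvδ1.le) i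
        rwa [add_sub_cancel_left] at this
      calc v (b i * t ^ i) * v ((1 + δ) ^ i - 1) ≤ v (b i * t ^ i) * v δ :=
            mul_le_mul' le_rfl h1
        _ < v w * v δ := mul_lt_mul_of_pos_right (hlt i hi) hvδ0
  have e : σ • w / w - 1 = (σ • w - w) / w := by field_simp
  rw [e, map_div₀, hkey, mul_div_cancel_left₀ _ hvw0.ne', hvδ]

end LemmaN

section Param

variable {K Γ₀ : Type*} [Field K] [LinearOrderedCommGroupWithZero Γ₀] {v : Valuation K Γ₀}
variable {W : WeierstrassCurve K} {c : K}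

/-- The fundamental relation at the node. -/
theorem exists_near [DecidableEq K] (hc1 : v c < 1) (hc : c ≠ 0) {X Y : K}
    (h : (nf c).toAffine.Nonsingular X Y) (hX : v X < 1) {ε : Γ₀} (hY : v Y ≤ ε)
    (hXY : v (X + Y) ≤ ε) (hcε : v c ≤ ε) (hε : ε < 1) {g : K}
    (hg : IsPhi v c X Y g) {σ : K →+* K} (hσ : ∀ z, v (σ z) = v z) (hσc : σ c = c)
    (h' : (nf c).toAffine.Nonsingular (σ X) (σ Y)) {R : (nf c).toAffine.Point}
    (hR : R = Point.some (σ X) (σ Y) h' - Point.some X Y h) (hRker : InKer v R) (hR0 : R ≠ 0) :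
    ∃ f : K, v (f - 1) ^ 2 * v (px R) = 1 ∧ v (f - σ g / g) ≤ ε := by
  rcases R with _ | ⟨x₃, y₃, h₃⟩
  · exact absurd rfl hR0
  rw [inKer_some] at hRker
  have he := nf_equation.mp h.1
  have he₃ := nf_equation.mp h₃.1
  have hσX : v (σ X) < 1 := by rw [hσ]; exact hX
  have hg' := IsPhi_map hσ hσc hg
  have hneg : (nf c).toAffine.Nonsingular (σ X) (-σ Y - σ X) := by
    have := (nonsingular_neg ..).mpr h'
    rwa [nf_negY] at this
  have hsum : Point.some X Y h + Point.some (σ X) (-σ Y - σ X) hneg + Point.some x₃ y₃ h₃ = 0 := by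
    have e : Point.some (σ X) (-σ Y - σ X) hneg = -Point.some (σ X) (σ Y) h' := by
      rw [Point.neg_some, Point.some.injEq]
      exact ⟨rfl, (nf_negY _ _ _).symm⟩
    rw [e, hR]
    abel
  obtain ⟨ℓ, ν, hcoll⟩ := coll_of_add_eq_zero h hneg h₃ hsum
  have hok1 : Ok v ε X Y := Or.inr ⟨hX, hY, hXY⟩
  have hok2 : Ok v ε (σ X) (-σ Y - σ X) := Ok.neg (Or.inr ⟨hσX, by rw [hσ]; exact hY, by
    rw [← map_add, hσ]; exact hXY⟩)
  have hok3 : Ok v ε x₃ y₃ := Or.inl hRker.le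
  have hφ3 : IsPhi v c x₃ y₃ (y₃ / (x₃ + y₃)) := Or.inl ⟨hRker.le, rfl⟩
  obtain ⟨n, hn⟩ := isPhi_coll hε hcε hc hcoll hok1 hok2 hok3 hg (hg'.neg hc hσX) hφ3
  have hg0 : g ≠ 0 := hg.ne_zero hc1 hc he
  have hσg0 : σ g ≠ 0 := (map_ne_zero σ).mpr hg0
  have hvc : 0 < v c := by rwa [Valuation.pos_iff]
  have hvg : 0 < v g := by rwa [Valuation.pos_iff]
  obtain ⟨hφ1, -⟩ := isPhi_nonsing hc1 he₃ hRker.le hφ3
  -- the exponent is `1`
  have hv1 : v (g * (-c / σ g) * (y₃ / (x₃ + y₃))) = v c := by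
    rw [map_mul, map_mul, hφ1, mul_one, map_div₀, Valuation.map_neg, hσ]
    field_simp
  have hn1 : n = 1 := by
    have := hn.v_eq hε
    rw [hv1, map_pow, Valuation.map_neg] at this
    by_contra hne
    have h2 : v c ^ 1 = v c ^ n := by rw [pow_one]; exact this
    exact hne (pow_right_injective₀ hvc hc1.ne h2).symm
  subst hn1
  rw [pow_one] at hn
  have h3 : v (y₃ / (x₃ + y₃) - σ g / g) ≤ ε := by
    have e : y₃ / (x₃ + y₃) - σ g / g =
        -(g * (-c / σ g) * (y₃ / (x₃ + y₃)) - (-c)) * (σ g / g) * c⁻¹ := by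
      field_simp
      ring
    rw [e, map_mul, map_mul, Valuation.map_neg, map_div₀, hσ, div_self hvg.ne', mul_one, map_inv₀]
    refine (mul_le_mul_left hn _).trans ?_
    rw [Valuation.map_neg, mul_assoc, mul_inv_cancel₀ hvc.ne', mul_one]
  obtain ⟨h5, h6⟩ := v_of_one_le hc1 he₃ hRker.le
  have hx0 : 0 < v x₃ := lt_trans one_pos hRker
  have hxy0 : x₃ + y₃ ≠ 0 := by
    intro h0
    rw [h0, map_zero, zero_pow two_ne_zero] at h6
    exact (pow_pos hx0 3).ne h6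
  have h7 : v (y₃ / (x₃ + y₃) - 1) ^ 2 * v x₃ = 1 := by
    have e : y₃ / (x₃ + y₃) - 1 = -x₃ / (x₃ + y₃) := by field_simp; ring
    rw [e, map_div₀, Valuation.map_neg, div_pow, h6]
    field_simp
  exact ⟨_, by rw [px_some]; exact h7, h3⟩

/-- **Multiplicative places**: the parameter of a `p`-torsion point. -/
theorem exists_param [DecidableEq K] [IsAlgClosed K] (h2 : (2 : K) ≠ 0) (h3 : (3 : K) ≠ 0)
    (hI : IntCoeff v W) (hc4 : v W.c₄ = 1) (hΔ : v W.Δ < 1) (hΔ0 : W.Δ ≠ 0) {p : ℕ} (hp : p.Prime)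
    (hvp : v (p : K) < 1) {P : W.toAffine.Point} (htor : p • P = 0) (hP : ¬ InKer v P) :
    ∃ (g : K) (m : ℤ), g ≠ 0 ∧ v g ^ p = v W.Δ ^ m ∧ v g < 1 ∧ v W.Δ < v g ∧
      ∀ σ : K →+* K, (∀ z, v (σ z) = v z) → (∀ z, v z ≤ 1 → v (σ z - z) < 1) →
      σ W.a₁ = W.a₁ → σ W.a₂ = W.a₂ → σ W.a₃ = W.a₃ → σ W.a₄ = W.a₄ → σ W.a₆ = W.a₆ →
      ∀ s : W.toAffine.Point →+ W.toAffine.Point,
        (∀ x y h, ∃ h', s (.some x y h) = .some (σ x) (σ y) h') →
        (s P = P → σ g = g) ∧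
        ∀ ε : Γ₀, s P ≠ P → v g ≤ ε → v W.Δ ≤ ε * v g → ε < 1 →
          ∃ f : K, v (f - 1) ^ 2 * v (px (s P - P)) = 1 ∧ v (f - σ g / g) ≤ ε := by
  obtain ⟨x₀, y₀, α, β, h⟩ := exists_nodeCentre_of_Δ h2 h3 hI hc4 hΔ
  have hc1 := h.v_c_lt_one
  have hc0 := h.c_ne_zero hΔ0
  have hvcΔ := h.v_c_eq
  rcases hP' : h.equiv P with _ | ⟨X, Y, hXY⟩
  · exfalso
    apply hP
    rw [← h.inKer_equiv_iff, hP']
    exact inKer_zero
  have htor' : p • Point.some X Y hXY = 0 := by rw [← hP', ← map_nsmul, htor, map_zero]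
  have hX1 : v X ≤ 1 := by
    by_contra hlt
    push Not at hlt
    apply hP
    rw [← h.inKer_equiv_iff, hP', inKer_some]
    exact hlt
  have hg := isPhi_rep v (tateC W x₀ y₀ α β) X Y
  set g := rep v (tateC W x₀ y₀ α β) X Y with hgdef
  have he := nf_equation.mp hXY.1
  have hg0 : g ≠ 0 := hg.ne_zero hc1 hc0 he
  obtain ⟨hcls, j, hj⟩ := exists_v_pow hc1 hc0 hXY hg htor'
  have hX : v X < 1 := by
    refine lt_of_le_of_ne hX1 fun heq => ?_
    obtain ⟨h5, h6⟩ := isPhi_nonsing hc1 he heq.ge hg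
    have h7 := sub_one_lt_of_cls_eq_one hc1 hc0 (u := g ^ p)
      (by rw [map_pow, h5, one_pow]; exact hc1) (by rw [map_pow, h5, one_pow]) hcls
    have h8 := v_sub_one_lt_of_pow hp hvp h7
    exact absurd (h6.mp h8) (by rw [heq]; exact lt_irrefl _)
  obtain ⟨hg1, hg2⟩ := isPhi_node_bounds hc1 hc0 he hX hg
  have hvg0 : 0 < v g := by rwa [Valuation.pos_iff]
  refine ⟨g, j, hg0, by rw [hj, hvcΔ], hg2, by rw [← hvcΔ]; exact hg1, ?_⟩
  intro σ hσ hin h₁ h₂ h₃ h₄ h₆ s hs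
  obtain ⟨ε, -, hε1, s', hs', he'⟩ := h.equiv_equivariant h2 σ hσ h₁ h₂ h₃ h₄ h₆ s hs
  have hε := hε1 hin
  subst hε
  simp only [one_smul] at he'
  have hσc := h.map_c h2 σ hσ h₁ h₂ h₃ h₄ h₆
  obtain ⟨hXY', hs'P⟩ := hs' X Y hXY
  constructor
  · intro hsP
    have h5 : s' (Point.some X Y hXY) = Point.some X Y hXY := by
      rw [← hP', ← he', hsP]
    rw [hs'P, Point.some.injEq] at h5
    rw [hgdef, rep_map hσ hσc, h5.1, h5.2]
  · intro ε hsP hgε hΔε hε1
    have hker : InKer v (s P - P) := by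
      obtain ⟨ε, -, hε1, h5⟩ := exists_sign h2 h3 hI hc4 hΔ hΔ0 hp hvp σ hσ h₁ h₂ h₃ h₄ h₆ s hs
      have hε := hε1 hin
      subst hε
      have h6 := h5 1 P (by rw [pow_one]; exact htor)
      rwa [one_smul] at h6
    have hne : s P - P ≠ 0 := sub_ne_zero.mpr hsP
    have hcε : v (tateC W x₀ y₀ α β) ≤ ε := hg1.le.trans hgε
    have hYXY : v Y ≤ ε ∧ v (X + Y) ≤ ε := by
      rcases hg with ⟨h5, -⟩ | ⟨-, h5, h6⟩ | ⟨-, h5, h6⟩
      · exact absurd hX (not_lt.mpr h5)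
      · have h7 : v (X + Y) ≤ ε := by rw [← h6]; exact hgε
        exact ⟨h5.trans h7, h7⟩
      · have hY0 : Y ≠ 0 := by
          rintro rfl
          rw [div_zero] at h6
          exact hg0 h6
        have h9 : v Y ≤ ε := by
          have h8 : Y = tateC W x₀ y₀ α β / g := by
            rw [h6, div_div_cancel₀ hc0]
          rw [h8, map_div₀, hvcΔ]
          exact div_le_of_le_mul₀ zero_le zero_le hΔε
        exact ⟨h9, h5.trans h9⟩
    obtain ⟨f, hf1, hf2⟩ := exists_near hc1 hc0 hXY hX hYXY.1 hYXY.2 hcε hε1 hg hσ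
      hσc hXY' (R := h.equiv (s P - P)) (by rw [map_sub, he', hP', hs'P])
      ((h.inKer_equiv_iff _).mpr hker) (by rwa [Ne, EmbeddingLike.map_eq_zero_iff])
    rw [one_lt_v_px_equiv h hker hne] at hf1
    exact ⟨f, hf1, hf2⟩

end Param

local notation "Qb" => AlgebraicClosure ℚ

section Alpha

variable (W : WeierstrassCurve ℤ) (hΔ0 : W.Δ ≠ 0) {p : ℕ} (hp : p.Prime)
  (hc4 : ¬ (p : ℤ) ∣ W.c₄) (hΔ : (p : ℤ) ∣ W.Δ)
  (A : ValuationSubring Qb) (hA : A.LiesOverPrime p)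

include hΔ0 hp hc4 hΔ hA in
/-- A generator of `E₁[p]`. -/
theorem exists_alpha : ∃ α : ((W.map (Int.castRingHom ℚ))⁄Qb).Point, α ≠ 0 ∧
    InKer A.valuation α ∧ p • α = 0 ∧
    ∀ P, InKer A.valuation P → p • P = 0 → P ∈ AddSubgroup.zmultiples α := by
  let T : AddSubgroup ((W.map (Int.castRingHom ℚ))⁄Qb).Point :=
    { carrier := {P | P ∈ kerSub W A ∧ p ^ 1 • P = 0}
      zero_mem' := ⟨zero_mem _, nsmul_zero _⟩
      add_mem' := fun {a b} ha hb => ⟨add_mem ha.1 hb.1, by rw [nsmul_add, ha.2, hb.2, add_zero]⟩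
      neg_mem' := fun {a} ha => ⟨neg_mem ha.1, by rw [neg_nsmul, ha.2, neg_zero]⟩ }
  have hT : Nat.card T = p := (card_kerSub W hΔ0 hp hc4 hΔ A hA 1).trans (pow_one p)
  have hfp : Fact p.Prime := ⟨hp⟩
  have hnt : Nontrivial T := by
    have : Finite T := Nat.finite_of_card_ne_zero (by rw [hT]; exact hp.ne_zero)
    exact Finite.one_lt_card_iff_nontrivial.mp (by rw [hT]; exact hp.one_lt)
  obtain ⟨a, ha⟩ := exists_ne (0 : T)
  have ha' : (a : ((W.map (Int.castRingHom ℚ))⁄Qb).Point) ≠ 0 := fun h => ha (Subtype.ext h)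
  refine ⟨a, ha', a.2.1, by have := a.2.2; rwa [pow_one] at this, fun P hP hpP => ?_⟩
  have h1 : (⟨P, hP, by rw [pow_one]; exact hpP⟩ : T) ∈ AddSubgroup.zmultiples a := by
    rw [zmultiples_eq_top_of_prime_card hT ha]
    exact AddSubgroup.mem_top _
  obtain ⟨k, hk⟩ := AddSubgroup.mem_zmultiples_iff.mp h1
  exact AddSubgroup.mem_zmultiples_iff.mpr ⟨k, congrArg Subtype.val hk⟩

include hΔ0 hp hc4 hΔ hA in
/-- There are `p`-torsion points outside of the kernel of reduction. -/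
theorem exists_not_inKer' : ∃ x : ((W.map (Int.castRingHom ℚ))⁄Qb).Point,
    p • x = 0 ∧ ¬ InKer A.valuation x := by
  by_contra hcon
  push Not at hcon
  have := isElliptic_baseChange' W hΔ0
  have hpK : (p : Qb) ≠ 0 := Nat.cast_ne_zero.mpr hp.ne_zero
  have h1 := EllTorsion.card_nsmul_eq_zero (W := (W.map (Int.castRingHom ℚ)).baseChange Qb) hpK
  have h2 := card_kerSub W hΔ0 hp hc4 hΔ A hA 1
  rw [pow_one] at h2
  have h3 : Nat.card {P : ((W.map (Int.castRingHom ℚ)).toAffine.baseChange Qb).Point //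
      P ∈ kerSub W A ∧ p • P = 0} = p ^ 2 := by
    rw [← h1]
    exact Nat.card_congr ⟨fun x => ⟨x.1, x.2.2⟩, fun x => ⟨x.1, hcon x.1 x.2, x.2⟩,
      fun x => rfl, fun x => rfl⟩
  rw [h2] at h3
  have h4 := hp.one_lt
  nlinarith

/-- If `σ` preserves the line `⟨α⟩` of `E[p]` and acts trivially on `E[p] / ⟨α⟩` then it acts on
`α` by the cyclotomic character. -/
theorem smul_alpha_of_trivial {W : WeierstrassCurve ℤ} (hΔ0 : W.Δ ≠ 0) {p : ℕ} (hp : p.Prime)
    {ζ : Qb} (hζ : IsPrimitiveRoot ζ p) {α : ((W.map (Int.castRingHom ℚ))⁄Qb).Point}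
    (hα0 : α ≠ 0) (hα : p • α = 0) {σ : Qb ≃ₐ[ℚ] Qb} (hσα : σ • α ∈ AddSubgroup.zmultiples α)
    (hσ : ∀ P : ((W.map (Int.castRingHom ℚ))⁄Qb).Point, p • P = 0 →
      σ • P - P ∈ AddSubgroup.zmultiples α) {n : ℕ} (hn : σ ζ = ζ ^ n) : σ • α = n • α := by
  have hfp : Fact p.Prime := ⟨hp⟩
  have hell := isElliptic_baseChange' W hΔ0
  have hpK : (p : Qb) ≠ 0 := Nat.cast_ne_zero.mpr hp.ne_zero
  let V := Submodule.torsionBy ℤ ((W.map (Int.castRingHom ℚ))⁄Qb).Point p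
  have hmem : ∀ P : ((W.map (Int.castRingHom ℚ))⁄Qb).Point, p • P = 0 → P ∈ V := fun P hP => by
    rw [Submodule.mem_torsionBy_iff, Nat.cast_smul_eq_nsmul]; exact hP
  have hmem' : ∀ P : V, p • (P : ((W.map (Int.castRingHom ℚ))⁄Qb).Point) = 0 := fun P => by
    have := (Submodule.mem_torsionBy_iff (p : ℤ) P.1).1 P.2
    rwa [Nat.cast_smul_eq_nsmul] at this
  have hfr : Module.finrank (ZMod p) V = 2 :=
    EllTorsion.finrank_torsionBy (W.map (Int.castRingHom ℚ)) hpK hp.ne_one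
  have hsm : ∀ (c : ZMod p) (P : V), c • P = c.val • P := fun c P => by
    rw [← Nat.cast_smul_eq_nsmul (ZMod p), ZMod.natCast_zmod_val]
  let α' : V := ⟨α, hmem α hα⟩
  have hα'0 : α' ≠ 0 := fun h => hα0 (congrArg Subtype.val h)
  -- an element outside of the line
  obtain ⟨x', hx'⟩ : ∃ x' : V, x' ∉ Submodule.span (ZMod p) {α'} := by
    by_contra hcon
    push Not at hcon
    have h1 : Submodule.span (ZMod p) {α'} = ⊤ := eq_top_iff.mpr fun x _ => hcon x
    have h2 := finrank_span_singleton (K := ZMod p) hα'0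
    rw [h1, finrank_top, hfr] at h2
    omega
  have hli : LinearIndependent (ZMod p) ![α', x'] := by
    rw [LinearIndependent.pair_iff]
    intro a b hab
    have hb : b = 0 := by
      by_contra hb
      apply hx'
      have h1 : x' = (-(b⁻¹ * a)) • α' := by
        have h2 : b⁻¹ • (a • α' + b • x') = 0 := by rw [hab, smul_zero]
        rw [smul_add, smul_smul, smul_smul, inv_mul_cancel₀ hb, one_smul] at h2
        rw [neg_smul]
        exact eq_neg_of_add_eq_zero_right h2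
      rw [h1]
      exact Submodule.smul_mem _ _ (Submodule.mem_span_singleton_self _)
    subst hb
    rw [zero_smul, add_zero] at hab
    exact ⟨(smul_eq_zero.mp hab).resolve_right hα'0, rfl⟩
  let b : Module.Basis (Fin 2) (ZMod p) V :=
    basisOfLinearIndependentOfCardEqFinrank hli (by rw [Fintype.card_fin, hfr])
  have hb0 : b 0 = α' := by
    rw [coe_basisOfLinearIndependentOfCardEqFinrank]; rfl
  have hzm : ∀ P : V, (P : ((W.map (Int.castRingHom ℚ))⁄Qb).Point) ∈ AddSubgroup.zmultiples α →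
      P ∈ Submodule.span (ZMod p) {α'} := by
    intro P hP
    obtain ⟨k, hk⟩ := AddSubgroup.mem_zmultiples_iff.mp hP
    have h1 : P = (k : ZMod p) • α' := by
      rw [Int.cast_smul_eq_zsmul]
      exact Subtype.ext hk.symm
    rw [h1]
    exact Submodule.smul_mem _ _ (Submodule.mem_span_singleton_self _)
  let f := WeierstrassCurve.Affine.Point.galoisRepModuleEnd (K := Qb) ℚ
    (W.map (Int.castRingHom ℚ)) p σ
  have hf : ∀ P : V, ((f P : V) : ((W.map (Int.castRingHom ℚ))⁄Qb).Point) = σ • P.1 :=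
    fun P => rfl
  obtain ⟨a, ha⟩ := Submodule.mem_span_singleton.mp (hzm (f α') hσα)
  have hdet := Tate.det_eq_of_line b f (x := a) (z := 1) (by rw [hb0, ha])
    (by
      rw [one_smul, hb0]
      refine hzm _ ?_
      have := hσ (b 1).1 (hmem' (b 1))
      exact this)
  rw [mul_one, EllRed.det_galoisRepModuleEnd (W := W) hΔ0 p σ] at hdet
  have hcyc : (Cyclotomic.cyc p σ : ZMod p) = n := Cyclotomic.cyc_unique_nat p σ fun z hz => by
    have hne' : NeZero p := ⟨hp.ne_zero⟩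
    obtain ⟨i, -, rfl⟩ := hζ.eq_pow_of_pow_eq_one hz
    rw [map_pow, hn, ← pow_mul, ← pow_mul, mul_comm]
  rw [hcyc] at hdet
  have h1 : f α' = n • α' := by rw [← ha, ← hdet, Nat.cast_smul_eq_nsmul]
  exact congrArg Subtype.val h1

/-- **The parameter of a `p`-torsion point of the kernel of reduction** generating a line stable
under inertia. -/
theorem v_zc_pow {W : WeierstrassCurve ℤ} (hΔ0 : W.Δ ≠ 0) {p : ℕ} (hp : p.Prime) (hp2 : p ≠ 2)
    (A : ValuationSubring Qb) (hA : A.LiesOverPrime p)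
    {α : ((W.map (Int.castRingHom ℚ))⁄Qb).Point} (hα0 : α ≠ 0) (hα : p • α = 0)
    (hαker : InKer A.valuation α)
    (hαI : ∀ σ ∈ A.inertiaSubgroupIn ℚ, σ • α ∈ AddSubgroup.zmultiples α) :
    A.valuation (zc α) ^ (p - 1) = A.valuation (p : Qb) := by
  classical
  have hell := isElliptic_baseChange' W hΔ0
  have I := inertialAction A hp hA
  have hpK : (p : Qb) ≠ 0 := Nat.cast_ne_zero.mpr hp.ne_zero
  have hvp : A.valuation (p : Qb) < 1 := A.mem_nonunits_iff.mp hA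
  have hfp : Fact p.Prime := ⟨hp⟩
  have hord : addOrderOf α = p := addOrderOf_eq_prime hα hα0
  have hint := intCoeff_baseChange_int (L := Qb) W A.valuation
  have h1p := hp.one_lt
  let T : Finset ((W.map (Int.castRingHom ℚ))⁄Qb).Point :=
    (Finset.Icc 1 (p - 1)).image fun k : ℕ => k • α
  have hinj : Set.InjOn (fun k : ℕ => k • α) (Finset.Icc 1 (p - 1) : Finset ℕ) := by
    intro k hk l hl hkl
    rw [Finset.mem_coe, Finset.mem_Icc] at hk hl
    exact nsmul_injOn_Iio_addOrderOf (by rw [hord]; exact Set.mem_Iio.mpr (by omega))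
      (by rw [hord]; exact Set.mem_Iio.mpr (by omega)) hkl
  have hT : ∀ Q, Q ∈ T ↔ Q ∈ AddSubgroup.zmultiples α ∧ Q ≠ 0 := by
    intro Q
    rw [Finset.mem_image]
    constructor
    · rintro ⟨k, hk, rfl⟩
      refine ⟨AddSubgroup.nsmul_mem_zmultiples α k, fun h0 => ?_⟩
      have h2 := addOrderOf_dvd_of_nsmul_eq_zero h0
      rw [hord] at h2
      rw [Finset.mem_Icc] at hk
      have := Nat.le_of_dvd (by omega) h2
      omega
    · rintro ⟨h, hQ0⟩
      obtain ⟨k, hk⟩ := AddSubgroup.mem_zmultiples_iff.mp h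
      have hpz : (0 : ℤ) < p := by exact_mod_cast hp.pos
      have h1 : ((k % p).toNat : ℤ) = k % p := Int.toNat_of_nonneg (Int.emod_nonneg k hpz.ne')
      have h2 : (k % p) • α = k • α := by
        conv_rhs => rw [← Int.emod_add_mul_ediv k p, add_zsmul, mul_comm, mul_smul,
          natCast_zsmul, hα, zsmul_zero, add_zero]
      have h3 : (k % p).toNat • α = Q := by rw [← natCast_zsmul, h1, h2, hk]
      refine ⟨(k % p).toNat, ?_, h3⟩
      rw [Finset.mem_Icc]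
      have h4 := Int.emod_lt_of_pos k hpz
      have h5 := Int.emod_nonneg k hpz.ne'
      have h6 : (k % p).toNat ≠ 0 := by
        intro h0
        rw [h0, zero_nsmul] at h3
        exact hQ0 h3.symm
      omega
  have hvk : ∀ k ∈ Finset.Icc 1 (p - 1), A.valuation (zc (k • α)) = A.valuation (zc α) := by
    intro k hk
    rw [Finset.mem_Icc] at hk
    have hvk1 : A.valuation (k : Qb) = 1 :=
      PeuDiv.v_natCast_eq_one hvp (Nat.Coprime.symm (hp.coprime_iff_not_dvd.mpr fun hdvd => by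
        have := Nat.le_of_dvd (by omega) hdvd
        omega))
    obtain ⟨g1, g2, g3⟩ := v_px_nsmul hint hαker hα0 hvk1
    have g4 := v_zc_sq hint g1 g2
    have g5 := v_zc_sq hint hαker hα0
    rw [g3] at g4
    have hpx0 : A.valuation (px α) ≠ 0 := (zero_lt_one.trans (one_lt_v_px hαker hα0)).ne'
    have g6 := mul_right_cancel₀ hpx0 (g4.trans g5.symm)
    exact (pow_left_inj₀ zero_le zero_le two_ne_zero).mp g6
  have hzcσ : ∀ (σ : Qb ≃ₐ[ℚ] Qb) (Q : ((W.map (Int.castRingHom ℚ))⁄Qb).Point),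
      σ (zc Q) = zc (σ • Q) := by
    intro σ Q
    rcases Q with _ | ⟨X, Y, h⟩
    · exact map_zero σ
    · change σ (-X / Y) = -(σ X) / σ Y
      rw [map_div₀, map_neg]
  have hstab : ∀ σ ∈ A.inertiaSubgroupIn ℚ, ∀ Q ∈ T, σ • Q ∈ T := by
    intro σ hσ Q hQ
    rw [hT] at hQ ⊢
    obtain ⟨k, hk⟩ := AddSubgroup.mem_zmultiples_iff.mp hQ.1
    constructor
    · have h3 : k • σ • α = σ • k • α :=
        (map_zsmul (DistribSMul.toAddMonoidHom ((W.map (Int.castRingHom ℚ))⁄Qb).Point σ) k α).symm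
      rw [← hk, ← h3]
      exact AddSubgroup.zsmul_mem _ (hαI σ hσ) k
    · intro h0
      apply hQ.2
      have h3 : σ • Q = σ • (0 : ((W.map (Int.castRingHom ℚ))⁄Qb).Point) := by
        rw [h0, smul_zero']
      exact smul_left_cancel σ h3
  have hfix : ∀ σ : A.inertiaSubgroupIn ℚ, σ • (∏ Q ∈ T, zc Q) = ∏ Q ∈ T, zc Q := by
    intro σ
    change σ.1 (∏ Q ∈ T, zc Q) = _
    rw [map_prod]
    refine Finset.prod_bij (fun Q _ => σ.1 • Q) (fun Q hQ => hstab σ.1 σ.2 Q hQ) ?_ ?_ ?_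
    · intro Q _ Q' _ h
      exact smul_left_cancel σ.1 h
    · intro Q hQ
      refine ⟨σ.1⁻¹ • Q, hstab _ (inv_mem σ.2) Q hQ, smul_inv_smul σ.1 Q⟩
    · intro Q _
      exact hzcσ σ.1 Q
  have hz1 := v_zc_lt_one hint hαker
  have hz0 := v_zc_ne_zero hint hαker hα0
  have hvN : A.valuation (∏ Q ∈ T, zc Q) = A.valuation (zc α) ^ (p - 1) := by
    rw [map_prod, Finset.prod_image hinj, Finset.prod_congr rfl hvk, Finset.prod_const,
      Nat.card_Icc, Nat.add_sub_cancel]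
  have hN0 : ∏ Q ∈ T, zc Q ≠ 0 := by
    intro h0
    rw [h0, map_zero] at hvN
    exact pow_ne_zero _ hz0 hvN.symm
  obtain ⟨n, hn⟩ := I.v_fixed _ hfix hN0
  rw [hvN] at hn
  have hvp0 := I.v_p_pos
  -- `n ≥ 1`
  have hn1 : 1 ≤ n := by
    by_contra hcon
    push Not at hcon
    have h1 : A.valuation (zc α) ^ (p - 1) < 1 := pow_lt_one₀ zero_le hz1 (by omega)
    rw [hn] at h1
    have h2 : 1 ≤ A.valuation (p : Qb) ^ n := by
      have h5 := (zpow_le_zpow_iff_right_of_lt_one₀ hvp0 hvp (n := n) (m := (0 : ℤ))).mpr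
        (by omega)
      rwa [zpow_zero] at h5
    exact absurd h1 (not_lt.mpr h2)
  -- `n ≤ 1`
  have hb := ker_torsion_bound (v := A.valuation)
    (W := (W.map (Int.castRingHom ℚ)).baseChange Qb) hint hp hp2 hpK hvp hαker hα0 hα
  obtain ⟨m, hm⟩ := hp.odd_of_ne_two hp2
  have e1 : p - 1 = 2 * m := by omega
  have e2 : (p - 1) / 2 = m := by omega
  have g5 := v_zc_sq hint hαker hα0
  have g6 : A.valuation (zc α) ^ (p - 1) * A.valuation (px α) ^ m = 1 := by
    rw [e1, pow_mul, ← mul_pow, g5, one_pow]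
  rw [e2] at hb
  have hpx0 : 0 < A.valuation (px α) ^ m :=
    pow_pos (zero_lt_one.trans (one_lt_v_px hαker hα0)) _
  have h7 : A.valuation (p : Qb) ≤ A.valuation (zc α) ^ (p - 1) := by
    by_contra hcon
    push Not at hcon
    have := mul_lt_mul_of_pos_right hcon hpx0
    rw [g6] at this
    exact absurd hb (not_le.mpr this)
  rw [hn] at h7 ⊢
  have h8 : n ≤ 1 := by
    by_contra hcon
    push Not at hcon
    have h9 := (zpow_lt_zpow_iff_right_of_lt_one₀ hvp0 hvp (n := (1 : ℤ)) (m := n)).mpr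
      (by omega)
    rw [zpow_one] at h9
    exact absurd h7 (not_le.mpr h9)
  have h9 : n = 1 := by omega
  rw [h9, zpow_one]

end Alpha

section Dvd

variable (W : WeierstrassCurve ℤ) (hΔ0 : W.Δ ≠ 0) {p : ℕ} (hp : p.Prime) (hp2 : p ≠ 2)
  (hc4 : ¬ (p : ℤ) ∣ W.c₄) (hΔ : (p : ℤ) ∣ W.Δ)
  (A : ValuationSubring Qb) (hA : A.LiesOverPrime p) {ζ : Qb} (hζ : IsPrimitiveRoot ζ p)

include hΔ0 hp hc4 hΔ hA in
/-- The parameter of a `p`-torsion point over `ℚ̄`. -/
theorem exists_param_int {x : ((W.map (Int.castRingHom ℚ))⁄Qb).Point} (hx : p • x = 0)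
    (hxker : ¬ InKer A.valuation x) :
    ∃ (g : Qb) (m : ℤ), g ≠ 0 ∧
      A.valuation g ^ p = A.valuation (p : Qb) ^ ((padicValInt p W.Δ : ℤ) * m) ∧
      0 < (padicValInt p W.Δ : ℤ) * m ∧ (padicValInt p W.Δ : ℤ) * m < (padicValInt p W.Δ : ℤ) * p ∧
      ((p : ℤ) ∣ (padicValInt p W.Δ : ℤ) * m → p ∣ padicValInt p W.Δ) ∧
      ∀ τ ∈ A.inertiaSubgroupIn ℚ, (τ • x = x → τ g = g) ∧
        ∀ ε, τ • x ≠ x → A.valuation g ≤ ε →
          A.valuation (p : Qb) ^ padicValInt p W.Δ ≤ ε * A.valuation g → ε < 1 →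
          ∃ f : Qb, A.valuation (f - 1) ^ 2 * A.valuation (px (τ • x - x)) = 1 ∧
            A.valuation (f - τ g / g) ≤ ε := by
  have hvp : A.valuation (p : Qb) < 1 := A.mem_nonunits_iff.mp hA
  have hvp0 : 0 < A.valuation (p : Qb) := by
    rw [Valuation.pos_iff]; exact Nat.cast_ne_zero.mpr hp.ne_zero
  obtain ⟨h1, h2⟩ := mult_hyps (L := Qb) W hp hc4 hΔ A hA
  obtain ⟨g, m, hg0, hgm, hg1, hg2, hg⟩ := exists_param (v := A.valuation)
    (W := (W.map (Int.castRingHom ℚ)).baseChange Qb) two_ne_zero three_ne_zero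
    (intCoeff_baseChange_int W _) h1 h2 (baseChange_Δ_ne_zero W hΔ0) hp hvp hx hxker
  have hvΔ : A.valuation ((W.map (Int.castRingHom ℚ)).baseChange Qb).Δ =
      A.valuation (p : Qb) ^ padicValInt p W.Δ := by
    rw [baseChange_int_Δ, valuation_int_eq_pow A hp hA hΔ0]
  have hvg0 : 0 < A.valuation g := by rwa [Valuation.pos_iff]
  set n := padicValInt p W.Δ with hn
  have hgm' : A.valuation g ^ p = A.valuation (p : Qb) ^ ((n : ℤ) * m) := by
    rw [hgm, hvΔ, ← zpow_natCast, ← zpow_mul]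
  have hanti := zpow_right_strictAnti₀ hvp0 hvp
  have hpos : 0 < (n : ℤ) * m := by
    have h3 : A.valuation (p : Qb) ^ ((n : ℤ) * m) < A.valuation (p : Qb) ^ (0 : ℤ) := by
      rw [← hgm', zpow_zero]
      exact pow_lt_one₀ zero_le hg1 hp.ne_zero
    exact hanti.lt_iff_gt.mp h3
  have hlt : (n : ℤ) * m < (n : ℤ) * p := by
    have h3 : A.valuation (p : Qb) ^ ((n : ℤ) * p) < A.valuation (p : Qb) ^ ((n : ℤ) * m) := by
      rw [← hgm', zpow_mul, zpow_natCast, zpow_natCast, ← hvΔ]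
      exact pow_lt_pow_left₀ hg2 zero_le hp.ne_zero
    exact hanti.lt_iff_gt.mp h3
  have hn0 : (0 : ℤ) ≤ n := by positivity
  have hnpos : (0 : ℤ) < n := by
    rcases hn0.eq_or_lt with h | h
    · rw [← h, zero_mul] at hpos
      exact absurd hpos (lt_irrefl _)
    · exact h
  have hm0 : 0 < m := pos_of_mul_pos_right hpos hn0
  have hmp : m < p := lt_of_mul_lt_mul_left hlt hn0
  refine ⟨g, m, hg0, hgm', hpos, hlt, ?_, ?_⟩
  · intro hdvd
    rcases (Nat.prime_iff_prime_int.mp hp).dvd_or_dvd hdvd with h3 | h3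
    · exact_mod_cast h3
    · exact absurd (Int.le_of_dvd hm0 h3) (not_le.mpr hmp)
  · intro τ hτ
    have h3 := hg (τ : Qb →+* Qb) (decomposition_valuation A (mem_decomposition_of_inertia A hτ))
      (fun z hz => inertia_sub A hτ hz)
      (by rw [baseChange_int_a₁]; exact map_intCast τ _)
      (by rw [baseChange_int_a₂]; exact map_intCast τ _)
      (by rw [baseChange_int_a₃]; exact map_intCast τ _)
      (by rw [baseChange_int_a₄]; exact map_intCast τ _)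
      (by rw [baseChange_int_a₆]; exact map_intCast τ _)
      (DistribSMul.toAddMonoidHom
        ((W.map (Int.castRingHom ℚ)).toAffine.baseChange Qb).Point τ)
      (fun x y h => ⟨_, rfl⟩)
    rw [hvΔ] at h3
    exact h3

include hΔ0 hp hp2 hc4 hΔ hA hζ in
/-- If the Kummer extension attached to a `p`-torsion point `x` outside of the kernel of reduction
is trivial or peu ramifiée then `p ∣ v_p(Δ)`. -/
theorem dvd_of_cases {α x : ((W.map (Int.castRingHom ℚ))⁄Qb).Point} (hα0 : α ≠ 0)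
    (hα : p • α = 0) (hαker : InKer A.valuation α) (hx : p • x = 0)
    (hxker : ¬ InKer A.valuation x)
    (hαI : ∀ σ ∈ A.inertiaSubgroupIn ℚ, σ • α ∈ AddSubgroup.zmultiples α)
    (H : (∃ i : ℤ, ∀ σ ∈ A.inertiaSubgroupIn ℚ, σ • (x + i • α) = x + i • α) ∨
      ∃ μ v' : Qb, μ ^ p = 1 + p * v' ∧ A.valuation v' = 1 ∧
        (∀ σ ∈ A.inertiaSubgroupIn ℚ, σ v' = v') ∧
        ∀ σ ∈ A.inertiaSubgroupIn ℚ, ∀ n : ℕ, σ μ = ζ ^ n * μ → σ • x = x + n • α) :
    p ∣ padicValInt p W.Δ := by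
  have I := inertialAction A hp hA
  have hvp : A.valuation (p : Qb) < 1 := A.mem_nonunits_iff.mp hA
  have hvp0 : 0 < A.valuation (p : Qb) := I.v_p_pos
  rcases H with ⟨i, hi⟩ | ⟨μ, v', hμ, hv', hfix, hσx⟩
  · have hx₁ : p • (x + i • α) = 0 := by
      rw [nsmul_add, hx, zero_add, ← natCast_zsmul, smul_comm, natCast_zsmul, hα, zsmul_zero]
    have hx₁ker : ¬ InKer A.valuation (x + i • α) := by
      intro h
      apply hxker
      have h1 : (x + i • α) - i • α ∈ kerSub W A :=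
        sub_mem (show x + i • α ∈ kerSub W A from h) (AddSubgroup.zsmul_mem _ hαker i)
      rw [add_sub_cancel_right] at h1
      exact h1
    obtain ⟨g, m, hg0, hgm, -, -, hdvd, hg⟩ :=
      exists_param_int W hΔ0 hp hc4 hΔ A hA hx₁ hx₁ker
    obtain ⟨s, hs⟩ := I.v_fixed g (fun σ => (hg σ.1 σ.2).1 (hi σ.1 σ.2)) hg0
    rw [hs, ← zpow_natCast, ← zpow_mul] at hgm
    have h1 := zpow_right_injective₀ hvp0 hvp.ne hgm
    exact hdvd ⟨s, by rw [← h1, mul_comm]⟩
  · by_contra hcon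
    obtain ⟨g, m, hg0, hgm, hpos, hlt, hdvd, hg⟩ :=
      exists_param_int W hΔ0 hp hc4 hΔ A hA hx hxker
    have hfix' : ∀ σ : A.inertiaSubgroupIn ℚ, σ • v' = v' := fun σ => hfix σ.1 σ.2
    have hT0 := I.v_t_pos hμ hv'
    have hT1 := I.v_t_lt hμ hv'
    have hTp := I.v_t_pow hμ hv'
    set T := A.valuation (μ - 1) with hTdef
    set n := padicValInt p W.Δ with hn
    have hvg : A.valuation g = T ^ ((n : ℤ) * m) := by
      have h1 : A.valuation g ^ p = (T ^ ((n : ℤ) * m)) ^ p := by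
        rw [hgm, ← hTp, ← zpow_natCast _ p, ← zpow_natCast _ p, ← zpow_mul, ← zpow_mul, mul_comm]
      exact (pow_left_inj₀ zero_le zero_le hp.ne_zero).mp h1
    have hndvd : ¬ (p : ℤ) ∣ (n : ℤ) * m := fun h => hcon (hdvd h)
    have hgfix : ∀ σ : A.inertiaSubgroupIn ℚ, σ • μ = μ → σ • g = g := by
      intro σ hσ
      refine (hg σ.1 σ.2).1 ?_
      have h1 := hσx σ.1 σ.2 0 (by rw [pow_zero, one_mul]; exact hσ)
      rwa [zero_nsmul, add_zero] at h1
    obtain ⟨σ, hσ⟩ := I.exists_smul_mu hζ hμ hv' hfix' 1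
    rw [pow_one] at hσ
    have hN := v_smul_div_sub_one I hζ hμ hv' hfix' hgfix hg0 hvg hndvd hσ
    have hσx1 : σ.1 • x = x + α := by
      have h1 := hσx σ.1 σ.2 1 (by rw [pow_one]; exact hσ)
      rwa [one_nsmul] at h1
    have hne : σ.1 • x ≠ x := by
      rw [hσx1]
      exact fun h => hα0 (add_eq_left.mp h)
    have hanti := zpow_right_strictAnti₀ hT0 hT1
    obtain ⟨f, hf1, hf2⟩ := (hg σ.1 σ.2).2 T hne (by
        rw [hvg]
        have h1 := hanti.le_iff_ge (a := (n : ℤ) * m) (b := 1)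
        rw [zpow_one] at h1
        exact h1.mpr (by omega)) (by
        rw [hvg, ← hTp, ← pow_mul, ← zpow_natCast T (p * n)]
        have h1 : T * T ^ ((n : ℤ) * m) = T ^ (1 + (n : ℤ) * m) := by
          rw [zpow_add₀ hT0.ne', zpow_one]
        rw [h1]
        refine hanti.le_iff_ge.mpr ?_
        push_cast
        have h2 : (n : ℤ) * p = (p : ℤ) * n := mul_comm _ _
        omega) hT1
    rw [hσx1, add_sub_cancel_left] at hf1
    have hint := intCoeff_baseChange_int (L := Qb) W A.valuation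
    have hz := v_zc_sq hint hαker hα0
    have hzp := v_zc_pow hΔ0 hp hp2 A hA hα0 hα hαker hαI
    have hρ0 : 0 < A.valuation (ζ - 1) := by
      rw [Valuation.pos_iff]; exact zeta_sub_one_ne_zero hp hζ
    have hp1 : p - 1 ≠ 0 := by have := hp.one_lt; omega
    have hzρ : A.valuation (zc α) = A.valuation (ζ - 1) := by
      have h1 : A.valuation (zc α) ^ (p - 1) = A.valuation (ζ - 1) ^ (p - 1) := by
        rw [hzp, v_zeta_sub_one_pow hp hζ]
      exact (pow_left_inj₀ zero_le zero_le hp1).mp h1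
    have hpx0 : A.valuation (px α) ≠ 0 := (zero_lt_one.trans (one_lt_v_px hαker hα0)).ne'
    have hf3 : A.valuation (f - 1) = A.valuation (ζ - 1) := by
      rw [← hzρ]
      exact (pow_left_inj₀ zero_le zero_le two_ne_zero).mp
        (mul_right_cancel₀ hpx0 (hf1.trans hz.symm))
    have hle : A.valuation (σ.1 g / g - 1) ≤ max T (A.valuation (ζ - 1)) := by
      have e : σ.1 g / g - 1 = (f - 1) - (f - σ.1 g / g) := by ring
      rw [e]
      refine (A.valuation.map_sub _ _).trans ?_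
      rw [hf3, max_comm]
      exact max_le_max_right _ hf2
    have hN' : A.valuation (σ.1 g / g - 1) * T = A.valuation (ζ - 1) := hN
    have hmul : A.valuation (ζ - 1) ≤ max T (A.valuation (ζ - 1)) * T :=
      hN'.symm.le.trans (mul_le_mul_left hle T)
    -- `ρ > T ^ 2` and `ρ > ρ T`
    have hT2 : T * T < A.valuation (ζ - 1) := by
      have h1 : (T * T) ^ (p - 1) < A.valuation (ζ - 1) ^ (p - 1) := by
        rw [v_zeta_sub_one_pow hp hζ, ← hTp, ← sq, ← pow_mul]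
        exact pow_lt_pow_right_of_lt_one₀ hT0 hT1 (by have := hp.two_le; omega)
      exact lt_of_pow_lt_pow_left₀ _ zero_le h1
    have hρT : A.valuation (ζ - 1) * T < A.valuation (ζ - 1) := by
      calc A.valuation (ζ - 1) * T < A.valuation (ζ - 1) * 1 := mul_lt_mul_of_pos_left hT1 hρ0
        _ = A.valuation (ζ - 1) := mul_one _
    rcases max_cases T (A.valuation (ζ - 1)) with ⟨h1, -⟩ | ⟨h1, -⟩
    · rw [h1] at hmul
      exact absurd hmul (not_le.mpr hT2)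
    · rw [h1] at hmul
      exact absurd hmul (not_le.mpr hρT)

end Dvd

section Tau

open Fermat.Agent.RT.PStep

variable (W : WeierstrassCurve ℤ) (hΔ0 : W.Δ ≠ 0) {p : ℕ} (hp : p.Prime) (hp2 : p ≠ 2)
  (hc4 : ¬ (p : ℤ) ∣ W.c₄) (hΔ : (p : ℤ) ∣ W.Δ)
  (A : ValuationSubring Qb) (hA : A.LiesOverPrime p) {τ : Qb ≃ₐ[ℚ] Qb} (hτ : IsTau A p τ)

include hΔ0 hp hc4 hΔ hA in
/-- The standard data at a multiplicative prime: a generator `α` of `E₁[p]`. -/
theorem exists_mult_data {ζ : Qb} (hζ : IsPrimitiveRoot ζ p) :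
    ∃ α : ((W.map (Int.castRingHom ℚ))⁄Qb).Point, α ≠ 0 ∧ p • α = 0 ∧ InKer A.valuation α ∧
      (∀ P, InKer A.valuation P → p • P = 0 → P ∈ AddSubgroup.zmultiples α) ∧
      (∀ σ ∈ A.inertiaSubgroupIn ℚ, ∀ n : ℕ, σ ζ = ζ ^ n → σ • α = n • α) ∧
      (∀ σ ∈ A.inertiaSubgroupIn ℚ, σ • α ∈ AddSubgroup.zmultiples α) ∧
      ∀ x, p • x = 0 → ∀ σ ∈ A.inertiaSubgroupIn ℚ, σ • x - x ∈ AddSubgroup.zmultiples α := by
  obtain ⟨α, hα0, hαker, hα, hgen⟩ := exists_alpha W hΔ0 hp hc4 hΔ A hA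
  have h1 : ∀ x, p • x = 0 → ∀ σ ∈ A.inertiaSubgroupIn ℚ,
      σ • x - x ∈ AddSubgroup.zmultiples α := by
    intro x hx σ hσ
    refine hgen _ (smul_sub_inKer W hΔ0 hp (fun _ => hc4) A hA hσ hx) ?_
    rw [nsmul_sub, hx, sub_zero, nsmul_smul', hx, smul_zero']
  have h2 : ∀ σ ∈ A.inertiaSubgroupIn ℚ, σ • α ∈ AddSubgroup.zmultiples α := by
    intro σ hσ
    have h3 := add_mem (h1 α hα σ hσ) (AddSubgroup.mem_zmultiples α)
    rwa [sub_add_cancel] at h3
  refine ⟨α, hα0, hα, hαker, hgen, fun σ hσ n hn => ?_, h2, h1⟩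
  exact smul_alpha_of_trivial hΔ0 hp hζ hα0 hα (h2 σ hσ) (fun P hP => h1 P hP σ hσ) hn

omit W in
include hp hA hτ in
/-- `τ` fixes the point `x` if the attached Kummer extension is trivial or peu ramifiée. -/
lemma tau_smul_of_cases {W : WeierstrassCurve ℤ} {ζ : Qb} (hζ : IsPrimitiveRoot ζ p)
    {α x : ((W.map (Int.castRingHom ℚ))⁄Qb).Point}
    (hχα : ∀ σ ∈ A.inertiaSubgroupIn ℚ, ∀ n : ℕ, σ ζ = ζ ^ n → σ • α = n • α)
    (H : (∃ i : ℤ, ∀ σ ∈ A.inertiaSubgroupIn ℚ, σ • (x + i • α) = x + i • α) ∨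
      ∃ μ v' : Qb, μ ^ p = 1 + p * v' ∧ A.valuation v' = 1 ∧
        (∀ σ ∈ A.inertiaSubgroupIn ℚ, σ v' = v') ∧
        ∀ σ ∈ A.inertiaSubgroupIn ℚ, ∀ n : ℕ, σ μ = ζ ^ n * μ → σ • x = x + n • α) :
    τ • x = x := by
  have I := inertialAction A hp hA
  have hτζ : τ ζ = ζ := hτ.fix ζ (root_of_pow_eq_one hp (n := 1) (by
    rw [pow_one]; exact hζ.pow_eq_one))
  rcases H with ⟨i, hi⟩ | ⟨μ, v', hμ, hv', hfix, hσx⟩
  · have h1 := hi τ hτ.mem
    have h2 : τ • α = α := by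
      have h3 := hχα τ hτ.mem 1 (by rw [pow_one]; exact hτζ)
      rwa [one_nsmul] at h3
    have h3 : τ • (i • α) = i • α := by
      have h4 : τ • (i • α) = i • τ • α :=
        map_zsmul (DistribSMul.toAddMonoidHom ((W.map (Int.castRingHom ℚ))⁄Qb).Point τ) i α
      rw [h4, h2]
    rw [smul_add', h3] at h1
    exact add_right_cancel h1
  · have hvμ := I.v_mu hμ hv'
    have hμ0 : μ ≠ 0 := by
      rintro rfl
      rw [map_zero] at hvμ
      exact zero_ne_one hvμ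
    have h1 : τ μ = μ := by
      refine hτ.fix μ (root_of_valuation hμ0 (n := 1) ?_ hvμ)
      intro σ hσ
      rw [pow_one, hμ, map_add, map_one, map_mul, map_natCast, hfix σ hσ]
    have h2 := hσx τ hτ.mem 0 (by rw [pow_zero, one_mul]; exact h1)
    rwa [zero_nsmul, add_zero] at h2

omit W in
include hp hA hτ in
/-- `τ` moves très ramifiée Kummer generators. -/
lemma tau_ne_of_tres {μ : Qb} (hμ0 : μ ≠ 0)
    (hμp : ∀ σ ∈ A.inertiaSubgroupIn ℚ, σ (μ ^ p) = μ ^ p)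
    (hvμ : A.valuation μ ^ p = A.valuation (p : Qb)) : τ μ ≠ μ := by
  intro h
  have I := inertialAction A hp hA
  obtain ⟨j, hj⟩ := hτ.exists_valuation_eq_one hp hA hμ0 (n := 1)
    (by rw [pow_one]; exact fun σ hσ => hμp σ hσ) h
  have hvp0 := I.v_p_pos
  have hvp := I.v_p_lt
  have h1 : (A.valuation (μ * (p : Qb) ^ j)) ^ p = A.valuation (p : Qb) ^ (1 + j * p) := by
    rw [map_mul, mul_pow, hvμ, map_zpow₀, ← zpow_natCast (A.valuation (p : Qb) ^ j) p, ← zpow_mul,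
      zpow_add₀ hvp0.ne', zpow_one]
  rw [hj, one_pow, ← zpow_zero (A.valuation (p : Qb))] at h1
  have h2 := zpow_right_injective₀ hvp0 hvp.ne h1
  have h3 : (p : ℤ) ∣ 1 := ⟨-j, by linear_combination -h2⟩
  have h4 : p ∣ 1 := by exact_mod_cast h3
  exact hp.one_lt.ne' (Nat.dvd_one.mp h4)

include hΔ0 hp hp2 hc4 hΔ hA hτ in
/-- **(1)** If `p ∣ v_p(Δ)` then `τ` acts trivially on `E[p]`. -/
theorem tau_smul_eq (hdvd : p ∣ padicValInt p W.Δ)
    {x : ((W.map (Int.castRingHom ℚ))⁄Qb).Point} (hx : p • x = 0) : τ • x = x := by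
  have hne' : NeZero p := ⟨hp.ne_zero⟩
  have hne : NeZero ((p : ℕ) : Qb) := ⟨Nat.cast_ne_zero.mpr hp.ne_zero⟩
  obtain ⟨ζ, hζ⟩ := HasEnoughRootsOfUnity.exists_primitiveRoot Qb p
  obtain ⟨α, hα0, hα, hαker, hgen, hχα, hαI, hj⟩ :=
    exists_mult_data W hΔ0 hp hc4 hΔ A hA hζ
  exact tau_smul_of_cases hp A hA hτ hζ hχα
    (peu_ramifiee W hΔ0 hp hp2 (fun _ => hc4) hdvd A hA hζ hα0 hα hx hχα (hj x hx))

include hΔ0 hp hp2 hc4 hΔ hA hτ in
/-- **(2)** If `p ∤ v_p(Δ)` then `τ` moves every `p`-torsion point which is not in the kernel of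
reduction. -/
theorem tau_smul_ne (hdvd : ¬ p ∣ padicValInt p W.Δ)
    {x : ((W.map (Int.castRingHom ℚ))⁄Qb).Point} (hx : p • x = 0)
    (hxker : ¬ InKer A.valuation x) : τ • x ≠ x := by
  have hne' : NeZero p := ⟨hp.ne_zero⟩
  have hne : NeZero ((p : ℕ) : Qb) := ⟨Nat.cast_ne_zero.mpr hp.ne_zero⟩
  obtain ⟨ζ, hζ⟩ := HasEnoughRootsOfUnity.exists_primitiveRoot Qb p
  obtain ⟨α, hα0, hα, hαker, hgen, hχα, hαI, hj⟩ :=
    exists_mult_data W hΔ0 hp hc4 hΔ A hA hζ
  rcases kummer_cases W hp hp2 A hA hζ hα0 hα hχα (hj x hx) with h | h | ⟨μ, hμ0, hμp, hvμ, hst⟩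
  · exact absurd (dvd_of_cases W hΔ0 hp hp2 hc4 hΔ A hA hζ hα0 hα hαker hx hxker hαI
      (Or.inl h)) hdvd
  · exact absurd (dvd_of_cases W hΔ0 hp hp2 hc4 hΔ A hA hζ hα0 hα hαker hx hxker hαI
      (Or.inr h)) hdvd
  · intro h
    exact tau_ne_of_tres hp A hA hτ hμ0 hμp hvμ ((hst τ hτ.mem).mpr h)

include hΔ0 hp hp2 hc4 hΔ hA hτ in
/-- **`τ` acts trivially on `E[p]` if and only if `p ∣ v_p(Δ)`** (`p` odd prime of multiplicative
reduction). -/
theorem tau_fixes_iff :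
    (∀ x : ((W.map (Int.castRingHom ℚ))⁄Qb).Point, p • x = 0 → τ • x = x) ↔
      p ∣ padicValInt p W.Δ := by
  constructor
  · intro h
    by_contra hcon
    obtain ⟨x, hx, hxker⟩ := exists_not_inKer' W hΔ0 hp hc4 hΔ A hA
    exact tau_smul_ne W hΔ0 hp hp2 hc4 hΔ A hA hτ hcon hx hxker (h x hx)
  · intro h x hx
    exact tau_smul_eq W hΔ0 hp hp2 hc4 hΔ A hA hτ h hx

end Tau

end Fermat.Agent.LOC.TauTorsion
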