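import Fermat.Agent.LOC.TauTorsion
import Fermat.Agent.FlatModel.Adic
import Fermat.Agent.EllFlat.GoodFlat
import Fermat.Prelude.Def_GaloisRep_Residual

/-! # `E[p]` is flat at `p` if `p ∣ v_p(Δ)` -/

set_option autoImplicit false

namespace Fermat.Agent.LOC.TauTorsion

open WeierstrassCurve WeierstrassCurve.Affine Fermat.Agent.ECRed Fermat.Agent.LOC.TateHom
open Fermat.Agent.LOC.PeuMain Fermat.Agent.RT.PStep
open scoped WeierstrassCurve.Affine

local notation "Qb" => AlgebraicClosure ℚ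
local notation "GQ" => (AlgebraicClosure ℚ ≃ₐ[ℚ] AlgebraicClosure ℚ)

/-- A representation over a finite field is flat if its space has a flat model. -/
theorem isFlatAt_of_hasFlatModel {k : Type} [Field k] [Finite k] {p : ℕ} (ρ : GaloisRepAdic k)
    (hfin : Finite ρ.V) {act : GQ →* AddMonoid.End ρ.V} (h : FlatModel.HasFlatModel p act)
    (hact : ∀ σ v, act σ v = ρ.ρ σ v := by intros; rfl) : ρ.IsFlatAt p := by
  rw [FlatModel.isFlatAt_iff]
  refine ⟨?_, fun I _ => ?_⟩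
  · exact Finite.of_surjective (IsLocalRing.residue k) IsLocalRing.residue_surjective
  · refine h.of_surjective (Submodule.mkQ (I • (⊤ : Submodule k ρ.V))).toAddMonoidHom
      (Submodule.mkQ_surjective _) fun σ m => ?_
    rw [hact]
    rfl

section

variable (W : WeierstrassCurve ℤ) (hΔ0 : W.Δ ≠ 0) {p : ℕ} (hp : p.Prime) (hp2 : p ≠ 2)

/-- The Galois action on `E[n]` by additive endomorphisms. -/
noncomputable def torAct (n : ℕ) :
    GQ →* AddMonoid.End (Submodule.torsionBy ℤ ((W.map (Int.castRingHom ℚ))⁄Qb).Point n) :=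
  DistribMulAction.toAddMonoidEnd GQ _

lemma torAct_apply (n : ℕ) (σ : GQ)
    (x : Submodule.torsionBy ℤ ((W.map (Int.castRingHom ℚ))⁄Qb).Point n) :
    torAct W n σ x = σ • x := rfl

lemma coe_torsion_smul (n : ℕ) (σ : GQ)
    (x : Submodule.torsionBy ℤ ((W.map (Int.castRingHom ℚ))⁄Qb).Point n) :
    ((σ • x : Submodule.torsionBy ℤ ((W.map (Int.castRingHom ℚ))⁄Qb).Point n) :
      ((W.map (Int.castRingHom ℚ))⁄Qb).Point) = σ • x.1 := rfl

lemma nsmul_coe_torsion (n : ℕ)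
    (x : Submodule.torsionBy ℤ ((W.map (Int.castRingHom ℚ))⁄Qb).Point n) :
    n • (x : ((W.map (Int.castRingHom ℚ))⁄Qb).Point) = 0 := by
  have := (Submodule.mem_torsionBy_iff (n : ℤ) x.1).1 x.2
  rwa [Nat.cast_smul_eq_nsmul] at this

include hΔ0 hp in
/-- `E[p]` is an ordinary module at a multiplicative place. -/
theorem ordMod_torsion (hc4 : ¬ (p : ℤ) ∣ W.c₄) (hΔ : (p : ℤ) ∣ W.Δ)
    (A : ValuationSubring Qb) (hA : A.LiesOverPrime p) :
    ∃ L, OrdMod (torAct W p) A p 1 L := by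
  have hne' : NeZero p := ⟨hp.ne_zero⟩
  have hne : NeZero ((p : ℕ) : Qb) := ⟨Nat.cast_ne_zero.mpr hp.ne_zero⟩
  obtain ⟨ζ, hζ⟩ := HasEnoughRootsOfUnity.exists_primitiveRoot Qb p
  obtain ⟨α, hα0, hα, hαker, hgen, hχα, hαI, hj⟩ :=
    exists_mult_data W hΔ0 hp hc4 hΔ A hA hζ
  refine ⟨(AddSubgroup.zmultiples α).comap
    (Submodule.torsionBy ℤ ((W.map (Int.castRingHom ℚ))⁄Qb).Point p).subtype.toAddMonoidHom,
    ?_, ?_, ?_, ?_⟩
  · intro l _
    rw [pow_one]
    exact Subtype.ext (nsmul_coe_torsion W p l)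
  · intro σ hσ m
    exact hj m.1 (nsmul_coe_torsion W p m) σ hσ
  · intro σ hσ a ha l hl
    obtain ⟨k, hk⟩ := AddSubgroup.mem_zmultiples_iff.mp hl
    have h1 : σ • α = a • α := hχα σ hσ a (ha ζ (by rw [pow_one]; exact hζ.pow_eq_one))
    apply Subtype.ext
    have h2 : σ • (k • α) = k • σ • α :=
      map_zsmul (DistribSMul.toAddMonoidHom ((W.map (Int.castRingHom ℚ))⁄Qb).Point σ) k α
    have h3 : σ • l.1 = a • l.1 := by
      have h4 : l.1 = k • α := hk.symm
      rw [h4, h2, h1, ← natCast_zsmul, ← natCast_zsmul, smul_comm]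
    exact h3
  · intro m
    refine ⟨IntermediateField.adjoin ℚ (EllTorsion.coords m.1), ?_, fun σ hσ => ?_⟩
    · have := (EllTorsion.finite_coords m.1).to_subtype
      have hac := EllTorsion.isAlgClosure_rat
      have : Algebra.IsAlgebraic ℚ Qb := hac.isAlgebraic
      exact IntermediateField.finiteDimensional_adjoin fun y _ ↦ Algebra.IsIntegral.isIntegral y
    · apply Subtype.ext
      exact EllTorsion.smul_eq_self_of_coords σ m.1 fun y hy =>
        hσ y (IntermediateField.subset_adjoin ℚ _ hy)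

include hΔ0 hp hp2 in
/-- **`E[p]` has a finite flat model over `ℤ₍ₚ₎` if `p ∣ v_p(Δ)`**, at a prime `p` of
multiplicative reduction. -/
theorem hasFlatModel_torsion_mult (hc4 : ¬ (p : ℤ) ∣ W.c₄) (hΔ : (p : ℤ) ∣ W.Δ)
    (hdvd : p ∣ padicValInt p W.Δ) : FlatModel.HasFlatModel p (torAct W p) := by
  obtain ⟨A, hA⟩ := FrobExists.exists_liesOverPrime Qb hp
  obtain ⟨τ, hτ⟩ := exists_isTau hp hp2 hA
  obtain ⟨L, hL⟩ := ordMod_torsion W hΔ0 hp hc4 hΔ A hA
  have hell := isElliptic_baseChange' W hΔ0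
  have hfin : Finite (Submodule.torsionBy ℤ ((W.map (Int.castRingHom ℚ))⁄Qb).Point p) :=
    EllTorsion.finite_torsionBy (K := Qb) (W' := W.map (Int.castRingHom ℚ)) hp.ne_zero
  exact hL.isFlatModel hp hA hτ fun m => Subtype.ext
    (tau_smul_eq W hΔ0 hp hp2 hc4 hΔ A hA hτ hdvd (nsmul_coe_torsion W p m))

include hΔ0 hp hp2 in
/-- **`E[p]` has a finite flat model over `ℤ₍ₚ₎` if `p ∣ v_p(Δ)`** (`W` semistable at `p`). -/
theorem hasFlatModel_torsion (hss : (p : ℤ) ∣ W.Δ → ¬ (p : ℤ) ∣ W.c₄)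
    (hdvd : p ∣ padicValInt p W.Δ) : FlatModel.HasFlatModel p (torAct W p) := by
  by_cases hΔ : (p : ℤ) ∣ W.Δ
  · exact hasFlatModel_torsion_mult W hΔ0 hp hp2 (hss hΔ) hΔ hdvd
  · have h := EllFlat.isFlatModel_torsion_of_int hp W hΔ 1
    rw [pow_one] at h
    exact h

include hΔ0 hp hp2 in
/-- **The residual representation on `E[p]` is flat at `p` if `p ∣ v_p(Δ)`** (`W` semistable
at `p`, `p` odd). -/
theorem residual_isFlatAt [Fact p.Prime] (hss : (p : ℤ) ∣ W.Δ → ¬ (p : ℤ) ∣ W.c₄)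
    (hdvd : p ∣ padicValInt p W.Δ)
    (hcard : Nat.card (Submodule.torsionBy ℤ
      ((W.map (Int.castRingHom ℚ))⁄(AlgebraicClosure ℚ)).Point p) = p ^ 2)
    (hker : GaloisFactorsThroughFiniteLevel
      (WeierstrassCurve.Affine.Point.galoisRepModuleEnd (K := AlgebraicClosure ℚ) ℚ
        (W.map (Int.castRingHom ℚ)) p)) :
    (GaloisRepAdic.ofResidualGaloisRep
      ((W.map (Int.castRingHom ℚ)).residualGaloisRepOf p hcard hker)).IsFlatAt p := by
  have hfin : Finite (Submodule.torsionBy ℤ ((W.map (Int.castRingHom ℚ))⁄Qb).Point p) :=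
    Nat.finite_of_card_ne_zero (hcard ▸ pow_ne_zero 2 hp.ne_zero)
  refine isFlatAt_of_hasFlatModel (k := ZMod p) _ ?_ (hasFlatModel_torsion W hΔ0 hp hp2 hss hdvd)
  exact hfin

end

end Fermat.Agent.LOC.TauTorsion
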