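import Fermat.Agent.LOC.TateForm

/-! # Galois action and the Tate parameter (abstract form) -/

set_option autoImplicit false

namespace Fermat.Agent.LOC

open WeierstrassCurve WeierstrassCurve.Affine Fermat.Agent.ECRed Fermat.Agent.LOC.TatePhi
open Fermat.Agent.LOC.TateHom

variable {K Γ₀ : Type*} [Field K] [LinearOrderedCommGroupWithZero Γ₀] {v : Valuation K Γ₀}
variable {W : WeierstrassCurve K} {c : K}

section Qmap

variable (σ : K →+* K) (hσ : ∀ z, v (σ z) = v z) (hc : σ c = c)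

include hσ hc in
lemma H_le_comap : H v c ≤ (H v c).comap (Units.map (σ : K →* K)) := by
  rintro u ⟨n, w, hw, hu⟩
  refine ⟨n, Units.map (σ : K →* K) w, ?_, ?_⟩
  · rw [mem_oneUnits] at hw ⊢
    have : ((Units.map (σ : K →* K) w : Kˣ) : K) - 1 = σ ((w : K) - 1) := by
      simp
    rw [this, hσ]; exact hw
  · have : ((Units.map (σ : K →* K) u : Kˣ) : K) = σ (u : K) := rfl
    rw [this, hu, map_mul, map_zpow₀, map_neg, hc]
    rfl

/-- The action of an isometry fixing `c` on `K^× / ⟨-c⟩ (1 + 𝔪)`. -/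
noncomputable def qmap : Q v c →* Q v c :=
  QuotientGroup.map (H v c) (H v c) (Units.map (σ : K →* K)) (H_le_comap σ hσ hc)

lemma qmap_cls {a : K} (ha : a ≠ 0) : qmap σ hσ hc (cls v c a) = cls v c (σ a) := by
  have ha' : σ a ≠ 0 := (map_ne_zero σ).mpr ha
  rw [cls_of_ne ha, cls_of_ne ha']
  change QuotientGroup.mk (Units.map (σ : K →* K) (Units.mk0 a ha)) = _
  congr 1
  ext; rfl

variable [DecidableEq K]

lemma phi_map (hc1 : v c < 1) (hc0 : c ≠ 0)
    (s : (nf c).toAffine.Point →+ (nf c).toAffine.Point)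
    (hs : ∀ x y h, ∃ h', s (.some x y h) = .some (σ x) (σ y) h') (P : (nf c).toAffine.Point) :
    phi hc1 hc0 (s P) = Additive.ofMul (qmap σ hσ hc (Additive.toMul (phi hc1 hc0 P))) := by
  rcases P with _ | ⟨x, y, h⟩
  · change phi hc1 hc0 (s 0) = Additive.ofMul (qmap σ hσ hc (Additive.toMul (phi hc1 hc0 0)))
    rw [map_zero, map_zero, toMul_zero, map_one, ofMul_one]
  · obtain ⟨h', e⟩ := hs x y h
    have p := isPhi_rep v c x y
    have hne := p.ne_zero hc1 hc0 (nf_equation.mp h.1)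
    rw [e, phi_some hc1 hc0 h' (IsPhi_map hσ hc p), phi_some hc1 hc0 h p, toMul_ofMul,
      qmap_cls σ hσ hc hne]

end Qmap

section Main

variable [DecidableEq K] [IsAlgClosed K]

/-- **The `p^n`-torsion of the kernel of reduction has order `p^n`** (residue characteristic `p`,
multiplicative reduction). -/
theorem card_inKer_torsion (h2 : (2 : K) ≠ 0) (h3 : (3 : K) ≠ 0)
    (hI : IntCoeff v W) (hc4 : v W.c₄ = 1) (hΔ : v W.Δ < 1) (hΔ0 : W.Δ ≠ 0) {p : ℕ} (hp : p.Prime)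
    (hvp : v (p : K) < 1) (hp0 : (p : K) ≠ 0) (n : ℕ) :
    Nat.card {P : W.toAffine.Point // InKer v P ∧ p ^ n • P = 0} = p ^ n := by
  obtain ⟨x₀, y₀, α, β, h⟩ := exists_nodeCentre_of_Δ h2 h3 hI hc4 hΔ
  refine Eq.trans ?_ (card_and_exists_p h.v_c_lt_one (h.c_ne_zero hΔ0) hp hvp hp0 n).1
  refine Nat.card_congr (h.equiv.toEquiv.subtypeEquiv fun P => ?_)
  refine and_congr (h.inKer_equiv_iff P).symm ?_
  change _ ↔ p ^ n • h.equiv P = 0
  rw [← map_nsmul, EmbeddingLike.map_eq_zero_iff]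

/-- **The decomposition group acts on `p`-power torsion modulo the kernel of reduction by a sign**
(trivial on inertia): residue characteristic `p`, multiplicative reduction. -/
theorem exists_sign (h2 : (2 : K) ≠ 0) (h3 : (3 : K) ≠ 0)
    (hI : IntCoeff v W) (hc4 : v W.c₄ = 1) (hΔ : v W.Δ < 1) (hΔ0 : W.Δ ≠ 0) {p : ℕ} (hp : p.Prime)
    (hvp : v (p : K) < 1) (σ : K →+* K) (hσ : ∀ z, v (σ z) = v z)
    (h₁ : σ W.a₁ = W.a₁) (h₂ : σ W.a₂ = W.a₂) (h₃ : σ W.a₃ = W.a₃) (h₄ : σ W.a₄ = W.a₄)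
    (h₆ : σ W.a₆ = W.a₆) (s : W.toAffine.Point →+ W.toAffine.Point)
    (hs : ∀ x y h, ∃ h', s (.some x y h) = .some (σ x) (σ y) h') :
    ∃ ε : ℤ, ε * ε = 1 ∧ ((∀ z, v z ≤ 1 → v (σ z - z) < 1) → ε = 1) ∧
      ∀ (n : ℕ) (P : W.toAffine.Point), p ^ n • P = 0 → InKer v (s P - ε • P) := by
  obtain ⟨x₀, y₀, α, β, h⟩ := exists_nodeCentre_of_Δ h2 h3 hI hc4 hΔ
  obtain ⟨ε, hε, hε1, s', hs', he⟩ := h.equiv_equivariant h2 σ hσ h₁ h₂ h₃ h₄ h₆ s hs
  have hc := h.map_c h2 σ hσ h₁ h₂ h₃ h₄ h₆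
  have hc1 := h.v_c_lt_one
  have hc0 := h.c_ne_zero hΔ0
  refine ⟨ε, hε, hε1, fun n P hP => ?_⟩
  rw [← h.inKer_equiv_iff, map_sub, he, map_zsmul, ← smul_sub, ← phi_eq_zero_iff hc1 hc0, map_zsmul,
    map_sub, phi_map σ hσ hc hc1 hc0 s' hs']
  have hQ : p ^ n • h.equiv P = 0 := by rw [← map_nsmul, hP, map_zero]
  obtain ⟨t, ht⟩ := IsAlgClosed.exists_pow_nat_eq (-tateC W x₀ y₀ α β) (pow_pos hp.pos n)
  have hpn : p ^ n ≠ 0 := pow_ne_zero n hp.ne_zero
  have ht0 := root_ne_zero hc0 hpn ht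
  have hq : (Additive.toMul (phi hc1 hc0 (h.equiv P))) ^ p ^ n = 1 := by
    have := congrArg (phi hc1 hc0) hQ
    rw [map_nsmul, map_zero] at this
    exact this
  obtain ⟨j, hj⟩ := exists_zpow_of_pow_eq_one hc0 hp hvp ht hq
  have hfix : cls v (tateC W x₀ y₀ α β) (σ t) = cls v (tateC W x₀ y₀ α β) t := by
    have hσt0 : σ t ≠ 0 := (map_ne_zero σ).mpr ht0
    have e1 : (σ t / t) ^ p ^ n = 1 := by
      rw [div_pow, ← map_pow, ht, map_neg, hc, div_self (neg_ne_zero.mpr hc0)]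
    have e2 : v (σ t / t - 1) < 1 :=
      v_sub_one_lt_of_pow_pow hp hvp n (by rw [e1, sub_self, map_zero]; exact one_pos)
    have e3 := cls_eq_one_of_sub_one (c := tateC W x₀ y₀ α β) e2
    rw [cls_div hσt0 ht0] at e3
    exact div_eq_one.mp e3
  have hfin : qmap σ hσ hc (Additive.toMul (phi hc1 hc0 (h.equiv P))) =
      Additive.toMul (phi hc1 hc0 (h.equiv P)) := by
    rw [hj, map_zpow, qmap_cls σ hσ hc ht0, hfix]
  rw [hfin, ofMul_toMul, sub_self, smul_zero]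

/-- **Unramifiedness**: if `v Δ` is an `n`-th power of `v b` with `b` fixed up to `1`-units, then
the `n`-torsion (with `v n = 1`) is fixed by inertia. -/
theorem fixed_of_dvd (h2 : (2 : K) ≠ 0) (h3 : (3 : K) ≠ 0)
    (hI : IntCoeff v W) (hc4 : v W.c₄ = 1) (hΔ : v W.Δ < 1) (hΔ0 : W.Δ ≠ 0) {n : ℕ}
    (hvn : v (n : K) = 1) (σ : K →+* K) (hσ : ∀ z, v (σ z) = v z)
    (hin : ∀ z, v z ≤ 1 → v (σ z - z) < 1)
    (h₁ : σ W.a₁ = W.a₁) (h₂ : σ W.a₂ = W.a₂) (h₃ : σ W.a₃ = W.a₃) (h₄ : σ W.a₄ = W.a₄)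
    (h₆ : σ W.a₆ = W.a₆) (s : W.toAffine.Point →+ W.toAffine.Point)
    (hs : ∀ x y h, ∃ h', s (.some x y h) = .some (σ x) (σ y) h') {b : K} (hσb : σ b = b)
    (hb : v b ^ n = v W.Δ) {P : W.toAffine.Point} (hP : n • P = 0) : s P = P := by
  obtain ⟨x₀, y₀, α, β, h⟩ := exists_nodeCentre_of_Δ h2 h3 hI hc4 hΔ
  obtain ⟨ε, -, hε1, s', hs', he⟩ := h.equiv_equivariant h2 σ hσ h₁ h₂ h₃ h₄ h₆ s hs
  have hε := hε1 hin
  subst hε
  have hc := h.map_c h2 σ hσ h₁ h₂ h₃ h₄ h₆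
  have hc1 := h.v_c_lt_one
  have hc0 := h.c_ne_zero hΔ0
  have hn0 : n ≠ 0 := by rintro rfl; simp at hvn
  have key : InKer v (s P - P) := by
    rw [← h.inKer_equiv_iff, map_sub, he, one_smul, ← phi_eq_zero_iff hc1 hc0,
      map_sub, phi_map σ hσ hc hc1 hc0 s' hs']
    have hQ : n • h.equiv P = 0 := by rw [← map_nsmul, hP, map_zero]
    obtain ⟨t, ht⟩ := IsAlgClosed.exists_pow_nat_eq (-tateC W x₀ y₀ α β) (Nat.pos_of_ne_zero hn0)
    have ht0 := root_ne_zero hc0 hn0 ht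
    have hq : (Additive.toMul (phi hc1 hc0 (h.equiv P))) ^ n = 1 := by
      have := congrArg (phi hc1 hc0) hQ
      rw [map_nsmul, map_zero] at this
      exact this
    obtain ⟨u, hu, hu0, j, hj⟩ := exists_of_pow_eq_one hc0 hn0 ht hq
    -- units are fixed
    have hunit : ∀ a : K, v a = 1 → cls v (tateC W x₀ y₀ α β) (σ a) =
        cls v (tateC W x₀ y₀ α β) a := by
      intro a ha
      have ha0 : a ≠ 0 := by rw [← Valuation.pos_iff (v := v), ha]; exact one_pos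
      exact cls_eq_of_near (hin a ha.le) ha0 (by rw [Near, ha, mul_one])
    have hvu : v u = 1 := by
      have h1 : v (u ^ n) = 1 := by
        have := v.map_one_add_of_lt hu
        rwa [add_sub_cancel] at this
      rw [map_pow] at h1
      exact (pow_eq_one_iff_of_nonneg zero_le hn0).mp h1
    have hvt : v t = v b := by
      have : v t ^ n = v b ^ n := by
        rw [hb, ← h.v_c_eq, ← map_pow, ht, Valuation.map_neg]
      exact (pow_left_inj₀ zero_le zero_le hn0).mp this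
    have hb0 : b ≠ 0 := by
      rw [← Valuation.pos_iff (v := v), ← hvt, Valuation.pos_iff]; exact ht0
    have hfix : cls v (tateC W x₀ y₀ α β) (σ t) = cls v (tateC W x₀ y₀ α β) t := by
      have e1 := hunit (t / b) (by
        rw [map_div₀, hvt, div_self ((Valuation.ne_zero_iff v).mpr hb0)])
      rw [map_div₀, hσb, cls_div ((map_ne_zero σ).mpr ht0) hb0, cls_div ht0 hb0] at e1
      exact div_left_injective e1
    have hfin : qmap σ hσ hc (Additive.toMul (phi hc1 hc0 (h.equiv P))) =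
        Additive.toMul (phi hc1 hc0 (h.equiv P)) := by
      rw [hj, map_mul, map_zpow, qmap_cls σ hσ hc ht0, qmap_cls σ hσ hc hu0, hfix, hunit u hvu]
    rw [hfin, ofMul_toMul, sub_self]
  have h0 := ker_torsion_free hI key hvn (by rw [smul_sub, ← map_nsmul, hP, map_zero, sub_self])
  exact sub_eq_zero.mp h0

/-- **The converse**: if an element of inertia fixes the `n`-torsion, then it fixes an `n`-th root
of `-c`, where `v c = v Δ`. -/
theorem exists_root_fixed (h2 : (2 : K) ≠ 0) (h3 : (3 : K) ≠ 0)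
    (hI : IntCoeff v W) (hc4 : v W.c₄ = 1) (hΔ : v W.Δ < 1) (hΔ0 : W.Δ ≠ 0) {n : ℕ}
    (hvn : v (n : K) = 1) : ∃ t : K, v t ^ n = v W.Δ ∧
    ∀ (σ : K →+* K) (_ : ∀ z, v (σ z) = v z) (_ : ∀ z, v z ≤ 1 → v (σ z - z) < 1)
      (_ : σ W.a₁ = W.a₁) (_ : σ W.a₂ = W.a₂) (_ : σ W.a₃ = W.a₃) (_ : σ W.a₄ = W.a₄)
      (_ : σ W.a₆ = W.a₆) (s : W.toAffine.Point →+ W.toAffine.Point)
      (_ : ∀ x y h, ∃ h', s (.some x y h) = .some (σ x) (σ y) h')
      (_ : ∀ P, n • P = 0 → s P = P), σ t = t := by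
  obtain ⟨x₀, y₀, α, β, h⟩ := exists_nodeCentre_of_Δ h2 h3 hI hc4 hΔ
  have hc1 := h.v_c_lt_one
  have hc0 := h.c_ne_zero hΔ0
  have hn0 : n ≠ 0 := by rintro rfl; simp at hvn
  obtain ⟨t, ht⟩ := IsAlgClosed.exists_pow_nat_eq (-tateC W x₀ y₀ α β) (Nat.pos_of_ne_zero hn0)
  have ht0 := root_ne_zero hc0 hn0 ht
  refine ⟨t, by rw [← map_pow, ht, Valuation.map_neg, h.v_c_eq], ?_⟩
  intro σ hσ hin h₁ h₂ h₃ h₄ h₆ s hs hfix
  obtain ⟨ε, -, hε1, s', hs', he⟩ := h.equiv_equivariant h2 σ hσ h₁ h₂ h₃ h₄ h₆ s hs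
  have hε := hε1 hin
  subst hε
  have hc := h.map_c h2 σ hσ h₁ h₂ h₃ h₄ h₆
  obtain ⟨Q, hQ, hφ⟩ := exists_of_v_eq_one hc1 hc0 hvn (cls_root_pow hc0 hn0 ht)
  obtain ⟨P, rfl⟩ := h.equiv.surjective Q
  have hP : n • P = 0 := by
    rw [← map_nsmul, EmbeddingLike.map_eq_zero_iff] at hQ; exact hQ
  have e1 : s' (h.equiv P) = h.equiv P := by
    rw [← one_smul ℤ (s' (h.equiv P)), ← he, hfix P hP]
  have e2 := phi_map σ hσ hc hc1 hc0 s' hs' (h.equiv P)
  rw [e1, hφ, toMul_ofMul, qmap_cls σ hσ hc ht0] at e2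
  have e3 : cls v (tateC W x₀ y₀ α β) t = cls v (tateC W x₀ y₀ α β) (σ t) := e2
  have hσt0 : σ t ≠ 0 := (map_ne_zero σ).mpr ht0
  have e4 : cls v (tateC W x₀ y₀ α β) (σ t / t) = 1 := by
    rw [cls_div hσt0 ht0, ← e3, div_self']
  have hv1 : v (σ t / t) = 1 := by
    rw [map_div₀, hσ, div_self ((Valuation.ne_zero_iff v).mpr ht0)]
  have e5 := sub_one_lt_of_cls_eq_one hc1 hc0 (by rw [hv1]; exact hc1) hv1.le e4
  have e6 : (σ t / t) ^ n = 1 := by
    rw [div_pow, ← map_pow, ht, map_neg, hc, div_self (neg_ne_zero.mpr hc0)]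
  -- an `n`-th root of unity congruent to `1` is `1`
  have e7 : (σ t / t - 1) * (∑ i ∈ Finset.range n, (σ t / t) ^ i) = 0 := by
    rw [mul_geom_sum, e6, sub_self]
  rcases mul_eq_zero.mp e7 with e8 | e8
  · rw [sub_eq_zero, div_eq_one_iff_eq ht0] at e8
    exact e8
  · exfalso
    have hpow : ∀ i : ℕ, v ((σ t / t) ^ i - 1) < 1 := by
      intro i
      induction i with
      | zero => simp
      | succ i ih =>
        rw [pow_succ, show (σ t / t) ^ i * (σ t / t) - 1 =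
          (σ t / t) ^ i * (σ t / t - 1) + ((σ t / t) ^ i - 1) by ring]
        refine v.map_add_lt (v_imul_lt ?_ e5) ih
        rw [map_pow, hv1, one_pow]
    have e9 : v ((∑ i ∈ Finset.range n, (σ t / t) ^ i) - n) < 1 := by
      have : (∑ i ∈ Finset.range n, (σ t / t) ^ i) - n =
          ∑ i ∈ Finset.range n, ((σ t / t) ^ i - 1) := by
        rw [Finset.sum_sub_distrib]; simp
      rw [this]
      exact v.map_sum_lt one_ne_zero fun i _ => hpow i
    rw [e8, zero_sub, Valuation.map_neg, hvn] at e9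
    exact lt_irrefl _ e9

end Main

end Fermat.Agent.LOC
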