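import Fermat.Agent.ECRed.Close
import Mathlib.FieldTheory.IsAlgClosed.Basic

/-! # Points reducing to a node

`v` is a valuation on a field `K`, `W` a Weierstrass curve with `v`-integral coefficients. We consider
an exact critical point `(x₀, y₀)` of the Weierstrass polynomial (the centre of the annulus), with
tangent slopes `α, β`, `v (α - β) = 1`. If `P` and `P'` are two points reducing to the node and
with the same valuations `v (x - x₀)`, `v (u)`, `v (w)`, then `P' - P` has nonsingular reduction. -/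

set_option autoImplicit false

namespace Fermat.Agent.LOC

open WeierstrassCurve WeierstrassCurve.Affine Fermat.Agent.ECRed

variable {K Γ₀ : Type*} [Field K] [LinearOrderedCommGroupWithZero Γ₀] {v : Valuation K Γ₀}
variable {W : WeierstrassCurve K}

/-- `(x₀, y₀)` is an exact critical point with tangent slopes `α`, `β`, all integral. -/
structure NodeCentre (v : Valuation K Γ₀) (W : WeierstrassCurve K) (x₀ y₀ α β : K) : Prop where
  int_x : v x₀ ≤ 1
  int_y : v y₀ ≤ 1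
  int_α : v α ≤ 1
  int_β : v β ≤ 1
  hY : 2 * y₀ + W.a₁ * x₀ + W.a₃ = 0
  hX : 3 * x₀ ^ 2 + 2 * W.a₂ * x₀ + W.a₄ - W.a₁ * y₀ = 0
  sum : α + β = - W.a₁
  prod : α * β = - (W.a₂ + 3 * x₀)
  sub : v (α - β) = 1
  hF : v (y₀ ^ 2 + W.a₁ * x₀ * y₀ + W.a₃ * y₀ - (x₀ ^ 3 + W.a₂ * x₀ ^ 2 + W.a₄ * x₀ + W.a₆)) < 1

lemma NodeCentre.symm {x₀ y₀ α β : K} (h : NodeCentre v W x₀ y₀ α β) :
    NodeCentre v W x₀ y₀ β α where
  int_x := h.int_x
  int_y := h.int_y
  int_α := h.int_β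
  int_β := h.int_α
  hY := h.hY
  hX := h.hX
  sum := by rw [add_comm]; exact h.sum
  prod := by rw [mul_comm]; exact h.prod
  sub := by rw [Valuation.map_sub_swap]; exact h.sub
  hF := h.hF

section slope

variable [DecidableEq K]

/-- first uniform relation for the slope (secant or tangent) -/
lemma slope_rel₁ {x₁ x₂ y₁ y₂ : K} (h₁ : W.toAffine.Equation x₁ y₁)
    (h₂ : W.toAffine.Equation x₂ y₂) (hxy : ¬(x₁ = x₂ ∧ y₁ = W.toAffine.negY x₂ y₂)) :
    W.toAffine.slope x₁ x₂ y₁ y₂ * (x₁ - x₂) = y₁ - y₂ := by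
  by_cases hx : x₁ = x₂
  · have hy : y₁ ≠ W.toAffine.negY x₂ y₂ := fun e => hxy ⟨hx, e⟩
    rw [Y_eq_of_Y_ne h₁ h₂ hx hy, hx]
    ring
  · rw [slope_of_X_ne hx]
    exact div_mul_cancel₀ _ (sub_ne_zero.mpr hx)

/-- second uniform relation for the slope (secant or tangent) -/
lemma slope_rel₂ {x₁ x₂ y₁ y₂ : K} (h₁ : W.toAffine.Equation x₁ y₁)
    (h₂ : W.toAffine.Equation x₂ y₂) (hxy : ¬(x₁ = x₂ ∧ y₁ = W.toAffine.negY x₂ y₂)) :
    W.toAffine.slope x₁ x₂ y₁ y₂ * (y₁ + y₂ + W.a₁ * x₁ + W.a₃) =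
      x₁ ^ 2 + x₁ * x₂ + x₂ ^ 2 + W.a₂ * (x₁ + x₂) + W.a₄ - W.a₁ * y₂ := by
  by_cases hx : x₁ = x₂
  · have hy : y₁ ≠ W.toAffine.negY x₂ y₂ := fun e => hxy ⟨hx, e⟩
    have hyy := Y_eq_of_Y_ne h₁ h₂ hx hy
    rw [slope_of_Y_ne hx hy]
    subst hx hyy
    have hd : y₁ - W.toAffine.negY x₁ y₁ ≠ 0 := sub_ne_zero.mpr hy
    have e : y₁ + y₁ + W.a₁ * x₁ + W.a₃ = y₁ - W.toAffine.negY x₁ y₁ := by rw [negY]; ring
    rw [e, div_mul_cancel₀ _ hd]
    ring
  · rw [slope_of_X_ne hx]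
    have hd : x₁ - x₂ ≠ 0 := sub_ne_zero.mpr hx
    rw [equation_iff] at h₁ h₂
    field_simp
    linear_combination h₁ - h₂

end slope

/-- Key estimate: the slope of the line through `P'` and `-P` is not congruent to `α`. -/
lemma one_le_slope_sub {x₀ y₀ α β x y x' y' ℓ : K} (hc : NodeCentre v W x₀ y₀ α β)
    (hne : ¬ (x = x₀ ∧ y = y₀)) (hx : v (x - x₀) < 1) (hx' : v (x' - x₀) = v (x - x₀))
    (hw : v ((y' - y₀) - β * (x' - x₀)) = v ((y - y₀) - β * (x - x₀)))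
    (hu : v ((y' - y₀) - α * (x' - x₀)) = v ((y - y₀) - α * (x - x₀)))
    (h1 : ℓ * (x' - x) = y' + y + W.a₁ * x + W.a₃)
    (h2 : ℓ * (y' - y + W.a₁ * (x' - x)) = x' ^ 2 + x' * x + x ^ 2 + W.a₂ * (x' + x) + W.a₄ +
      W.a₁ * (y + W.a₁ * x + W.a₃)) :
    1 ≤ v (ℓ - α) := by
  by_contra hlt
  push Not at hlt
  have ha1 : W.a₁ = -α - β := by linear_combination hc.sum
  have ha2 : W.a₂ = -(α * β) - 3 * x₀ := by linear_combination hc.prod
  have ha3 : W.a₃ = -2 * y₀ - (-α - β) * x₀ := by rw [← ha1]; linear_combination hc.hY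
  have ha4 : W.a₄ = (-α - β) * y₀ - 3 * x₀ ^ 2 - 2 * (-(α * β) - 3 * x₀) * x₀ := by
    rw [← ha1, ← ha2]; linear_combination hc.hX
  rw [ha1, ha3] at h1
  rw [ha1, ha2, ha3, ha4] at h2
  set X := x - x₀ with hX
  set Y := y - y₀ with hY
  set X' := x' - x₀ with hX'
  set Y' := y' - y₀ with hY'
  have I1 : (ℓ - α) * (Y' - β * X') - (ℓ - β) * (Y - β * X) = X' ^ 2 + X' * X + X ^ 2 := by
    rw [hX, hY, hX', hY']
    linear_combination h2 + α * h1
  have I2 : (ℓ - α) * (X' - X) = (Y' - α * X') + (Y - β * X) := by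
    rw [hX, hY, hX', hY']
    linear_combination h1
  have hβ : v (ℓ - β) = 1 := by
    have e : ℓ - β = (α - β) + (ℓ - α) := by ring
    rw [e, v_add_small hlt]; exact hc.sub
  have hwX : v (Y - β * X) ≤ v X ^ 2 := by
    have e : (ℓ - β) * (Y - β * X) = (ℓ - α) * (Y' - β * X') - (X' ^ 2 + X' * X + X ^ 2) := by
      linear_combination -I1
    have e1 : v (Y - β * X) = v ((ℓ - α) * (Y' - β * X') - (X' ^ 2 + X' * X + X ^ 2)) := by
      rw [← e, map_mul, hβ, one_mul]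
    have hq : v (X' ^ 2 + X' * X + X ^ 2) ≤ v X ^ 2 := by
      apply v.map_add_le
      · apply v.map_add_le
        · rw [map_pow, hx']
        · rw [map_mul, hx', sq]
      · rw [map_pow]
    by_contra hcon
    push Not at hcon
    have hw0 : 0 < v (Y - β * X) := lt_of_le_of_lt zero_le hcon
    have h3 : v ((ℓ - α) * (Y' - β * X')) < v (Y - β * X) := by
      rw [map_mul, hw]
      calc v (ℓ - α) * v (Y - β * X) < 1 * v (Y - β * X) := by
            exact mul_lt_mul_of_pos_right hlt hw0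
        _ = _ := one_mul _
    have h4 := v.map_sub_lt h3 (lt_of_le_of_lt hq hcon)
    rw [← e1] at h4
    exact lt_irrefl _ h4
  have hX0 : X ≠ 0 := by
    intro h0
    apply hne
    rw [h0, map_zero, zero_pow two_ne_zero, mul_zero, sub_zero] at hwX
    have hY0 : Y = 0 := (v.zero_iff).mp (le_antisymm hwX zero_le)
    exact ⟨sub_eq_zero.mp h0, sub_eq_zero.mp hY0⟩
  have hvX : 0 < v X := (v.pos_iff).mpr hX0
  have hwX' : v (Y - β * X) < v X := by
    refine lt_of_le_of_lt hwX ?_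
    calc v X ^ 2 = v X * v X := sq _
      _ < 1 * v X := mul_lt_mul_of_pos_right hx hvX
      _ = v X := one_mul _
  have huX : v (Y - α * X) = v X := by
    have e : Y - α * X = -(α - β) * X + (Y - β * X) := by ring
    have e2 : v (-(α - β) * X) = v X := by rw [map_mul, Valuation.map_neg, hc.sub, one_mul]
    rw [e, v.map_add_eq_of_lt_left (by rwa [e2]), e2]
  have h5 : v ((Y' - α * X') + (Y - β * X)) = v X := by
    rw [v.map_add_eq_of_lt_left (by rwa [hu, huX]), hu, huX]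
  have h6 : v (X' - X) ≤ v X := v.map_sub_le (by rw [hx']) le_rfl
  have h7 : v X < v X := by
    calc v X = v (ℓ - α) * v (X' - X) := by rw [← map_mul, I2, h5]
      _ ≤ v (ℓ - α) * v X := mul_le_mul' le_rfl h6
      _ < 1 * v X := mul_lt_mul_of_pos_right hlt hvX
      _ = v X := one_mul _
  exact lt_irrefl _ h7

section sub

variable [DecidableEq K]

/-- If `P` and `P'` reduce to the node, with the same position on the annulus, then `P' - P` does
not reduce to the node. -/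
theorem sub_far {x₀ y₀ α β x y x' y' : K} (hc : NodeCentre v W x₀ y₀ α β)
    (h : W.toAffine.Nonsingular x y) (h' : W.toAffine.Nonsingular x' y')
    (hx : v (x - x₀) < 1) (hx' : v (x' - x₀) = v (x - x₀))
    (hw : v ((y' - y₀) - β * (x' - x₀)) = v ((y - y₀) - β * (x - x₀)))
    (hu : v ((y' - y₀) - α * (x' - x₀)) = v ((y - y₀) - α * (x - x₀))) :
    (.some x' y' h' - .some x y h : W.toAffine.Point) = 0 ∨
      ∃ (x₃ y₃ : K) (h₃ : W.toAffine.Nonsingular x₃ y₃),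
        (.some x' y' h' - .some x y h : W.toAffine.Point) = .some x₃ y₃ h₃ ∧
          1 ≤ v (x₃ - x₀) := by
  rw [sub_eq_add_neg, Point.neg_some]
  by_cases hxy : x' = x ∧ y' = W.toAffine.negY x (W.toAffine.negY x y)
  · left
    exact Point.add_of_Y_eq hxy.1 hxy.2
  right
  rw [Point.add_some hxy]
  refine ⟨_, _, _, rfl, ?_⟩
  have hne : ¬ (x = x₀ ∧ y = y₀) := by
    rintro ⟨rfl, rfl⟩
    rcases (nonsingular_iff _ _).mp h with ⟨-, h1 | h1⟩
    · exact h1 (by linear_combination -hc.hX)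
    · exact h1 (by linear_combination hc.hY)
  have heq' := h'.1
  have heqn : W.toAffine.Equation x (W.toAffine.negY x y) := (equation_neg _ _).mpr h.1
  have h1 := slope_rel₁ heq' heqn hxy
  have h2 := slope_rel₂ heq' heqn hxy
  set ℓ := W.toAffine.slope x' x y' (W.toAffine.negY x y) with hℓ
  have h1' : ℓ * (x' - x) = y' + y + W.a₁ * x + W.a₃ := by rw [h1, negY]; ring
  have h2' : ℓ * (y' - y + W.a₁ * (x' - x)) = x' ^ 2 + x' * x + x ^ 2 + W.a₂ * (x' + x) + W.a₄ +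
      W.a₁ * (y + W.a₁ * x + W.a₃) := by
    have e1 : y' - y + W.a₁ * (x' - x) = y' + W.toAffine.negY x y + W.a₁ * x' + W.a₃ := by
      rw [negY]; ring
    rw [e1, h2, negY]; ring
  have hα := one_le_slope_sub hc hne hx hx' hw hu h1' h2'
  have hβ := one_le_slope_sub hc.symm hne hx hx' hu hw h1' h2'
  have e : W.toAffine.addX x' x ℓ - x₀ = (ℓ - α) * (ℓ - β) + (-(x' - x₀) - (x - x₀)) := by
    rw [addX]
    linear_combination ℓ * hc.sum - hc.prod
  have hsm : v (-(x' - x₀) - (x - x₀)) < 1 := by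
    refine v.map_sub_lt ?_ hx
    rw [Valuation.map_neg, hx']; exact hx
  have hbig : 1 ≤ v ((ℓ - α) * (ℓ - β)) := by
    rw [map_mul]; exact one_le_mul hα hβ
  rw [e, v.map_add_eq_of_lt_left (lt_of_lt_of_le hsm hbig)]
  exact hbig

end sub

lemma v_mul_lt_of_lt_of_le {a b : K} (ha : v a < 1) (hb : v b ≤ 1) : v (a * b) < 1 := by
  rw [mul_comm]; exact v_imul_lt hb ha

/-- An integral point of the curve which does not reduce to the node has nonsingular reduction. -/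
lemma nonsing_of_far {x₀ y₀ α β x y : K} (hc : NodeCentre v W x₀ y₀ α β)
    (h : W.toAffine.Equation x y) (hx : v x ≤ 1) (hy : v y ≤ 1) (hfar : v (x - x₀) = 1)
    (hI : IntCoeff v W) :
    v (2 * y + W.a₁ * x + W.a₃) = 1 ∨ v (3 * x ^ 2 + 2 * W.a₂ * x + W.a₄ - W.a₁ * y) = 1 := by
  by_contra hcon
  push Not at hcon
  have hs : v (2 * y + W.a₁ * x + W.a₃) < 1 := by
    refine lt_of_le_of_ne ?_ hcon.1
    exact v.map_add_le (v.map_add_le (v_imul_le v_two_le_one hy) (v_imul_le hI.a₁ hx)) hI.a₃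
  have ht : v (3 * x ^ 2 + 2 * W.a₂ * x + W.a₄ - W.a₁ * y) < 1 := by
    refine lt_of_le_of_ne ?_ hcon.2
    refine v.map_sub_le (v.map_add_le (v.map_add_le ?_ ?_) hI.a₄) (v_imul_le hI.a₁ hy)
    · exact v_imul_le v_three_le_one (by rw [map_pow]; exact pow_le_one₀ zero_le hx)
    · exact v_imul_le (v_imul_le v_two_le_one hI.a₂) hx
  rw [equation_iff] at h
  have hF := hc.hF
  have ha1 : W.a₁ = -α - β := by linear_combination hc.sum
  have ha2 : W.a₂ = -(α * β) - 3 * x₀ := by linear_combination hc.prod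
  have ha3 : W.a₃ = -2 * y₀ - (-α - β) * x₀ := by rw [← ha1]; linear_combination hc.hY
  have ha4 : W.a₄ = (-α - β) * y₀ - 3 * x₀ ^ 2 - 2 * (-(α * β) - 3 * x₀) * x₀ := by
    rw [← ha1, ← ha2]; linear_combination hc.hX
  have hY1 : v (y - y₀) ≤ 1 := v.map_sub_le hy hc.int_y
  have hD1 : v ((α - β) ^ 2) = 1 := by rw [map_pow, hc.sub, one_pow]
  set e := y₀ ^ 2 + W.a₁ * x₀ * y₀ + W.a₃ * y₀ - (x₀ ^ 3 + W.a₂ * x₀ ^ 2 + W.a₄ * x₀ + W.a₆)
    with he
  set s := 2 * y + W.a₁ * x + W.a₃ with hs'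
  set t := 3 * x ^ 2 + 2 * W.a₂ * x + W.a₄ - W.a₁ * y with ht'
  have E1 : (x - x₀) * (6 * (x - x₀) + (α - β) ^ 2) = 2 * t - (α + β) * s := by
    rw [hs', ht', ha1, ha2, ha3, ha4]; ring
  have E2 : (x - x₀) ^ 3 * (9 * (x - x₀) + (α - β) ^ 2) =
      (α - β) ^ 2 * ((y - y₀) - α * (x - x₀)) * s + (α - β) ^ 2 * e
        - (6 * (x - x₀) ^ 2 + (α * s - t)) * (α * s - t) := by
    have h' : W.a₆ = y ^ 2 + W.a₁ * x * y + W.a₃ * y - (x ^ 3 + W.a₂ * x ^ 2 + W.a₄ * x) := by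
      linear_combination -h
    rw [he, hs', ht', h', ha1, ha2, ha3, ha4]; ring
  have hX1 : v ((x - x₀) ^ 2) = 1 := by rw [map_pow, hfar, one_pow]
  have F1 : v (6 * (x - x₀) + (α - β) ^ 2) < 1 := by
    have : v ((x - x₀) * (6 * (x - x₀) + (α - β) ^ 2)) < 1 := by
      rw [E1]
      refine v.map_sub_lt (v_imul_lt v_two_le_one ht) (v_imul_lt (v.map_add_le hc.int_α hc.int_β) hs)
    rwa [map_mul, hfar, one_mul] at this
  have hst : v (α * s - t) < 1 := v.map_sub_lt (v_imul_lt hc.int_α hs) ht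
  have F2 : v (9 * (x - x₀) + (α - β) ^ 2) < 1 := by
    have : v ((x - x₀) ^ 3 * (9 * (x - x₀) + (α - β) ^ 2)) < 1 := by
      rw [E2]
      refine v.map_sub_lt (v.map_add_lt (v_imul_lt ?_ hs) (v_imul_lt hD1.le hF)) (v_imul_lt ?_ hst)
      · exact v_imul_le hD1.le (v.map_sub_le hY1 (v_imul_le hc.int_α hfar.le))
      · refine v.map_add_le (v_imul_le ?_ hX1.le) hst.le
        simpa using v_nat_le_one (v := v) 6
    rwa [map_mul, map_pow, hfar, one_pow, one_mul] at this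
  have F3 : v (3 * (x - x₀)) < 1 := by
    have e3 : 3 * (x - x₀) = (9 * (x - x₀) + (α - β) ^ 2) - (6 * (x - x₀) + (α - β) ^ 2) := by
      ring
    rw [e3]; exact v.map_sub_lt F2 F1
  have F4 : v ((α - β) ^ 2) < 1 := by
    have e4 : (α - β) ^ 2 = (6 * (x - x₀) + (α - β) ^ 2) - 2 * (3 * (x - x₀)) := by ring
    rw [e4]; exact v.map_sub_lt F1 (v_imul_lt v_two_le_one F3)
  rw [hD1] at F4
  exact lt_irrefl _ F4

/-- A root of a monic quadratic polynomial with integral coefficients is integral. -/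
lemma v_root_le_one {z b c : K} (hb : v b ≤ 1) (hc : v c ≤ 1) (h : z ^ 2 = b * z + c) :
    v z ≤ 1 := by
  by_contra hz
  push Not at hz
  have h1 : v z < v z ^ 2 := by simpa using pow_lt_pow_right₀ hz (show 1 < 2 by norm_num)
  have h2 : v (z ^ 2) ≤ v z := by
    rw [h]
    exact v.map_add_le (v_imul_le hb le_rfl) (hc.trans hz.le)
  rw [map_pow] at h2
  exact lt_irrefl _ (lt_of_lt_of_le h1 h2)

/-- Existence of the exact centre of the node. -/
theorem exists_nodeCentre [IsAlgClosed K] (h2 : (2 : K) ≠ 0) (hI : IntCoeff v W)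
    (hc4 : v W.c₄ = 1) {x y : K} (h : W.toAffine.Equation x y) (hx : v x ≤ 1) (hy : v y ≤ 1)
    (hs : v (2 * y + W.a₁ * x + W.a₃) < 1)
    (ht : v (3 * x ^ 2 + 2 * W.a₂ * x + W.a₄ - W.a₁ * y) < 1) :
    ∃ x₀ y₀ α β : K, NodeCentre v W x₀ y₀ α β ∧ v (x - x₀) < 1 ∧ v (y - y₀) < 1 := by
  have v6 : v (6 : K) ≤ 1 := by simpa using v_nat_le_one (v := v) 6
  have v12 : v (12 : K) ≤ 1 := by simpa using v_nat_le_one (v := v) 12
  have v24 : v (24 : K) ≤ 1 := by simpa using v_nat_le_one (v := v) 24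
  have v4 : v (4 : K) ≤ 1 := by simpa using v_nat_le_one (v := v) 4
  set g := 6 * x ^ 2 + W.b₂ * x + W.b₄ with hg
  set g' := 12 * x + W.b₂ with hg'
  have hgv : v g < 1 := by
    have e : g = 2 * (3 * x ^ 2 + 2 * W.a₂ * x + W.a₄ - W.a₁ * y) +
        W.a₁ * (2 * y + W.a₁ * x + W.a₃) := by
      rw [hg, b₂, b₄]; ring
    rw [e]
    exact v.map_add_lt (v_imul_lt v_two_le_one ht) (v_imul_lt hI.a₁ hs)
  have hg'v : v g' = 1 := by
    have e : g' ^ 2 = W.c₄ + 24 * g := by rw [hg', hg, c₄]; ring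
    have e2 : v (g' ^ 2) = 1 := by rw [e, v_add_small (v_imul_lt v24 hgv)]; exact hc4
    rw [map_pow] at e2
    exact (pow_eq_one_iff_of_nonneg zero_le two_ne_zero).mp e2
  have hg'0 : g' ≠ 0 := by
    intro h0; rw [h0, map_zero] at hg'v; exact zero_ne_one hg'v
  -- the unit root of `z² - z + e = 0`
  obtain ⟨z, hz, hzv⟩ : ∃ z : K, z ^ 2 = z - 6 * g / g' ^ 2 ∧ v z = 1 := by
    have hev : v (6 * g / g' ^ 2) < 1 := by
      rw [map_div₀, map_pow, hg'v, one_pow, div_one]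
      exact v_imul_lt v6 hgv
    set e := 6 * g / g' ^ 2 with he
    obtain ⟨d, hd⟩ := IsAlgClosed.exists_pow_nat_eq (1 - 4 * e) (n := 2) two_pos
    have hz1 : ((1 + d) / 2) ^ 2 = (1 + d) / 2 - e := by
      field_simp
      linear_combination hd
    set z := (1 + d) / 2 with hzdef
    have hzi : v z ≤ 1 := by
      refine v_root_le_one (b := 1) (c := -e) (by simp) (by rw [Valuation.map_neg]; exact hev.le) ?_
      linear_combination hz1
    by_cases hz2 : v z = 1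
    · exact ⟨z, hz1, hz2⟩
    · have hlt : v z < 1 := lt_of_le_of_ne hzi hz2
      refine ⟨1 - z, by linear_combination hz1, ?_⟩
      have e2 : (1 : K) - z = 1 + -z := by ring
      rw [e2, v_add_small (by rwa [Valuation.map_neg])]
      exact map_one v
  have hz0 : z ≠ 0 := by
    intro h0; rw [h0, map_zero] at hzv; exact zero_ne_one hzv
  set r := g / (g' * z) with hr
  have hrv : v r < 1 := by rw [hr, map_div₀, map_mul, hg'v, hzv, one_mul, div_one]; exact hgv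
  obtain ⟨x₀, hx₀⟩ : ∃ x₀, x₀ = x - r := ⟨_, rfl⟩
  have hxx : v (x - x₀) < 1 := by rw [hx₀]; simpa using hrv
  have hx₀v : v x₀ ≤ 1 := by rw [hx₀]; exact v.map_sub_le hx hrv.le
  have hgx₀ : 6 * x₀ ^ 2 + W.b₂ * x₀ + W.b₄ = 0 := by
    have e1 : 6 * x₀ ^ 2 + W.b₂ * x₀ + W.b₄ = g - g' * r + 6 * r ^ 2 := by
      rw [hx₀, hg, hg']; ring
    rw [e1, hr]
    field_simp at hz ⊢
    linear_combination g * hz
  obtain ⟨y₀, hy₀⟩ : ∃ y₀, y₀ = -(W.a₁ * x₀ + W.a₃) / 2 := ⟨_, rfl⟩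
  have hY : 2 * y₀ + W.a₁ * x₀ + W.a₃ = 0 := by rw [hy₀]; field_simp; ring
  have hX : 3 * x₀ ^ 2 + 2 * W.a₂ * x₀ + W.a₄ - W.a₁ * y₀ = 0 := by
    apply mul_left_cancel₀ h2
    rw [b₂, b₄] at hgx₀
    linear_combination hgx₀ - W.a₁ * hY
  have hyy : v (y - y₀) < 1 := by
    have e : g' * (y - y₀) = W.a₁ * ((x - x₀) * (3 * (x + x₀) + 2 * W.a₂) -
        (3 * x ^ 2 + 2 * W.a₂ * x + W.a₄ - W.a₁ * y)) +
        (2 * W.a₂ + 6 * x) * ((2 * y + W.a₁ * x + W.a₃) - W.a₁ * (x - x₀)) := by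
      rw [hg', b₂]
      linear_combination W.a₁ * hX - (2 * W.a₂ + 6 * x) * hY
    have e2 : v (g' * (y - y₀)) < 1 := by
      rw [e]
      refine v.map_add_lt (v_imul_lt hI.a₁ (v.map_sub_lt (v_mul_lt_of_lt_of_le hxx ?_) ht))
        (v_imul_lt ?_ (v.map_sub_lt hs (v_imul_lt hI.a₁ hxx)))
      · exact v.map_add_le (v_imul_le v_three_le_one (v.map_add_le hx hx₀v))
          (v_imul_le v_two_le_one hI.a₂)
      · exact v.map_add_le (v_imul_le v_two_le_one hI.a₂) (v_imul_le v6 hx)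
    rwa [map_mul, hg'v, one_mul] at e2
  have hy₀v : v y₀ ≤ 1 := by
    have : y₀ = y - (y - y₀) := by ring
    rw [this]; exact v.map_sub_le hy hyy.le
  obtain ⟨d, hd⟩ := IsAlgClosed.exists_pow_nat_eq (W.b₂ + 12 * x₀) (n := 2) two_pos
  have hdv : v d = 1 := by
    have e : W.b₂ + 12 * x₀ = g' + -(12 * (x - x₀)) := by rw [hg']; ring
    have e2 : v (W.b₂ + 12 * x₀) = 1 := by
      rw [e, v_add_small (by rw [Valuation.map_neg]; exact v_imul_lt v12 hxx)]; exact hg'v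
    rw [← hd, map_pow] at e2
    exact (pow_eq_one_iff_of_nonneg zero_le two_ne_zero).mp e2
  have hroot : ∀ δ : K, δ ^ 2 = W.b₂ + 12 * x₀ → v ((-W.a₁ + δ) / 2) ≤ 1 := by
    intro δ hδ
    refine v_root_le_one (b := -W.a₁) (c := W.a₂ + 3 * x₀)
      (by rw [Valuation.map_neg]; exact hI.a₁)
      (v.map_add_le hI.a₂ (v_imul_le v_three_le_one hx₀v)) ?_
    rw [b₂] at hδ
    field_simp
    linear_combination hδ
  refine ⟨x₀, y₀, (-W.a₁ + d) / 2, (-W.a₁ + -d) / 2, ⟨hx₀v, hy₀v, hroot d hd,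
    hroot (-d) (by rw [neg_sq]; exact hd), hY, hX, by field_simp; ring, ?_, ?_, ?_⟩, hxx, hyy⟩
  · rw [b₂] at hd
    field_simp
    linear_combination -hd
  · have e : (-W.a₁ + d) / 2 - (-W.a₁ + -d) / 2 = d := by field_simp; ring
    rw [e]; exact hdv
  · rw [equation_iff] at h
    have e : y₀ ^ 2 + W.a₁ * x₀ * y₀ + W.a₃ * y₀ - (x₀ ^ 3 + W.a₂ * x₀ ^ 2 + W.a₄ * x₀ + W.a₆) =
        (x - x₀) * ((x₀ ^ 2 + x₀ * x + x ^ 2 + W.a₂ * (x₀ + x) + W.a₄) - W.a₁ * y) -
        (y - y₀) * (y₀ + y + W.a₁ * x₀ + W.a₃) := by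
      linear_combination h
    rw [e]
    refine v.map_sub_lt (v_mul_lt_of_lt_of_le hxx (v.map_sub_le (v.map_add_le (v.map_add_le
      (v.map_add_le (v.map_add_le ?_ (v_imul_le hx₀v hx)) ?_) (v_imul_le hI.a₂
      (v.map_add_le hx₀v hx))) hI.a₄) (v_imul_le hI.a₁ hy))) (v_mul_lt_of_lt_of_le hyy
      (v.map_add_le (v.map_add_le (v.map_add_le hy₀v hy) (v_imul_le hI.a₁ hx₀v)) hI.a₃))
    · rw [map_pow]; exact pow_le_one₀ zero_le hx₀v
    · rw [map_pow]; exact pow_le_one₀ zero_le hx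

/-- The exact centre is fixed by inertia. -/
theorem NodeCentre.fixed {x₀ y₀ α β : K} (hc : NodeCentre v W x₀ y₀ α β) (h2 : (2 : K) ≠ 0)
    (σ : K →+* K) (hσ : ∀ z, v z ≤ 1 → v (σ z - z) < 1) (h₁ : σ W.a₁ = W.a₁)
    (h₂ : σ W.a₂ = W.a₂) (h₃ : σ W.a₃ = W.a₃) (h₄ : σ W.a₄ = W.a₄) :
    σ x₀ = x₀ ∧ σ y₀ = y₀ ∧ σ α = α ∧ σ β = β := by
  have v6 : v (6 : K) ≤ 1 := by simpa using v_nat_le_one (v := v) 6
  have hD : W.b₂ + 12 * x₀ = (α - β) ^ 2 := by
    rw [b₂]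
    linear_combination (W.a₁ - α - β) * hc.sum + 4 * hc.prod
  have hgx₀ : 6 * x₀ ^ 2 + W.b₂ * x₀ + W.b₄ = 0 := by
    rw [b₂, b₄]
    linear_combination 2 * hc.hX + W.a₁ * hc.hY
  have hb₂ : σ W.b₂ = W.b₂ := by simp only [b₂, map_add, map_mul, map_pow, map_ofNat, h₁, h₂]
  have hb₄ : σ W.b₄ = W.b₄ := by simp only [b₄, map_add, map_mul, map_ofNat, h₁, h₃, h₄]
  have hx₀ : σ x₀ = x₀ := by
    have e1 := congrArg σ hgx₀
    simp only [map_add, map_mul, map_pow, map_ofNat, hb₂, hb₄, map_zero] at e1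
    have e2 : (σ x₀ - x₀) * (6 * (σ x₀ + x₀) + W.b₂) = 0 := by
      linear_combination e1 - hgx₀
    rcases mul_eq_zero.mp e2 with e3 | e3
    · exact sub_eq_zero.mp e3
    · exfalso
      have e4 : 6 * (σ x₀ + x₀) + W.b₂ = (α - β) ^ 2 + 6 * (σ x₀ - x₀) := by
        rw [← hD]; ring
      have e5 : v (6 * (σ x₀ + x₀) + W.b₂) = 1 := by
        rw [e4, v_add_small (v_imul_lt v6 (hσ _ hc.int_x)), map_pow, hc.sub, one_pow]
      rw [e3, map_zero] at e5
      exact zero_ne_one e5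
  have hy₀ : σ y₀ = y₀ := by
    have e1 := congrArg σ hc.hY
    simp only [map_add, map_mul, map_ofNat, h₁, h₃, hx₀, map_zero] at e1
    apply mul_left_cancel₀ h2
    linear_combination e1 - hc.hY
  have hα : σ α = α := by
    have hα2 : α ^ 2 + W.a₁ * α - (W.a₂ + 3 * x₀) = 0 := by
      linear_combination α * hc.sum - hc.prod
    have e1 := congrArg σ hα2
    simp only [map_add, map_sub, map_mul, map_pow, map_ofNat, h₁, h₂, hx₀, map_zero] at e1
    have e2 : (σ α - α) * ((α - β) + (σ α - α)) = 0 := by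
      linear_combination e1 - hα2 - (σ α - α) * hc.sum
    rcases mul_eq_zero.mp e2 with e3 | e3
    · exact sub_eq_zero.mp e3
    · exfalso
      have e5 : v ((α - β) + (σ α - α)) = 1 := by
        rw [v_add_small (hσ _ hc.int_α)]; exact hc.sub
      rw [e3, map_zero] at e5
      exact zero_ne_one e5
  refine ⟨hx₀, hy₀, hα, ?_⟩
  have e : β = -W.a₁ - α := by linear_combination hc.sum
  rw [e, map_sub, map_neg, h₁, hα]

end Fermat.Agent.LOC
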