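import Fermat.Agent.LOC.TateCount
import Fermat.Agent.LOC.Node
import Fermat.Agent.ECRed.Inertia

/-! # The Tate normal form of a curve of multiplicative reduction

Over an algebraically closed valued field, a Weierstrass curve with integral coefficients, `c₄` a
unit and `v Δ < 1` is isomorphic, by an integral change of variables, to `y² + xy = x³ + c` with
`v c = v Δ`. -/

set_option autoImplicit false

namespace Fermat.Agent.LOC

open WeierstrassCurve WeierstrassCurve.Affine Fermat.Agent.ECRed Fermat.Agent.LOC.TatePhi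
open Fermat.Agent.LOC.TateHom

variable {K Γ₀ : Type*} [Field K] [LinearOrderedCommGroupWithZero Γ₀] {v : Valuation K Γ₀}
variable {W : WeierstrassCurve K}

/-- Existence of an exact critical point reducing to the node, for a curve with integral
coefficients, `c₄` a unit and `v Δ < 1`. -/
theorem exists_nodeCentre_of_Δ [IsAlgClosed K] (h2 : (2 : K) ≠ 0) (h3 : (3 : K) ≠ 0)
    (hI : IntCoeff v W) (hc4 : v W.c₄ = 1) (hΔ : v W.Δ < 1) :
    ∃ x₀ y₀ α β : K, NodeCentre v W x₀ y₀ α β := by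
  have v4 : v (4 : K) ≤ 1 := by simpa using v_nat_le_one (v := v) 4
  have v6 : v (6 : K) ≤ 1 := by simpa using v_nat_le_one (v := v) 6
  have v12 : v (12 : K) ≤ 1 := by simpa using v_nat_le_one (v := v) 12
  have v24 : v (24 : K) ≤ 1 := by simpa using v_nat_le_one (v := v) 24
  have v432 : v (432 : K) ≤ 1 := by simpa using v_nat_le_one (v := v) 432
  have h6 : (6 : K) ≠ 0 := by
    rw [show (6 : K) = 2 * 3 by norm_num]; exact mul_ne_zero h2 h3
  have hb2 : v W.b₂ ≤ 1 := by
    rw [b₂]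
    exact v.map_add_le (by rw [map_pow]; exact pow_le_one₀ zero_le hI.a₁) (v_imul_le v4 hI.a₂)
  have hb4 : v W.b₄ ≤ 1 := by
    rw [b₄]
    exact v.map_add_le (v_imul_le v_two_le_one hI.a₄) (v_imul_le hI.a₁ hI.a₃)
  -- step 1 : an integral root of `6 x² + b₂ x + b₄`
  have step1 : ∃ x : K, v x ≤ 1 ∧ 6 * x ^ 2 + W.b₂ * x + W.b₄ = 0 := by
    obtain ⟨r, hr⟩ := IsAlgClosed.exists_root
      (Polynomial.C 6 * Polynomial.X ^ 2 + Polynomial.C W.b₂ * Polynomial.X +
        Polynomial.C W.b₄) (by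
        have : (Polynomial.C 6 * Polynomial.X ^ 2 + Polynomial.C W.b₂ * Polynomial.X +
          Polynomial.C W.b₄ : Polynomial K).degree = 2 := Polynomial.degree_quadratic h6
        rw [this]; norm_num)
    simp only [Polynomial.IsRoot.def, Polynomial.eval_add, Polynomial.eval_pow,
      Polynomial.eval_X, Polynomial.eval_mul, Polynomial.eval_C] at hr
    rcases le_or_gt (v r) 1 with hr1 | hr1
    · exact ⟨r, hr1, hr⟩
    · -- the other root is integral
      have hr0 : r ≠ 0 := by rw [← Valuation.pos_iff (v := v)]; exact lt_trans one_pos hr1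
      have h6lt : v (6 : K) < 1 := by
        by_contra hle
        push Not at hle
        have h61 : v (6 : K) = 1 := le_antisymm v6 hle
        have e1 : v (6 * r ^ 2) ≤ v r := by
          rw [show 6 * r ^ 2 = -(W.b₂ * r + W.b₄) by linear_combination hr, Valuation.map_neg]
          exact v.map_add_le (v_imul_le hb2 le_rfl) (hb4.trans hr1.le)
        rw [map_mul, h61, one_mul, map_pow] at e1
        have : v r < v r ^ 2 := by simpa using pow_lt_pow_right₀ hr1 (show 1 < 2 by norm_num)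
        exact absurd e1 (not_le.mpr this)
      have hb21 : v W.b₂ = 1 := by
        refine le_antisymm hb2 ?_
        by_contra hlt
        push Not at hlt
        have : v W.c₄ < 1 := by
          rw [c₄]
          refine v.map_sub_lt ?_ ?_
          · rw [map_pow]; exact pow_lt_one₀ zero_le hlt two_ne_zero
          · rw [show (24 : K) * W.b₄ = (4 * W.b₄) * 6 by ring]
            exact v_imul_lt (v_imul_le v4 hb4) h6lt
        rw [hc4] at this
        exact lt_irrefl _ this
      have h6r : v (6 * r) = 1 := by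
        have e : (6 * r) * r = -(W.b₂ * r + W.b₄) := by linear_combination hr
        have e2 : v ((6 * r) * r) = v r := by
          rw [e, Valuation.map_neg, v.map_add_eq_of_lt_left, map_mul, hb21, one_mul]
          rw [map_mul, hb21, one_mul]
          exact lt_of_le_of_lt hb4 hr1
        rw [map_mul] at e2
        have hvr : v r ≠ 0 := (Valuation.ne_zero_iff v).mpr hr0
        exact mul_right_cancel₀ hvr (by rw [e2, one_mul])
      refine ⟨W.b₄ / (6 * r), ?_, ?_⟩
      · rw [map_div₀, h6r, div_one]; exact hb4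
      · field_simp
        linear_combination W.b₄ * hr
  -- step 2 : the critical point
  have step2 : ∀ x : K, v x ≤ 1 → 6 * x ^ 2 + W.b₂ * x + W.b₄ = 0 →
      ∃ y : K, v y ≤ 1 ∧ 2 * y + W.a₁ * x + W.a₃ = 0 ∧
        3 * x ^ 2 + 2 * W.a₂ * x + W.a₄ - W.a₁ * y = 0 := by
    intro x hx hroot
    have hyY : 2 * (-(W.a₁ * x + W.a₃) / 2) + W.a₁ * x + W.a₃ = 0 := by field_simp; ring
    have hyX : 3 * x ^ 2 + 2 * W.a₂ * x + W.a₄ - W.a₁ * (-(W.a₁ * x + W.a₃) / 2) = 0 := by
      rw [b₂, b₄] at hroot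
      field_simp
      linear_combination hroot
    refine ⟨-(W.a₁ * x + W.a₃) / 2, ?_, hyY, hyX⟩
    rcases (v_two_le_one (v := v)).lt_or_eq with h2lt | h2eq
    · -- residue characteristic two: `a₁` is a unit
      have ha1 : v W.a₁ = 1 := by
        refine le_antisymm hI.a₁ ?_
        by_contra hlt
        push Not at hlt
        have : v W.c₄ < 1 := by
          rw [c₄, b₂, show (W.a₁ ^ 2 + 4 * W.a₂) ^ 2 - 24 * W.b₄ =
            (W.a₁ ^ 3 + 8 * W.a₂ * W.a₁) * W.a₁ + (8 * W.a₂ ^ 2 - 12 * W.b₄) * 2 by ring]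
          have v8 : v (8 : K) ≤ 1 := by simpa using v_nat_le_one (v := v) 8
          have hlt' := hlt.le
          refine v.map_add_lt (v_imul_lt ?_ hlt) (v_imul_lt ?_ h2lt)
          · refine v.map_add_le (by rw [map_pow]; exact pow_le_one₀ zero_le hlt') ?_
            exact v_imul_le (v_imul_le v8 hI.a₂) hlt'
          · refine (v.map_sub _ _).trans (max_le ?_ (v_imul_le v12 hb4))
            exact v_imul_le v8 (by rw [map_pow]; exact pow_le_one₀ zero_le hI.a₂)
        rw [hc4] at this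
        exact lt_irrefl _ this
      have e : v (W.a₁ * (-(W.a₁ * x + W.a₃) / 2)) ≤ 1 := by
        rw [show W.a₁ * (-(W.a₁ * x + W.a₃) / 2) = 3 * x ^ 2 + 2 * W.a₂ * x + W.a₄ by
          linear_combination -hyX]
        refine v.map_add_le (v.map_add_le ?_ ?_) hI.a₄
        · exact v_imul_le v_three_le_one (by rw [map_pow]; exact pow_le_one₀ zero_le hx)
        · exact v_imul_le (v_imul_le v_two_le_one hI.a₂) hx
      rwa [map_mul, ha1, one_mul] at e
    · rw [map_div₀, h2eq, div_one, Valuation.map_neg]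
      exact v.map_add_le (v_imul_le hI.a₁ hx) hI.a₃
  -- step 3 : choose the critical point reducing to the node
  have hdisc : ∀ x : K, 6 * x ^ 2 + W.b₂ * x + W.b₄ = 0 → (W.b₂ + 12 * x) ^ 2 = W.c₄ := by
    intro x hx
    rw [c₄]; linear_combination 24 * hx
  have hvb : ∀ x : K, 6 * x ^ 2 + W.b₂ * x + W.b₄ = 0 → v (W.b₂ + 12 * x) = 1 := by
    intro x hx
    have := hdisc x hx
    have h1 : v (W.b₂ + 12 * x) ^ 2 = 1 := by rw [← map_pow, this, hc4]
    exact (pow_eq_one_iff_of_nonneg zero_le two_ne_zero).mp h1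
  have hprodΔ : ∀ x y : K, 6 * x ^ 2 + W.b₂ * x + W.b₄ = 0 → 2 * y + W.a₁ * x + W.a₃ = 0 →
      3 * x ^ 2 + 2 * W.a₂ * x + W.a₄ - W.a₁ * y = 0 →
      (y ^ 2 + W.a₁ * x * y + W.a₃ * y - (x ^ 3 + W.a₂ * x ^ 2 + W.a₄ * x + W.a₆)) *
        ((W.b₂ + 12 * x) ^ 3 - 432 * (y ^ 2 + W.a₁ * x * y + W.a₃ * y -
          (x ^ 3 + W.a₂ * x ^ 2 + W.a₄ * x + W.a₆))) = W.Δ := by
    intro x y hx hY hX
    have e3 : W.a₃ = -2 * y - W.a₁ * x := by linear_combination hY
    have e4 : W.a₄ = W.a₁ * y - 3 * x ^ 2 - 2 * W.a₂ * x := by linear_combination hX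
    rw [WeierstrassCurve.Δ, b₂, b₄, b₆, b₈, e3, e4]
    ring
  have step3 : ∃ x y : K, v x ≤ 1 ∧ v y ≤ 1 ∧ 6 * x ^ 2 + W.b₂ * x + W.b₄ = 0 ∧
      2 * y + W.a₁ * x + W.a₃ = 0 ∧ 3 * x ^ 2 + 2 * W.a₂ * x + W.a₄ - W.a₁ * y = 0 ∧
      v (y ^ 2 + W.a₁ * x * y + W.a₃ * y - (x ^ 3 + W.a₂ * x ^ 2 + W.a₄ * x + W.a₆)) < 1 := by
    obtain ⟨x, hx, hroot⟩ := step1
    obtain ⟨y, hy, hY, hX⟩ := step2 x hx hroot
    set F := y ^ 2 + W.a₁ * x * y + W.a₃ * y - (x ^ 3 + W.a₂ * x ^ 2 + W.a₄ * x + W.a₆) with hF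
    have hprod := hprodΔ x y hroot hY hX
    rw [← hF] at hprod
    rcases lt_or_ge (v F) 1 with hlt | hge
    · exact ⟨x, y, hx, hy, hroot, hY, hX, hlt⟩
    · -- the other critical point
      have hFle : v F ≤ 1 := by
        refine (v.map_sub _ _).trans (max_le ?_ ?_)
        · exact v.map_add_le (v.map_add_le (by rw [map_pow]; exact pow_le_one₀ zero_le hy)
            (v_imul_le (v_imul_le hI.a₁ hx) hy)) (v_imul_le hI.a₃ hy)
        · refine v.map_add_le (v.map_add_le (v.map_add_le ?_ (v_imul_le hI.a₂ ?_))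
            (v_imul_le hI.a₄ hx)) hI.a₆
          · rw [map_pow]; exact pow_le_one₀ zero_le hx
          · rw [map_pow]; exact pow_le_one₀ zero_le hx
      have hF1 : v F = 1 := le_antisymm hFle hge
      have hsmall : v ((W.b₂ + 12 * x) ^ 3 - 432 * F) < 1 := by
        have : v (F * ((W.b₂ + 12 * x) ^ 3 - 432 * F)) < 1 := by rw [hprod]; exact hΔ
        rwa [map_mul, hF1, one_mul] at this
      have h61 : v (6 : K) = 1 := by
        refine le_antisymm v6 ?_
        by_contra hlt
        push Not at hlt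
        have h432 : v (432 * F) < 1 := by
          rw [show (432 : K) * F = (72 * F) * 6 by ring]
          have v72 : v (72 : K) ≤ 1 := by simpa using v_nat_le_one (v := v) 72
          exact v_imul_lt (v_imul_le v72 hFle) hlt
        have : v ((W.b₂ + 12 * x) ^ 3) < 1 := by
          rw [show (W.b₂ + 12 * x) ^ 3 = ((W.b₂ + 12 * x) ^ 3 - 432 * F) + 432 * F by ring]
          exact v.map_add_lt hsmall h432
        rw [map_pow, hvb x hroot, one_pow] at this
        exact lt_irrefl _ this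
      set x' := x - (W.b₂ + 12 * x) / 6 with hx'
      have hx'1 : v x' ≤ 1 := by
        refine (v.map_sub _ _).trans (max_le hx ?_)
        rw [map_div₀, h61, div_one, hvb x hroot]
      have hroot' : 6 * x' ^ 2 + W.b₂ * x' + W.b₄ = 0 := by
        rw [hx']; field_simp; linear_combination 6 * hroot
      obtain ⟨y', hy', hY', hX'⟩ := step2 x' hx'1 hroot'
      refine ⟨x', y', hx'1, hy', hroot', hY', hX', ?_⟩
      have hy'e : y' = y + W.a₁ * (W.b₂ + 12 * x) / 12 := by
        have : (2 : K) * y' = 2 * (y + W.a₁ * (W.b₂ + 12 * x) / 12) := by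
          have h12 : (12 : K) ≠ 0 := by
            rw [show (12 : K) = 2 * 6 by norm_num]; exact mul_ne_zero h2 h6
          rw [hx'] at hY'
          field_simp
          field_simp at hY'
          linear_combination hY' - 6 * hY
        exact mul_left_cancel₀ h2 this
      have e : y' ^ 2 + W.a₁ * x' * y' + W.a₃ * y' -
          (x' ^ 3 + W.a₂ * x' ^ 2 + W.a₄ * x' + W.a₆) =
          -((W.b₂ + 12 * x) ^ 3 - 432 * F) / 432 := by
        have h432 : (432 : K) ≠ 0 := by
          rw [show (432 : K) = 12 * 6 * 6 by norm_num]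
          refine mul_ne_zero (mul_ne_zero ?_ h6) h6
          rw [show (12 : K) = 2 * 6 by norm_num]; exact mul_ne_zero h2 h6
        have h12 : (12 : K) ≠ 0 := by
          rw [show (12 : K) = 2 * 6 by norm_num]; exact mul_ne_zero h2 h6
        have e3 : W.a₃ = -2 * y - W.a₁ * x := by linear_combination hY
        have e4 : W.a₄ = W.a₁ * y - 3 * x ^ 2 - 2 * W.a₂ * x := by linear_combination hX
        rw [hy'e, hx', hF, e3, e4, b₂]
        field_simp
        ring
      rw [e, map_div₀, Valuation.map_neg]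
      have h4321 : v (432 : K) = 1 := by
        have h21 : v (2 : K) = 1 := by
          refine le_antisymm v_two_le_one ?_
          by_contra hlt
          push Not at hlt
          have : v (6 : K) < 1 := by
            rw [show (6 : K) = 3 * 2 by norm_num]; exact v_imul_lt v_three_le_one hlt
          rw [h61] at this
          exact lt_irrefl _ this
        rw [show (432 : K) = 2 * 6 * 6 * 6 by norm_num, map_mul, map_mul, map_mul, h21, h61]
        simp
      rwa [h4321, div_one]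
  obtain ⟨x₀, y₀, hx₀, hy₀, hroot, hY, hX, hF⟩ := step3
  obtain ⟨α, hα⟩ := IsAlgClosed.exists_root
    (Polynomial.X ^ 2 + Polynomial.C W.a₁ * Polynomial.X - Polynomial.C (W.a₂ + 3 * x₀)) (by
      have : (Polynomial.X ^ 2 + Polynomial.C W.a₁ * Polynomial.X -
        Polynomial.C (W.a₂ + 3 * x₀) : Polynomial K).degree = 2 := by compute_degree!
      rw [this]; norm_num)
  simp only [Polynomial.IsRoot.def, Polynomial.eval_sub, Polynomial.eval_add, Polynomial.eval_pow,
    Polynomial.eval_X, Polynomial.eval_mul, Polynomial.eval_C] at hα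
  have hint : ∀ z : K, z ^ 2 = -W.a₁ * z + (W.a₂ + 3 * x₀) → v z ≤ 1 := fun z hz =>
    v_root_le_one (by rw [Valuation.map_neg]; exact hI.a₁)
      (v.map_add_le hI.a₂ (v_imul_le v_three_le_one hx₀)) hz
  refine ⟨x₀, y₀, α, -W.a₁ - α, hx₀, hy₀, hint α (by linear_combination hα),
    hint (-W.a₁ - α) (by linear_combination hα), hY, hX, by ring, by linear_combination -hα,
    ?_, hF⟩
  have e : (α - (-W.a₁ - α)) ^ 2 = W.b₂ + 12 * x₀ := by
    rw [b₂]; linear_combination 4 * hα
  have h1 : v (α - (-W.a₁ - α)) ^ 2 = 1 := by rw [← map_pow, e, hvb x₀ hroot]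
  exact (pow_eq_one_iff_of_nonneg zero_le two_ne_zero).mp h1

/-! ### The change of variables -/

/-- The value of the Weierstrass polynomial at the centre. -/
def Fval (W : WeierstrassCurve K) (x y : K) : K :=
  y ^ 2 + W.a₁ * x * y + W.a₃ * y - (x ^ 3 + W.a₂ * x ^ 2 + W.a₄ * x + W.a₆)

/-- The parameter `c` of the normal form. -/
noncomputable def tateC (W : WeierstrassCurve K) (x₀ y₀ α β : K) : K :=
  -Fval W x₀ y₀ / (α - β) ^ 6

namespace NodeCentre

variable {x₀ y₀ α β : K}

lemma sub_ne_zero (h : NodeCentre v W x₀ y₀ α β) : α - β ≠ 0 := by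
  rw [← Valuation.pos_iff (v := v), h.sub]; exact one_pos

/-- The change of variables to the normal form. -/
noncomputable def C (h : NodeCentre v W x₀ y₀ α β) : VariableChange K :=
  ⟨Units.mk0 (α - β) h.sub_ne_zero, x₀, α, y₀⟩

lemma nf_eq (h : NodeCentre v W x₀ y₀ α β) : nf (tateC W x₀ y₀ α β) = h.C • W := by
  have hd := h.sub_ne_zero
  have h1 := h.sum
  have h2 := h.prod
  have hX := h.hX
  have hY := h.hY
  have ha1 : W.a₁ = -(α + β) := by rw [h1]; ring
  have ha2 : W.a₂ = -(α * β) - 3 * x₀ := by rw [h2]; ring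
  ext
  · rw [variableChange_a₁]
    simp only [nf_a₁, C, Units.val_inv_eq_inv_val, Units.val_mk0, ha1]
    field_simp
    ring
  · rw [variableChange_a₂]
    simp only [nf_a₂, C, Units.val_inv_eq_inv_val, Units.val_mk0, ha1, ha2]
    field_simp
    ring
  · rw [variableChange_a₃]
    simp only [nf_a₃, C, Units.val_inv_eq_inv_val, Units.val_mk0]
    have : W.a₃ + x₀ * W.a₁ + 2 * y₀ = 0 := by linear_combination hY
    rw [this, mul_zero]
  · rw [variableChange_a₄]
    simp only [nf_a₄, C, Units.val_inv_eq_inv_val, Units.val_mk0]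
    have : W.a₄ - α * W.a₃ + 2 * x₀ * W.a₂ - (y₀ + x₀ * α) * W.a₁ + 3 * x₀ ^ 2 - 2 * α * y₀ = 0 := by
      linear_combination hX - α * hY
    rw [this, mul_zero]
  · rw [variableChange_a₆]
    simp only [nf_a₆, C, Units.val_inv_eq_inv_val, Units.val_mk0, tateC, Fval]
    field_simp
    ring

lemma v_c_lt_one (h : NodeCentre v W x₀ y₀ α β) : v (tateC W x₀ y₀ α β) < 1 := by
  rw [tateC, map_div₀, map_pow, h.sub, one_pow, div_one, Valuation.map_neg]
  exact h.hF

lemma Δ_eq (h : NodeCentre v W x₀ y₀ α β) :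
    W.Δ = (α - β) ^ 12 * (-tateC W x₀ y₀ α β * (1 + 432 * tateC W x₀ y₀ α β)) := by
  rw [← nf_Δ, h.nf_eq, variableChange_Δ]
  simp only [C, Units.val_inv_eq_inv_val, Units.val_mk0]
  have hd := h.sub_ne_zero
  field_simp

lemma v_c_eq (h : NodeCentre v W x₀ y₀ α β) : v (tateC W x₀ y₀ α β) = v W.Δ := by
  rw [h.Δ_eq, map_mul, map_mul, map_pow, h.sub, one_pow, one_mul, Valuation.map_neg,
    v.map_one_add_of_lt, mul_one]
  have : v (432 : K) ≤ 1 := by simpa using v_nat_le_one (v := v) 432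
  exact v_imul_lt this h.v_c_lt_one

lemma c_ne_zero (h : NodeCentre v W x₀ y₀ α β) (hΔ : W.Δ ≠ 0) : tateC W x₀ y₀ α β ≠ 0 := by
  rwa [← Valuation.pos_iff (v := v), h.v_c_eq, Valuation.pos_iff]

/-- Uniqueness of the centre, up to exchange of the two tangents. -/
theorem unique (h : NodeCentre v W x₀ y₀ α β) {x₁ y₁ α₁ β₁ : K} (h2 : (2 : K) ≠ 0)
    (h' : NodeCentre v W x₁ y₁ α₁ β₁) :
    x₁ = x₀ ∧ y₁ = y₀ ∧ ((α₁ = α ∧ β₁ = β) ∨ (α₁ = β ∧ β₁ = α)) := by
  have hgx₀ : 6 * x₀ ^ 2 + W.b₂ * x₀ + W.b₄ = 0 := by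
    rw [b₂, b₄]
    linear_combination 2 * h.hX + W.a₁ * h.hY
  have hgx₁ : 6 * x₁ ^ 2 + W.b₂ * x₁ + W.b₄ = 0 := by
    rw [b₂, b₄]
    linear_combination 2 * h'.hX + W.a₁ * h'.hY
  have hD : W.b₂ + 12 * x₀ = (α - β) ^ 2 := by
    rw [b₂]
    linear_combination (W.a₁ - α - β) * h.sum + 4 * h.prod
  have hx : x₁ = x₀ := by
    by_contra hne
    have e2 : 6 * (x₁ + x₀) + W.b₂ = 0 := by
      have : (x₁ - x₀) * (6 * (x₁ + x₀) + W.b₂) = 0 := by
        linear_combination hgx₁ - hgx₀
      exact (mul_eq_zero.mp this).resolve_left (fun e => hne (sub_eq_zero.mp e))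
    have e3 : 6 * (x₁ - x₀) = -(α - β) ^ 2 := by rw [← hD]; linear_combination e2
    have hvd : v (6 * (x₁ - x₀)) = 1 := by
      rw [e3, Valuation.map_neg, map_pow, h.sub, one_pow]
    have hd1 : v (x₁ - x₀) ≤ 1 := (v.map_sub _ _).trans (max_le h'.int_x h.int_x)
    have v6 : v (6 : K) ≤ 1 := by simpa using v_nat_le_one (v := v) 6
    have h61 : v (6 : K) = 1 := by
      refine le_antisymm v6 ?_
      by_contra hlt
      push Not at hlt
      have : v (6 * (x₁ - x₀)) < 1 := by rw [mul_comm]; exact v_imul_lt hd1 hlt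
      rw [hvd] at this; exact lt_irrefl _ this
    have hdx : v (x₁ - x₀) = 1 := by rwa [map_mul, h61, one_mul] at hvd
    have hv2 : v (2 : K) = 1 := by
      refine le_antisymm v_two_le_one ?_
      by_contra hlt
      push Not at hlt
      have : v (6 : K) < 1 := by
        rw [show (6 : K) = 3 * 2 by norm_num]; exact v_imul_lt v_three_le_one hlt
      rw [h61] at this; exact lt_irrefl _ this
    -- the difference of the values
    have e4 : 4 * Fval W x₁ y₁ - 4 * Fval W x₀ y₀ = 2 * (x₁ - x₀) ^ 3 := by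
      have a3 : W.a₃ = -2 * y₀ - W.a₁ * x₀ := by linear_combination h.hY
      have a4 : W.a₄ = W.a₁ * y₀ - 3 * x₀ ^ 2 - 2 * W.a₂ * x₀ := by linear_combination h.hX
      have hy : y₁ = y₀ - W.a₁ * (x₁ - x₀) / 2 := by
        have := h'.hY
        rw [a3] at this
        field_simp
        linear_combination this
      rw [b₂] at e2
      rw [Fval, Fval, hy, a3, a4]
      field_simp
      linear_combination -4 * (x₁ - x₀) ^ 2 * e2
    have e5 : v (2 * (x₁ - x₀) ^ 3) < 1 := by
      rw [← e4]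
      have v4 : v (4 : K) ≤ 1 := by simpa using v_nat_le_one (v := v) 4
      exact v.map_sub_lt (v_imul_lt v4 h'.hF) (v_imul_lt v4 h.hF)
    rw [map_mul, hv2, one_mul, map_pow, hdx, one_pow] at e5
    exact lt_irrefl _ e5
  subst hx
  have hy : y₁ = y₀ := by
    apply mul_left_cancel₀ h2
    linear_combination h'.hY - h.hY
  subst hy
  refine ⟨rfl, rfl, ?_⟩
  have e : (α₁ - α) * (α₁ - β) = 0 := by
    have h1 : β₁ = -W.a₁ - α₁ := by linear_combination h'.sum
    have h2 : β = -W.a₁ - α := by linear_combination h.sum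
    have p1 := h'.prod
    have p2 := h.prod
    rw [h1] at p1
    rw [h2] at p2 ⊢
    linear_combination p2 - p1
  rcases mul_eq_zero.mp e with e | e
  · left
    have hα : α₁ = α := sub_eq_zero.mp e
    exact ⟨hα, by linear_combination h'.sum - h.sum - hα⟩
  · right
    have hα : α₁ = β := sub_eq_zero.mp e
    exact ⟨hα, by linear_combination h'.sum - h.sum - hα⟩

/-- Transport by an isometry fixing the coefficients. -/
lemma map (h : NodeCentre v W x₀ y₀ α β) (σ : K →+* K) (hσ : ∀ z, v (σ z) = v z)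
    (h₁ : σ W.a₁ = W.a₁) (h₂ : σ W.a₂ = W.a₂) (h₃ : σ W.a₃ = W.a₃) (h₄ : σ W.a₄ = W.a₄)
    (h₆ : σ W.a₆ = W.a₆) : NodeCentre v W (σ x₀) (σ y₀) (σ α) (σ β) where
  int_x := by rw [hσ]; exact h.int_x
  int_y := by rw [hσ]; exact h.int_y
  int_α := by rw [hσ]; exact h.int_α
  int_β := by rw [hσ]; exact h.int_β
  hY := by
    have := congrArg σ h.hY
    simpa only [map_add, map_mul, map_ofNat, h₁, h₃, map_zero] using this
  hX := by
    have := congrArg σ h.hX
    simpa only [map_add, map_sub, map_mul, map_pow, map_ofNat, h₁, h₂, h₄, map_zero] using this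
  sum := by
    have := congrArg σ h.sum
    simpa only [map_add, map_neg, h₁] using this
  prod := by
    have := congrArg σ h.prod
    simpa only [map_add, map_mul, map_neg, map_ofNat, h₂] using this
  sub := by rw [← map_sub, hσ]; exact h.sub
  hF := by
    have : σ (y₀ ^ 2 + W.a₁ * x₀ * y₀ + W.a₃ * y₀ - (x₀ ^ 3 + W.a₂ * x₀ ^ 2 + W.a₄ * x₀ + W.a₆)) =
        σ y₀ ^ 2 + W.a₁ * σ x₀ * σ y₀ + W.a₃ * σ y₀ -
          (σ x₀ ^ 3 + W.a₂ * σ x₀ ^ 2 + W.a₄ * σ x₀ + W.a₆) := by
      simp only [map_add, map_sub, map_mul, map_pow, h₁, h₂, h₃, h₄, h₆]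
    rw [← this, hσ]; exact h.hF

/-- An isometry fixing the coefficients fixes `c`. -/
lemma map_c (h : NodeCentre v W x₀ y₀ α β) (h2 : (2 : K) ≠ 0) (σ : K →+* K)
    (hσ : ∀ z, v (σ z) = v z)
    (h₁ : σ W.a₁ = W.a₁) (h₂ : σ W.a₂ = W.a₂) (h₃ : σ W.a₃ = W.a₃) (h₄ : σ W.a₄ = W.a₄)
    (h₆ : σ W.a₆ = W.a₆) : σ (tateC W x₀ y₀ α β) = tateC W x₀ y₀ α β := by
  obtain ⟨hx, hy, hαβ⟩ := h.unique h2 (h.map σ hσ h₁ h₂ h₃ h₄ h₆)
  have e : σ (tateC W x₀ y₀ α β) = tateC W (σ x₀) (σ y₀) (σ α) (σ β) := by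
    simp only [tateC, Fval, map_div₀, map_neg, map_add, map_sub, map_mul, map_pow,
      h₁, h₂, h₃, h₄, h₆]
  rw [e, hx, hy]
  rcases hαβ with ⟨ha, hb⟩ | ⟨ha, hb⟩
  · rw [ha, hb]
  · rw [ha, hb, tateC, tateC]
    congr 1
    ring

section Equiv

variable [DecidableEq K]

/-- The isomorphism with the normal form. -/
noncomputable def equiv (h : NodeCentre v W x₀ y₀ α β) :
    W.toAffine.Point ≃+ (nf (tateC W x₀ y₀ α β)).toAffine.Point :=
  (vcEquivOfEq h.C h.nf_eq).symm

lemma equiv_some (h : NodeCentre v W x₀ y₀ α β) {x y : K} (hxy : W.toAffine.Nonsingular x y) :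
    ∃ h', h.equiv (.some x y hxy) =
      .some ((x - x₀) / (α - β) ^ 2) ((y - y₀ - α * (x - x₀)) / (α - β) ^ 3) h' := by
  have hd := h.sub_ne_zero
  rcases hP : h.equiv (.some x y hxy) with _ | ⟨x', y', h'⟩
  · exfalso
    have h1 : h.equiv (.some x y hxy) = 0 := hP
    rw [EmbeddingLike.map_eq_zero_iff] at h1
    exact Point.some_ne_zero _ h1
  · have h1 : vcEquivOfEq h.C h.nf_eq (.some x' y' h') = .some x y hxy := by
      rw [← hP]; exact (vcEquivOfEq h.C h.nf_eq).apply_symm_apply _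
    obtain ⟨h'', e⟩ := vcEquivOfEq_some h.C h.nf_eq h'
    rw [e, Point.some.injEq] at h1
    obtain ⟨hX, hY⟩ := h1
    simp only [vcX, vcY, C, Units.val_mk0] at hX hY
    have ex : x' = (x - x₀) / (α - β) ^ 2 := by
      rw [← hX]; field_simp; ring
    have ey : y' = (y - y₀ - α * (x - x₀)) / (α - β) ^ 3 := by
      rw [← hY, ← hX]; field_simp; ring
    subst ex ey
    exact ⟨h', rfl⟩

lemma inKer_equiv_iff (h : NodeCentre v W x₀ y₀ α β) (P : W.toAffine.Point) :
    InKer v (h.equiv P) ↔ InKer v P := by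
  rcases P with _ | ⟨x, y, hxy⟩
  · have e : h.equiv (Point.zero : W.toAffine.Point) = 0 := map_zero _
    rw [e]
    exact ⟨fun _ => inKer_zero, fun _ => inKer_zero⟩
  · obtain ⟨h', e⟩ := h.equiv_some hxy
    rw [e, inKer_some, inKer_some, map_div₀, map_pow, h.sub, one_pow, div_one]
    constructor
    · intro h1
      by_contra hle
      push Not at hle
      exact absurd h1 (not_lt.mpr ((v.map_sub _ _).trans (max_le hle h.int_x)))
    · intro h1
      rwa [v.map_sub_eq_of_lt_left (lt_of_le_of_lt h.int_x h1)]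

/-- Galois equivariance of the isomorphism with the normal form, up to sign. -/
theorem equiv_equivariant (h : NodeCentre v W x₀ y₀ α β) (h2 : (2 : K) ≠ 0) (σ : K →+* K)
    (hσ : ∀ z, v (σ z) = v z)
    (h₁ : σ W.a₁ = W.a₁) (h₂ : σ W.a₂ = W.a₂) (h₃ : σ W.a₃ = W.a₃) (h₄ : σ W.a₄ = W.a₄)
    (h₆ : σ W.a₆ = W.a₆) (s : W.toAffine.Point →+ W.toAffine.Point)
    (hs : ∀ x y h, ∃ h', s (.some x y h) = .some (σ x) (σ y) h') :
    ∃ ε : ℤ, ε * ε = 1 ∧ ((∀ z, v z ≤ 1 → v (σ z - z) < 1) → ε = 1) ∧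
      ∃ s' : (nf (tateC W x₀ y₀ α β)).toAffine.Point →+ (nf (tateC W x₀ y₀ α β)).toAffine.Point,
        (∀ x y h, ∃ h', s' (.some x y h) = .some (σ x) (σ y) h') ∧
        ∀ P, h.equiv (s P) = ε • s' (h.equiv P) := by
  obtain ⟨hx, hy, hαβ⟩ := h.unique h2 (h.map σ hσ h₁ h₂ h₃ h₄ h₆)
  have hc := h.map_c h2 σ hσ h₁ h₂ h₃ h₄ h₆
  have hd := h.sub_ne_zero
  -- the map `s'`
  let t : (nf (tateC W x₀ y₀ α β)).toAffine.Point →+ (nf (tateC W x₀ y₀ α β)).toAffine.Point :=
    h.equiv.toAddMonoidHom.comp (s.comp h.equiv.symm.toAddMonoidHom)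
  have ht : ∀ P, t (h.equiv P) = h.equiv (s P) := fun P => by
    change h.equiv (s (h.equiv.symm (h.equiv P))) = _
    rw [AddEquiv.symm_apply_apply]
  rcases hαβ with ⟨ha, hb⟩ | ⟨ha, hb⟩
  · refine ⟨1, by norm_num, fun _ => rfl, t, ?_, fun P => by rw [ht, one_smul]⟩
    intro x' y' h'
    obtain ⟨P, hP⟩ := h.equiv.surjective (.some x' y' h')
    rcases P with _ | ⟨x, y, hxy⟩
    · exfalso
      have e : h.equiv (Point.zero : W.toAffine.Point) = 0 := map_zero _
      rw [e] at hP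
      exact Point.some_ne_zero _ hP.symm
    · obtain ⟨h'', e⟩ := h.equiv_some hxy
      obtain ⟨g1, e1⟩ := hs x y hxy
      obtain ⟨g2, e2⟩ := h.equiv_some g1
      rw [← hP, ht, e1, e2]
      rw [e, Point.some.injEq] at hP
      obtain ⟨eX, eY⟩ := hP
      have eX' : σ x' = (σ x - x₀) / (α - β) ^ 2 := by
        rw [← eX, map_div₀, map_sub, map_pow, map_sub, hx, ha, hb]
      have eY' : σ y' = (σ y - y₀ - α * (σ x - x₀)) / (α - β) ^ 3 := by
        rw [← eY, map_div₀, map_sub, map_sub, map_mul, map_sub, map_pow, map_sub, hx, hy, ha, hb]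
      simp only [eX', eY']
      exact ⟨g2, trivial⟩
  · refine ⟨-1, by norm_num, ?_, -t, ?_, fun P => by
      rw [AddMonoidHom.neg_apply, ht, smul_neg, neg_smul, one_smul, neg_neg]⟩
    · intro hin
      exfalso
      have := hin α h.int_α
      rw [ha, Valuation.map_sub_swap, h.sub] at this
      exact lt_irrefl _ this
    · intro x' y' h'
      obtain ⟨P, hP⟩ := h.equiv.surjective (.some x' y' h')
      rcases P with _ | ⟨x, y, hxy⟩
      · exfalso
        have e : h.equiv (Point.zero : W.toAffine.Point) = 0 := map_zero _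
        rw [e] at hP
        exact Point.some_ne_zero _ hP.symm
      · obtain ⟨h'', e⟩ := h.equiv_some hxy
        obtain ⟨g1, e1⟩ := hs x y hxy
        obtain ⟨g2, e2⟩ := h.equiv_some g1
        rw [← hP, AddMonoidHom.neg_apply, ht, e1, e2, Point.neg_some]
        rw [e, Point.some.injEq] at hP
        obtain ⟨eX, eY⟩ := hP
        have hd' : β - α ≠ 0 := by rw [← neg_sub]; exact neg_ne_zero.mpr hd
        have eX' : σ x' = (σ x - x₀) / (α - β) ^ 2 := by
          rw [← eX, map_div₀, map_sub, map_pow, map_sub, hx, ha, hb]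
          congr 1; ring
        have eY' : σ y' = (nf (tateC W x₀ y₀ α β)).toAffine.negY ((σ x - x₀) / (α - β) ^ 2)
            ((σ y - y₀ - α * (σ x - x₀)) / (α - β) ^ 3) := by
          rw [← eY, map_div₀, map_sub, map_sub, map_mul, map_sub, map_pow, map_sub, hx, hy, ha, hb,
            nf_negY]
          rw [show (β - α) ^ 3 = -(α - β) ^ 3 by ring]
          field_simp
          ring
        simp only [eX', eY']
        exact ⟨(nonsingular_neg ..).mpr g2, trivial⟩

end Equiv

end NodeCentre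

end Fermat.Agent.LOC
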