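import Fermat.Agent.ECRed.Kernel
import Fermat.Agent.EllTorsion.Card
import Fermat.Agent.EllTorsion.MulXDivPoly

/-! # Large roots of the division polynomial

For a Weierstrass curve `W` with `v`-integral coefficients and an odd prime `p`, a finite set `S`
of roots of `preΨ' p` with `1 < v s` satisfies `v p * ∏ v s ≤ 1` (`v_mul_prod_le_one`).

Consequences: a nonzero `p`-torsion point `(x, y)` of the kernel of reduction satisfies
`v p * v x ^ ((p-1)/2) ≤ 1` (`ker_torsion_bound`), and a criterion for `E[p] ⊄ E₁`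
(`not_inKer_of_prod`). -/

set_option autoImplicit false

namespace Fermat.Agent.LOC.PeuDiv

open WeierstrassCurve WeierstrassCurve.Affine Fermat.Agent.ECRed Polynomial
open Fermat.Agent.EllTorsion

variable {K Γ₀ : Type*} [Field K] [LinearOrderedCommGroupWithZero Γ₀] {v : Valuation K Γ₀}

/-! ### Gauss's lemma -/

lemma v_coeff_mul_le {f g : K[X]} (hf : ∀ n, v (f.coeff n) ≤ 1) (hg : ∀ n, v (g.coeff n) ≤ 1)
    (n : ℕ) : v ((f * g).coeff n) ≤ 1 := by
  rw [coeff_mul]
  refine v.map_sum_le fun x _ => ?_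
  rw [map_mul]
  exact mul_le_one' (hf _) (hg _)

/-- If `G` is integral with constant coefficient `1` and `G * Q` is integral, so is `Q`. -/
lemma v_coeff_le_of_mul {G Q : K[X]} (hG : ∀ n, v (G.coeff n) ≤ 1) (hG0 : G.coeff 0 = 1)
    (h : ∀ n, v ((G * Q).coeff n) ≤ 1) (n : ℕ) : v (Q.coeff n) ≤ 1 := by
  induction n using Nat.strong_induction_on with
  | _ n ih =>
    have h1 := coeff_mul G Q n
    have hmem : ((0, n) : ℕ × ℕ) ∈ Finset.HasAntidiagonal.antidiagonal n := by
      simp
    rw [← Finset.add_sum_erase _ _ hmem, hG0, one_mul] at h1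
    have e : Q.coeff n = (G * Q).coeff n -
        ∑ x ∈ (Finset.HasAntidiagonal.antidiagonal n).erase (0, n), G.coeff x.1 * Q.coeff x.2 := by
      rw [h1]; ring
    rw [e]
    refine v.map_sub_le (h n) (v.map_sum_le fun x hx => ?_)
    rw [Finset.mem_erase, Finset.HasAntidiagonal.mem_antidiagonal] at hx
    rw [map_mul]
    refine mul_le_one' (hG _) (ih _ ?_)
    rcases Nat.eq_zero_or_pos x.1 with h0 | h0
    · exact absurd (Prod.ext h0 (by rw [← hx.2, h0, zero_add])) hx.1
    · omega

/-! ### The division polynomial -/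

variable {W : WeierstrassCurve K}

/-- An integral model. -/
def intModel (hW : IntCoeff v W) : WeierstrassCurve v.integer :=
  ⟨⟨W.a₁, hW.a₁⟩, ⟨W.a₂, hW.a₂⟩, ⟨W.a₃, hW.a₃⟩, ⟨W.a₄, hW.a₄⟩, ⟨W.a₆, hW.a₆⟩⟩

lemma intModel_map (hW : IntCoeff v W) : (intModel hW).map v.integer.subtype = W := by
  ext <;> rfl

lemma v_coeff_preΨ' (hW : IntCoeff v W) (n i : ℕ) : v ((W.preΨ' n).coeff i) ≤ 1 := by
  have h : W.preΨ' n = ((intModel hW).preΨ' n).map v.integer.subtype := by
    rw [← map_preΨ', intModel_map]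
  rw [h, coeff_map]
  exact (((intModel hW).preΨ' n).coeff i).2

/-- **Large roots of the division polynomial.** -/
theorem v_mul_prod_le_one (hW : IntCoeff v W) {p : ℕ} (hodd : Odd p) (hpK : (p : K) ≠ 0)
    (S : Finset K) (hS : ∀ s ∈ S, 1 < v s) (hroot : ∀ s ∈ S, (W.preΨ' p).eval s = 0) :
    v (p : K) * ∏ s ∈ S, v s ≤ 1 := by
  classical
  have hs0 : ∀ s ∈ S, s ≠ 0 := by
    rintro s hs rfl
    have := hS 0 hs
    rw [map_zero] at this
    exact absurd this (not_lt.mpr zero_le)
  have hdvd : (∏ s ∈ S, (X - C s)) ∣ W.preΨ' p := by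
    refine Finset.prod_dvd_of_coprime ?_ fun s hs => ?_
    · intro a _ b _ hab
      exact isCoprime_X_sub_C_of_isUnit_sub (sub_ne_zero.mpr hab).isUnit
    · exact dvd_iff_isRoot.mpr (hroot s hs)
  obtain ⟨q, hq⟩ := hdvd
  let G : K[X] := ∏ s ∈ S, (1 - C s⁻¹ * X)
  let Q : K[X] := C (∏ s ∈ S, (-s)) * q
  have hGQ : G * Q = W.preΨ' p := by
    have h1 : G * C (∏ s ∈ S, (-s)) = ∏ s ∈ S, (X - C s) := by
      rw [map_prod, ← Finset.prod_mul_distrib]
      refine Finset.prod_congr rfl fun s hs => ?_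
      have h2 : (C s⁻¹ * C s : K[X]) = 1 := by
        rw [← C_mul, inv_mul_cancel₀ (hs0 s hs), C_1]
      rw [C_neg]
      linear_combination (X : K[X]) * h2
    rw [hq, ← h1]
    ring
  have hGint : ∀ n, v (G.coeff n) ≤ 1 := by
    have : ∀ T : Finset K, T ⊆ S → ∀ n, v ((∏ s ∈ T, (1 - C s⁻¹ * X : K[X])).coeff n) ≤ 1 := by
      intro T
      induction T using Finset.induction_on with
      | empty =>
        intro _ n
        rw [Finset.prod_empty, coeff_one]
        split_ifs <;> simp
      | insert a T ha ih =>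
        intro hT n
        rw [Finset.prod_insert ha]
        refine v_coeff_mul_le (fun m => ?_) (ih (fun x hx => hT (Finset.mem_insert_of_mem hx))) n
        rw [coeff_sub, coeff_C_mul]
        refine v.map_sub_le ?_ ?_
        · rw [coeff_one]; split_ifs <;> simp
        · rw [map_mul]
          refine mul_le_one' ?_ ?_
          · rw [map_inv₀]
            exact inv_le_one_of_one_le₀ (hS a (hT (Finset.mem_insert_self _ _))).le
          · rw [coeff_X]; split_ifs <;> simp
    exact this S subset_rfl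
  have hG0 : G.coeff 0 = 1 := by
    rw [coeff_zero_eq_eval_zero, eval_prod]
    refine Finset.prod_eq_one fun s _ => ?_
    simp
  have hQ := v_coeff_le_of_mul hGint hG0 (fun n => by rw [hGQ]; exact v_coeff_preΨ' hW p n)
    Q.natDegree
  have hlead : Q.leadingCoeff = (∏ s ∈ S, (-s)) * p := by
    rw [leadingCoeff_mul, leadingCoeff_C]
    congr 1
    have h1 : (W.preΨ' p).leadingCoeff = p := by
      rw [leadingCoeff_preΨ' _ hpK, if_neg (Nat.not_even_iff_odd.mpr hodd)]
    rw [hq, leadingCoeff_mul, Monic.leadingCoeff (monic_prod_of_monic _ _ fun s _ =>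
      monic_X_sub_C s), one_mul] at h1
    exact h1
  rw [coeff_natDegree, hlead, map_mul, map_prod] at hQ
  simp only [Valuation.map_neg] at hQ
  rwa [mul_comm]

variable [DecidableEq K]

/-- The abscissa of a `p`-torsion point is a root of `preΨ' p`. -/
lemma eval_preΨ'_eq_zero [IsAlgClosed K] [W.IsElliptic] {p : ℕ} (hodd : Odd p) {x y : K}
    (h : W.toAffine.Nonsingular x y) (hP : p • Point.some x y h = 0) :
    (W.preΨ' p).eval x = 0 := by
  have h1 := ((isMulX_Φ_ΨSq (W := W) p).nsmul_eq_zero_iff h).mp hP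
  rw [ΨSq_ofNat, if_neg (Nat.not_even_iff_odd.mpr hodd), mul_one, eval_pow] at h1
  exact pow_eq_zero_iff (two_ne_zero) |>.mp h1

/-! ### Abscissas of points -/

/-- The abscissa of a point (`0` at infinity). -/
def px : W.toAffine.Point → K
  | 0 => 0
  | .some x _ _ => x

omit [DecidableEq K] in
@[simp] lemma px_some {x y : K} (h : W.toAffine.Nonsingular x y) :
    px (Point.some x y h : W.toAffine.Point) = x := rfl

omit [DecidableEq K] in
lemma one_lt_v_px {P : W.toAffine.Point} (hP : InKer v P) (h0 : P ≠ 0) : 1 < v (px P) := by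
  rcases P with _ | ⟨x, y, h⟩
  · exact absurd rfl h0
  · exact (inKer_some h).mp hP

omit [DecidableEq K] in
lemma eq_or_eq_neg_of_px_eq {P Q : W.toAffine.Point} (hP : P ≠ 0) (hQ : Q ≠ 0)
    (h : px P = px Q) : P = Q ∨ P = -Q := by
  rcases P with _ | ⟨x₁, y₁, h₁⟩
  · exact absurd rfl hP
  rcases Q with _ | ⟨x₂, y₂, h₂⟩
  · exact absurd rfl hQ
  rw [px_some, px_some] at h
  subst h
  rcases Y_eq_of_X_eq h₁.1 h₂.1 rfl with e | e
  · left
    subst e
    rfl
  · right
    rw [Point.neg_some, Point.some.injEq]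
    exact ⟨rfl, e⟩

omit [DecidableEq K] in
lemma v_zc_sq (hW : IntCoeff v W) {P : W.toAffine.Point} (hP : InKer v P) (h0 : P ≠ 0) :
    v (zc P) ^ 2 * v (px P) = 1 := by
  rcases P with _ | ⟨x, y, h⟩
  · exact absurd rfl h0
  · rw [inKer_some] at hP
    obtain ⟨-, h1⟩ := v_y_sq hW h.1 hP
    rw [zc_some, px_some, neg_div, Valuation.map_neg, map_div₀, div_pow, h1]
    have hx : v x ≠ 0 := (zero_lt_one.trans hP).ne'
    field_simp

omit [DecidableEq K] in
lemma v_natCast_eq_one {p k : ℕ} (hvp : v (p : K) < 1) (h : Nat.Coprime k p) :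
    v (k : K) = 1 := by
  refine le_antisymm (v_nat_le_one k) ?_
  by_contra hlt
  push Not at hlt
  obtain ⟨a, b, hab⟩ := Nat.isCoprime_iff_coprime.mpr h
  have h1 : ((a : K) * k + (b : K) * p) = 1 := by exact_mod_cast congrArg (Int.cast (R := K)) hab
  have h2 : v ((a : K) * k + (b : K) * p) < 1 := by
    refine v.map_add_lt ?_ ?_
    · exact lt_of_le_of_lt (v_imul_le (v_int_le_one a) le_rfl) hlt
    · exact lt_of_le_of_lt (v_imul_le (v_int_le_one b) le_rfl) hvp
  rw [h1, map_one] at h2
  exact lt_irrefl _ h2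

lemma v_px_nsmul (hW : IntCoeff v W) {P : W.toAffine.Point} (hP : InKer v P) (h0 : P ≠ 0) {k : ℕ}
    (hk : v (k : K) = 1) :
    InKer v (k • P) ∧ k • P ≠ 0 ∧ v (px (k • P)) = v (px P) := by
  obtain ⟨h1, h2⟩ := ker_nsmul hW hP k
  have hr := v_zc_lt_one hW hP
  have hr0 := v_zc_ne_zero hW hP h0
  have hr0' : 0 < v (zc P) := zero_lt_iff.mpr hr0
  have h3 : v (zc P) ^ 2 < v (zc P) := by
    rw [sq]
    simpa using mul_lt_mul_of_pos_left hr hr0'
  have h4 : v (zc (k • P)) = v (zc P) := by
    have e : zc (k • P) = (k : K) * zc P + (zc (k • P) - (k : K) * zc P) := by ring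
    rw [e, v.map_add_eq_of_lt_left, map_mul, hk, one_mul]
    rw [map_mul, hk, one_mul]
    exact h2.trans_lt h3
  have h5 : k • P ≠ 0 := by
    intro h
    rw [h, zc_zero, map_zero] at h4
    exact hr0 h4.symm
  refine ⟨h1, h5, ?_⟩
  have h6 := v_zc_sq hW h1 h5
  have h7 := v_zc_sq hW hP h0
  rw [h4] at h6
  exact mul_left_cancel₀ (pow_ne_zero 2 hr0) (h6.trans h7.symm)

/-- **Lower bound for the parameter of a `p`-torsion point of the kernel of reduction.** -/
theorem ker_torsion_bound [IsAlgClosed K] [W.IsElliptic] (hW : IntCoeff v W) {p : ℕ}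
    (hp : p.Prime) (hp2 : p ≠ 2) (hpK : (p : K) ≠ 0) (hvp : v (p : K) < 1)
    {P : W.toAffine.Point} (hP : InKer v P) (h0 : P ≠ 0) (htor : p • P = 0) :
    v (p : K) * v (px P) ^ ((p - 1) / 2) ≤ 1 := by
  classical
  have hodd : Odd p := hp.odd_of_ne_two hp2
  have hcop : ∀ k ∈ Finset.Icc 1 ((p - 1) / 2), v (k : K) = 1 := by
    intro k hk
    rw [Finset.mem_Icc] at hk
    have := hp.two_le
    exact v_natCast_eq_one hvp (Nat.Coprime.symm (hp.coprime_iff_not_dvd.mpr fun hdvd => by
      have := Nat.le_of_dvd (by omega) hdvd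
      omega))
  have hdvd : ∀ n : ℤ, n • P = 0 → (p : ℤ) ∣ n := by
    intro n hn
    have : Fact p.Prime := ⟨hp⟩
    have h1 : addOrderOf P = p := addOrderOf_eq_prime htor h0
    rw [← h1]
    exact addOrderOf_dvd_iff_zsmul_eq_zero.mpr hn
  have hinj : Set.InjOn (fun k : ℕ => px (k • P)) (Finset.Icc 1 ((p - 1) / 2) : Finset ℕ) := by
    intro k hk l hl hkl
    have hk' := hk
    have hl' := hl
    rw [Finset.mem_coe, Finset.mem_Icc] at hk' hl'
    have h1 := (v_px_nsmul hW hP h0 (hcop k hk)).2.1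
    have h2 := (v_px_nsmul hW hP h0 (hcop l hl)).2.1
    rcases eq_or_eq_neg_of_px_eq h1 h2 hkl with e | e
    · have h3 : ((k : ℤ) - l) • P = 0 := by
        rw [sub_smul, natCast_zsmul, natCast_zsmul, e, sub_self]
      obtain ⟨m, hm⟩ := hdvd _ h3
      have hpz : (0 : ℤ) < p := by exact_mod_cast hp.pos
      have hm0 : m = 0 := by
        have h4 : -(p : ℤ) < (p : ℤ) * m := by rw [← hm]; omega
        have h5 : (p : ℤ) * m < p := by rw [← hm]; omega
        have h6 : -1 < m := by nlinarith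
        have h7 : m < 1 := by nlinarith
        omega
      rw [hm0] at hm
      omega
    · exfalso
      have h3 : ((k : ℤ) + l) • P = 0 := by
        rw [add_smul, natCast_zsmul, natCast_zsmul, e, neg_add_cancel]
      obtain ⟨m, hm⟩ := hdvd _ h3
      have hpz : (0 : ℤ) < p := by exact_mod_cast hp.pos
      have h4 : 0 < (p : ℤ) * m := by rw [← hm]; omega
      have h5 : (p : ℤ) * m < p := by rw [← hm]; omega
      have h6 : 0 < m := by nlinarith
      have h7 : m < 1 := by nlinarith
      omega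
  have h := v_mul_prod_le_one hW hodd hpK
    ((Finset.Icc 1 ((p - 1) / 2)).image fun k : ℕ => px (k • P)) (by
      intro s hs
      obtain ⟨k, hk, rfl⟩ := Finset.mem_image.mp hs
      obtain ⟨h1, h2, -⟩ := v_px_nsmul hW hP h0 (hcop k hk)
      exact one_lt_v_px h1 h2) (by
      intro s hs
      obtain ⟨k, hk, rfl⟩ := Finset.mem_image.mp hs
      obtain ⟨-, h2, -⟩ := v_px_nsmul hW hP h0 (hcop k hk)
      have h3 : p • (k • P) = 0 := by rw [smul_comm, htor, smul_zero]
      rcases hQ : k • P with _ | ⟨x, y, hxy⟩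
      · exact absurd hQ h2
      · rw [hQ] at h3
        exact eval_preΨ'_eq_zero hodd hxy h3)
  rw [Finset.prod_image hinj, Finset.prod_congr rfl
    (fun k hk => (v_px_nsmul hW hP h0 (hcop k hk)).2.2), Finset.prod_const, Nat.card_Icc,
    Nat.add_sub_cancel] at h
  exact h

/-- If the `x`-coordinates of the points `a + k b`, where `a`, `b` generate `E[p]` and all points
are in the kernel of reduction, then the valuation of their product is not a power of `v p`. -/
theorem not_inKer_of_prod [IsAlgClosed K] [W.IsElliptic] (hW : IntCoeff v W) {p : ℕ}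
    (hp : p.Prime) (hp2 : p ≠ 2) (hpK : (p : K) ≠ 0) (hvp : v (p : K) < 1)
    {a b : W.toAffine.Point} (ha : p • a = 0) (hb : p • b = 0) (hb0 : b ≠ 0)
    (hab : a ∉ AddSubgroup.zmultiples b) (ha' : InKer v a) (hb' : InKer v b)
    (hN : ∃ n : ℤ, v (∏ k ∈ Finset.range p, px (a + k • b)) = v (p : K) ^ n) : False := by
  classical
  have hodd : Odd p := hp.odd_of_ne_two hp2
  have hker : ∀ k : ℕ, InKer v (a + k • b) := by
    intro k
    have h1 := (ker_nsmul hW hb' k).1
    exact (ker_add hW ha' h1 (r := max (v (zc a)) (v (zc (k • b))))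
      (max_lt (v_zc_lt_one hW ha') (v_zc_lt_one hW h1)) (le_max_left _ _) (le_max_right _ _)).1
  have hmem : ∀ n : ℤ, n • b ∈ AddSubgroup.zmultiples b := fun n =>
    AddSubgroup.zsmul_mem_zmultiples b n
  have hne : ∀ k : ℕ, a + k • b ≠ 0 := by
    intro k h
    apply hab
    rw [eq_neg_of_add_eq_zero_left h]
    exact neg_mem (AddSubgroup.nsmul_mem_zmultiples b k)
  have h2a : ∀ c ∈ AddSubgroup.zmultiples b, a + a ≠ c := by
    intro c hc h
    apply hab
    obtain ⟨m, hm⟩ := hodd
    -- `a = (p + 1) a = (m + 1) (2 a)`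
    have h1 : a = (m + 1) • (a + a) := by
      have h3 : (m + 1) • (a + a) = (p + 1) • a := by
        rw [← two_nsmul, ← mul_smul, hm]
        congr 1
        ring
      rw [h3, add_smul, ha, zero_add, one_smul]
    rw [h1, h]
    exact AddSubgroup.nsmul_mem _ hc _
  have hdvd : ∀ n : ℤ, n • b = 0 → (p : ℤ) ∣ n := by
    intro n hn
    have : Fact p.Prime := ⟨hp⟩
    have h1 : addOrderOf b = p := addOrderOf_eq_prime hb hb0
    rw [← h1]
    exact addOrderOf_dvd_iff_zsmul_eq_zero.mpr hn
  have hinj : Set.InjOn (fun k : ℕ => px (a + k • b)) (Finset.range p : Finset ℕ) := by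
    intro k hk l hl hkl
    rw [Finset.mem_coe, Finset.mem_range] at hk hl
    rcases eq_or_eq_neg_of_px_eq (hne k) (hne l) hkl with e | e
    · have h3 : ((k : ℤ) - l) • b = 0 := by
        rw [sub_smul, natCast_zsmul, natCast_zsmul, add_left_cancel e, sub_self]
      obtain ⟨m, hm⟩ := hdvd _ h3
      have hpz : (0 : ℤ) < p := by exact_mod_cast hp.pos
      have hm0 : m = 0 := by
        have h4 : -(p : ℤ) < (p : ℤ) * m := by rw [← hm]; omega
        have h5 : (p : ℤ) * m < p := by rw [← hm]; omega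
        have h6 : -1 < m := by nlinarith
        have h7 : m < 1 := by nlinarith
        omega
      rw [hm0] at hm
      omega
    · exfalso
      refine h2a (-(k • b) - l • b) ?_ ?_
      · exact sub_mem (neg_mem (AddSubgroup.nsmul_mem_zmultiples b k))
          (AddSubgroup.nsmul_mem_zmultiples b l)
      · have h4 : a + k • b = -(a + l • b) := e
        have h5 : a + a = (a + k • b) + a - k • b := by abel
        rw [h5, h4]
        abel
  have hnot : px b ∉ (Finset.range p).image fun k : ℕ => px (a + k • b) := by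
    intro h
    obtain ⟨k, -, hk⟩ := Finset.mem_image.mp h
    rcases eq_or_eq_neg_of_px_eq (hne k) hb0 hk with e | e
    · apply hab
      rw [eq_sub_of_add_eq e]
      exact sub_mem (AddSubgroup.mem_zmultiples b) (AddSubgroup.nsmul_mem_zmultiples b k)
    · apply hab
      rw [eq_sub_of_add_eq e]
      exact sub_mem (neg_mem (AddSubgroup.mem_zmultiples b)) (AddSubgroup.nsmul_mem_zmultiples b k)
  have htor : ∀ k : ℕ, p • (a + k • b) = 0 := by
    intro k
    rw [smul_add, ha, smul_comm, hb, smul_zero, add_zero]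
  have hrootof : ∀ Q : W.toAffine.Point, Q ≠ 0 → p • Q = 0 → (W.preΨ' p).eval (px Q) = 0 := by
    intro Q hQ0 hQ
    rcases Q with _ | ⟨x, y, hxy⟩
    · exact absurd rfl hQ0
    · exact eval_preΨ'_eq_zero hodd hxy hQ
  have h := v_mul_prod_le_one hW hodd hpK
    (insert (px b) ((Finset.range p).image fun k : ℕ => px (a + k • b))) (by
      intro s hs
      rcases Finset.mem_insert.mp hs with rfl | hs
      · exact one_lt_v_px hb' hb0
      · obtain ⟨k, -, rfl⟩ := Finset.mem_image.mp hs
        exact one_lt_v_px (hker k) (hne k)) (by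
      intro s hs
      rcases Finset.mem_insert.mp hs with rfl | hs
      · exact hrootof b hb0 hb
      · obtain ⟨k, -, rfl⟩ := Finset.mem_image.mp hs
        exact hrootof _ (hne k) (htor k))
  rw [Finset.prod_insert hnot, Finset.prod_image hinj, ← map_prod] at h
  obtain ⟨n, hn⟩ := hN
  have hvp0 : 0 < v (p : K) := by rwa [Valuation.pos_iff]
  have hN1 : 1 < v (∏ k ∈ Finset.range p, px (a + k • b)) := by
    rw [map_prod]
    have h1 : (1 : Γ₀) < v (px (a + 0 • b)) := one_lt_v_px (hker 0) (hne 0)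
    rw [← Finset.mul_prod_erase _ _ (Finset.mem_range.mpr hp.pos)]
    refine lt_of_lt_of_le h1 (le_mul_of_one_le_right zero_le ?_)
    exact Finset.one_le_prod' fun k _ => (one_lt_v_px (hker k) (hne k)).le
  have hn1 : n ≤ -1 := by
    rw [hn] at hN1
    by_contra hcon
    push Not at hcon
    have : v (p : K) ^ n ≤ 1 := (zpow_le_one_iff_right_of_lt_one₀ hvp0 hvp).mpr (by omega)
    exact absurd hN1 (not_lt.mpr this)
  have hN2 : (v (p : K))⁻¹ ≤ v (∏ k ∈ Finset.range p, px (a + k • b)) := by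
    rw [hn, ← zpow_neg_one]
    exact (zpow_le_zpow_iff_right_of_lt_one₀ hvp0 hvp).mpr hn1
  have h1 : v (px b) ≤ 1 := by
    calc v (px b) = v (p : K) * (v (px b) * (v (p : K))⁻¹) := by
          rw [mul_left_comm, mul_inv_cancel₀ hvp0.ne', mul_one]
      _ ≤ v (p : K) * (v (px b) * v (∏ k ∈ Finset.range p, px (a + k • b))) := by gcongr
      _ ≤ 1 := h
  exact absurd (one_lt_v_px hb' hb0) (not_lt.mpr h1)

end Fermat.Agent.LOC.PeuDiv
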