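import Fermat.Agent.LOC.PeuRam
import Fermat.Agent.DR.AtP.Hilbert
import Fermat.Agent.DR.AtP.Cases
import Fermat.Agent.EllTorsion.Torsion

/-! # The Kummer extension attached to `E[p]` at `p` is peu ramifiée when `p ∣ v_p(Δ)`

`W` is an integral Weierstrass equation which is semistable at the odd prime `p`, `p ∣ v_p(Δ)`,
`A` is a place of `ℚ̄` over `p` with inertia group `I`, and `α`, `x` are `p`-torsion points such
that `I` acts on `α` by the cyclotomic character and `σ x - x ∈ ⟨α⟩` for `σ ∈ I`. -/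

set_option autoImplicit false

namespace Fermat.Agent.LOC.PeuMain

open WeierstrassCurve WeierstrassCurve.Affine Fermat.Agent.ECRed Fermat.Agent.LOC.TateHom
open Fermat.Agent.LOC.PeuDiv Fermat.Agent.LOC.PeuRam Fermat.Agent.DR.AtP
open scoped WeierstrassCurve.Affine

local notation "Qb" => AlgebraicClosure ℚ

section Good

variable (W : WeierstrassCurve ℤ) {p : ℕ} (hp : p.Prime) (hp2 : p ≠ 2)
  (hgood : ¬ (p : ℤ) ∣ W.Δ) (A : ValuationSubring Qb) (hA : A.LiesOverPrime p)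

lemma inKer_iff_forall (P : ((W.map (Int.castRingHom ℚ))⁄Qb).Point) :
    InKer A.valuation P ↔ P = 0 ∨ ∃ (x y : Qb) (h : _), P = .some x y h ∧ x ∉ A := by
  rcases P with _ | ⟨x, y, h⟩
  · exact ⟨fun _ => Or.inl rfl, fun _ => inKer_zero⟩
  · change InKer A.valuation (Point.some x y h) ↔ _
    rw [inKer_some]
    constructor
    · intro h1
      refine Or.inr ⟨x, y, h, rfl, fun h2 => ?_⟩
      exact absurd ((A.valuation_le_one_iff x).mpr h2) (not_le.mpr h1)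
    · rintro (h0 | ⟨x', y', h', e, hx⟩)
      · exact absurd h0 (Point.some_ne_zero _)
      · rw [Point.some.injEq] at e
        rw [e.1]
        by_contra hle
        exact hx ((A.valuation_le_one_iff x').mp (not_lt.mp hle))

include hp hgood hA in
lemma residue_Δ_ne_zero :
    (W.map (Int.castRingHom (IsLocalRing.ResidueField A))).Δ ≠ 0 := by
  rw [WeierstrassCurve.map_Δ, eq_intCast]
  exact EllRed.intCast_residueField_ne_zero hp hA hgood

include hp hgood hA in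
lemma smul_sub_inKer_good {σ : Qb ≃ₐ[ℚ] Qb} (hσ : σ ∈ A.inertiaSubgroupIn ℚ)
    (P : ((W.map (Int.castRingHom ℚ))⁄Qb).Point) : InKer A.valuation (σ • P - P) := by
  classical
  rw [inKer_iff_forall]
  have h := RedHom.curveRed_int (A := A) (IsLocalRing.residue A) W
  have hU := residue_Δ_ne_zero W hp hgood A hA
  exact RedHom.pointRed_zero_right_iff.mp
    (EllRed.smul_sub_mem_ker h hσ (RedHom.mem_E0_of_Δ_ne_zero h hU P))

include hp hgood hA in
lemma v_psi_eq_one {n : ℕ} (hn : Odd n) {X Y : Qb}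
    {h : ((W.map (Int.castRingHom ℚ))⁄Qb).Nonsingular X Y}
    (htor : n • (Point.some X Y h : ((W.map (Int.castRingHom ℚ))⁄Qb).Point) = 0)
    (hP : ¬ InKer A.valuation (Point.some X Y h)) :
    A.valuation X ≤ 1 ∧ A.valuation Y ≤ 1 ∧
      A.valuation (2 * Y + ((W.map (Int.castRingHom ℚ))⁄Qb).a₁ * X +
        ((W.map (Int.castRingHom ℚ))⁄Qb).a₃) = 1 := by
  classical
  have hcr := RedHom.curveRed_int (A := A) (IsLocalRing.residue A) W
  have hU := residue_Δ_ne_zero W hp hgood A hA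
  set red := RedHom.redHomOfGood hcr hU with hred
  have hP0 : red (Point.some X Y h) ≠ 0 := by
    intro h0
    rw [hred, RedHom.redHomOfGood_eq_zero_iff, ← inKer_iff_forall] at h0
    exact hP h0
  have hPR := RedHom.pointRed_redHomOfGood hcr hU (Point.some X Y h)
  rw [RedHom.pointRed_some_iff] at hPR
  rcases hPR with ⟨-, h0⟩ | ⟨u, w, h', e, hXu, hYw⟩
  · exact absurd h0 hP0
  have hψ : RedHom.RedTo (IsLocalRing.residue A)
      (2 * Y + ((W.map (Int.castRingHom ℚ))⁄Qb).a₁ * X + ((W.map (Int.castRingHom ℚ))⁄Qb).a₃)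
      (2 * w + (W.map (Int.castRingHom (IsLocalRing.ResidueField A))).a₁ * u +
        (W.map (Int.castRingHom (IsLocalRing.ResidueField A))).a₃) :=
    (((RedHom.redTo_ofNat _ 2).mul hYw).add (hcr.a₁.mul hXu)).add hcr.a₃
  refine ⟨(A.valuation_le_one_iff _).mpr hXu.mem, (A.valuation_le_one_iff _).mpr hYw.mem, ?_⟩
  refine le_antisymm ((A.valuation_le_one_iff _).mpr hψ.mem) ?_
  by_contra hlt
  push Not at hlt
  have h0 := hψ.eq_zero_iff.mpr (A.mem_nonunits_iff.mpr hlt)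
  apply hP0
  have h1 : -red (Point.some X Y h) = red (Point.some X Y h) := by
    rw [hred, e, Point.neg_some, Point.some.injEq]
    refine ⟨rfl, ?_⟩
    rw [negY]
    linear_combination -h0
  have h2 : 2 • red (Point.some X Y h) = 0 := by
    rw [two_nsmul]
    nth_rewrite 1 [← h1]
    exact neg_add_cancel _
  have h3 : n • red (Point.some X Y h) = 0 := by rw [← map_nsmul, htor, map_zero]
  obtain ⟨m, hm⟩ := hn
  rw [hm, add_smul, one_smul, mul_comm, mul_smul, h2, smul_zero, zero_add] at h3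
  exact h3

end Good

section Tres

variable (W : WeierstrassCurve ℤ) (hΔ0 : W.Δ ≠ 0) {p : ℕ} (hp : p.Prime) (hp2 : p ≠ 2)
  (hss : (p : ℤ) ∣ W.Δ → ¬ (p : ℤ) ∣ W.c₄) (hdvd : p ∣ padicValInt p W.Δ)
  (A : ValuationSubring Qb) (hA : A.LiesOverPrime p) {ζ : Qb} (hζ : IsPrimitiveRoot ζ p)

lemma nsmul_smul' (n : ℕ) (σ : Qb ≃ₐ[ℚ] Qb) (P : ((W.map (Int.castRingHom ℚ))⁄Qb).Point) :
    n • σ • P = σ • n • P :=
  (map_nsmul (DistribSMul.toAddMonoidHom ((W.map (Int.castRingHom ℚ))⁄Qb).Point σ) n P).symm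

lemma smul_zero' (σ : Qb ≃ₐ[ℚ] Qb) :
    σ • (0 : ((W.map (Int.castRingHom ℚ))⁄Qb).Point) = 0 :=
  map_zero (DistribSMul.toAddMonoidHom ((W.map (Int.castRingHom ℚ))⁄Qb).Point σ)

lemma smul_add' (σ : Qb ≃ₐ[ℚ] Qb) (P Q : ((W.map (Int.castRingHom ℚ))⁄Qb).Point) :
    σ • (P + Q) = σ • P + σ • Q :=
  map_add (DistribSMul.toAddMonoidHom ((W.map (Int.castRingHom ℚ))⁄Qb).Point σ) P Q

include hΔ0 in
lemma isElliptic_baseChange' :
    WeierstrassCurve.IsElliptic ((W.map (Int.castRingHom ℚ)).baseChange Qb) :=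
  ⟨isUnit_iff_ne_zero.mpr (baseChange_Δ_ne_zero (L := Qb) W hΔ0)⟩

include hΔ0 hp hp2 hA hζ in
/-- a nonzero `p`-torsion point of the kernel of reduction has `v x ≤ v (ζ - 1) ^ (-2)` -/
lemma final_contra {R : ((W.map (Int.castRingHom ℚ))⁄Qb).Point} (hR : InKer A.valuation R)
    (hR0 : R ≠ 0) (htor : p • R = 0)
    (h : 1 < A.valuation (px R) * A.valuation (ζ - 1) ^ 2) : False := by
  have := isElliptic_baseChange' W hΔ0
  have hpK : (p : Qb) ≠ 0 := Nat.cast_ne_zero.mpr hp.ne_zero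
  have hvp : A.valuation (p : Qb) < 1 := A.mem_nonunits_iff.mp hA
  have hb := ker_torsion_bound (v := A.valuation)
    (W := (W.map (Int.castRingHom ℚ)).baseChange Qb) (intCoeff_baseChange_int W _) hp hp2 hpK hvp
    hR hR0 htor
  rw [← v_zeta_sub_one_pow hp hζ] at hb
  obtain ⟨m, hm⟩ := hp.odd_of_ne_two hp2
  have hm0 : m ≠ 0 := by
    rintro rfl
    exact hp.one_lt.ne' hm
  have e1 : p - 1 = 2 * m := by omega
  have e2 : (p - 1) / 2 = m := by omega
  rw [e2, e1, pow_mul, ← mul_pow, mul_comm] at hb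
  exact absurd (one_lt_pow₀ h hm0) (not_lt.mpr hb)

include hΔ0 hp hss hA in
lemma smul_sub_inKer {σ : Qb ≃ₐ[ℚ] Qb} (hσ : σ ∈ A.inertiaSubgroupIn ℚ)
    {P : ((W.map (Int.castRingHom ℚ))⁄Qb).Point} (hP : p • P = 0) :
    InKer A.valuation (σ • P - P) := by
  by_cases hΔ : (p : ℤ) ∣ W.Δ
  · obtain ⟨ε, -, hε1, h⟩ := exists_sign_decomposition (L := Qb) W hΔ0 hp (hss hΔ) hΔ A hA
      (mem_decomposition_of_inertia A hσ)
    have h1 := h 1 P (by rw [pow_one]; exact hP)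
    rw [hε1 hσ, one_smul] at h1
    exact h1
  · exact smul_sub_inKer_good W hp hΔ A hA hσ P

include hΔ0 hp hp2 hss hdvd hA hζ in
/-- **No très ramifiée extensions.** -/
theorem fixed_of_tres {x : ((W.map (Int.castRingHom ℚ))⁄Qb).Point} (hx : p • x = 0)
    (hxker : ¬ InKer A.valuation x) {μ : Qb} (hμ0 : μ ≠ 0)
    (hμp : ∀ σ ∈ A.inertiaSubgroupIn ℚ, σ (μ ^ p) = μ ^ p)
    (hvμ : A.valuation μ ^ p = A.valuation (p : Qb))
    (hstab : ∀ τ ∈ A.inertiaSubgroupIn ℚ, τ μ = μ → τ • x = x)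
    {σ : Qb ≃ₐ[ℚ] Qb} (hσ : σ ∈ A.inertiaSubgroupIn ℚ) : σ • x = x := by
  by_contra hne
  have I := inertialAction A hp hA
  have hpK : (p : Qb) ≠ 0 := Nat.cast_ne_zero.mpr hp.ne_zero
  have hvp : A.valuation (p : Qb) < 1 := A.mem_nonunits_iff.mp hA
  have hρ0 : 0 < A.valuation (ζ - 1) := by
    rw [Valuation.pos_iff]; exact zeta_sub_one_ne_zero hp hζ
  have hρ1 : A.valuation (ζ - 1) < 1 := v_zeta_sub_one_lt hp hζ hvp
  have hμ1 : A.valuation μ < 1 := I.v_mu_lt_tres hμ0 hvμ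
  have hpρ : A.valuation (p : Qb) < A.valuation (ζ - 1) := by
    rw [← v_zeta_sub_one_pow hp hζ]
    calc A.valuation (ζ - 1) ^ (p - 1) < A.valuation (ζ - 1) ^ 1 :=
          pow_lt_pow_right_of_lt_one₀ hρ0 hρ1 (by have := hp.two_le; omega)
      _ = A.valuation (ζ - 1) := pow_one _
  have hbound : ∀ w : Qb, A.valuation w ≤ 1 →
      (∀ τ ∈ A.inertiaSubgroupIn ℚ, τ • x = x → τ w = w) →
      A.valuation (σ w - w) < A.valuation (ζ - 1) := by
    intro w hw hfix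
    have h1 := I.smul_sub_le_tres hζ hμ0 (fun τ => hμp τ.1 τ.2) hvμ (a := w)
      (fun τ hτ => hfix τ.1 τ.2 (hstab τ.1 τ.2 hτ)) hw ⟨σ, hσ⟩
    refine lt_of_le_of_lt h1 ?_
    calc A.valuation (ζ - 1) * A.valuation μ < A.valuation (ζ - 1) * 1 :=
          mul_lt_mul_of_pos_left hμ1 hρ0
      _ = A.valuation (ζ - 1) := mul_one _
  have hker := smul_sub_inKer W hΔ0 hp hss A hA hσ hx
  have hR0 : σ • x - x ≠ 0 := sub_ne_zero.mpr hne
  have hRtor : p • (σ • x - x) = 0 := by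
    rw [nsmul_sub, hx, sub_zero, nsmul_smul', hx, smul_zero']
  refine final_contra W hΔ0 hp hp2 A hA hζ hker hR0 hRtor ?_
  by_cases hΔ : (p : ℤ) ∣ W.Δ
  · obtain ⟨h1, h2⟩ := mult_hyps (L := Qb) W hp (hss hΔ) hΔ A hA
    obtain ⟨k, hk⟩ := hdvd
    obtain ⟨w, hw1, hw⟩ := exists_unit (v := A.valuation)
      (W := (W.map (Int.castRingHom ℚ)).baseChange Qb) two_ne_zero three_ne_zero
      (intCoeff_baseChange_int W _) h1 h2 (baseChange_Δ_ne_zero W hΔ0) hp hvp hpK (k := k)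
      (by rw [baseChange_int_Δ, valuation_int_eq_pow A hp hA hΔ0, hk]) hx hxker
    have happ : ∀ τ : Qb ≃ₐ[ℚ] Qb, τ ∈ A.inertiaSubgroupIn ℚ →
        (τ • x = x → τ w = w) ∧ ∀ ρ, τ • x ≠ x → A.valuation (p : Qb) < ρ →
          A.valuation (τ w - w) < ρ → 1 < A.valuation (px (τ • x - x)) * ρ ^ 2 := by
      intro τ hτ
      exact hw (τ : Qb →+* Qb) (decomposition_valuation A (mem_decomposition_of_inertia A hτ))
        (fun z hz => inertia_sub A hτ hz)
        (by rw [baseChange_int_a₁]; exact map_intCast τ _)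
        (by rw [baseChange_int_a₂]; exact map_intCast τ _)
        (by rw [baseChange_int_a₃]; exact map_intCast τ _)
        (by rw [baseChange_int_a₄]; exact map_intCast τ _)
        (by rw [baseChange_int_a₆]; exact map_intCast τ _)
        (DistribSMul.toAddMonoidHom
          ((W.map (Int.castRingHom ℚ)).toAffine.baseChange Qb).Point τ)
        (fun x y h => ⟨_, rfl⟩)
    exact (happ σ hσ).2 _ hne hpρ (hbound w hw1.le fun τ hτ => (happ τ hτ).1)
  · rcases x with _ | ⟨X, Y, h⟩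
    · exact absurd inKer_zero hxker
    obtain ⟨hX, hY, hψ⟩ := v_psi_eq_one W hp hΔ A hA (hp.odd_of_ne_two hp2) hx hxker
    have hsm : ∀ τ : Qb ≃ₐ[ℚ] Qb, ∃ h', τ • (Point.some X Y h :
        ((W.map (Int.castRingHom ℚ))⁄Qb).Point) = Point.some (τ X) (τ Y) h' := by
      intro τ
      exact ⟨_, rfl⟩
    obtain ⟨h', e⟩ := hsm σ
    rw [e]
    rw [e] at hne
    refine good_core (intCoeff_baseChange_int W _) h hX hY hψ h' hρ1.le ?_ ?_ hne
    · refine hbound X hX fun τ hτ hτx => ?_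
      obtain ⟨h'', e'⟩ := hsm τ
      rw [e', Point.some.injEq] at hτx
      exact hτx.1
    · refine hbound Y hY fun τ hτ hτx => ?_
      obtain ⟨h'', e'⟩ := hsm τ
      rw [e', Point.some.injEq] at hτx
      exact hτx.2

include hΔ0 hp hp2 hss hA in
/-- The point `x` is not in the kernel of reduction. -/
theorem not_inKer {α x : ((W.map (Int.castRingHom ℚ))⁄Qb).Point} (hα0 : α ≠ 0) (hα : p • α = 0)
    (hx : p • x = 0) (hxα : x ∉ AddSubgroup.zmultiples α)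
    (hj : ∀ σ ∈ A.inertiaSubgroupIn ℚ, σ • x - x ∈ AddSubgroup.zmultiples α)
    (hαI : ∀ σ ∈ A.inertiaSubgroupIn ℚ, σ • α ∈ AddSubgroup.zmultiples α)
    {σ₀ : Qb ≃ₐ[ℚ] Qb} (hσ₀ : σ₀ ∈ A.inertiaSubgroupIn ℚ) (hne : σ₀ • x ≠ x) :
    ¬ InKer A.valuation x := by
  classical
  intro hxker
  have := isElliptic_baseChange' W hΔ0
  have I := inertialAction A hp hA
  have hpK : (p : Qb) ≠ 0 := Nat.cast_ne_zero.mpr hp.ne_zero
  have hvp : A.valuation (p : Qb) < 1 := A.mem_nonunits_iff.mp hA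
  have hfp : Fact p.Prime := ⟨hp⟩
  have hord : addOrderOf α = p := addOrderOf_eq_prime hα hα0
  -- `α` is in the kernel of reduction
  have hαker : InKer A.valuation α := by
    have hR := smul_sub_inKer W hΔ0 hp hss A hA hσ₀ hx
    have hR0 : σ₀ • x - x ≠ 0 := sub_ne_zero.mpr hne
    obtain ⟨k, hk⟩ := AddSubgroup.mem_zmultiples_iff.mp (hj σ₀ hσ₀)
    have hpk : ¬ (p : ℤ) ∣ k := by
      rintro ⟨m, rfl⟩
      apply hR0
      rw [← hk, mul_comm, mul_smul, natCast_zsmul, hα, zsmul_zero]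
    have hcop := isCoprime_of_not_dvd hp hpk
    obtain ⟨a, b, hab⟩ := hcop
    have e : α = a • (σ₀ • x - x) := by
      rw [← hk, ← mul_smul]
      have h1 : (a * k + b * p) • α = (a * k) • α := by
        rw [add_zsmul, mul_smul b, natCast_zsmul, hα, zsmul_zero, add_zero]
      rw [← h1, hab, one_smul]
    have hmem : a • (σ₀ • x - x) ∈ kerSub W A := AddSubgroup.zsmul_mem _ hR a
    rw [← e] at hmem
    exact hmem
  -- the orbit product
  let T : Finset ((W.map (Int.castRingHom ℚ))⁄Qb).Point :=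
    (Finset.range p).image fun k : ℕ => x + k • α
  have hT : ∀ Q, Q ∈ T ↔ Q - x ∈ AddSubgroup.zmultiples α := by
    intro Q
    rw [Finset.mem_image]
    constructor
    · rintro ⟨k, -, rfl⟩
      rw [add_sub_cancel_left]
      exact AddSubgroup.nsmul_mem_zmultiples α k
    · intro h
      obtain ⟨k, hk⟩ := AddSubgroup.mem_zmultiples_iff.mp h
      have hpz : (0 : ℤ) < p := by exact_mod_cast hp.pos
      refine ⟨(k % p).toNat, ?_, ?_⟩
      · rw [Finset.mem_range]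
        have := Int.emod_lt_of_pos k hpz
        have := Int.emod_nonneg k hpz.ne'
        omega
      · have h1 : ((k % p).toNat : ℤ) = k % p := Int.toNat_of_nonneg (Int.emod_nonneg k hpz.ne')
        have h2 : (k % p) • α = k • α := by
          conv_rhs => rw [← Int.emod_add_mul_ediv k p, add_zsmul, mul_comm, mul_smul,
            natCast_zsmul, hα, zsmul_zero, add_zero]
        rw [← natCast_zsmul, h1, h2, hk]
        abel
  have hinj : Set.InjOn (fun k : ℕ => x + k • α) (Finset.range p : Finset ℕ) := by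
    intro k hk l hl hkl
    rw [Finset.mem_coe, Finset.mem_range] at hk hl
    have h1 : k • α = l • α := add_left_cancel hkl
    exact nsmul_injOn_Iio_addOrderOf (by rw [hord]; exact hk) (by rw [hord]; exact hl) h1
  have hprod : ∏ k ∈ Finset.range p, px (x + k • α) = ∏ Q ∈ T, px Q := by
    rw [Finset.prod_image hinj]
  have hpxσ : ∀ (σ : Qb ≃ₐ[ℚ] Qb) (Q : ((W.map (Int.castRingHom ℚ))⁄Qb).Point),
      σ (px Q) = px (σ • Q) := by
    intro σ Q
    rcases Q with _ | ⟨X, Y, h⟩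
    · exact map_zero σ
    · rfl
  have hstab : ∀ σ ∈ A.inertiaSubgroupIn ℚ, ∀ Q ∈ T, σ • Q ∈ T := by
    intro σ hσ Q hQ
    rw [hT] at hQ ⊢
    obtain ⟨k, hk⟩ := AddSubgroup.mem_zmultiples_iff.mp hQ
    have h1 : σ • Q = σ • x + k • σ • α := by
      have h2 : Q = x + k • α := by rw [hk]; abel
      have h3 : k • σ • α = σ • k • α :=
        (map_zsmul (DistribSMul.toAddMonoidHom ((W.map (Int.castRingHom ℚ))⁄Qb).Point σ) k α).symm
      rw [h2, smul_add', h3]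
    have h2 : σ • Q - x = (σ • x - x) + k • σ • α := by rw [h1]; abel
    rw [h2]
    exact add_mem (hj σ hσ) (AddSubgroup.zsmul_mem _ (hαI σ hσ) k)
  have hfix : ∀ σ : A.inertiaSubgroupIn ℚ, σ • (∏ Q ∈ T, px Q) = ∏ Q ∈ T, px Q := by
    intro σ
    change σ.1 (∏ Q ∈ T, px Q) = _
    rw [map_prod]
    refine Finset.prod_bij (fun Q _ => σ.1 • Q) (fun Q hQ => hstab σ.1 σ.2 Q hQ) ?_ ?_ ?_
    · intro Q _ Q' _ h
      exact smul_left_cancel σ.1 h
    · intro Q hQ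
      refine ⟨σ.1⁻¹ • Q, hstab _ (inv_mem σ.2) Q hQ, smul_inv_smul σ.1 Q⟩
    · intro Q _
      exact hpxσ σ.1 Q
  have hTker : ∀ Q ∈ T, InKer A.valuation Q ∧ Q ≠ 0 := by
    intro Q hQ
    rw [hT] at hQ
    obtain ⟨k, hk⟩ := AddSubgroup.mem_zmultiples_iff.mp hQ
    have h2 : Q = x + k • α := by rw [hk]; abel
    constructor
    · have h3 : x + k • α ∈ kerSub W A :=
        add_mem (show x ∈ kerSub W A from hxker) (AddSubgroup.zsmul_mem _ hαker k)
      rw [h2]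
      exact h3
    · intro h0
      apply hxα
      rw [h0] at h2
      rw [eq_neg_of_add_eq_zero_left h2.symm]
      exact neg_mem (AddSubgroup.zsmul_mem_zmultiples α k)
  have hne0 : ∏ Q ∈ T, px Q ≠ 0 := by
    rw [Finset.prod_ne_zero_iff]
    intro Q hQ h0
    have := one_lt_v_px (v := A.valuation) (hTker Q hQ).1 (hTker Q hQ).2
    rw [h0, map_zero] at this
    exact absurd this (not_lt.mpr zero_le)
  obtain ⟨n, hn⟩ := I.v_fixed _ hfix hne0
  exact not_inKer_of_prod (v := A.valuation)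
    (W := (W.map (Int.castRingHom ℚ)).baseChange Qb) (intCoeff_baseChange_int W _) hp hp2 hpK hvp
    hx hα hα0 hxα hxker hαker ⟨n, by rw [hprod]; exact hn⟩

include hp hp2 hA hζ in
omit hΔ0 in
/-- **Kummer theory**: the extension of the fixed field of inertia cut out by `x` is trivial (up to
changing `x` modulo `⟨α⟩`), peu ramifiée or très ramifiée. -/
theorem kummer_cases {α x : ((W.map (Int.castRingHom ℚ))⁄Qb).Point} (hα0 : α ≠ 0)
    (hα : p • α = 0)
    (hχα : ∀ σ ∈ A.inertiaSubgroupIn ℚ, ∀ n : ℕ, σ ζ = ζ ^ n → σ • α = n • α)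
    (hj : ∀ σ ∈ A.inertiaSubgroupIn ℚ, σ • x - x ∈ AddSubgroup.zmultiples α) :
    (∃ i : ℤ, ∀ σ ∈ A.inertiaSubgroupIn ℚ, σ • (x + i • α) = x + i • α) ∨
    (∃ μ v' : Qb, μ ^ p = 1 + p * v' ∧ A.valuation v' = 1 ∧
      (∀ σ ∈ A.inertiaSubgroupIn ℚ, σ v' = v') ∧
      ∀ σ ∈ A.inertiaSubgroupIn ℚ, ∀ n : ℕ, σ μ = ζ ^ n * μ → σ • x = x + n • α) ∨
    ∃ μ : Qb, μ ≠ 0 ∧ (∀ σ ∈ A.inertiaSubgroupIn ℚ, σ (μ ^ p) = μ ^ p) ∧
      A.valuation μ ^ p = A.valuation (p : Qb) ∧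
      ∀ τ ∈ A.inertiaSubgroupIn ℚ, (τ μ = μ ↔ τ • x = x) := by
  classical
  have hfp : Fact p.Prime := ⟨hp⟩
  have I := inertialAction A hp hA
  have hord : addOrderOf α = p := addOrderOf_eq_prime hα hα0
  have hζ1 := hζ.pow_eq_one
  -- the cyclotomic character
  have hχex : ∀ σ : Qb ≃ₐ[ℚ] Qb, ∃ z : ZMod p, σ ζ = zpw ζ z := by
    intro σ
    obtain ⟨z, hz⟩ := exists_zpw_eq hζ (ξ := σ ζ) (by rw [← map_pow, hζ1, map_one])
    exact ⟨z, hz.symm⟩
  choose χ hχ using hχex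
  have hαI : ∀ σ ∈ A.inertiaSubgroupIn ℚ, σ • α = (χ σ).val • α := fun σ hσ =>
    hχα σ hσ _ (hχ σ)
  -- the multiples of `α`
  let φ : ZMod p →+ ((W.map (Int.castRingHom ℚ))⁄Qb).Point :=
    ZMod.lift p ⟨zmultiplesHom _ α, by
      rw [zmultiplesHom_apply, natCast_zsmul]; exact hα⟩
  have hφ : ∀ k : ℤ, φ (k : ZMod p) = k • α := fun k => by
    rw [ZMod.lift_coe]
    rfl
  have hφn : ∀ n : ℕ, φ (n : ZMod p) = n • α := fun n => by
    have := hφ n
    rwa [Int.cast_natCast, natCast_zsmul] at this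
  have hφv : ∀ z : ZMod p, φ z = z.val • α := fun z => by
    rw [← hφn, ZMod.natCast_val, ZMod.cast_id]
  have hφinj : Function.Injective φ := by
    rw [injective_iff_map_eq_zero]
    intro z hz
    rw [hφv] at hz
    have h1 := addOrderOf_dvd_of_nsmul_eq_zero hz
    rw [hord] at h1
    have h2 := (ZMod.natCast_eq_zero_iff z.val p).mpr h1
    rwa [ZMod.natCast_val, ZMod.cast_id] at h2
  have hφσ : ∀ σ ∈ A.inertiaSubgroupIn ℚ, ∀ z : ZMod p, σ • φ z = φ (χ σ * z) := by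
    intro σ hσ z
    rw [hφv z, ← nsmul_smul', hαI σ hσ, ← hφn, ← map_nsmul, nsmul_eq_mul, ZMod.natCast_val,
      ZMod.cast_id, ZMod.natCast_val, ZMod.cast_id, mul_comm]
  -- the cocycle
  have hjex : ∀ σ : Qb ≃ₐ[ℚ] Qb, ∃ z : ZMod p,
      σ ∈ A.inertiaSubgroupIn ℚ → σ • x = x + φ z := by
    intro σ
    by_cases hσ : σ ∈ A.inertiaSubgroupIn ℚ
    · obtain ⟨k, hk⟩ := AddSubgroup.mem_zmultiples_iff.mp (hj σ hσ)
      refine ⟨(k : ZMod p), fun _ => ?_⟩
      rw [hφ, hk]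
      abel
    · exact ⟨0, fun h => absurd h hσ⟩
  choose j hjx using hjex
  have hcoc : ∀ σ ∈ A.inertiaSubgroupIn ℚ, ∀ τ ∈ A.inertiaSubgroupIn ℚ,
      j (σ * τ) = j σ + χ σ * j τ := by
    intro σ hσ τ hτ
    apply hφinj
    have h1 := hjx (σ * τ) (mul_mem hσ hτ)
    rw [mul_smul, hjx τ hτ, smul_add', hjx σ hσ, hφσ σ hσ, add_assoc] at h1
    rw [map_add]
    exact (add_left_cancel h1).symm
  -- finite level
  let L : IntermediateField ℚ Qb := IntermediateField.adjoin ℚ (EllTorsion.coords x)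
  have hLfin : FiniteDimensional ℚ L := by
    have := (EllTorsion.finite_coords x).to_subtype
    have hac := EllTorsion.isAlgClosure_rat
    have : Algebra.IsAlgebraic ℚ Qb := hac.isAlgebraic
    exact IntermediateField.finiteDimensional_adjoin fun y _ ↦ Algebra.IsIntegral.isIntegral y
  have hLj : ∀ σ ∈ A.inertiaSubgroupIn ℚ, ∀ τ ∈ A.inertiaSubgroupIn ℚ,
      (∀ y ∈ L, σ y = τ y) → j σ = j τ := by
    intro σ hσ τ hτ h
    apply hφinj
    have h1 : (τ⁻¹ * σ) • x = x := by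
      refine EllTorsion.smul_eq_self_of_coords _ x fun y hy => ?_
      have h2 := h y (IntermediateField.subset_adjoin ℚ _ hy)
      change τ⁻¹ (σ y) = y
      rw [h2]
      exact τ.symm_apply_apply y
    rw [mul_smul, inv_smul_eq_iff, hjx σ hσ, hjx τ hτ] at h1
    exact add_left_cancel h1
  obtain ⟨μ, hμ0, hμ⟩ := exists_kummer hζ (A.inertiaSubgroupIn ℚ) χ j (fun σ _ => hχ σ) hcoc L hLj
  have hzp : ∀ z : ZMod p, zpw ζ z ^ p = 1 := fun z => by
    rw [zpw, ← pow_mul, mul_comm, pow_mul, hζ1, one_pow]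
  have hμp : ∀ σ : A.inertiaSubgroupIn ℚ, σ • (μ ^ p) = μ ^ p := by
    intro σ
    change σ.1 (μ ^ p) = μ ^ p
    rw [map_pow, hμ σ.1 σ.2, mul_pow, hzp, one_mul]
  have hζ0 : ζ ≠ 0 := hζ.ne_zero hp.ne_zero
  rcases I.kummer_trichotomy hp2 (fun u hu => exists_frob_period A hp hA hu) hζ hμ0 hμp with
    ⟨i, hi⟩ | ⟨w, v', hw0, hw, hv', hvv', hμw⟩ | ⟨r, s, hr, hrs⟩
  · left
    refine ⟨(i : ℤ), fun σ hσ => ?_⟩
    have h1 : σ (ζ ^ i * μ) = ζ ^ i * μ := hi ⟨σ, hσ⟩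
    rw [map_mul, map_pow, hμ σ hσ, hχ σ] at h1
    have h2 : zpw ζ (χ σ * (i : ZMod p) + j σ) = zpw ζ (i : ZMod p) := by
      rw [zpw_add hζ1, zpw_mul hζ1, zpw_natCast (hzp _), zpw_natCast hζ1]
      have h3 : zpw ζ (χ σ) ^ i * zpw ζ (j σ) * μ = ζ ^ i * μ := by
        rw [mul_assoc]; exact h1
      exact mul_right_cancel₀ hμ0 h3
    have h4 := zpw_injective hζ h2
    have h5 : (i : ℤ) • α = φ (i : ZMod p) := by rw [hφn, natCast_zsmul]
    rw [h5, smul_add', hφσ σ hσ, hjx σ hσ, add_assoc, ← map_add]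
    congr 2
    rw [add_comm]
    exact h4
  · right; left
    refine ⟨μ * w, v', hμw, hvv', fun σ hσ => hv' ⟨σ, hσ⟩, fun σ hσ n hn => ?_⟩
    have hwσ : σ w = w := hw ⟨σ, hσ⟩
    rw [map_mul, hμ σ hσ, hwσ, mul_assoc] at hn
    have h1 := mul_right_cancel₀ (mul_ne_zero hμ0 hw0) hn
    rw [← zpw_natCast hζ1] at h1
    have h2 := zpw_injective hζ h1
    rw [hjx σ hσ, h2, hφn]
  · right; right
    have hpK : (p : Qb) ≠ 0 := Nat.cast_ne_zero.mpr hp.ne_zero
    have hμ1 : μ ^ r * (p : Qb) ^ s ≠ 0 := mul_ne_zero (pow_ne_zero _ hμ0) (zpow_ne_zero _ hpK)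
    refine ⟨μ ^ r * (p : Qb) ^ s, hμ1, ?_, hrs, ?_⟩
    · intro σ hσ
      have h1 : σ (μ ^ p) = μ ^ p := hμp ⟨σ, hσ⟩
      have h2 : (μ ^ r * (p : Qb) ^ s) ^ p = (μ ^ p) ^ r * ((p : Qb) ^ s) ^ p := by
        rw [mul_pow, ← pow_mul, ← pow_mul, mul_comm r p]
      rw [h2, map_mul, map_pow, h1, map_pow, map_zpow₀, map_natCast]
    · intro τ hτ
      have hτμ : τ (μ ^ r * (p : Qb) ^ s) = zpw ζ (j τ) ^ r * (μ ^ r * (p : Qb) ^ s) := by
        rw [map_mul, map_pow, hμ τ hτ, map_zpow₀, map_natCast, mul_pow, mul_assoc]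
      constructor
      · intro h1
        rw [hτμ] at h1
        have h2 : zpw ζ (j τ) ^ r = 1 := by
          have h3 : zpw ζ (j τ) ^ r * (μ ^ r * (p : Qb) ^ s) = 1 * (μ ^ r * (p : Qb) ^ s) := by
            rw [one_mul]; exact h1
          exact mul_right_cancel₀ hμ1 h3
        rw [← zpw_natCast (hzp _), ← zpw_mul hζ1, ← zpw_zero (ζ := ζ) (p := p)] at h2
        have h4 := zpw_injective hζ h2
        have h5 : (r : ZMod p) ≠ 0 := by
          rw [Ne, ZMod.natCast_eq_zero_iff]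
          exact hr
        have h6 : j τ = 0 := (mul_eq_zero.mp h4).resolve_right h5
        rw [hjx τ hτ, h6, map_zero, add_zero]
      · intro h1
        rw [hjx τ hτ] at h1
        have h6 : j τ = 0 := hφinj (by rw [map_zero]; exact add_eq_left.mp h1)
        rw [hτμ, h6, zpw_zero, one_pow, one_mul]

include hΔ0 hp hp2 hss hdvd hA hζ in
/-- **`E[p]` is peu ramifiée at `p`** if `p ∣ v_p(Δ)` (`W` semistable at `p`): the extension of
the fixed field of inertia cut out by `x` is either trivial (up to changing `x` modulo `⟨α⟩`) or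
generated by a `p`-th root of `1 + p v'` with `v'` a unit. -/
theorem peu_ramifiee {α x : ((W.map (Int.castRingHom ℚ))⁄Qb).Point} (hα0 : α ≠ 0)
    (hα : p • α = 0) (hx : p • x = 0)
    (hχα : ∀ σ ∈ A.inertiaSubgroupIn ℚ, ∀ n : ℕ, σ ζ = ζ ^ n → σ • α = n • α)
    (hj : ∀ σ ∈ A.inertiaSubgroupIn ℚ, σ • x - x ∈ AddSubgroup.zmultiples α) :
    (∃ i : ℤ, ∀ σ ∈ A.inertiaSubgroupIn ℚ, σ • (x + i • α) = x + i • α) ∨
    ∃ μ v' : Qb, μ ^ p = 1 + p * v' ∧ A.valuation v' = 1 ∧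
      (∀ σ ∈ A.inertiaSubgroupIn ℚ, σ v' = v') ∧
      ∀ σ ∈ A.inertiaSubgroupIn ℚ, ∀ n : ℕ, σ μ = ζ ^ n * μ → σ • x = x + n • α := by
  classical
  by_cases hxα : x ∈ AddSubgroup.zmultiples α
  · left
    obtain ⟨k, hk⟩ := AddSubgroup.mem_zmultiples_iff.mp hxα
    refine ⟨-k, fun σ _ => ?_⟩
    rw [← hk, neg_smul, add_neg_cancel, smul_zero']
  by_cases hfixed : ∀ σ ∈ A.inertiaSubgroupIn ℚ, σ • x = x
  · left
    refine ⟨0, fun σ hσ => ?_⟩
    rw [zero_zsmul, add_zero, hfixed σ hσ]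
  push Not at hfixed
  obtain ⟨σ₀, hσ₀, hne⟩ := hfixed
  rcases kummer_cases W hp hp2 A hA hζ hα0 hα hχα hj with h | h | ⟨μ, hμ0, hμp, hvμ, hstab⟩
  · exact Or.inl h
  · exact Or.inr h
  · exfalso
    have hαI : ∀ σ ∈ A.inertiaSubgroupIn ℚ, σ • α ∈ AddSubgroup.zmultiples α := by
      intro σ hσ
      have hne' : NeZero p := ⟨hp.ne_zero⟩
      obtain ⟨n, -, hn⟩ := hζ.eq_pow_of_pow_eq_one (ξ := σ ζ)
        (by rw [← map_pow, hζ.pow_eq_one, map_one])
      rw [hχα σ hσ n hn.symm]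
      exact AddSubgroup.nsmul_mem_zmultiples _ _
    have hker := not_inKer W hΔ0 hp hp2 hss A hA hα0 hα hx hxα hj hαI hσ₀ hne
    exact hne (fixed_of_tres W hΔ0 hp hp2 hss hdvd A hA hζ hx hker hμ0 hμp hvμ
      (fun τ hτ h => (hstab τ hτ).mp h) hσ₀)

end Tres

end Fermat.Agent.LOC.PeuMain
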