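import Fermat.Agent.LOC.PeuDiv
import Fermat.Agent.LOC.TateRam

/-! # The `p`-torsion at `p` is not très ramifiée when `p ∣ v_p(Δ)`: local estimates

* `exists_unit`: at a place of multiplicative reduction with `v Δ = (v p) ^ (p k)`, a `p`-torsion
  point `P` outside of the kernel of reduction has an attached unit `w`, rational over the field of
  definition of `P`, such that `|z(σ P - P)| ≤ max |p| |σ w - w|` for `σ` in inertia;
* `good_core`: the analogous statement at places of good reduction, with the coordinates of `P`. -/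

set_option autoImplicit false

namespace Fermat.Agent.LOC.PeuRam

open WeierstrassCurve WeierstrassCurve.Affine Fermat.Agent.ECRed Fermat.Agent.LOC.TatePhi
open Fermat.Agent.LOC.TateHom Fermat.Agent.LOC.PeuDiv

variable {K Γ₀ : Type*} [Field K] [LinearOrderedCommGroupWithZero Γ₀] {v : Valuation K Γ₀}
variable {W : WeierstrassCurve K} {c : K}

lemma coll_of_add_eq_zero [DecidableEq K] {x₁ y₁ x₂ y₂ x₃ y₃ : K}
    (h₁ : (nf c).toAffine.Nonsingular x₁ y₁) (h₂ : (nf c).toAffine.Nonsingular x₂ y₂)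
    (h₃ : (nf c).toAffine.Nonsingular x₃ y₃)
    (h : Point.some x₁ y₁ h₁ + Point.some x₂ y₂ h₂ + Point.some x₃ y₃ h₃ = 0) :
    ∃ ℓ ν, Coll c x₁ y₁ x₂ y₂ x₃ y₃ ℓ ν := by
  have h' := eq_neg_of_add_eq_zero_left h
  by_cases hxy : x₁ = x₂ ∧ y₁ = (nf c).toAffine.negY x₂ y₂
  · exfalso
    rw [Point.add_of_Y_eq hxy.1 hxy.2, Point.neg_some] at h'
    exact Point.some_ne_zero _ h'.symm
  · rw [Point.add_some hxy, Point.neg_some, Point.some.injEq] at h'
    obtain ⟨e1, e2⟩ := h'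
    have hcoll := nf_coll h₁.1 h₂.1 hxy
    have e3 : (nf c).toAffine.negAddY x₁ x₂ y₁ ((nf c).toAffine.slope x₁ x₂ y₁ y₂) = y₃ := by
      rw [addY, nf_negY, nf_negY, e1] at e2
      linear_combination -e2
    rw [e1, e3] at hcoll
    exact ⟨_, _, hcoll⟩

/-- The fundamental estimate at the node. -/
theorem one_lt_of_smul_sub_lt [DecidableEq K] (hc1 : v c < 1) (hc : c ≠ 0) {X Y : K}
    (h : (nf c).toAffine.Nonsingular X Y) (hX : v X < 1) {ε ρ : Γ₀} (hY : v Y ≤ ε)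
    (hXY : v (X + Y) ≤ ε) (hcε : v c ≤ ε) (hε : ε < 1) (hερ : ε < ρ) {g : K}
    (hg : IsPhi v c X Y g) {σ : K →+* K} (hσ : ∀ z, v (σ z) = v z) (hσc : σ c = c)
    (h' : (nf c).toAffine.Nonsingular (σ X) (σ Y)) {R : (nf c).toAffine.Point}
    (hR : R = Point.some (σ X) (σ Y) h' - Point.some X Y h) (hRker : InKer v R) (hR0 : R ≠ 0)
    (hρ : v (σ g / g - 1) < ρ) : 1 < v (px R) * ρ ^ 2 := by
  rcases R with _ | ⟨x₃, y₃, h₃⟩
  · exact absurd rfl hR0
  rw [inKer_some] at hRker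
  have he := nf_equation.mp h.1
  have he₃ := nf_equation.mp h₃.1
  have hσX : v (σ X) < 1 := by rw [hσ]; exact hX
  have hg' := IsPhi_map hσ hσc hg
  have hneg : (nf c).toAffine.Nonsingular (σ X) (-σ Y - σ X) := by
    have := (nonsingular_neg ..).mpr h'
    rwa [nf_negY] at this
  have hsum : Point.some X Y h + Point.some (σ X) (-σ Y - σ X) hneg + Point.some x₃ y₃ h₃ = 0 := by
    have e : Point.some (σ X) (-σ Y - σ X) hneg = -Point.some (σ X) (σ Y) h' := by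
      rw [Point.neg_some, Point.some.injEq]
      exact ⟨rfl, (nf_negY _ _ _).symm⟩
    rw [e, hR]
    abel
  obtain ⟨ℓ, ν, hcoll⟩ := coll_of_add_eq_zero h hneg h₃ hsum
  have hok1 : Ok v ε X Y := Or.inr ⟨hX, hY, hXY⟩
  have hok2 : Ok v ε (σ X) (-σ Y - σ X) := Ok.neg (Or.inr ⟨hσX, by rw [hσ]; exact hY, by
    rw [← map_add, hσ]; exact hXY⟩)
  have hok3 : Ok v ε x₃ y₃ := Or.inl hRker.le
  have hφ3 : IsPhi v c x₃ y₃ (y₃ / (x₃ + y₃)) := Or.inl ⟨hRker.le, rfl⟩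
  obtain ⟨n, hn⟩ := isPhi_coll hε hcε hc hcoll hok1 hok2 hok3 hg (hg'.neg hc hσX) hφ3
  have hg0 : g ≠ 0 := hg.ne_zero hc1 hc he
  have hσg0 : σ g ≠ 0 := (map_ne_zero σ).mpr hg0
  have hvc : 0 < v c := by rwa [Valuation.pos_iff]
  have hvg : 0 < v g := by rwa [Valuation.pos_iff]
  obtain ⟨hφ1, -⟩ := isPhi_nonsing hc1 he₃ hRker.le hφ3
  -- the exponent is `1`
  have hv1 : v (g * (-c / σ g) * (y₃ / (x₃ + y₃))) = v c := by
    rw [map_mul, map_mul, hφ1, mul_one, map_div₀, Valuation.map_neg, hσ]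
    field_simp
  have hn1 : n = 1 := by
    have := hn.v_eq hε
    rw [hv1, map_pow, Valuation.map_neg] at this
    by_contra hne
    have h2 : v c ^ 1 = v c ^ n := by rw [pow_one]; exact this
    exact hne (pow_right_injective₀ hvc hc1.ne h2).symm
  subst hn1
  rw [pow_one] at hn
  have h3 : v (y₃ / (x₃ + y₃) - σ g / g) ≤ ε := by
    have e : y₃ / (x₃ + y₃) - σ g / g =
        -(g * (-c / σ g) * (y₃ / (x₃ + y₃)) - (-c)) * (σ g / g) * c⁻¹ := by
      field_simp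
      ring
    rw [e, map_mul, map_mul, Valuation.map_neg, map_div₀, hσ, div_self hvg.ne', mul_one, map_inv₀]
    refine (mul_le_mul_left hn _).trans ?_
    rw [Valuation.map_neg, mul_assoc, mul_inv_cancel₀ hvc.ne', mul_one]
  have h4 : v (y₃ / (x₃ + y₃) - 1) < ρ := by
    have e : y₃ / (x₃ + y₃) - 1 = (y₃ / (x₃ + y₃) - σ g / g) + (σ g / g - 1) := by ring
    rw [e]
    exact v.map_add_lt (h3.trans_lt hερ) hρ
  obtain ⟨h5, h6⟩ := v_of_one_le hc1 he₃ hRker.le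
  have hx0 : 0 < v x₃ := lt_trans one_pos hRker
  have hxy0 : x₃ + y₃ ≠ 0 := by
    intro h0
    rw [h0, map_zero, zero_pow two_ne_zero] at h6
    exact (pow_pos hx0 3).ne h6
  have h7 : v (y₃ / (x₃ + y₃) - 1) ^ 2 * v x₃ = 1 := by
    have e : y₃ / (x₃ + y₃) - 1 = -x₃ / (x₃ + y₃) := by field_simp; ring
    rw [e, map_div₀, Valuation.map_neg, div_pow, h6]
    field_simp
  rw [px_some]
  calc (1 : Γ₀) = v (y₃ / (x₃ + y₃) - 1) ^ 2 * v x₃ := h7.symm
    _ < ρ ^ 2 * v x₃ := mul_lt_mul_of_pos_right (pow_lt_pow_left₀ h4 zero_le two_ne_zero) hx0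
    _ = v x₃ * ρ ^ 2 := mul_comm _ _

lemma rep_map {σ : K →+* K} (hσ : ∀ z, v (σ z) = v z) (hσc : σ c = c) (x y : K) :
    σ (rep v c x y) = rep v c (σ x) (σ y) := by
  unfold rep
  simp only [← map_add, hσ]
  split_ifs
  · rw [map_div₀]
  · rfl
  · rw [map_div₀, hσc]

/-- The parameter of a `p`-torsion point has the valuation of a `p`-th root of a power of `c`. -/
lemma exists_v_pow [DecidableEq K] (hc1 : v c < 1) (hc : c ≠ 0) {X Y g : K}
    (h : (nf c).toAffine.Nonsingular X Y) (hg : IsPhi v c X Y g) {p : ℕ}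
    (htor : p • Point.some X Y h = 0) : cls v c (g ^ p) = 1 ∧ ∃ j : ℤ, v g ^ p = v c ^ j := by
  have hg0 : g ≠ 0 := hg.ne_zero hc1 hc (nf_equation.mp h.1)
  have h1 := congrArg (phi hc1 hc) htor
  rw [map_nsmul, map_zero, phi_some hc1 hc h hg] at h1
  have h2 : cls v c g ^ p = 1 := h1
  rw [← cls_pow hg0] at h2
  refine ⟨h2, ?_⟩
  obtain ⟨n, w, hw, e⟩ := (cls_eq_one_iff (pow_ne_zero p hg0)).mp h2
  exact ⟨n, by rw [← map_pow, e, map_mul, v_eq_one_of_mem_oneUnits hw, one_mul, map_zpow₀,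
    Valuation.map_neg]⟩

lemma one_lt_v_px_equiv [DecidableEq K] {x₀ y₀ α β : K} (h : NodeCentre v W x₀ y₀ α β)
    {R : W.toAffine.Point} (hR : InKer v R) (hR0 : R ≠ 0) : v (px (h.equiv R)) = v (px R) := by
  rcases R with _ | ⟨x, y, hxy⟩
  · exact absurd rfl hR0
  · obtain ⟨h', e⟩ := h.equiv_some hxy
    rw [inKer_some] at hR
    rw [e, px_some, px_some, map_div₀, map_pow, h.sub, one_pow, div_one,
      v.map_sub_eq_of_lt_left (lt_of_le_of_lt h.int_x hR)]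

/-- **Multiplicative places**: the unit attached to a `p`-torsion point. -/
theorem exists_unit [DecidableEq K] [IsAlgClosed K] (h2 : (2 : K) ≠ 0) (h3 : (3 : K) ≠ 0)
    (hI : IntCoeff v W) (hc4 : v W.c₄ = 1) (hΔ : v W.Δ < 1) (hΔ0 : W.Δ ≠ 0) {p : ℕ} (hp : p.Prime)
    (hvp : v (p : K) < 1) (hpK : (p : K) ≠ 0) {k : ℕ} (hk : v W.Δ = v (p : K) ^ (p * k))
    {P : W.toAffine.Point} (htor : p • P = 0) (hP : ¬ InKer v P) :
    ∃ w : K, v w = 1 ∧ ∀ σ : K →+* K, (∀ z, v (σ z) = v z) → (∀ z, v z ≤ 1 → v (σ z - z) < 1) →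
      σ W.a₁ = W.a₁ → σ W.a₂ = W.a₂ → σ W.a₃ = W.a₃ → σ W.a₄ = W.a₄ → σ W.a₆ = W.a₆ →
      ∀ s : W.toAffine.Point →+ W.toAffine.Point,
        (∀ x y h, ∃ h', s (.some x y h) = .some (σ x) (σ y) h') →
        (s P = P → σ w = w) ∧
        ∀ ρ : Γ₀, s P ≠ P → v (p : K) < ρ → v (σ w - w) < ρ →
          1 < v (px (s P - P)) * ρ ^ 2 := by
  obtain ⟨x₀, y₀, α, β, h⟩ := exists_nodeCentre_of_Δ h2 h3 hI hc4 hΔ
  have hc1 := h.v_c_lt_one
  have hc0 := h.c_ne_zero hΔ0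
  have hvcΔ := h.v_c_eq
  have hvp0 : 0 < v (p : K) := by rwa [Valuation.pos_iff]
  rcases hP' : h.equiv P with _ | ⟨X, Y, hXY⟩
  · exfalso
    apply hP
    rw [← h.inKer_equiv_iff, hP']
    exact inKer_zero
  have htor' : p • Point.some X Y hXY = 0 := by rw [← hP', ← map_nsmul, htor, map_zero]
  have hX1 : v X ≤ 1 := by
    by_contra hlt
    push Not at hlt
    apply hP
    rw [← h.inKer_equiv_iff, hP', inKer_some]
    exact hlt
  have hg := isPhi_rep v (tateC W x₀ y₀ α β) X Y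
  set g := rep v (tateC W x₀ y₀ α β) X Y with hgdef
  have he := nf_equation.mp hXY.1
  have hg0 : g ≠ 0 := hg.ne_zero hc1 hc0 he
  obtain ⟨hcls, j, hj⟩ := exists_v_pow hc1 hc0 hXY hg htor'
  have hX : v X < 1 := by
    refine lt_of_le_of_ne hX1 fun heq => ?_
    obtain ⟨h5, h6⟩ := isPhi_nonsing hc1 he heq.ge hg
    have h7 := sub_one_lt_of_cls_eq_one hc1 hc0 (u := g ^ p)
      (by rw [map_pow, h5, one_pow]; exact hc1) (by rw [map_pow, h5, one_pow]) hcls
    have h8 := v_sub_one_lt_of_pow hp hvp h7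
    exact absurd (h6.mp h8) (by rw [heq]; exact lt_irrefl _)
  -- the valuation of `g`
  have hvg : v g = v (p : K) ^ ((k : ℤ) * j) := by
    have h5 : v g ^ p = (v (p : K) ^ ((k : ℤ) * j)) ^ p := by
      rw [hj, hvcΔ, hk, ← zpow_natCast _ p, ← zpow_natCast _ (p * k), ← zpow_mul, ← zpow_mul]
      congr 1
      push_cast
      ring
    exact (pow_left_inj₀ zero_le zero_le hp.ne_zero).mp h5
  obtain ⟨hg1, hg2⟩ := isPhi_node_bounds hc1 hc0 he hX hg
  have hk0 : 1 ≤ p * k := by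
    by_contra hcon
    have h5 : p * k = 0 := by omega
    rw [h5, pow_zero] at hk
    exact absurd hΔ (by rw [hk]; exact lt_irrefl _)
  have hkj : 1 ≤ (k : ℤ) * j := by
    by_contra hcon
    push Not at hcon
    have : 1 ≤ v (p : K) ^ ((k : ℤ) * j) := by
      have h5 := (zpow_le_zpow_iff_right_of_lt_one₀ hvp0 hvp (n := (k : ℤ) * j)
        (m := (0 : ℤ))).mpr (by omega)
      rwa [zpow_zero] at h5
    rw [← hvg] at this
    exact absurd hg2 (not_lt.mpr this)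
  have hle_p : ∀ n : ℤ, 1 ≤ n → v (p : K) ^ n ≤ v (p : K) := by
    intro n hn
    have h5 := (zpow_le_zpow_iff_right_of_lt_one₀ hvp0 hvp (n := (1 : ℤ)) (m := n)).mpr hn
    rwa [zpow_one] at h5
  have hcε : v (tateC W x₀ y₀ α β) ≤ v (p : K) := by
    rw [hvcΔ, hk, ← zpow_natCast]
    exact hle_p _ (by exact_mod_cast hk0)
  have hYXY : v Y ≤ v (p : K) ∧ v (X + Y) ≤ v (p : K) := by
    rcases hg with ⟨h5, -⟩ | ⟨-, h5, h6⟩ | ⟨-, h5, h6⟩
    · exact absurd hX (not_lt.mpr h5)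
    · have h7 : v (X + Y) ≤ v (p : K) := by rw [← h6, hvg]; exact hle_p _ hkj
      exact ⟨h5.trans h7, h7⟩
    · have hY0 : Y ≠ 0 := by
        rintro rfl
        rw [div_zero] at h6
        exact hg0 h6
      have h7 : v Y = v (p : K) ^ ((p * k : ℕ) - (k : ℤ) * j) := by
        have h8 : Y = tateC W x₀ y₀ α β / g := by
          rw [h6, div_div_cancel₀ hc0]
        rw [h8, map_div₀, hvcΔ, hk, hvg, ← zpow_natCast, ← zpow_sub₀ hvp0.ne']
      have h8 : v Y < 1 := (v_lt_one_of_lt hc1 he hX).1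
      have h9 : v Y ≤ v (p : K) := by
        rw [h7]
        refine hle_p _ ?_
        by_contra hcon
        push Not at hcon
        have : 1 ≤ v (p : K) ^ (((p * k : ℕ) : ℤ) - (k : ℤ) * j) := by
          have h5 := (zpow_le_zpow_iff_right_of_lt_one₀ hvp0 hvp
            (n := ((p * k : ℕ) : ℤ) - (k : ℤ) * j) (m := (0 : ℤ))).mpr (by omega)
          rwa [zpow_zero] at h5
        rw [← h7] at this
        exact absurd h8 (not_lt.mpr this)
      exact ⟨h9, h5.trans h9⟩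
  have hpz : ((p : K) ^ ((k : ℤ) * j)) ≠ 0 := zpow_ne_zero _ hpK
  refine ⟨g / (p : K) ^ ((k : ℤ) * j), ?_, ?_⟩
  · rw [map_div₀, map_zpow₀, hvg, div_self (zpow_ne_zero _ hvp0.ne')]
  intro σ hσ hin h₁ h₂ h₃ h₄ h₆ s hs
  obtain ⟨ε, -, hε1, s', hs', he'⟩ := h.equiv_equivariant h2 σ hσ h₁ h₂ h₃ h₄ h₆ s hs
  have hε := hε1 hin
  subst hε
  simp only [one_smul] at he'
  have hσc := h.map_c h2 σ hσ h₁ h₂ h₃ h₄ h₆
  have hσp : σ ((p : K) ^ ((k : ℤ) * j)) = (p : K) ^ ((k : ℤ) * j) := by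
    rw [map_zpow₀, map_natCast]
  obtain ⟨hXY', hs'P⟩ := hs' X Y hXY
  constructor
  · intro hsP
    have h5 : s' (Point.some X Y hXY) = Point.some X Y hXY := by
      rw [← hP', ← he', hsP]
    rw [hs'P, Point.some.injEq] at h5
    rw [map_div₀, hσp, hgdef, rep_map hσ hσc, h5.1, h5.2]
  · intro ρ hsP hpρ hρ
    have hker : InKer v (s P - P) := by
      obtain ⟨ε, -, hε1, h5⟩ := exists_sign h2 h3 hI hc4 hΔ hΔ0 hp hvp σ hσ h₁ h₂ h₃ h₄ h₆ s hs
      have hε := hε1 hin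
      subst hε
      have h6 := h5 1 P (by rw [pow_one]; exact htor)
      rwa [one_smul] at h6
    have hne : s P - P ≠ 0 := sub_ne_zero.mpr hsP
    rw [← one_lt_v_px_equiv h hker hne]
    refine one_lt_of_smul_sub_lt hc1 hc0 hXY hX (ε := v (p : K)) hYXY.1 hYXY.2 hcε hvp hpρ hg hσ
      hσc hXY' (R := h.equiv (s P - P)) ?_ ((h.inKer_equiv_iff _).mpr hker) ?_ ?_
    · rw [map_sub, he', hP', hs'P]
    · rwa [Ne, EmbeddingLike.map_eq_zero_iff]
    · have e : σ g / g - 1 = (σ (g / (p : K) ^ ((k : ℤ) * j)) - g / (p : K) ^ ((k : ℤ) * j)) *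
          ((p : K) ^ ((k : ℤ) * j) / g) := by
        rw [map_div₀, hσp]
        field_simp
      rw [e, map_mul, map_div₀ v ((p : K) ^ ((k : ℤ) * j)), map_zpow₀, hvg,
        div_self (zpow_ne_zero _ hvp0.ne'), mul_one]
      exact hρ

/-- **Places of good reduction**: the fundamental estimate. -/
theorem good_core [DecidableEq K] (hI : IntCoeff v W) {X Y : K} (h : W.toAffine.Nonsingular X Y)
    (hX : v X ≤ 1) (hY : v Y ≤ 1) (hψ : v (2 * Y + W.a₁ * X + W.a₃) = 1) {X' Y' : K}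
    (h' : W.toAffine.Nonsingular X' Y') {ρ : Γ₀} (hρ1 : ρ ≤ 1) (hX' : v (X' - X) < ρ)
    (hY' : v (Y' - Y) < ρ) (hne : Point.some X' Y' h' ≠ Point.some X Y h) :
    1 < v (px (Point.some X' Y' h' - Point.some X Y h)) * ρ ^ 2 := by
  have hρ0 : 0 < ρ := lt_of_le_of_lt zero_le hX'
  have hX1' : v X' ≤ 1 := by
    have e : X' = (X' - X) + X := by ring
    rw [e]
    exact v.map_add_le (hX'.le.trans hρ1) hX
  set η : K := Y' - W.toAffine.negY X Y with hη
  have hvη : v η = 1 := by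
    have e : η = (Y' - Y) + (2 * Y + W.a₁ * X + W.a₃) := by
      rw [hη, negY]; ring
    rw [e, v.map_add_eq_of_lt_right, hψ]
    rw [hψ]
    exact hY'.trans_le hρ1
  have hη0 : η ≠ 0 := by rw [← Valuation.pos_iff (v := v), hvη]; exact one_pos
  have hXX : X' ≠ X := by
    rintro rfl
    rcases Y_eq_of_X_eq h'.1 h.1 rfl with e | e
    · exact hne (by subst e; rfl)
    · apply hη0
      rw [hη, e, sub_self]
  have hd : X' - X ≠ 0 := sub_ne_zero.mpr hXX
  have hvd : 0 < v (X' - X) := by rwa [Valuation.pos_iff]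
  rw [sub_eq_add_neg, Point.neg_some, Point.add_some (fun h0 => hXX h0.1), px_some]
  rw [slope_of_X_ne hXX, ← hη]
  set ℓ : K := η / (X' - X) with hℓ
  have hvℓ : v ℓ * v (X' - X) = 1 := by
    rw [hℓ, map_div₀, hvη]
    field_simp
  have h1ℓ : 1 < v ℓ := by
    by_contra hle
    push Not at hle
    have : v ℓ * v (X' - X) < 1 := by
      calc v ℓ * v (X' - X) ≤ 1 * v (X' - X) := mul_le_mul_left hle _
        _ = v (X' - X) := one_mul _
        _ < ρ := hX'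
        _ ≤ 1 := hρ1
    exact absurd hvℓ this.ne
  have hℓ0 : 0 < v ℓ := one_pos.trans h1ℓ
  have hℓ2 : v ℓ < v ℓ ^ 2 := by
    simpa using pow_lt_pow_right₀ h1ℓ (show 1 < 2 by norm_num)
  have hadd : v (W.toAffine.addX X' X ℓ) = v ℓ ^ 2 := by
    have e : W.toAffine.addX X' X ℓ = ℓ ^ 2 + (W.a₁ * ℓ + (-W.a₂ - X' - X)) := by
      rw [addX]; ring
    rw [e, v.map_add_eq_of_lt_left, map_pow]
    rw [map_pow]
    refine v.map_add_lt ?_ ?_
    · exact lt_of_le_of_lt (v_imul_le hI.a₁ le_rfl) hℓ2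
    · refine lt_of_le_of_lt (v.map_sub_le (v.map_sub_le ?_ hX1') hX) (h1ℓ.trans hℓ2)
      rw [Valuation.map_neg]; exact hI.a₂
  rw [hadd, ← mul_pow]
  refine one_lt_pow₀ ?_ two_ne_zero
  calc (1 : Γ₀) = v ℓ * v (X' - X) := hvℓ.symm
    _ < v ℓ * ρ := mul_lt_mul_of_pos_left hX' hℓ0

end Fermat.Agent.LOC.PeuRam
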