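import Fermat.Agent.LOC.TateTors

/-! # Counting: the torsion of the kernel of reduction and the image of the Tate parameter -/

set_option autoImplicit false

namespace Fermat.Agent.LOC.TateHom

open WeierstrassCurve WeierstrassCurve.Affine Fermat.Agent.ECRed Fermat.Agent.LOC.TatePhi
open Polynomial Fermat.Agent.EllTorsion

section Abstract

variable {G Q' : Type*} [AddCommGroup G] [AddCommGroup Q']

/-- The `n`-torsion. -/
def tor (G : Type*) [AddCommGroup G] (n : ℕ) : AddSubgroup G := (nsmulAddMonoidHom n).ker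

@[simp] lemma mem_tor {n : ℕ} {x : G} : x ∈ tor G n ↔ n • x = 0 := Iff.rfl

lemma card_eq_ker_mul_range {A B : Type*} [AddCommGroup A] [AddCommGroup B] (f : A →+ B) :
    Nat.card A = Nat.card f.ker * Nat.card f.range := by
  rw [← Nat.card_congr (QuotientAddGroup.quotientKerEquivRange f).toEquiv, mul_comm]
  exact AddSubgroup.card_eq_card_quotient_mul_card_addSubgroup f.ker

lemma card_inf_tor_succ_le (E : AddSubgroup G) {p n : ℕ}
    [Finite (E ⊓ tor G p : AddSubgroup G)] [Finite (E ⊓ tor G (p ^ n) : AddSubgroup G)] :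
    Nat.card (E ⊓ tor G (p ^ (n + 1)) : AddSubgroup G) ≤
      Nat.card (E ⊓ tor G p : AddSubgroup G) * Nat.card (E ⊓ tor G (p ^ n) : AddSubgroup G) := by
  let h : (E ⊓ tor G (p ^ (n + 1)) : AddSubgroup G) →+ (E ⊓ tor G (p ^ n) : AddSubgroup G) :=
    { toFun := fun x => ⟨p • x.1, E.nsmul_mem x.2.1 p, by
        have h1 : p ^ (n + 1) • x.1 = 0 := x.2.2
        have h2 : p ^ n • (p • x.1) = 0 := by rw [← mul_smul, ← pow_succ]; exact h1
        exact h2⟩
      map_zero' := Subtype.ext (smul_zero _)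
      map_add' := fun x y => Subtype.ext (smul_add _ _ _) }
  rw [card_eq_ker_mul_range h]
  refine Nat.mul_le_mul ?_ ?_
  · let g : h.ker → (E ⊓ tor G p : AddSubgroup G) := fun x =>
      ⟨x.1.1, x.1.2.1, congrArg Subtype.val (x.2 : h x.1 = 0)⟩
    exact Nat.card_le_card_of_injective g fun x y hxy =>
      Subtype.ext (Subtype.ext (congrArg
        (fun z : (E ⊓ tor G p : AddSubgroup G) => (z : G)) hxy))
  · exact Nat.card_le_card_of_injective (fun x : h.range => x.1) Subtype.val_injective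

lemma finite_inf_tor (E : AddSubgroup G) {n : ℕ} (hG : Nat.card (tor G n) ≠ 0) :
    Finite (E ⊓ tor G n : AddSubgroup G) := by
  have : Finite (tor G n) := Nat.finite_of_card_ne_zero hG
  exact Finite.of_injective (fun x : (E ⊓ tor G n : AddSubgroup G) => (⟨x.1, x.2.2⟩ : tor G n))
    fun x y hxy => Subtype.ext (congrArg (fun z : tor G n => (z : G)) hxy)

/-- The counting argument at `p`. -/
theorem card_ker_and_exists (f : G →+ Q') {p : ℕ} (hp : p.Prime)
    (hG : ∀ n, Nat.card (tor G (p ^ n)) = (p ^ n) ^ 2)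
    (a : ℕ → Q') (ha : ∀ n, p ^ n • a n = 0)
    (ha' : ∀ (n : ℕ) (q : Q'), p ^ n • q = 0 → ∃ j : ℤ, q = j • a n)
    (hex : ∃ P : G, p • P = 0 ∧ f P ≠ 0) (n : ℕ) :
    Nat.card (f.ker ⊓ tor G (p ^ n) : AddSubgroup G) = p ^ n ∧
      ∃ P : G, p ^ n • P = 0 ∧ f P = a n := by
  have hpos : ∀ n, 0 < p ^ n := fun n => pow_pos hp.pos n
  have hG0 : ∀ n, Nat.card (tor G (p ^ n)) ≠ 0 := fun n => by
    rw [hG]; exact (pow_pos (hpos n) 2).ne'
  have hfinG : ∀ n, Finite (tor G (p ^ n)) := fun n => Nat.finite_of_card_ne_zero (hG0 n)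
  have hfin : ∀ n, Finite (f.ker ⊓ tor G (p ^ n) : AddSubgroup G) := fun n =>
    finite_inf_tor _ (hG0 n)
  have hfin1 : Finite (f.ker ⊓ tor G p : AddSubgroup G) := by
    have := hfin 1
    rwa [pow_one] at this
  -- upper bound
  have h1 : Nat.card (f.ker ⊓ tor G p : AddSubgroup G) ≤ p := by
    let g : (f.ker ⊓ tor G p : AddSubgroup G) →+ tor G (p ^ 1) :=
      { toFun := fun x => ⟨x.1, by rw [pow_one]; exact x.2.2⟩
        map_zero' := rfl
        map_add' := fun _ _ => rfl }
    have hg : Function.Injective g := fun x y hxy =>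
      Subtype.ext (congrArg (fun z : tor G (p ^ 1) => (z : G)) hxy)
    have hdvd : Nat.card g.range ∣ Nat.card (tor G (p ^ 1)) := AddSubgroup.card_addSubgroup_dvd_card _
    have hcard : Nat.card g.range = Nat.card (f.ker ⊓ tor G p : AddSubgroup G) :=
      (Nat.card_congr (AddMonoidHom.ofInjective hg).toEquiv).symm
    rw [hcard, hG, pow_one] at hdvd
    obtain ⟨k, hk, hk'⟩ := (Nat.dvd_prime_pow hp).mp hdvd
    rw [hk']
    have hk2 : k ≠ 2 := by
      rintro rfl
      obtain ⟨P, hP, hfP⟩ := hex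
      have hc2 : Nat.card g.range = Nat.card (tor G (p ^ 1)) := by
        rw [hcard, hk', hG, pow_one]
      have := hfinG 1
      have htop := AddSubgroup.eq_top_of_card_eq _ hc2
      have hmem : (⟨P, by rw [pow_one]; exact hP⟩ : tor G (p ^ 1)) ∈ g.range := by
        rw [htop]; exact AddSubgroup.mem_top _
      obtain ⟨x, hx⟩ := hmem
      have hxP : x.1 = P := congrArg (fun z : tor G (p ^ 1) => (z : G)) hx
      exact hfP (by rw [← hxP]; exact x.2.1)
    have hk1 : k ≤ 1 := by omega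
    calc p ^ k ≤ p ^ 1 := Nat.pow_le_pow_right hp.pos hk1
      _ = p := pow_one p
  have hupper : ∀ n, Nat.card (f.ker ⊓ tor G (p ^ n) : AddSubgroup G) ≤ p ^ n := by
    intro n
    induction n with
    | zero =>
      rw [pow_zero]
      have : Subsingleton (f.ker ⊓ tor G 1 : AddSubgroup G) := ⟨fun x y => Subtype.ext (by
        have hx : (1 : ℕ) • x.1 = 0 := x.2.2
        have hy : (1 : ℕ) • y.1 = 0 := y.2.2
        rw [one_smul] at hx hy
        rw [hx, hy])⟩
      exact Finite.card_le_one_iff_subsingleton.mpr this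
    | succ n ih =>
      refine (card_inf_tor_succ_le f.ker).trans ?_
      rw [pow_succ, mul_comm (p ^ n)]
      exact Nat.mul_le_mul h1 ih
  -- the restriction of `f`
  let g : tor G (p ^ n) →+ Q' := f.comp (tor G (p ^ n)).subtype
  have hkerg : Nat.card g.ker = Nat.card (f.ker ⊓ tor G (p ^ n) : AddSubgroup G) :=
    Nat.card_congr ⟨fun x => ⟨x.1.1, x.2, x.1.2⟩, fun x => ⟨⟨x.1, x.2.2⟩, x.2.1⟩,
      fun _ => rfl, fun _ => rfl⟩
  have hord : addOrderOf (a n) ∣ p ^ n := addOrderOf_dvd_of_nsmul_eq_zero (ha n)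
  have hzcard : Nat.card (AddSubgroup.zmultiples (a n)) ≤ p ^ n := by
    rw [Nat.card_zmultiples]; exact Nat.le_of_dvd (hpos n) hord
  have hzfin : Finite (AddSubgroup.zmultiples (a n)) := by
    refine Nat.finite_of_card_ne_zero ?_
    rw [Nat.card_zmultiples]
    intro h0
    rw [h0, zero_dvd_iff] at hord
    exact (hpos n).ne' hord
  have hle : g.range ≤ AddSubgroup.zmultiples (a n) := by
    rintro _ ⟨x, rfl⟩
    obtain ⟨j, hj⟩ := ha' n (g x) (by
      have h0 : p ^ n • x = 0 := Subtype.ext x.2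
      rw [← map_nsmul, h0, map_zero])
    rw [hj]; exact AddSubgroup.zsmul_mem_zmultiples _ _
  have hrange : Nat.card g.range ≤ p ^ n :=
    (Nat.card_le_card_of_injective (AddSubgroup.inclusion hle)
      (AddSubgroup.inclusion_injective hle)).trans hzcard
  have hmul := card_eq_ker_mul_range g
  rw [hG, hkerg] at hmul
  have hk := hupper n
  have h2 : Nat.card (f.ker ⊓ tor G (p ^ n) : AddSubgroup G) = p ^ n := by
    refine le_antisymm hk ?_
    by_contra hlt
    push Not at hlt
    have : Nat.card (f.ker ⊓ tor G (p ^ n) : AddSubgroup G) * Nat.card g.range < p ^ n * p ^ n :=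
      lt_of_le_of_lt (Nat.mul_le_mul_left _ hrange) (Nat.mul_lt_mul_of_pos_right hlt (hpos n))
    rw [← hmul, sq] at this
    exact lt_irrefl _ this
  refine ⟨h2, ?_⟩
  rw [h2, sq] at hmul
  have h3 : Nat.card g.range = p ^ n := (Nat.eq_of_mul_eq_mul_left (hpos n) hmul).symm
  have h4 : g.range = AddSubgroup.zmultiples (a n) := by
    refine AddSubgroup.eq_of_le_of_card_ge hle ?_
    rw [h3]; exact hzcard
  have h5 : a n ∈ g.range := by rw [h4]; exact AddSubgroup.mem_zmultiples _
  obtain ⟨x, hx⟩ := h5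
  exact ⟨x.1, x.2, hx⟩

/-- The counting argument prime to `p`. -/
theorem exists_of_injOn (f : G →+ Q') {n : ℕ} (hn : n ≠ 0) (hG : Nat.card (tor G n) = n ^ 2)
    (hinj : ∀ P : G, n • P = 0 → f P = 0 → P = 0) (hfin : Finite (tor Q' n))
    (hQ : Nat.card (tor Q' n) ≤ n ^ 2) {q : Q'} (hq : n • q = 0) : ∃ P : G, n • P = 0 ∧ f P = q := by
  let g : tor G n →+ tor Q' n :=
    { toFun := fun x => ⟨f x.1, by
        rw [mem_tor, ← map_nsmul, (show n • x.1 = 0 from x.2), map_zero]⟩
      map_zero' := Subtype.ext (map_zero f)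
      map_add' := fun x y => Subtype.ext (map_add f _ _) }
  have hg : Function.Injective g := by
    rw [injective_iff_map_eq_zero]
    intro x hx
    exact Subtype.ext (hinj x.1 x.2 (congrArg Subtype.val hx))
  have hbij : Function.Bijective g := by
    have : Finite (tor G n) := Nat.finite_of_card_ne_zero (by rw [hG]; exact pow_ne_zero 2 hn)
    refine ⟨hg, ?_⟩
    have hle : Nat.card (tor Q' n) ≤ Nat.card (tor G n) := by rw [hG]; exact hQ
    exact (hg.bijective_of_nat_card_le hle).2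
  obtain ⟨x, hx⟩ := hbij.2 ⟨q, hq⟩
  exact ⟨x.1, x.2, congrArg Subtype.val hx⟩

end Abstract

variable {K Γ₀ : Type*} [Field K] [LinearOrderedCommGroupWithZero Γ₀] {v : Valuation K Γ₀} {c : K}

variable [DecidableEq K] [IsAlgClosed K]

lemma card_tor_nf (hc1 : v c < 1) (hc : c ≠ 0) {n : ℕ} (hn : (n : K) ≠ 0) :
    Nat.card (tor (nf c).toAffine.Point n) = n ^ 2 := by
  have := nf_isElliptic hc1 hc
  exact card_nsmul_eq_zero (W := nf c) hn

/-- **Residue characteristic `p`**: the `p^n`-torsion of the kernel of reduction has order `p^n`,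
and the class of every `p^n`-th root of `-c` is the parameter of a `p^n`-torsion point. -/
theorem card_and_exists_p (hc1 : v c < 1) (hc : c ≠ 0) {p : ℕ} (hp : p.Prime)
    (hvp : v (p : K) < 1) (hp0 : (p : K) ≠ 0) (n : ℕ) :
    Nat.card {P : (nf c).toAffine.Point // InKer v P ∧ p ^ n • P = 0} = p ^ n ∧
      ∀ t : K, t ^ p ^ n = -c → ∃ P : (nf c).toAffine.Point, p ^ n • P = 0 ∧
        phi hc1 hc P = Additive.ofMul (cls v c t) := by
  have key : ∀ s : ℕ → K, (∀ n, s n ^ p ^ n = -c) →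
      Nat.card ((phi hc1 hc).ker ⊓ tor _ (p ^ n) : AddSubgroup (nf c).toAffine.Point) = p ^ n ∧
      ∃ P : (nf c).toAffine.Point, p ^ n • P = 0 ∧
        phi hc1 hc P = Additive.ofMul (cls v c (s n)) := by
    intro s hs
    refine card_ker_and_exists (phi hc1 hc) hp (fun n => ?_)
      (fun n => Additive.ofMul (cls v c (s n))) (fun n => ?_) (fun n q hq => ?_) ?_ n
    · exact card_tor_nf hc1 hc (by rw [Nat.cast_pow]; exact pow_ne_zero n hp0)
    · rw [← ofMul_pow, cls_root_pow hc (pow_ne_zero n hp.ne_zero) (hs n)]; rfl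
    · exact exists_zpow_of_pow_eq_one hc hp hvp (hs n) (q := Additive.toMul q) hq
    · obtain ⟨P, hP, hP'⟩ := exists_not_inKer hc1 hc hp hvp
      exact ⟨P, hP, fun h => hP' ((phi_eq_zero_iff hc1 hc).mp h)⟩
  have hroots : ∀ n : ℕ, ∃ s : K, s ^ p ^ n = -c := fun n =>
    IsAlgClosed.exists_pow_nat_eq (-c) (pow_pos hp.pos n)
  choose s₀ hs₀ using hroots
  constructor
  · refine Eq.trans ?_ (key s₀ hs₀).1
    exact Nat.card_congr (Equiv.subtypeEquivRight fun P =>
      and_congr (phi_eq_zero_iff hc1 hc).symm Iff.rfl)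
  · intro t ht
    have := (key (fun m => if m = n then t else s₀ m) (fun m => by
      split_ifs with h
      · rw [h]; exact ht
      · exact hs₀ m)).2
    simpa using this

omit [DecidableEq K] in
/-- An element whose `n`-th power is a `1`-unit is close to an `n`-th root of unity. -/
lemma exists_rootOfUnity {n : ℕ} (hn : n ≠ 0) {s : K} (hs : v (s ^ n - 1) < 1) :
    ∃ ζ : K, ζ ^ n = 1 ∧ v (s - ζ) < 1 := by
  have hne : (X ^ n - 1 : K[X]) ≠ 0 := (monic_X_pow_sub_C (1 : K) hn).ne_zero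
  have h1 := (IsAlgClosed.splits (X ^ n - 1 : K[X])).eval_eq_prod_roots s
  have hlead : (X ^ n - 1 : K[X]).leadingCoeff = 1 := monic_X_pow_sub_C (1 : K) hn
  rw [hlead, one_mul, eval_sub, eval_pow, eval_X, eval_one] at h1
  by_contra hcon
  push Not at hcon
  have h2 : 1 ≤ v (s ^ n - 1) := by
    rw [h1, map_multiset_prod, Multiset.map_map]
    refine Multiset.one_le_prod_of_one_le ?_
    intro x hx
    obtain ⟨r, hr, rfl⟩ := Multiset.mem_map.mp hx
    refine hcon r ?_
    have := isRoot_of_mem_roots hr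
    rw [IsRoot.def, eval_sub, eval_pow, eval_X, eval_one, sub_eq_zero] at this
    exact this
  exact absurd hs (not_lt.mpr h2)

omit [DecidableEq K] in
lemma card_tor_Q_le (hc : c ≠ 0) {n : ℕ} (hn : n ≠ 0) :
    Finite (tor (Additive (Q v c)) n) ∧ Nat.card (tor (Additive (Q v c)) n) ≤ n ^ 2 := by
  obtain ⟨t, ht⟩ := IsAlgClosed.exists_pow_nat_eq (-c) (Nat.pos_of_ne_zero hn)
  have : NeZero n := ⟨hn⟩
  have hpow := cls_root_pow (v := v) hc hn ht
  have hζ : ∀ ζ : rootsOfUnity n K, cls v c ((ζ : Kˣ) : K) ^ n = 1 := by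
    intro ζ
    rw [← cls_pow (Units.ne_zero _)]
    have : (((ζ : Kˣ) : K)) ^ n = 1 := by
      have := ζ.2
      rw [mem_rootsOfUnity] at this
      rw [← Units.val_pow_eq_pow_val, this, Units.val_one]
    rw [this, cls_one]
  let g : rootsOfUnity n K × Fin n → tor (Additive (Q v c)) n := fun x =>
    ⟨Additive.ofMul (cls v c ((x.1 : Kˣ) : K) * cls v c t ^ (x.2 : ℕ)), by
      rw [mem_tor, ← ofMul_pow, mul_pow, hζ, one_mul, ← pow_mul, mul_comm, pow_mul, hpow, one_pow]
      rfl⟩
  have hg : Function.Surjective g := by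
    rintro ⟨q, hq⟩
    obtain ⟨s, hs, hs0, j, hj⟩ := exists_of_pow_eq_one hc hn ht (q := Additive.toMul q) hq
    obtain ⟨ζ, hζn, hsζ⟩ := exists_rootOfUnity hn hs
    have hζ0 : ζ ≠ 0 := by
      rintro rfl
      rw [zero_pow hn] at hζn
      exact zero_ne_one hζn
    have hvζ : v ζ = 1 := by
      have : v ζ ^ n = 1 := by rw [← map_pow, hζn, map_one]
      exact (pow_eq_one_iff_of_nonneg zero_le hn).mp this
    have hcls : cls v c s = cls v c ζ := by
      refine cls_eq_of_near (ε := v (s - ζ)) hsζ hζ0 ?_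
      rw [Near, hvζ, mul_one]
    have hmod : cls v c t ^ j = cls v c t ^ (j % n).toNat := by
      have h1 : cls v c t ^ (n : ℤ) = 1 := by rw [zpow_natCast]; exact hpow
      rw [← zpow_natCast, Int.toNat_of_nonneg (Int.emod_nonneg _ (by exact_mod_cast hn))]
      conv_lhs => rw [← Int.mul_ediv_add_emod j n, zpow_add, zpow_mul, h1, one_zpow, one_mul]
    refine ⟨⟨⟨Units.mk0 ζ hζ0, ?_⟩, ⟨(j % n).toNat, ?_⟩⟩, Subtype.ext ?_⟩
    · rw [mem_rootsOfUnity]; ext; simpa using hζn
    · have := Int.emod_lt_of_pos j (b := n) (by exact_mod_cast Nat.pos_of_ne_zero hn)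
      have h0 := Int.emod_nonneg j (b := n) (by exact_mod_cast hn)
      omega
    · change Additive.ofMul (cls v c ζ * cls v c t ^ (j % n).toNat) = q
      rw [← hmod, ← hcls, ← hj]; rfl
  refine ⟨Finite.of_surjective g hg, (Nat.card_le_card_of_surjective g hg).trans ?_⟩
  rw [Nat.card_prod, Nat.card_fin, sq]
  refine Nat.mul_le_mul_right n ?_
  exact card_rootsOfUnity K n

/-- **Order prime to the residue characteristic**: every element of `Q[n]` is the parameter of
an `n`-torsion point. -/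
theorem exists_of_v_eq_one (hc1 : v c < 1) (hc : c ≠ 0) {n : ℕ} (hvn : v (n : K) = 1)
    {q : Q v c} (hq : q ^ n = 1) :
    ∃ P : (nf c).toAffine.Point, n • P = 0 ∧ phi hc1 hc P = Additive.ofMul q := by
  have hn0 : (n : K) ≠ 0 := by rw [← Valuation.pos_iff (v := v), hvn]; exact one_pos
  have hn : n ≠ 0 := by rintro rfl; simp at hn0
  obtain ⟨hfin, hQ⟩ := card_tor_Q_le (v := v) hc hn
  refine exists_of_injOn (phi hc1 hc) hn (card_tor_nf hc1 hc hn0) ?_ hfin hQ hq
  intro P hP hφ
  have hint : IntCoeff v (nf c) := ⟨by simp, by simp, by simp, by simp, hc1.le⟩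
  exact ker_torsion_free hint ((phi_eq_zero_iff hc1 hc).mp hφ) hvn hP

end Fermat.Agent.LOC.TateHom
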