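import Fermat.Agent.LOC.TatePhi
import Mathlib.FieldTheory.IsAlgClosed.Basic
import Mathlib.Tactic.ComputeDegree

/-! # The homomorphism `φ : E(K) → K^× / ⟨-c⟩ (1 + 𝔪)` for `E : y² + xy = x³ + c` -/

set_option autoImplicit false

namespace Fermat.Agent.LOC.TateHom

open WeierstrassCurve WeierstrassCurve.Affine Fermat.Agent.ECRed Fermat.Agent.LOC.TatePhi

/-- A function on the points of a Weierstrass curve, compatible with negation and with collinear
points, is additive. -/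
lemma add_of_coll {F G : Type*} [Field F] [DecidableEq F] [AddCommGroup G]
    {W : WeierstrassCurve F} (f : W.toAffine.Point → G) (h0 : f 0 = 0)
    (hneg : ∀ P, f (-P) = -f P)
    (hcoll : ∀ (x₁ y₁ x₂ y₂ : F) (h₁ : W.toAffine.Nonsingular x₁ y₁)
      (h₂ : W.toAffine.Nonsingular x₂ y₂) (_ : ¬(x₁ = x₂ ∧ y₁ = W.toAffine.negY x₂ y₂))
      (h₃ : W.toAffine.Nonsingular (W.toAffine.addX x₁ x₂ (W.toAffine.slope x₁ x₂ y₁ y₂))
        (W.toAffine.negAddY x₁ x₂ y₁ (W.toAffine.slope x₁ x₂ y₁ y₂))),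
      f (.some x₁ y₁ h₁) + f (.some x₂ y₂ h₂) + f (.some _ _ h₃) = 0)
    (P Q : W.toAffine.Point) : f (P + Q) = f P + f Q := by
  rcases P with _ | ⟨x₁, y₁, h₁⟩
  · rw [show (Point.zero : W.toAffine.Point) = 0 from rfl, h0, zero_add, zero_add]
  rcases Q with _ | ⟨x₂, y₂, h₂⟩
  · rw [show (Point.zero : W.toAffine.Point) = 0 from rfl, h0, add_zero, add_zero]
  by_cases hxy : x₁ = x₂ ∧ y₁ = W.toAffine.negY x₂ y₂
  · have e : (Point.some x₁ y₁ h₁ : W.toAffine.Point) = -Point.some x₂ y₂ h₂ := by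
      rw [Point.neg_some]
      exact (Point.some.injEq ..).mpr hxy
    rw [e, neg_add_cancel, hneg, h0, neg_add_cancel]
  · have h₃ : W.toAffine.Nonsingular (W.toAffine.addX x₁ x₂ (W.toAffine.slope x₁ x₂ y₁ y₂))
        (W.toAffine.negAddY x₁ x₂ y₁ (W.toAffine.slope x₁ x₂ y₁ y₂)) :=
      nonsingular_negAdd h₁ h₂ hxy
    have e : (Point.some x₁ y₁ h₁ : W.toAffine.Point) + Point.some x₂ y₂ h₂ =
        -Point.some _ _ h₃ := by
      rw [Point.add_some hxy, Point.neg_some]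
      exact (Point.some.injEq ..).mpr ⟨rfl, rfl⟩
    have h5 := hcoll x₁ y₁ x₂ y₂ h₁ h₂ hxy h₃
    rw [e, hneg, neg_eq_iff_eq_neg, eq_comm, neg_eq_iff_add_eq_zero]
    exact h5

variable {K Γ₀ : Type*} [Field K] [LinearOrderedCommGroupWithZero Γ₀]

/-- The curve `y² + xy = x³ + c`. -/
def nf (c : K) : WeierstrassCurve K := ⟨1, 0, 0, 0, c⟩

@[simp] lemma nf_a₁ (c : K) : (nf c).a₁ = 1 := rfl
@[simp] lemma nf_a₂ (c : K) : (nf c).a₂ = 0 := rfl
@[simp] lemma nf_a₃ (c : K) : (nf c).a₃ = 0 := rfl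
@[simp] lemma nf_a₄ (c : K) : (nf c).a₄ = 0 := rfl
@[simp] lemma nf_a₆ (c : K) : (nf c).a₆ = c := rfl

lemma nf_equation {c x y : K} : (nf c).toAffine.Equation x y ↔ y * (x + y) = x ^ 3 + c := by
  rw [equation_iff]
  simp only [nf]
  constructor
  · intro h; linear_combination h
  · intro h; linear_combination h

lemma nf_negY (c x y : K) : (nf c).toAffine.negY x y = -y - x := by
  simp [negY, nf]

lemma nf_Δ (c : K) : (nf c).Δ = -c * (1 + 432 * c) := by
  simp only [WeierstrassCurve.Δ, WeierstrassCurve.b₂, WeierstrassCurve.b₄, WeierstrassCurve.b₆,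
    WeierstrassCurve.b₈, nf]
  ring

lemma nf_coll [DecidableEq K] {c x₁ y₁ x₂ y₂ : K} (h₁ : (nf c).toAffine.Equation x₁ y₁)
    (h₂ : (nf c).toAffine.Equation x₂ y₂)
    (hxy : ¬(x₁ = x₂ ∧ y₁ = (nf c).toAffine.negY x₂ y₂)) :
    Coll c x₁ y₁ x₂ y₂
      ((nf c).toAffine.addX x₁ x₂ ((nf c).toAffine.slope x₁ x₂ y₁ y₂))
      ((nf c).toAffine.negAddY x₁ x₂ y₁ ((nf c).toAffine.slope x₁ x₂ y₁ y₂))
      ((nf c).toAffine.slope x₁ x₂ y₁ y₂)
      (y₁ - (nf c).toAffine.slope x₁ x₂ y₁ y₂ * x₁) := by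
  obtain ⟨hv2, hv3⟩ := vieta₂ h₁ h₂ hxy rfl rfl rfl
  have hv1 := vieta₁ (W := nf c) (x₁ := x₁) (x₂ := x₂)
    (ℓ := (nf c).toAffine.slope x₁ x₂ y₁ y₂) rfl
  have hline : y₂ = (nf c).toAffine.slope x₁ x₂ y₁ y₂ * x₂ +
      (y₁ - (nf c).toAffine.slope x₁ x₂ y₁ y₂ * x₁) := by
    by_cases hx : x₁ = x₂
    · have hy : y₁ ≠ (nf c).toAffine.negY x₂ y₂ := fun h => hxy ⟨hx, h⟩
      have := Y_eq_of_Y_ne h₁ h₂ hx hy
      rw [hx, this]; ring
    · have hd : x₁ - x₂ ≠ 0 := sub_ne_zero.mpr hx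
      rw [slope_of_X_ne hx]
      field_simp
      ring
  rw [nf_a₁, nf_a₂] at hv1
  rw [nf_a₄, nf_a₁, nf_a₃] at hv2
  rw [nf_a₃, nf_a₆] at hv3
  refine ⟨by ring, hline, ?_, ?_, ?_, ?_⟩
  · rw [negAddY]; ring
  · linear_combination hv1
  · linear_combination hv2
  · linear_combination hv3

variable {v : Valuation K Γ₀}

/-- The `1`-units. -/
def oneUnits (v : Valuation K Γ₀) : Subgroup Kˣ where
  carrier := {u | v ((u : K) - 1) < 1}
  one_mem' := by simp
  mul_mem' := by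
    intro a b ha hb
    simp only [Set.mem_ofPred_eq] at ha hb ⊢
    have h1 : v (a : K) = 1 := by
      have := v.map_one_add_of_lt ha
      rwa [add_sub_cancel] at this
    rw [Units.val_mul, show (a : K) * b - 1 = a * (b - 1) + (a - 1) by ring]
    exact v.map_add_lt (by rw [map_mul, h1, one_mul]; exact hb) ha
  inv_mem' := by
    intro a ha
    simp only [Set.mem_ofPred_eq] at ha ⊢
    have h1 : v (a : K) = 1 := by
      have := v.map_one_add_of_lt ha
      rwa [add_sub_cancel] at this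
    have ha0 : (a : K) ≠ 0 := a.ne_zero
    rw [Units.val_inv_eq_inv_val, show (a : K)⁻¹ - 1 = -((a : K) - 1) * (a : K)⁻¹ by field_simp; ring,
      map_mul, Valuation.map_neg, map_inv₀, h1, inv_one, mul_one]
    exact ha

lemma mem_oneUnits {u : Kˣ} : u ∈ oneUnits v ↔ v ((u : K) - 1) < 1 := Iff.rfl

lemma v_eq_one_of_mem_oneUnits {u : Kˣ} (h : u ∈ oneUnits v) : v (u : K) = 1 := by
  have := v.map_one_add_of_lt h
  rwa [add_sub_cancel] at this

/-- The subgroup `⟨-c⟩ (1 + 𝔪)`. -/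
def H (v : Valuation K Γ₀) (c : K) : Subgroup Kˣ where
  carrier := {u | ∃ n : ℤ, ∃ w ∈ oneUnits v, (u : K) = w * (-c) ^ n}
  one_mem' := ⟨0, 1, one_mem _, by simp⟩
  mul_mem' := by
    rintro a b ⟨n, w, hw, ha⟩ ⟨m, w', hw', hb⟩
    have hne : (-c) ^ n ≠ 0 := fun h => a.ne_zero (by rw [ha, h, mul_zero])
    have hne' : (-c) ^ m ≠ 0 := fun h => b.ne_zero (by rw [hb, h, mul_zero])
    rcases eq_or_ne c 0 with hc | hc
    · subst hc
      have hn : n = 0 := by
        by_contra h; exact hne (by rw [neg_zero, zero_zpow _ h])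
      have hm : m = 0 := by
        by_contra h; exact hne' (by rw [neg_zero, zero_zpow _ h])
      subst hn hm
      refine ⟨0, w * w', mul_mem hw hw', ?_⟩
      rw [Units.val_mul, ha, hb, Units.val_mul]; simp
    · refine ⟨n + m, w * w', mul_mem hw hw', ?_⟩
      rw [Units.val_mul, ha, hb, Units.val_mul, zpow_add₀ (neg_ne_zero.mpr hc)]
      ring
  inv_mem' := by
    rintro a ⟨n, w, hw, ha⟩
    refine ⟨-n, w⁻¹, inv_mem hw, ?_⟩
    rw [Units.val_inv_eq_inv_val, ha, mul_inv, Units.val_inv_eq_inv_val, zpow_neg]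

lemma mem_H {c : K} {u : Kˣ} :
    u ∈ H v c ↔ ∃ n : ℤ, ∃ w ∈ oneUnits v, (u : K) = w * (-c) ^ n := Iff.rfl

lemma mem_H_of_near {c : K} {u : Kˣ} {ε : Γ₀} (hε : ε < 1) {n : ℤ}
    (h : Near v ε (u : K) ((-c) ^ n)) : u ∈ H v c := by
  have hne : (-c) ^ n ≠ 0 := by
    intro h0
    have := h.v_eq hε
    rw [h0, map_zero] at this
    exact u.ne_zero (by simpa using this)
  have hvpos : 0 < v ((-c) ^ n) := by rwa [Valuation.pos_iff]
  refine ⟨n, u * (Units.mk0 _ hne)⁻¹, ?_, ?_⟩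
  · rw [mem_oneUnits, Units.val_mul, Units.val_inv_eq_inv_val, Units.val_mk0]
    rw [show (u : K) * ((-c) ^ n)⁻¹ - 1 = ((u : K) - (-c) ^ n) * ((-c) ^ n)⁻¹ by
      rw [sub_mul, mul_inv_cancel₀ hne], map_mul, map_inv₀]
    rw [← div_eq_mul_inv, div_lt_iff₀ hvpos]
    refine lt_of_le_of_lt h ?_
    exact mul_lt_mul_of_pos_right hε hvpos
  · rw [Units.val_mul, Units.val_inv_eq_inv_val, Units.val_mk0, inv_mul_cancel_right₀ hne]

/-- The group `K^× / ⟨-c⟩ (1 + 𝔪)`. -/
def Q (v : Valuation K Γ₀) (c : K) : Type _ := Kˣ ⧸ H v c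

instance (v : Valuation K Γ₀) (c : K) : CommGroup (Q v c) :=
  inferInstanceAs (CommGroup (Kˣ ⧸ H v c))

/-- The projection `K^× → K^× / ⟨-c⟩ (1 + 𝔪)`. -/
def mkQ (v : Valuation K Γ₀) (c : K) : Kˣ →* Q v c := QuotientGroup.mk' (H v c)

lemma mkQ_surjective (v : Valuation K Γ₀) (c : K) : Function.Surjective (mkQ v c) :=
  QuotientGroup.mk'_surjective _

lemma mkQ_eq_one_iff {c : K} {u : Kˣ} : mkQ v c u = 1 ↔ u ∈ H v c :=
  QuotientGroup.eq_one_iff u

open scoped Classical in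
/-- The class of an element of `K` in `K^× / ⟨-c⟩ (1 + 𝔪)` (and `1` for `0`). -/
noncomputable def cls (v : Valuation K Γ₀) (c a : K) : Q v c :=
  if h : a = 0 then 1 else mkQ v c (Units.mk0 a h)

lemma cls_of_ne {c a : K} (h : a ≠ 0) : cls v c a = mkQ v c (Units.mk0 a h) := by
  rw [cls, dif_neg h]

lemma cls_units {c : K} (u : Kˣ) : cls v c (u : K) = mkQ v c u := by
  rw [cls_of_ne u.ne_zero, Units.mk0_val]

lemma cls_mul {c a b : K} (ha : a ≠ 0) (hb : b ≠ 0) : cls v c (a * b) = cls v c a * cls v c b := by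
  rw [cls_of_ne ha, cls_of_ne hb, cls_of_ne (mul_ne_zero ha hb), ← map_mul,
    Units.mk0_mul]

@[simp] lemma cls_one {c : K} : cls v c 1 = 1 := by
  rw [cls_of_ne one_ne_zero, Units.mk0_one, map_one]

lemma cls_inv {c a : K} : cls v c a⁻¹ = (cls v c a)⁻¹ := by
  rcases eq_or_ne a 0 with rfl | ha
  · rw [inv_zero, cls, dif_pos rfl, inv_one]
  · rw [cls_of_ne ha, cls_of_ne (inv_ne_zero ha), ← map_inv]
    congr 1
    ext; simp

lemma cls_div {c a b : K} (ha : a ≠ 0) (hb : b ≠ 0) : cls v c (a / b) = cls v c a / cls v c b := by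
  rw [div_eq_mul_inv, cls_mul ha (inv_ne_zero hb), cls_inv, div_eq_mul_inv]

lemma cls_pow {c a : K} (ha : a ≠ 0) (n : ℕ) : cls v c (a ^ n) = cls v c a ^ n := by
  rw [cls_of_ne ha, cls_of_ne (pow_ne_zero n ha), ← map_pow]
  congr 1
  ext; simp

lemma cls_eq_one_iff {c a : K} (ha : a ≠ 0) :
    cls v c a = 1 ↔ ∃ n : ℤ, ∃ w ∈ oneUnits v, a = w * (-c) ^ n := by
  rw [cls_of_ne ha, mkQ_eq_one_iff, mem_H]; rfl

lemma cls_eq_one_of_near {c a : K} {ε : Γ₀} (hε : ε < 1) (ha : a ≠ 0) {n : ℤ}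
    (h : Near v ε a ((-c) ^ n)) : cls v c a = 1 := by
  rw [cls_of_ne ha, mkQ_eq_one_iff]
  exact mem_H_of_near hε h

@[simp] lemma cls_neg_c {c : K} : cls v c (-c) = 1 := by
  rcases eq_or_ne c 0 with rfl | hc
  · rw [neg_zero, cls, dif_pos rfl]
  · rw [cls_eq_one_iff (neg_ne_zero.mpr hc)]
    exact ⟨1, 1, one_mem _, by simp⟩

lemma cls_eq_of_near {c a b : K} {ε : Γ₀} (hε : ε < 1) (hb : b ≠ 0)
    (h : Near v ε a b) : cls v c a = cls v c b := by
  have ha : a ≠ 0 := h.ne_zero hε hb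
  have h1 : cls v c (a * b⁻¹) = 1 := by
    refine cls_eq_one_of_near hε (mul_ne_zero ha (inv_ne_zero hb)) (n := 0) ?_
    have := h.mul (Near.refl ε b⁻¹) hε
    rwa [mul_inv_cancel₀ hb, ← zpow_zero (-c)] at this
  rw [cls_mul ha (inv_ne_zero hb), cls_inv] at h1
  exact mul_inv_eq_one.mp h1

section Rep

variable {c : K}

open scoped Classical in
/-- A representative of the parameter of the point `(x, y)`. -/
noncomputable def rep (v : Valuation K Γ₀) (c x y : K) : K :=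
  if 1 ≤ v x then y / (x + y) else if v y ≤ v (x + y) then x + y else c / y

lemma isPhi_rep (v : Valuation K Γ₀) (c x y : K) : IsPhi v c x y (rep v c x y) := by
  unfold rep
  split_ifs with h1 h2
  · exact Or.inl ⟨h1, rfl⟩
  · exact Or.inr (Or.inl ⟨not_le.mp h1, h2, rfl⟩)
  · exact Or.inr (Or.inr ⟨not_le.mp h1, (not_le.mp h2).le, rfl⟩)

lemma exists_ok (hc1 : v c < 1) {x y : K} (h : y * (x + y) = x ^ 3 + c) :
    ∃ ε : Γ₀, ε < 1 ∧ ∀ ε', ε ≤ ε' → Ok v ε' x y := by
  rcases le_or_gt 1 (v x) with hx | hx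
  · exact ⟨0, zero_lt_one, fun _ _ => Or.inl hx⟩
  · obtain ⟨h1, h2⟩ := v_lt_one_of_lt hc1 h hx
    exact ⟨max (v y) (v (x + y)), max_lt h1 h2, fun ε' hε' => Or.inr
      ⟨hx, (le_max_left _ _).trans hε', (le_max_right _ _).trans hε'⟩⟩

lemma cls_isPhi (hc1 : v c < 1) (hc : c ≠ 0) {x y : K} (h : y * (x + y) = x ^ 3 + c) {φ φ' : K}
    (p : IsPhi v c x y φ) (p' : IsPhi v c x y φ') : cls v c φ = cls v c φ' := by
  obtain ⟨ε, hε, hok⟩ := exists_ok hc1 h
  exact cls_eq_of_near hε (p'.ne_zero hc1 hc h) (p.near hε h hc (hok ε le_rfl) p')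

/-- The parameter of a point, as a function. -/
noncomputable def phiFun (v : Valuation K Γ₀) (c : K) :
    (nf c).toAffine.Point → Additive (Q v c)
  | .zero => 0
  | .some x y _ => Additive.ofMul (cls v c (rep v c x y))

lemma phiFun_zero : phiFun v c 0 = 0 := rfl

lemma phiFun_some (hc1 : v c < 1) (hc : c ≠ 0) {x y : K} (h : (nf c).toAffine.Nonsingular x y)
    {φ : K} (p : IsPhi v c x y φ) : phiFun v c (.some x y h) = Additive.ofMul (cls v c φ) := by
  change Additive.ofMul (cls v c (rep v c x y)) = _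
  rw [cls_isPhi hc1 hc (nf_equation.mp h.1) (isPhi_rep v c x y) p]

lemma phiFun_neg (hc1 : v c < 1) (hc : c ≠ 0) (P : (nf c).toAffine.Point) :
    phiFun v c (-P) = -phiFun v c P := by
  rcases P with _ | ⟨x, y, h⟩
  · change phiFun v c 0 = -phiFun v c 0
    rw [phiFun_zero, neg_zero]
  · have he := nf_equation.mp h.1
    have p := isPhi_rep v c x y
    rw [phiFun_some hc1 hc h p]
    rcases lt_or_ge (v x) 1 with hx | hx
    · have := p.neg hc hx
      rw [Point.neg_some, phiFun_some hc1 hc _ (by rw [nf_negY]; exact this),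
        div_eq_mul_inv, cls_mul (neg_ne_zero.mpr hc)
          (inv_ne_zero (p.ne_zero hc1 hc he)), cls_neg_c, cls_inv, one_mul]
      rfl
    · have := p.neg' hx
      rw [Point.neg_some, phiFun_some hc1 hc _ (by rw [nf_negY]; exact this), cls_inv]
      rfl

/-- **The Tate parameter**: the homomorphism `E(K) → K^× / ⟨-c⟩ (1 + 𝔪)`. -/
noncomputable def phi [DecidableEq K] (hc1 : v c < 1) (hc : c ≠ 0) :
    (nf c).toAffine.Point →+ Additive (Q v c) :=
  AddMonoidHom.mk' (phiFun v c) (add_of_coll (phiFun v c) phiFun_zero (phiFun_neg hc1 hc) (by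
    intro x₁ y₁ x₂ y₂ h₁ h₂ hxy h₃
    have hcoll := nf_coll h₁.1 h₂.1 hxy
    have p1 := isPhi_rep v c x₁ y₁
    have p2 := isPhi_rep v c x₂ y₂
    have p3 := isPhi_rep v c ((nf c).toAffine.addX x₁ x₂ ((nf c).toAffine.slope x₁ x₂ y₁ y₂))
      ((nf c).toAffine.negAddY x₁ x₂ y₁ ((nf c).toAffine.slope x₁ x₂ y₁ y₂))
    rw [phiFun_some hc1 hc h₁ p1, phiFun_some hc1 hc h₂ p2, phiFun_some hc1 hc h₃ p3]
    obtain ⟨ε₁, hε₁, k1⟩ := exists_ok hc1 hcoll.eq₁
    obtain ⟨ε₂, hε₂, k2⟩ := exists_ok hc1 hcoll.eq₂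
    obtain ⟨ε₃, hε₃, k3⟩ := exists_ok hc1 hcoll.eq₃
    have hε : max (max (max ε₁ ε₂) ε₃) (v c) < 1 := max_lt (max_lt (max_lt hε₁ hε₂) hε₃) hc1
    obtain ⟨n, hn⟩ := isPhi_coll hε (le_max_right _ _) hc hcoll
      (k1 _ (((le_max_left _ _).trans (le_max_left _ _)).trans (le_max_left _ _)))
      (k2 _ (((le_max_right _ _).trans (le_max_left _ _)).trans (le_max_left _ _)))
      (k3 _ ((le_max_right _ _).trans (le_max_left _ _))) p1 p2 p3
    have n1 := p1.ne_zero hc1 hc hcoll.eq₁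
    have n2 := p2.ne_zero hc1 hc hcoll.eq₂
    have n3 := p3.ne_zero hc1 hc hcoll.eq₃
    have : cls v c (rep v c x₁ y₁ * rep v c x₂ y₂ * rep v c
        ((nf c).toAffine.addX x₁ x₂ ((nf c).toAffine.slope x₁ x₂ y₁ y₂))
        ((nf c).toAffine.negAddY x₁ x₂ y₁ ((nf c).toAffine.slope x₁ x₂ y₁ y₂))) = 1 :=
      cls_eq_one_of_near hε (mul_ne_zero (mul_ne_zero n1 n2) n3) (n := n)
        (by rwa [zpow_natCast])
    rw [cls_mul (mul_ne_zero n1 n2) n3, cls_mul n1 n2] at this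
    rw [← ofMul_mul, ← ofMul_mul, this]
    rfl))

lemma phi_some [DecidableEq K] (hc1 : v c < 1) (hc : c ≠ 0) {x y : K}
    (h : (nf c).toAffine.Nonsingular x y) {φ : K} (p : IsPhi v c x y φ) :
    phi hc1 hc (.some x y h) = Additive.ofMul (cls v c φ) := phiFun_some hc1 hc h p

/-! ### The kernel -/

/-- A node point has `v c < max (v y) (v (x + y))`. -/
lemma v_c_lt_max (hc1 : v c < 1) (hc : c ≠ 0) {x y : K} (he : y * (x + y) = x ^ 3 + c)
    : v c < max (v y) (v (x + y)) := by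
  by_contra hle
  push Not at hle
  have hy := (le_max_left _ _).trans hle
  have hxy := (le_max_right _ _).trans hle
  have hx : v x ≤ v c := v_x_le hy hxy
  have hvc : 0 < v c := by rwa [Valuation.pos_iff]
  have hsq : v c * v c < v c := by
    calc v c * v c < 1 * v c := mul_lt_mul_of_pos_right hc1 hvc
      _ = v c := one_mul _
  have h3 : v (x ^ 3) < v c := by
    rw [map_pow]
    calc v x ^ 3 ≤ v c ^ 3 := pow_le_pow_left₀ zero_le hx 3
      _ = v c * v c * v c := by rw [pow_succ, sq]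
      _ < v c * v c := by
        calc v c * v c * v c < v c * v c * 1 := mul_lt_mul_of_pos_left hc1 (mul_pos hvc hvc)
          _ = v c * v c := mul_one _
      _ < v c := hsq
  have h4 : v (y * (x + y)) = v c := by
    rw [he, v.map_add_eq_of_lt_right h3]
  rw [map_mul] at h4
  exact absurd h4 (lt_of_le_of_lt (mul_le_mul' hy hxy) hsq).ne

/-- The absolute value of the parameter of a node point lies strictly between `|c|` and `1`. -/
lemma isPhi_node_bounds (hc1 : v c < 1) (hc : c ≠ 0) {x y φ : K} (he : y * (x + y) = x ^ 3 + c)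
    (hx : v x < 1) (p : IsPhi v c x y φ) : v c < v φ ∧ v φ < 1 := by
  obtain ⟨h1, h2⟩ := v_lt_one_of_lt hc1 he hx
  have h3 := v_c_lt_max hc1 hc he
  have hvc : 0 < v c := by rwa [Valuation.pos_iff]
  rcases p with ⟨h, -⟩ | ⟨-, h, rfl⟩ | ⟨-, h, rfl⟩
  · exact absurd hx (not_lt.mpr h)
  · rw [max_eq_right h] at h3
    exact ⟨h3, h2⟩
  · rw [max_eq_left h] at h3
    have hy : 0 < v y := lt_trans hvc h3
    rw [map_div₀]
    constructor
    · rw [lt_div_iff₀ hy]
      calc v c * v y < v c * 1 := mul_lt_mul_of_pos_left h1 hvc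
        _ = v c := mul_one _
    · rwa [div_lt_one₀ hy]

lemma isPhi_nonsing (hc1 : v c < 1) {x y φ : K} (he : y * (x + y) = x ^ 3 + c)
    (hx : 1 ≤ v x) (p : IsPhi v c x y φ) : v φ = 1 ∧ (v (φ - 1) < 1 ↔ 1 < v x) := by
  obtain ⟨h1, h2⟩ := v_of_one_le hc1 he hx
  have hx0 : 0 < v x := lt_of_lt_of_le one_pos hx
  have hpos : 0 < v (x + y) := by
    rw [pos_iff_ne_zero]
    intro h0
    rw [h0, zero_pow two_ne_zero] at h2
    exact (pow_pos hx0 3).ne h2
  have heq : v y = v (x + y) := by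
    have : v y ^ 2 = v (x + y) ^ 2 := by rw [h1, h2]
    exact (pow_left_inj₀ zero_le zero_le two_ne_zero).mp this
  have hne : x + y ≠ 0 := by rwa [← Valuation.pos_iff (v := v)]
  rcases p with ⟨-, rfl⟩ | ⟨h, -⟩ | ⟨h, -⟩
  · refine ⟨by rw [map_div₀, heq, div_self hpos.ne'], ?_⟩
    have e : y / (x + y) - 1 = -x / (x + y) := by field_simp; ring
    rw [e, map_div₀, Valuation.map_neg, div_lt_one₀ hpos]
    rw [← pow_lt_pow_iff_left₀ zero_le zero_le two_ne_zero, h2]
    constructor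
    · intro h
      by_contra hle
      push Not at hle
      have : v x = 1 := le_antisymm hle hx
      rw [this] at h
      simp at h
    · intro h
      exact pow_lt_pow_right₀ h (by norm_num)
  · exact absurd hx (not_le.mpr h)
  · exact absurd hx (not_le.mpr h)

lemma zpow_lt_one_iff_pos {a : Γ₀} (h0 : 0 < a) (h1 : a < 1) {n : ℤ} : a ^ n < 1 ↔ 0 < n := by
  have := (zpow_right_strictAnti₀ h0 h1).lt_iff_gt (a := n) (b := 0)
  rwa [zpow_zero] at this

/-- If `u ∈ ⟨-c⟩ (1 + 𝔪)` has absolute value `> |c|` and `≤ 1` then it is a `1`-unit. -/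
lemma sub_one_lt_of_cls_eq_one (hc1 : v c < 1) (hc : c ≠ 0) {u : K} (h1 : v c < v u) (h2 : v u ≤ 1)
    (h : cls v c u = 1) : v (u - 1) < 1 := by
  have hvc : 0 < v c := by rwa [Valuation.pos_iff]
  have hu0 : u ≠ 0 := by rw [← Valuation.pos_iff (v := v)]; exact lt_trans hvc h1
  obtain ⟨n, w, hw, hu⟩ := (cls_eq_one_iff hu0).mp h
  have hvu : v u = v c ^ n := by
    rw [hu, map_mul, v_eq_one_of_mem_oneUnits hw, one_mul, map_zpow₀, Valuation.map_neg]
  have hanti := zpow_right_strictAnti₀ hvc hc1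
  have hn1 : n < 1 := by
    have : v c ^ (1 : ℤ) < v c ^ n := by rw [zpow_one, ← hvu]; exact h1
    exact hanti.lt_iff_gt.mp this
  have hn0 : 0 ≤ n := by
    have : v c ^ n ≤ v c ^ (0 : ℤ) := by rw [zpow_zero, ← hvu]; exact h2
    exact hanti.le_iff_ge.mp this
  have hn : n = 0 := by omega
  rw [hn, zpow_zero, mul_one] at hu
  rw [hu]; exact hw

/-- **The kernel of the Tate parameter is the kernel of reduction.** -/
theorem phi_eq_zero_iff [DecidableEq K] (hc1 : v c < 1) (hc : c ≠ 0)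
    {P : (nf c).toAffine.Point} : phi hc1 hc P = 0 ↔ InKer v P := by
  rcases P with _ | ⟨x, y, h⟩
  · exact ⟨fun _ => inKer_zero, fun _ => (phi hc1 hc).map_zero⟩
  · have he := nf_equation.mp h.1
    have p := isPhi_rep v c x y
    have hvc : 0 < v c := by rwa [Valuation.pos_iff]
    rw [inKer_some, phi_some hc1 hc h p]
    constructor
    · intro h0
      have h0' : cls v c (rep v c x y) = 1 := h0
      rcases lt_or_ge (v x) 1 with hx | hx
      · obtain ⟨h1, h2⟩ := isPhi_node_bounds hc1 hc he hx p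
        have h3 := sub_one_lt_of_cls_eq_one hc1 hc h1 h2.le h0'
        have h4 := v.map_one_add_of_lt h3
        rw [add_sub_cancel] at h4
        exact absurd h4 h2.ne
      · obtain ⟨h1, h2⟩ := isPhi_nonsing hc1 he hx p
        exact h2.mp (sub_one_lt_of_cls_eq_one hc1 hc (by rw [h1]; exact hc1) h1.le h0')
    · intro hx
      obtain ⟨h1, h2⟩ := isPhi_nonsing hc1 he hx.le p
      have hne : rep v c x y ≠ 0 := by rw [← Valuation.pos_iff (v := v), h1]; exact one_pos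
      have : cls v c (rep v c x y) = 1 := by
        rw [cls_eq_one_iff hne]
        exact ⟨0, Units.mk0 _ hne, h2.mpr hx, by simp⟩
      rw [this]; rfl

/-! ### The image -/

lemma nf_nonsingular (hc1 : v c < 1) (hc : c ≠ 0) {x y : K} (h : y * (x + y) = x ^ 3 + c) :
    (nf c).toAffine.Nonsingular x y := by
  have hΔ : (nf c).Δ ≠ 0 := by
    rw [nf_Δ]
    refine mul_ne_zero (neg_ne_zero.mpr hc) ?_
    rw [← Valuation.pos_iff (v := v), v.map_one_add_of_lt]
    · exact one_pos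
    · have : v (432 : K) ≤ 1 := by simpa using v_nat_le_one (v := v) 432
      exact v_imul_lt this hc1
  exact ((nf c).toAffine.equation_iff_nonsingular_of_Δ_ne_zero hΔ).mp (nf_equation.mpr h)

lemma exists_small_root [IsAlgClosed K] {u : K} (hu0 : u ≠ 0) (h : v c ≤ v u ^ 2) :
    ∃ x : K, v x ≤ v u ∧ x ^ 3 + u * x = u ^ 2 - c := by
  have hupos : 0 < v u := by rwa [Valuation.pos_iff]
  obtain ⟨r₁, hr₁⟩ := IsAlgClosed.exists_root
    (Polynomial.X ^ 3 + Polynomial.C u * Polynomial.X - Polynomial.C (u ^ 2 - c)) (by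
      have : (Polynomial.X ^ 3 + Polynomial.C u * Polynomial.X - Polynomial.C (u ^ 2 - c) :
        Polynomial K).degree = 3 := by compute_degree!
      rw [this]; norm_num)
  simp only [Polynomial.IsRoot.def, Polynomial.eval_sub, Polynomial.eval_add, Polynomial.eval_pow,
    Polynomial.eval_X, Polynomial.eval_mul, Polynomial.eval_C] at hr₁
  obtain ⟨r₂, hr₂⟩ := IsAlgClosed.exists_root
    (Polynomial.X ^ 2 + Polynomial.C r₁ * Polynomial.X + Polynomial.C (u + r₁ ^ 2)) (by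
      have : (Polynomial.X ^ 2 + Polynomial.C r₁ * Polynomial.X + Polynomial.C (u + r₁ ^ 2) :
        Polynomial K).degree = 2 := by compute_degree!
      rw [this]; norm_num)
  simp only [Polynomial.IsRoot.def, Polynomial.eval_add, Polynomial.eval_pow,
    Polynomial.eval_X, Polynomial.eval_mul, Polynomial.eval_C] at hr₂
  by_cases c1 : v r₁ ≤ v u
  · exact ⟨r₁, c1, by linear_combination hr₁⟩
  by_cases c2 : v r₂ ≤ v u
  · exact ⟨r₂, c2, by linear_combination hr₁ + (r₂ - r₁) * hr₂⟩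
  by_cases c3 : v (-r₁ - r₂) ≤ v u
  · exact ⟨-r₁ - r₂, c3, by linear_combination hr₁ - (2 * r₁ + r₂) * hr₂⟩
  exfalso
  push Not at c1 c2 c3
  have hprod : v (r₁ * r₂ * (-r₁ - r₂)) ≤ v u ^ 2 := by
    rw [show r₁ * r₂ * (-r₁ - r₂) = u ^ 2 - c by linear_combination hr₁ - r₁ * hr₂]
    exact (v.map_sub _ _).trans (max_le (by rw [map_pow]) h)
  have small : ∀ a b d : K, v u < v d → v (a * b * d) ≤ v u ^ 2 → v (a * b) < v u := by
    intro a b d hd habd
    by_contra hle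
    push Not at hle
    have : v u ^ 2 < v (a * b * d) := by
      rw [map_mul, sq]
      calc v u * v u < v u * v d := mul_lt_mul_of_pos_left hd hupos
        _ ≤ v (a * b) * v d := mul_le_mul_left hle _
    exact absurd habd (not_le.mpr this)
  have s1 := small r₁ r₂ _ c3 hprod
  have s2 := small r₁ (-r₁ - r₂) r₂ c2 (by rw [mul_right_comm]; exact hprod)
  have s3 := small r₂ (-r₁ - r₂) r₁ c1 (by rw [mul_comm, ← mul_assoc]; exact hprod)
  have : v u < v u := by
    calc v u = v (r₁ * r₂ + r₁ * (-r₁ - r₂) + r₂ * (-r₁ - r₂)) := by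
          congr 1; linear_combination hr₂
      _ < v u := v.map_add_lt (v.map_add_lt s1 s2) s3
  exact lt_irrefl _ this

/-- **The image of the Tate parameter.** -/
theorem exists_phi_eq [DecidableEq K] [IsAlgClosed K] (hc1 : v c < 1) (hc : c ≠ 0) {u : K}
    (h1 : v c < v u) (h2 : v u < 1) :
    ∃ x y : K, ∃ h : (nf c).toAffine.Nonsingular x y, v x < 1 ∧
      phi hc1 hc (.some x y h) = Additive.ofMul (cls v c u) := by
  have hvc : 0 < v c := by rwa [Valuation.pos_iff]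
  have key : ∀ u : K, v c < v u → v u < 1 → v c ≤ v u ^ 2 →
      ∃ x y : K, ∃ h : (nf c).toAffine.Nonsingular x y, v x < 1 ∧
      phi hc1 hc (.some x y h) = Additive.ofMul (cls v c u) := by
    intro u h1 h2 h3
    have hu0 : u ≠ 0 := by rw [← Valuation.pos_iff (v := v)]; exact lt_trans hvc h1
    obtain ⟨x, hx, hx2⟩ := exists_small_root hu0 h3
    have he : (u - x) * (x + (u - x)) = x ^ 3 + c := by linear_combination -hx2
    have hx1 : v x < 1 := lt_of_le_of_lt hx h2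
    refine ⟨x, u - x, nf_nonsingular hc1 hc he, hx1, ?_⟩
    refine phi_some hc1 hc _ (Or.inr (Or.inl ⟨hx1, ?_, by ring⟩))
    rw [add_sub_cancel]
    exact (v.map_sub _ _).trans (max_le le_rfl hx)
  rcases le_or_gt (v c) (v u ^ 2) with h3 | h3
  · exact key u h1 h2 h3
  · have hupos : 0 < v u := lt_trans hvc h1
    have hu0 : u ≠ 0 := by rwa [← Valuation.pos_iff (v := v)]
    have g1 : v c < v (-c / u) := by
      rw [map_div₀, Valuation.map_neg, lt_div_iff₀ hupos]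
      calc v c * v u < v c * 1 := mul_lt_mul_of_pos_left h2 hvc
        _ = v c := mul_one _
    have g2 : v (-c / u) < 1 := by rwa [map_div₀, Valuation.map_neg, div_lt_one₀ hupos]
    have g3 : v c ≤ v (-c / u) ^ 2 := by
      rw [map_div₀, Valuation.map_neg, div_pow, le_div_iff₀ (pow_pos hupos 2)]
      calc v c * v u ^ 2 ≤ v c * v c := mul_le_mul_right h3.le _
        _ = v c ^ 2 := (sq _).symm
    obtain ⟨x, y, h, hx, hP⟩ := key (-c / u) g1 g2 g3
    refine ⟨x, (nf c).toAffine.negY x y, (nonsingular_neg ..).mpr h, hx, ?_⟩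
    rw [← Point.neg_some h, map_neg, hP, cls_div (neg_ne_zero.mpr hc) hu0, cls_neg_c, one_div,
      ofMul_inv, neg_neg]

/-! ### Functoriality -/

/-- Compatibility of the parameter with isometries fixing `c`. -/
lemma IsPhi_map {σ : K →+* K} (hσ : ∀ a, v (σ a) = v a) (hσc : σ c = c) {x y φ : K}
    (p : IsPhi v c x y φ) : IsPhi v c (σ x) (σ y) (σ φ) := by
  rcases p with ⟨h, rfl⟩ | ⟨h, h', rfl⟩ | ⟨h, h', rfl⟩
  · exact Or.inl ⟨by rwa [hσ], by rw [map_div₀, map_add]⟩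
  · refine Or.inr (Or.inl ⟨by rwa [hσ], ?_, by rw [map_add]⟩)
    rw [← map_add, hσ, hσ]; exact h'
  · refine Or.inr (Or.inr ⟨by rwa [hσ], ?_, by rw [map_div₀, hσc]⟩)
    rw [← map_add, hσ, hσ]; exact h'

end Rep

end Fermat.Agent.LOC.TateHom
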