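import Fermat.Agent.ECRed.Nodal
import Mathlib.GroupTheory.QuotientGroup.Basic

/-! # The multiplicative parameter of `y² + xy = x³ + c` with `|c| < 1`

For a valued field `(K, v)` and the curve `E : y² + xy = x³ + c`, `0 < v c < 1` we construct the
"Tate parameter" `φ : E(K) → K^× / ⟨-c⟩ (1 + ε)`: it is `y / (x + y)` on the points of nonsingular
reduction, and `x + y` or `c / y` on the points reducing to the node.  The main result
(`isPhi_coll`) is that `φ` is multiplicative on collinear points, with an explicit relative error.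
-/

set_option autoImplicit false

namespace Fermat.Agent.LOC.TatePhi

open WeierstrassCurve WeierstrassCurve.Affine Fermat.Agent.ECRed

variable {K Γ₀ : Type*} [Field K] [LinearOrderedCommGroupWithZero Γ₀] {v : Valuation K Γ₀}

/-! ## Relative closeness -/

/-- `a` and `b` agree up to relative error `ε`. -/
def Near (v : Valuation K Γ₀) (ε : Γ₀) (a b : K) : Prop := v (a - b) ≤ ε * v b

namespace Near

variable {ε ε' : Γ₀} {a b c d : K}

lemma refl (ε : Γ₀) (a : K) : Near v ε a a := by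
  simp [Near]

lemma mono (h : Near v ε a b) (hε : ε ≤ ε') : Near v ε' a b :=
  h.trans (mul_le_mul_left hε _)

lemma v_eq (h : Near v ε a b) (hε : ε < 1) : v a = v b := by
  rcases eq_or_ne b 0 with rfl | hb
  · have : v a ≤ 0 := by simpa [Near] using h
    simpa using this
  · have hb' : 0 < v b := by rwa [Valuation.pos_iff]
    have h1 : v (a - b) < v b := lt_of_le_of_lt h (by
      calc ε * v b < 1 * v b := mul_lt_mul_of_pos_right hε hb'
        _ = v b := one_mul _)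
    have := v.map_add_eq_of_lt_right h1
    simpa using this

lemma symm (h : Near v ε a b) (hε : ε < 1) : Near v ε b a := by
  unfold Near
  rw [v.map_sub_swap, h.v_eq hε]
  exact h

lemma trans (h : Near v ε a b) (h' : Near v ε b c) (hε : ε < 1) : Near v ε a c := by
  have e : a - c = (a - b) + (b - c) := by ring
  unfold Near
  rw [e]
  refine v.map_add_le ?_ h'
  rw [← h'.v_eq hε]
  exact h

lemma mul (h : Near v ε a b) (h' : Near v ε c d) (hε : ε < 1) : Near v ε (a * c) (b * d) := by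
  have e : a * c - b * d = (a - b) * c + b * (c - d) := by ring
  unfold Near
  rw [e]
  refine v.map_add_le ?_ ?_
  · rw [map_mul, map_mul, h'.v_eq hε, ← mul_assoc]
    exact mul_le_mul_left h _
  · rw [map_mul, map_mul]
    calc v b * v (c - d) ≤ v b * (ε * v d) := mul_le_mul_right h' _
      _ = ε * (v b * v d) := by ac_rfl

lemma inv (h : Near v ε a b) (hε : ε < 1) : Near v ε a⁻¹ b⁻¹ := by
  rcases eq_or_ne b 0 with rfl | hb
  · have : a = 0 := by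
      have := h.v_eq hε
      simpa using this
    subst this
    exact refl _ _
  · have hva := h.v_eq hε
    have ha : a ≠ 0 := by
      rintro rfl
      rw [map_zero] at hva
      exact hb (by simpa using hva.symm)
    have e : a⁻¹ - b⁻¹ = (b - a) * (a⁻¹ * b⁻¹) := by field_simp
    unfold Near
    rw [e, map_mul, map_mul, map_inv₀, hva, v.map_sub_swap]
    have hb' : v b ≠ 0 := (Valuation.ne_zero_iff v).mpr hb
    calc v (a - b) * ((v b)⁻¹ * v b⁻¹) ≤ (ε * v b) * ((v b)⁻¹ * v b⁻¹) := mul_le_mul_left h _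
      _ = ε * v b⁻¹ := by
        rw [mul_assoc, ← mul_assoc (v b), mul_inv_cancel₀ hb', one_mul]

lemma div (h : Near v ε a b) (h' : Near v ε c d) (hε : ε < 1) : Near v ε (a / c) (b / d) := by
  rw [div_eq_mul_inv, div_eq_mul_inv]
  exact h.mul (h'.inv hε) hε

lemma neg (h : Near v ε a b) : Near v ε (-a) (-b) := by
  have e : -a - -b = -(a - b) := by ring
  unfold Near
  rw [e, Valuation.map_neg, Valuation.map_neg]
  exact h

lemma pow (h : Near v ε a b) (hε : ε < 1) (n : ℕ) : Near v ε (a ^ n) (b ^ n) := by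
  induction n with
  | zero => simpa using refl ε 1
  | succ n ih => rw [pow_succ, pow_succ]; exact ih.mul h hε

lemma zpow (h : Near v ε a b) (hε : ε < 1) (n : ℤ) : Near v ε (a ^ n) (b ^ n) := by
  cases n with
  | ofNat n => simpa using h.pow hε n
  | negSucc n => rw [zpow_negSucc, zpow_negSucc]; exact (h.pow hε _).inv hε

lemma of_eq_add {s : K} (hs : v s ≤ ε * v b) (e : a = b + s) : Near v ε a b := by
  unfold Near
  rw [e, add_sub_cancel_left]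
  exact hs

lemma ne_zero (h : Near v ε a b) (hε : ε < 1) (hb : b ≠ 0) : a ≠ 0 := by
  rintro rfl
  have := h.v_eq hε
  rw [map_zero] at this
  exact hb (by simpa using this.symm)

end Near

/-! ## Collinear points -/

/-- Three collinear points on `y² + xy = x³ + c`. -/
structure Coll (c x₁ y₁ x₂ y₂ x₃ y₃ ℓ ν : K) : Prop where
  h₁ : y₁ = ℓ * x₁ + ν
  h₂ : y₂ = ℓ * x₂ + ν
  h₃ : y₃ = ℓ * x₃ + ν
  e₁ : x₁ + x₂ + x₃ = ℓ ^ 2 + ℓ
  e₂ : x₁ * x₂ + x₁ * x₃ + x₂ * x₃ = -(2 * ℓ + 1) * ν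
  e₃ : x₁ * x₂ * x₃ = ν ^ 2 - c

namespace Coll

variable {c x₁ y₁ x₂ y₂ x₃ y₃ ℓ ν : K}

lemma neg (h : Coll c x₁ y₁ x₂ y₂ x₃ y₃ ℓ ν) :
    Coll c x₁ (-y₁ - x₁) x₂ (-y₂ - x₂) x₃ (-y₃ - x₃) (-1 - ℓ) (-ν) where
  h₁ := by rw [h.h₁]; ring
  h₂ := by rw [h.h₂]; ring
  h₃ := by rw [h.h₃]; ring
  e₁ := by rw [h.e₁]; ring
  e₂ := by rw [h.e₂]; ring
  e₃ := by rw [h.e₃]; ring

lemma swap₁₂ (h : Coll c x₁ y₁ x₂ y₂ x₃ y₃ ℓ ν) : Coll c x₂ y₂ x₁ y₁ x₃ y₃ ℓ ν where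
  h₁ := h.h₂
  h₂ := h.h₁
  h₃ := h.h₃
  e₁ := by rw [← h.e₁]; ring
  e₂ := by rw [← h.e₂]; ring
  e₃ := by rw [← h.e₃]; ring

lemma swap₂₃ (h : Coll c x₁ y₁ x₂ y₂ x₃ y₃ ℓ ν) : Coll c x₁ y₁ x₃ y₃ x₂ y₂ ℓ ν where
  h₁ := h.h₁
  h₂ := h.h₃
  h₃ := h.h₂
  e₁ := by rw [← h.e₁]; ring
  e₂ := by rw [← h.e₂]; ring
  e₃ := by rw [← h.e₃]; ring

lemma eq₁ (h : Coll c x₁ y₁ x₂ y₂ x₃ y₃ ℓ ν) : y₁ * (x₁ + y₁) = x₁ ^ 3 + c := by
  rw [h.h₁]
  linear_combination -x₁ ^ 2 * h.e₁ + x₁ * h.e₂ - h.e₃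

lemma eq₂ (h : Coll c x₁ y₁ x₂ y₂ x₃ y₃ ℓ ν) : y₂ * (x₂ + y₂) = x₂ ^ 3 + c := h.swap₁₂.eq₁

lemma eq₃ (h : Coll c x₁ y₁ x₂ y₂ x₃ y₃ ℓ ν) : y₃ * (x₃ + y₃) = x₃ ^ 3 + c := h.swap₂₃.eq₂

lemma prod_y (h : Coll c x₁ y₁ x₂ y₂ x₃ y₃ ℓ ν) : y₁ * y₂ * y₃ = ν ^ 3 - c * ℓ ^ 3 := by
  rw [h.h₁, h.h₂, h.h₃]
  linear_combination ℓ ^ 3 * h.e₃ + ℓ ^ 2 * ν * h.e₂ + ℓ * ν ^ 2 * h.e₁

lemma prod_xy (h : Coll c x₁ y₁ x₂ y₂ x₃ y₃ ℓ ν) :
    (x₁ + y₁) * (x₂ + y₂) * (x₃ + y₃) = ν ^ 3 - c * (1 + ℓ) ^ 3 := by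
  have := h.neg.prod_y
  linear_combination -this

end Coll

/-! ## Basic estimates on the curve -/

section Point

variable {c x y : K}

lemma v_le_max_xy (x y : K) : v x ≤ max (v y) (v (x + y)) := by
  have e : x = (x + y) - y := by ring
  calc v x = v ((x + y) - y) := by rw [← e]
    _ ≤ max (v (x + y)) (v y) := v.map_sub _ _
    _ = _ := max_comm _ _

/-- Points of nonsingular reduction. -/
lemma v_of_one_le (hc1 : v c < 1) (h : y * (x + y) = x ^ 3 + c) (hx : 1 ≤ v x) :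
    v y ^ 2 = v x ^ 3 ∧ v (x + y) ^ 2 = v x ^ 3 := by
  have hx3 : 1 ≤ v x ^ 3 := one_le_pow₀ hx
  have h1 : v y * v (x + y) = v x ^ 3 := by
    rw [← map_mul, h, v.map_add_eq_of_lt_left, map_pow]
    rw [map_pow]; exact lt_of_lt_of_le hc1 hx3
  have hx0 : 0 < v x := lt_of_lt_of_le one_pos hx
  have key : v y = v (x + y) ∨ (v y ≤ v x ∧ v (x + y) ≤ v x) := by
    rcases lt_trichotomy (v x) (v y) with h2 | h2 | h2
    · left; exact (v.map_add_eq_of_lt_right h2).symm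
    · right; exact ⟨h2.ge, v.map_add_le le_rfl h2.ge⟩
    · right; exact ⟨h2.le, v.map_add_le le_rfl h2.le⟩
  rcases key with h2 | ⟨h2, h3⟩
  · rw [← h1, ← h2]; exact ⟨sq _, sq _⟩
  · -- then `v x = 1`
    have h4 : v x ^ 3 ≤ v x * v x := by rw [← h1]; exact mul_le_mul' h2 h3
    have h5 : v x = 1 := by
      refine le_antisymm ?_ hx
      by_contra hlt
      push Not at hlt
      have : v x * v x < v x ^ 3 := by
        calc v x * v x = (v x * v x) * 1 := (mul_one _).symm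
          _ < (v x * v x) * v x := by
            exact mul_lt_mul_of_pos_left hlt (mul_pos hx0 hx0)
          _ = v x ^ 3 := by rw [pow_succ, sq]
      exact absurd h4 (not_le.mpr this)
    rw [h5] at h1 h2 h3 ⊢
    rw [one_pow] at h1 ⊢
    have h6 : v y = 1 := by
      refine le_antisymm h2 ?_
      by_contra hlt
      push Not at hlt
      have : v y * v (x + y) < 1 := mul_lt_one_of_lt_of_le hlt h3
      exact absurd h1 this.ne
    have h7 : v (x + y) = 1 := by rwa [h6, one_mul] at h1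
    rw [h6, h7]
    exact ⟨one_pow _, one_pow _⟩

lemma v_lt_one_of_lt (hc1 : v c < 1) (h : y * (x + y) = x ^ 3 + c) (hx : v x < 1) :
    v y < 1 ∧ v (x + y) < 1 := by
  have h1 : v y * v (x + y) < 1 := by
    rw [← map_mul, h]
    refine v.map_add_lt ?_ hc1
    rw [map_pow]; exact pow_lt_one₀ zero_le hx (by norm_num)
  have key : v y < 1 := by
    by_contra hlt
    push Not at hlt
    have h2 : v (x + y) = v y := v.map_add_eq_of_lt_right (lt_of_lt_of_le hx hlt)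
    rw [h2] at h1
    exact absurd (one_le_mul_of_one_le_of_one_le hlt hlt) (not_le.mpr h1)
  exact ⟨key, v.map_add_lt hx key⟩

lemma v_x_le {ε : Γ₀} (h1 : v y ≤ ε) (h2 : v (x + y) ≤ ε) : v x ≤ ε :=
  (v_le_max_xy x y).trans (max_le h1 h2)

lemma v_le_v_xy (hc1 : v c < 1) (h : y * (x + y) = x ^ 3 + c) (hx : 1 ≤ v x) :
    v x ≤ v y ∧ v x ≤ v (x + y) := by
  obtain ⟨h1, h2⟩ := v_of_one_le hc1 h hx
  have h3 : v x ^ 2 ≤ v x ^ 3 := pow_le_pow_right₀ hx (by norm_num)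
  constructor
  · rw [← pow_le_pow_iff_left₀ zero_le zero_le (two_ne_zero), h1]; exact h3
  · rw [← pow_le_pow_iff_left₀ zero_le zero_le (two_ne_zero), h2]; exact h3

end Point

/-! ## The multiplicative parameter -/

/-- `φ` is a representative of the multiplicative parameter of the point `(x, y)`. -/
def IsPhi (v : Valuation K Γ₀) (c x y φ : K) : Prop :=
  (1 ≤ v x ∧ φ = y / (x + y)) ∨ (v x < 1 ∧ v y ≤ v (x + y) ∧ φ = x + y) ∨
    (v x < 1 ∧ v (x + y) ≤ v y ∧ φ = c / y)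

/-- `(x, y)` has nonsingular reduction, or is close to the node. -/
def Ok (v : Valuation K Γ₀) (ε : Γ₀) (x y : K) : Prop :=
  1 ≤ v x ∨ (v x < 1 ∧ v y ≤ ε ∧ v (x + y) ≤ ε)

lemma Ok.neg {ε : Γ₀} {x y : K} (h : Ok v ε x y) : Ok v ε x (-y - x) := by
  rcases h with h | ⟨h0, h1, h2⟩
  · exact Or.inl h
  · right
    refine ⟨h0, ?_, ?_⟩
    · rwa [show -y - x = -(x + y) by ring, Valuation.map_neg]
    · rwa [show x + (-y - x) = -y by ring, Valuation.map_neg]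

section Phi

variable {c x y φ φ' : K} {ε : Γ₀}

lemma IsPhi.neg (hc : c ≠ 0) (h : IsPhi v c x y φ) (hx : v x < 1) :
    IsPhi v c x (-y - x) (-c / φ) := by
  have e1 : v (-y - x) = v (x + y) := by
    rw [show -y - x = -(x + y) by ring, Valuation.map_neg]
  have e2 : v (x + (-y - x)) = v y := by
    rw [show x + (-y - x) = -y by ring, Valuation.map_neg]
  rcases h with ⟨h, -⟩ | ⟨-, h3, rfl⟩ | ⟨-, h3, rfl⟩
  · exact absurd h (not_le.mpr hx)
  · right; right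
    refine ⟨hx, by rw [e1, e2]; exact h3, ?_⟩
    rw [show -y - x = -(x + y) by ring, neg_div, div_neg]
  · right; left
    refine ⟨hx, by rw [e1, e2]; exact h3, ?_⟩
    rw [neg_div, div_div_cancel₀ hc]
    ring

lemma IsPhi.neg' (h : IsPhi v c x y φ) (hx : 1 ≤ v x) :
    IsPhi v c x (-y - x) φ⁻¹ := by
  rcases h with ⟨-, rfl⟩ | ⟨h, -⟩ | ⟨h, -⟩
  · left
    refine ⟨hx, ?_⟩
    rw [inv_div, show x + (-y - x) = -y by ring, show -y - x = -(x + y) by ring, neg_div_neg_eq]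
  · exact absurd hx (not_le.mpr h)
  · exact absurd hx (not_le.mpr h)

/-- In both types the parameter does not vanish. -/
lemma ne_zero_or (he : y * (x + y) = x ^ 3 + c) (hc : c ≠ 0) : ¬ (y = 0 ∧ x + y = 0) := by
  rintro ⟨h1, h2⟩
  rw [h1, add_zero] at h2
  rw [h1, h2] at he
  apply hc
  linear_combination -he

lemma near_two_types (hε : ε < 1) (he : y * (x + y) = x ^ 3 + c) (hc : c ≠ 0)
    (hy : v y ≤ ε) (heq : v y = v (x + y)) :
    Near v ε (x + y) (c / y) := by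
  have h1 : y ≠ 0 := by
    rintro rfl
    rw [map_zero] at heq
    exact ne_zero_or he hc ⟨rfl, by simpa using heq.symm⟩
  have hvy : 0 < v y := by rwa [Valuation.pos_iff]
  have hx : v x ≤ v y := (v_le_max_xy x y).trans (max_le le_rfl heq.ge)
  have hx3 : v (x ^ 3) ≤ ε * v y ^ 2 := by
    rw [map_pow, pow_succ, mul_comm]
    exact mul_le_mul' (hx.trans hy) (pow_le_pow_left₀ zero_le hx 2)
  have hvc : v c = v y ^ 2 := by
    have e : c = y * (x + y) - x ^ 3 := by rw [he]; ring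
    rw [e, v.map_sub_eq_of_lt_left, map_mul, ← heq, sq]
    rw [map_mul, ← heq, ← sq]
    refine lt_of_le_of_lt hx3 ?_
    calc ε * v y ^ 2 < 1 * v y ^ 2 := mul_lt_mul_of_pos_right hε (pow_pos hvy 2)
      _ = v y ^ 2 := one_mul _
  unfold Near
  have e : (x + y) - c / y = x ^ 3 / y := by
    field_simp
    linear_combination he
  rw [e, map_div₀, map_div₀, hvc, ← mul_div_assoc]
  exact div_le_div_of_nonneg_right hx3 zero_le

lemma IsPhi.near (hε : ε < 1) (he : y * (x + y) = x ^ 3 + c) (hc : c ≠ 0)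
    (hok : Ok v ε x y) (h : IsPhi v c x y φ) (h' : IsPhi v c x y φ') : Near v ε φ φ' := by
  rcases hok with hx | ⟨hx, hy, hxy⟩
  · rcases h with ⟨-, rfl⟩ | ⟨h, -⟩ | ⟨h, -⟩
    · rcases h' with ⟨-, rfl⟩ | ⟨h, -⟩ | ⟨h, -⟩
      · exact Near.refl _ _
      · exact absurd hx (not_le.mpr h)
      · exact absurd hx (not_le.mpr h)
    · exact absurd hx (not_le.mpr h)
    · exact absurd hx (not_le.mpr h)
  · rcases h with ⟨h, -⟩ | ⟨-, h, rfl⟩ | ⟨-, h, rfl⟩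
    · exact absurd hx (not_lt.mpr h)
    · rcases h' with ⟨h', -⟩ | ⟨-, h', rfl⟩ | ⟨-, h', rfl⟩
      · exact absurd hx (not_lt.mpr h')
      · exact Near.refl _ _
      · exact near_two_types hε he hc hy (le_antisymm h h')
    · rcases h' with ⟨h', -⟩ | ⟨-, h', rfl⟩ | ⟨-, h', rfl⟩
      · exact absurd hx (not_lt.mpr h')
      · exact (near_two_types hε he hc hy (le_antisymm h' h)).symm hε
      · exact Near.refl _ _

lemma IsPhi.ne_zero (hc1 : v c < 1) (hc : c ≠ 0) (he : y * (x + y) = x ^ 3 + c)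
    (h : IsPhi v c x y φ) : φ ≠ 0 := by
  rcases h with ⟨hx, rfl⟩ | ⟨-, h, rfl⟩ | ⟨-, h, rfl⟩
  · obtain ⟨h1, h2⟩ := v_le_v_xy hc1 he hx
    refine div_ne_zero ?_ ?_
    · rw [← Valuation.pos_iff (v := v)]; exact lt_of_lt_of_le one_pos (hx.trans h1)
    · rw [← Valuation.pos_iff (v := v)]; exact lt_of_lt_of_le one_pos (hx.trans h2)
  · intro h0
    rw [h0, map_zero] at h
    exact ne_zero_or he hc ⟨by simpa using h, h0⟩
  · intro h0
    rw [div_eq_zero_iff, or_iff_right hc] at h0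
    rw [h0, map_zero] at h
    exact ne_zero_or he hc ⟨h0, by simpa [h0] using h⟩

end Phi

/-! ## Three collinear points -/

section Main

variable {c x₁ y₁ x₂ y₂ x₃ y₃ ℓ ν φ₁ φ₂ φ₃ : K} {ε : Γ₀}

/-- Three points of nonsingular reduction. -/
lemma coll_nonsing (hc1 : v c < 1) (hcε : v c ≤ ε)
    (h : Coll c x₁ y₁ x₂ y₂ x₃ y₃ ℓ ν) (h1 : 1 ≤ v x₁) (h2 : 1 ≤ v x₂) (h3 : 1 ≤ v x₃) :
    Near v ε (y₁ / (x₁ + y₁) * (y₂ / (x₂ + y₂)) * (y₃ / (x₃ + y₃))) 1 := by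
  have hb1 := (v_le_v_xy hc1 h.eq₁ h1).2
  have hb2 := (v_le_v_xy hc1 h.eq₂ h2).2
  have hb3 := (v_le_v_xy hc1 h.eq₃ h3).2
  have n1 : x₁ + y₁ ≠ 0 := by
    rw [← Valuation.pos_iff (v := v)]; exact lt_of_lt_of_le one_pos (h1.trans hb1)
  have n2 : x₂ + y₂ ≠ 0 := by
    rw [← Valuation.pos_iff (v := v)]; exact lt_of_lt_of_le one_pos (h2.trans hb2)
  have n3 : x₃ + y₃ ≠ 0 := by
    rw [← Valuation.pos_iff (v := v)]; exact lt_of_lt_of_le one_pos (h3.trans hb3)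
  set X : Γ₀ := v x₁ * v x₂ * v x₃ with hX
  have hX1 : 1 ≤ X := one_le_mul_of_one_le_of_one_le (one_le_mul_of_one_le_of_one_le h1 h2) h3
  have hXB : X ≤ v ((x₁ + y₁) * (x₂ + y₂) * (x₃ + y₃)) := by
    rw [map_mul, map_mul]
    exact mul_le_mul' (mul_le_mul' hb1 hb2) hb3
  have hx1X : v x₁ ≤ X := by
    calc v x₁ = v x₁ * 1 * 1 := by rw [mul_one, mul_one]
      _ ≤ X := mul_le_mul' (mul_le_mul' le_rfl h2) h3
  have hx2X : v x₂ ≤ X := by
    calc v x₂ = 1 * v x₂ * 1 := by rw [mul_one, one_mul]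
      _ ≤ X := mul_le_mul' (mul_le_mul' h1 le_rfl) h3
  have hx3X : v x₃ ≤ X := by
    calc v x₃ = 1 * 1 * v x₃ := by rw [mul_one, one_mul]
      _ ≤ X := mul_le_mul' (mul_le_mul' h1 h2) le_rfl
  have hℓ : v (3 * (ℓ ^ 2 + ℓ) + 1) ≤ X := by
    refine v.map_add_le (v_imul_le v_three_le_one ?_) (by rw [map_one]; exact hX1)
    rw [← h.e₁]
    exact v.map_add_le (v.map_add_le hx1X hx2X) hx3X
  have e : y₁ / (x₁ + y₁) * (y₂ / (x₂ + y₂)) * (y₃ / (x₃ + y₃)) - 1 =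
      (c * (3 * (ℓ ^ 2 + ℓ) + 1)) / ((x₁ + y₁) * (x₂ + y₂) * (x₃ + y₃)) := by
    rw [div_mul_div_comm, div_mul_div_comm, h.prod_y, div_sub_one (mul_ne_zero (mul_ne_zero n1 n2) n3)]
    congr 1
    rw [h.prod_xy]; ring
  unfold Near
  rw [e, map_div₀, map_one, mul_one, map_mul]
  have hpos : 0 < v ((x₁ + y₁) * (x₂ + y₂) * (x₃ + y₃)) :=
    lt_of_lt_of_le (lt_of_lt_of_le one_pos hX1) hXB
  rw [div_le_iff₀ hpos]
  exact mul_le_mul' hcε (hℓ.trans hXB)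

/-- The points of nonsingular reduction are closed under addition. -/
lemma coll_not_one_node (hc1 : v c < 1) (h : Coll c x₁ y₁ x₂ y₂ x₃ y₃ ℓ ν) (h1 : 1 ≤ v x₁)
    (h2 : 1 ≤ v x₂) (h3 : v x₃ < 1) : False := by
  obtain ⟨hy3, -⟩ := v_lt_one_of_lt hc1 h.eq₃ h3
  have hν : ν = y₃ - ℓ * x₃ := by rw [h.h₃]; ring
  have e12 : x₁ * x₂ = -((2 * ℓ + 1) * ν) - x₃ * (x₁ + x₂) := by linear_combination h.e₂
  have e1 : x₁ + x₂ = ℓ ^ 2 + ℓ - x₃ := by rw [← h.e₁]; ring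
  have hx12 : 1 ≤ v (x₁ * x₂) := by rw [map_mul]; exact one_le_mul_of_one_le_of_one_le h1 h2
  rcases le_or_gt (v ℓ) 1 with hℓ | hℓ
  · have hνlt : v ν < 1 := by
      rw [hν]
      exact v.map_sub_lt hy3 (v_imul_lt hℓ h3)
    have h5 : v (x₁ + x₂) ≤ 1 := by
      rw [e1]
      refine (v.map_sub _ _).trans (max_le (v.map_add_le ?_ hℓ) h3.le)
      rw [map_pow]; exact pow_le_one₀ zero_le hℓ
    have : v (x₁ * x₂) < 1 := by
      rw [e12]
      refine v.map_sub_lt ?_ ?_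
      · rw [Valuation.map_neg]
        refine v_imul_lt (v.map_add_le (v_imul_le v_two_le_one hℓ) (by rw [map_one])) hνlt
      · rw [mul_comm]; exact v_imul_lt h5 h3
    exact absurd hx12 (not_le.mpr this)
  · have hℓ0 : 0 < v ℓ := lt_trans one_pos hℓ
    have hνlt : v ν < v ℓ := by
      rw [hν]
      refine v.map_sub_lt (hy3.trans hℓ) ?_
      rw [map_mul]
      calc v ℓ * v x₃ < v ℓ * 1 := mul_lt_mul_of_pos_left h3 hℓ0
        _ = v ℓ := mul_one _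
    have hℓsq : v ℓ < v ℓ ^ 2 := by
      calc v ℓ = v ℓ * 1 := (mul_one _).symm
        _ < v ℓ * v ℓ := mul_lt_mul_of_pos_left hℓ hℓ0
        _ = v ℓ ^ 2 := (sq _).symm
    have h5 : v (x₁ + x₂) = v ℓ ^ 2 := by
      rw [e1, show ℓ ^ 2 + ℓ - x₃ = ℓ ^ 2 + (ℓ - x₃) by ring, v.map_add_eq_of_lt_left, map_pow]
      rw [map_pow]
      exact v.map_sub_lt hℓsq (h3.trans (hℓ.trans hℓsq))
    have h6 : v (x₁ * x₂) < v ℓ ^ 2 := by
      rw [e12]
      refine v.map_sub_lt ?_ ?_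
      · rw [Valuation.map_neg, map_mul, sq]
        have : v (2 * ℓ + 1) ≤ v ℓ :=
          v.map_add_le (v_imul_le v_two_le_one le_rfl) (by rw [map_one]; exact hℓ.le)
        calc v (2 * ℓ + 1) * v ν ≤ v ℓ * v ν := mul_le_mul_left this _
          _ < v ℓ * v ℓ := mul_lt_mul_of_pos_left hνlt hℓ0
      · rw [map_mul, h5]
        calc v x₃ * v ℓ ^ 2 < 1 * v ℓ ^ 2 := mul_lt_mul_of_pos_right h3 (pow_pos hℓ0 2)
          _ = v ℓ ^ 2 := one_mul _
    have h7 : v ℓ ^ 2 ≤ max (v x₁) (v x₂) := by rw [← h5]; exact v.map_add _ _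
    have h8 : max (v x₁) (v x₂) ≤ v (x₁ * x₂) := by
      rw [map_mul]
      refine max_le ?_ ?_
      · calc v x₁ = v x₁ * 1 := (mul_one _).symm
          _ ≤ _ := mul_le_mul' le_rfl h2
      · calc v x₂ = 1 * v x₂ := (one_mul _).symm
          _ ≤ _ := mul_le_mul' h1 le_rfl
    exact absurd (h7.trans h8) (not_le.mpr h6)

/-- Two node points and a point of nonsingular reduction: the slope. -/
lemma slope_two_nodes (h : Coll c x₁ y₁ x₂ y₂ x₃ y₃ ℓ ν) (h1 : v x₁ < 1)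
    (h2 : v x₂ < 1) (h3 : 1 ≤ v x₃) : 1 ≤ v ℓ ∧ v (1 + ℓ) = v ℓ := by
  have hp : 1 ≤ v (ℓ * (1 + ℓ)) := by
    rw [show ℓ * (1 + ℓ) = x₃ + (x₁ + x₂) by linear_combination -h.e₁,
      v.map_add_eq_of_lt_left]
    · exact h3
    · exact lt_of_lt_of_le (v.map_add_lt h1 h2) h3
  rw [map_mul] at hp
  rcases lt_trichotomy (v ℓ) 1 with hℓ | hℓ | hℓ
  · have : v (1 + ℓ) = 1 := v.map_one_add_of_lt hℓ
    rw [this, mul_one] at hp
    exact absurd hp (not_le.mpr hℓ)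
  · refine ⟨hℓ.ge, ?_⟩
    rw [hℓ, one_mul] at hp
    rw [hℓ]
    exact le_antisymm (v.map_add_le (by rw [map_one]) hℓ.le) hp
  · refine ⟨hℓ.le, ?_⟩
    exact v.map_add_eq_of_lt_right (by rwa [map_one])

lemma coll_two_nodes_aux (hε : ε < 1) (hc : c ≠ 0)
    (h : Coll c x₁ y₁ x₂ y₂ x₃ y₃ ℓ ν) (h1 : v x₁ < 1) (h2 : v x₂ < 1) (h3 : 1 ≤ v x₃)
    (hy1 : v y₁ ≤ ε) (hxy1 : v (x₁ + y₁) ≤ ε) (hy2 : v y₂ ≤ ε) (hxy2 : v (x₂ + y₂) ≤ ε)
    (hM : v y₁ ≤ max (v (x₁ + y₁)) (v y₂)) (hM' : v (x₂ + y₂) ≤ max (v (x₁ + y₁)) (v y₂))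
    (p1 : IsPhi v c x₁ y₁ φ₁) (p2 : IsPhi v c x₂ y₂ φ₂) (p3 : IsPhi v c x₃ y₃ φ₃) :
    Near v ε (φ₁ * φ₂ * φ₃) (-c) := by
  obtain ⟨hℓ, hℓ'⟩ := slope_two_nodes h h1 h2 h3
  have hℓ0 : ℓ ≠ 0 := by
    rw [← Valuation.pos_iff (v := v)]; exact lt_of_lt_of_le one_pos hℓ
  have h1ℓ0 : 1 + ℓ ≠ 0 := by
    rw [← Valuation.pos_iff (v := v), hℓ']; exact lt_of_lt_of_le one_pos hℓ
  have hx1 : v x₁ ≤ ε := v_x_le hy1 hxy1
  have hx2 : v x₂ ≤ ε := v_x_le hy2 hxy2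
  set M : Γ₀ := max (v (x₁ + y₁)) (v y₂) with hMdef
  have hMpos : 0 < M := by
    rw [pos_iff_ne_zero]
    intro h0
    rw [h0] at hM
    have t1 : v y₁ = 0 := le_antisymm hM zero_le
    have t2 : v (x₁ + y₁) = 0 := le_antisymm ((le_max_left _ _).trans h0.le) zero_le
    exact ne_zero_or h.eq₁ hc ⟨by simpa using t1, by simpa using t2⟩
  have hMε : M ≤ ε := max_le hxy1 hy2
  have hx1M : v x₁ ≤ M := v_x_le hM (le_max_left _ _)
  have hx2M : v x₂ ≤ M := v_x_le (le_max_right _ _) hM'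
  -- the key relation
  have key : ℓ * (x₁ + y₁) + (1 + ℓ) * y₂ = x₁ * x₁ + x₁ * x₂ + x₂ * x₂ := by
    rw [h.h₁, h.h₂]
    linear_combination -(x₁ + x₂) * h.e₁ + h.e₂
  have hR : v (x₁ * x₁ + x₁ * x₂ + x₂ * x₂) ≤ ε * M := by
    have aux : ∀ a b : K, v a ≤ ε → v b ≤ M → v (a * b) ≤ ε * M := fun a b => v_mul_le
    exact v.map_add_le (v.map_add_le (aux _ _ hx1 hx1M) (aux _ _ hx1 hx2M)) (aux _ _ hx2 hx2M)
  have hnear : v (x₁ + y₁) = M ∧ v y₂ = M := by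
    rcases le_or_gt (v y₂) (v (x₁ + y₁)) with hle | hlt
    · have e1 : v (x₁ + y₁) = M := by rw [hMdef, max_eq_left hle]
      refine ⟨e1, ?_⟩
      have : Near v ε ((1 + ℓ) * y₂) (-(ℓ * (x₁ + y₁))) := by
        refine Near.of_eq_add (s := x₁ * x₁ + x₁ * x₂ + x₂ * x₂) ?_ (by rw [← key]; ring)
        rw [Valuation.map_neg, map_mul, e1]
        refine hR.trans (mul_le_mul_right ?_ _)
        calc M = 1 * M := (one_mul _).symm
          _ ≤ v ℓ * M := mul_le_mul_left hℓ _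
      have := this.v_eq hε
      rw [Valuation.map_neg, map_mul, map_mul, hℓ', e1] at this
      exact mul_left_cancel₀ ((Valuation.ne_zero_iff v).mpr hℓ0) this
    · have e1 : v y₂ = M := by rw [hMdef, max_eq_right hlt.le]
      refine ⟨?_, e1⟩
      have : Near v ε (ℓ * (x₁ + y₁)) (-((1 + ℓ) * y₂)) := by
        refine Near.of_eq_add (s := x₁ * x₁ + x₁ * x₂ + x₂ * x₂) ?_ (by rw [← key]; ring)
        rw [Valuation.map_neg, map_mul, e1, hℓ']
        refine hR.trans (mul_le_mul_right ?_ _)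
        calc M = 1 * M := (one_mul _).symm
          _ ≤ v ℓ * M := mul_le_mul_left hℓ _
      have := this.v_eq hε
      rw [Valuation.map_neg, map_mul, map_mul, hℓ', e1] at this
      exact mul_left_cancel₀ ((Valuation.ne_zero_iff v).mpr hℓ0) this
  obtain ⟨e1, e2⟩ := hnear
  have hne' : y₂ ≠ 0 := by rw [← Valuation.pos_iff (v := v), e2]; exact hMpos
  have hmain : Near v ε (ℓ * (x₁ + y₁)) (-((1 + ℓ) * y₂)) := by
    refine Near.of_eq_add (s := x₁ * x₁ + x₁ * x₂ + x₂ * x₂) ?_ (by rw [← key]; ring)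
    rw [Valuation.map_neg, map_mul, e2, hℓ']
    refine hR.trans (mul_le_mul_right ?_ _)
    calc M = 1 * M := (one_mul _).symm
      _ ≤ v ℓ * M := mul_le_mul_left hℓ _
  -- the types of the points
  have q1 : IsPhi v c x₁ y₁ (x₁ + y₁) := Or.inr (Or.inl ⟨h1, by rw [e1]; exact hM, rfl⟩)
  have q2 : IsPhi v c x₂ y₂ (c / y₂) := Or.inr (Or.inr ⟨h2, by rw [e2]; exact hM', rfl⟩)
  have n1 : Near v ε φ₁ (x₁ + y₁) := p1.near hε h.eq₁ hc (Or.inr ⟨h1, hy1, hxy1⟩) q1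
  have n2 : Near v ε φ₂ (c / y₂) := p2.near hε h.eq₂ hc (Or.inr ⟨h2, hy2, hxy2⟩) q2
  have hν : v ν ≤ ε * v ℓ := by
    have : ν = y₁ - ℓ * x₁ := by rw [h.h₁]; ring
    rw [this]
    refine (v.map_sub _ _).trans (max_le ?_ ?_)
    · calc v y₁ ≤ ε := hy1
        _ = ε * 1 := (mul_one _).symm
        _ ≤ ε * v ℓ := mul_le_mul_right hℓ _
    · rw [map_mul, mul_comm]; exact mul_le_mul_left hx1 _
  have hν3 : v ν ≤ ε * (v ℓ * v x₃) := by
    refine hν.trans (mul_le_mul_right ?_ _)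
    calc v ℓ = v ℓ * 1 := (mul_one _).symm
      _ ≤ v ℓ * v x₃ := mul_le_mul_right h3 _
  have m3 : Near v ε y₃ (ℓ * x₃) :=
    Near.of_eq_add (s := ν) (by rw [map_mul]; exact hν3) h.h₃
  have m3' : Near v ε (x₃ + y₃) ((1 + ℓ) * x₃) :=
    Near.of_eq_add (s := ν) (by rw [map_mul, hℓ']; exact hν3) (by rw [h.h₃]; ring)
  have hx30 : x₃ ≠ 0 := by
    rw [← Valuation.pos_iff (v := v)]; exact lt_of_lt_of_le one_pos h3
  have n3 : Near v ε φ₃ (ℓ / (1 + ℓ)) := by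
    rcases p3 with ⟨-, rfl⟩ | ⟨h', -⟩ | ⟨h', -⟩
    · have := m3.div m3' hε
      rwa [mul_div_mul_right _ _ hx30] at this
    · exact absurd h3 (not_le.mpr h')
    · exact absurd h3 (not_le.mpr h')
  have step : Near v ε (φ₁ * φ₂ * φ₃) ((x₁ + y₁) * (c / y₂) * (ℓ / (1 + ℓ))) :=
    (n1.mul n2 hε).mul n3 hε
  refine step.trans ?_ hε
  have e3 : (x₁ + y₁) * (c / y₂) * (ℓ / (1 + ℓ)) =
      (ℓ * (x₁ + y₁)) * (c / ((1 + ℓ) * y₂)) := by
    field_simp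
  rw [e3]
  have := hmain.mul (Near.refl ε (c / ((1 + ℓ) * y₂))) hε
  have e4 : -((1 + ℓ) * y₂) * (c / ((1 + ℓ) * y₂)) = -c := by
    field_simp
  rwa [e4] at this

/-- Two node points and a point of nonsingular reduction. -/
lemma coll_two_nodes (hε : ε < 1) (hc : c ≠ 0)
    (h : Coll c x₁ y₁ x₂ y₂ x₃ y₃ ℓ ν) (h1 : v x₁ < 1) (h2 : v x₂ < 1) (h3 : 1 ≤ v x₃)
    (hy1 : v y₁ ≤ ε) (hxy1 : v (x₁ + y₁) ≤ ε) (hy2 : v y₂ ≤ ε) (hxy2 : v (x₂ + y₂) ≤ ε)
    (p1 : IsPhi v c x₁ y₁ φ₁) (p2 : IsPhi v c x₂ y₂ φ₂) (p3 : IsPhi v c x₃ y₃ φ₃) :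
    Near v ε (φ₁ * φ₂ * φ₃) (-c) := by
  rcases le_total (max (v y₁) (v (x₂ + y₂))) (max (v (x₁ + y₁)) (v y₂)) with hle | hle
  · exact coll_two_nodes_aux hε hc h h1 h2 h3 hy1 hxy1 hy2 hxy2 ((le_max_left _ _).trans hle)
      ((le_max_right _ _).trans hle) p1 p2 p3
  · have := coll_two_nodes_aux hε hc h.swap₁₂ h2 h1 h3 hy2 hxy2 hy1 hxy1
      ((le_max_right _ _).trans (hle.trans (max_comm _ _).le))
      ((le_max_left _ _).trans (hle.trans (max_comm _ _).le)) p2 p1 p3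
    rwa [mul_comm φ₂ φ₁] at this

/-- Three node points, small slope, and the third one has small abscissa. -/
lemma coll_three_nodes_aux₁ (hε : ε < 1) (hc : c ≠ 0)
    (h : Coll c x₁ y₁ x₂ y₂ x₃ y₃ ℓ ν) (h1 : v x₁ < 1) (h2 : v x₂ < 1) (h3 : v x₃ < 1)
    (hx1 : v x₁ ≤ ε) (hx2 : v x₂ ≤ ε) (hνε : v ν ≤ ε)
    (hℓε : v ℓ ≤ ε) (hcν : v c ≤ v ν ^ 2) (hx3ν : v x₃ ≤ v ν) :
    IsPhi v c x₁ y₁ (x₁ + y₁) ∧ IsPhi v c x₂ y₂ (x₂ + y₂) ∧ IsPhi v c x₃ y₃ (c / y₃) ∧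
    Near v ε ((x₁ + y₁) * (x₂ + y₂) * (c / y₃)) (-c) := by
  have hℓ : v ℓ < 1 := lt_of_le_of_lt hℓε hε
  have hν0 : ν ≠ 0 := by
    rintro rfl
    rw [map_zero, zero_pow two_ne_zero] at hcν
    exact hc (by simpa using hcν)
  have hνpos : 0 < v ν := by rwa [Valuation.pos_iff]
  have hν1 : v ν < 1 := lt_of_le_of_lt hνε hε
  have h2ℓ : v (2 * ℓ + 1) = 1 := by
    rw [add_comm]; exact v.map_one_add_of_lt (v_imul_lt v_two_le_one hℓ)
  have h1ℓ : v (1 + ℓ) = 1 := v.map_one_add_of_lt hℓ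
  have hx12ε : v (x₁ + x₂) ≤ ε := v.map_add_le hx1 hx2
  have hx312 : v (x₃ * (x₁ + x₂)) ≤ ε * v ν := by
    rw [mul_comm]; exact v_mul_le hx12ε hx3ν
  have hlt : v (x₃ * (x₁ + x₂)) < v ν := lt_of_le_of_lt hx312 (by
    calc ε * v ν < 1 * v ν := mul_lt_mul_of_pos_right hε hνpos
      _ = v ν := one_mul _)
  have hx12 : v (x₁ * x₂) = v ν := by
    have e : x₁ * x₂ = -((2 * ℓ + 1) * ν) - x₃ * (x₁ + x₂) := by linear_combination h.e₂
    rw [e, v.map_sub_eq_of_lt_left, Valuation.map_neg, map_mul, h2ℓ, one_mul]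
    rw [Valuation.map_neg, map_mul (f := v) (2 * ℓ + 1), h2ℓ, one_mul]
    exact hlt
  rw [map_mul] at hx12
  have hx1ν : v ν < v x₁ := by
    have hx1pos : 0 < v x₁ := by
      rw [pos_iff_ne_zero]; intro h0; rw [h0, zero_mul] at hx12
      exact hνpos.ne hx12
    calc v ν = v x₁ * v x₂ := hx12.symm
      _ < v x₁ * 1 := mul_lt_mul_of_pos_left h2 hx1pos
      _ = v x₁ := mul_one _
  have hx2ν : v ν < v x₂ := by
    have hx2pos : 0 < v x₂ := by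
      rw [pos_iff_ne_zero]; intro h0; rw [h0, mul_zero] at hx12
      exact hνpos.ne hx12
    calc v ν = v x₁ * v x₂ := hx12.symm
      _ < 1 * v x₂ := mul_lt_mul_of_pos_right h1 hx2pos
      _ = v x₂ := one_mul _
  have big : ∀ x y : K, v x < 1 → y = ℓ * x + ν → v ν < v x → IsPhi v c x y (x + y) := by
    intro x y hx1 hy hx
    have e : x + y = (1 + ℓ) * x + ν := by rw [hy]; ring
    have e1 : v (x + y) = v x := by
      rw [e, v.map_add_eq_of_lt_left, map_mul, h1ℓ, one_mul]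
      rwa [map_mul, h1ℓ, one_mul]
    right; left
    refine ⟨hx1, ?_, rfl⟩
    rw [e1, hy]
    exact v.map_add_le (v_imul_le hℓ.le le_rfl) hx.le
  have hν3 : Near v ε y₃ ν := by
    refine Near.of_eq_add (s := ℓ * x₃) (v_mul_le hℓε hx3ν) (by rw [h.h₃]; ring)
  have hy3 : v y₃ = v ν := hν3.v_eq hε
  have hy30 : y₃ ≠ 0 := hν3.ne_zero hε hν0
  refine ⟨big _ _ h1 h.h₁ hx1ν, big _ _ h2 h.h₂ hx2ν, Or.inr (Or.inr ⟨h3, ?_, rfl⟩), ?_⟩
  · rw [hy3]; exact v.map_add_le hx3ν hy3.le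
  · have n12 : Near v ε ((x₁ + y₁) * (x₂ + y₂)) (-ν) := by
      refine Near.of_eq_add (s := ℓ * (-((ℓ * (2 * ℓ + 5)) + 4) * ν) +
        (x₁ + x₂) * ((1 + ℓ) * ν) + ν * ν - (1 + ℓ) ^ 2 * (x₃ * (x₁ + x₂))) ?_ ?_
      · rw [Valuation.map_neg]
        have hℓ1 := hℓ.le
        have a5 : v (5 : K) ≤ 1 := by simpa using v_nat_le_one (v := v) 5
        have a4 : v (4 : K) ≤ 1 := by simpa using v_nat_le_one (v := v) 4
        have a1 : v (-((ℓ * (2 * ℓ + 5)) + 4) * ν) ≤ v ν := by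
          refine v_imul_le ?_ le_rfl
          rw [Valuation.map_neg]
          exact v.map_add_le (v_imul_le hℓ1 (v.map_add_le (v_imul_le v_two_le_one hℓ1) a5)) a4
        have a2 : v ((1 + ℓ) * ν) ≤ v ν := v_imul_le h1ℓ.le le_rfl
        refine (v.map_sub _ _).trans (max_le (v.map_add_le (v.map_add_le (v_mul_le hℓε a1)
          (v_mul_le hx12ε a2)) (v_mul_le hνε le_rfl)) ?_)
        rw [map_mul, map_pow, h1ℓ, one_pow, one_mul]
        exact hx312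
      · rw [h.h₁, h.h₂]
        linear_combination (1 + ℓ) ^ 2 * h.e₂
    have := (n12.mul ((Near.refl ε c).div hν3 hε) hε)
    have e : -ν * (c / ν) = -c := by field_simp
    rwa [e] at this

/-- Three node points, small slope. -/
lemma coll_three_nodes_aux (hε : ε < 1) (hc : c ≠ 0)
    (h : Coll c x₁ y₁ x₂ y₂ x₃ y₃ ℓ ν) (h1 : v x₁ < 1) (h2 : v x₂ < 1) (h3 : v x₃ < 1)
    (hy1 : v y₁ ≤ ε) (hxy1 : v (x₁ + y₁) ≤ ε) (hy2 : v y₂ ≤ ε) (hxy2 : v (x₂ + y₂) ≤ ε)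
    (hy3 : v y₃ ≤ ε) (hxy3 : v (x₃ + y₃) ≤ ε)
    (p1 : IsPhi v c x₁ y₁ φ₁) (p2 : IsPhi v c x₂ y₂ φ₂) (p3 : IsPhi v c x₃ y₃ φ₃)
    (hℓ : v ℓ < 1) :
    Near v ε (φ₁ * φ₂ * φ₃) (-c) := by
  have hvc : 0 < v c := by rwa [Valuation.pos_iff]
  have hx1 : v x₁ ≤ ε := v_x_le hy1 hxy1
  have hx2 : v x₂ ≤ ε := v_x_le hy2 hxy2
  have hx3 : v x₃ ≤ ε := v_x_le hy3 hxy3
  have h2ℓ : v (2 * ℓ + 1) = 1 := by
    rw [add_comm]; exact v.map_one_add_of_lt (v_imul_lt v_two_le_one hℓ)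
  have h1ℓ : v (1 + ℓ) = 1 := v.map_one_add_of_lt hℓ
  have hℓε : v ℓ ≤ ε := by
    have : v (ℓ * (1 + ℓ)) ≤ ε := by
      rw [show ℓ * (1 + ℓ) = x₁ + x₂ + x₃ by linear_combination -h.e₁]
      exact v.map_add_le (v.map_add_le hx1 hx2) hx3
    rwa [map_mul, h1ℓ, mul_one] at this
  have hνε : v ν ≤ ε := by
    have : ν = y₁ - ℓ * x₁ := by rw [h.h₁]; ring
    rw [this]
    refine (v.map_sub _ _).trans (max_le hy1 ?_)
    exact v_imul_le hℓ.le hx1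
  have he₂ : v (x₁ * x₂ + x₁ * x₃ + x₂ * x₃) = v ν := by
    rw [h.e₂, map_mul, Valuation.map_neg, h2ℓ, one_mul]
  have ok1 : Ok v ε x₁ y₁ := Or.inr ⟨h1, hy1, hxy1⟩
  have ok2 : Ok v ε x₂ y₂ := Or.inr ⟨h2, hy2, hxy2⟩
  have ok3 : Ok v ε x₃ y₃ := Or.inr ⟨h3, hy3, hxy3⟩
  rcases lt_or_ge (v ν ^ 2) (v c) with hcν | hcν
  · -- all abscissas are large
    have he3 : v (x₁ * x₂ * x₃) = v c := by
      rw [h.e₃, v.map_sub_eq_of_lt_right]
      rwa [map_pow]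
    have claim : ∀ a b d : K, v a < 1 → v b < 1 → v d < 1 → v (a * b * d) = v c →
        v (a * b + a * d + b * d) = v ν → v ν < v a := by
      intro a b d ha hb hd habd hs
      by_contra hle
      push Not at hle
      have hνpos : 0 < v ν := by
        rw [pos_iff_ne_zero]
        intro h0
        rw [h0] at hle
        have ha0 : v a = 0 := le_antisymm hle zero_le
        rw [map_mul, map_mul, ha0, zero_mul, zero_mul] at habd
        exact hvc.ne habd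
      have h5 : v (a * b + a * d) < v ν := by
        rw [← mul_add, map_mul]
        calc v a * v (b + d) ≤ v ν * v (b + d) := mul_le_mul_left hle _
          _ < v ν * 1 := mul_lt_mul_of_pos_left (v.map_add_lt hb hd) hνpos
          _ = v ν := mul_one _
      have h6 : v (b * d) ≤ v ν := by
        have : b * d = (a * b + a * d + b * d) - (a * b + a * d) := by ring
        rw [this]
        exact (v.map_sub _ _).trans (max_le hs.le h5.le)
      have h7 : v c ≤ v ν ^ 2 := by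
        rw [← habd, mul_assoc, map_mul, sq]
        exact mul_le_mul' hle h6
      exact absurd h7 (not_le.mpr hcν)
    have c1 : v ν < v x₁ := claim x₁ x₂ x₃ h1 h2 h3 he3 he₂
    have c2 : v ν < v x₂ := claim x₂ x₁ x₃ h2 h1 h3 (by rw [mul_comm x₂ x₁]; exact he3)
      (by rw [← he₂]; congr 1; ring)
    have c3 : v ν < v x₃ := claim x₃ x₁ x₂ h3 h1 h2 (by rw [← he3]; congr 1; ring)
      (by rw [← he₂]; congr 1; ring)
    have big : ∀ x y : K, v x < 1 → y = ℓ * x + ν → v ν < v x → IsPhi v c x y (x + y) := by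
      intro x y hx1 hy hx
      have e : x + y = (1 + ℓ) * x + ν := by rw [hy]; ring
      have e1 : v (x + y) = v x := by
        rw [e, v.map_add_eq_of_lt_left, map_mul, h1ℓ, one_mul]
        rwa [map_mul, h1ℓ, one_mul]
      right; left
      refine ⟨hx1, ?_, rfl⟩
      rw [e1, hy]
      exact v.map_add_le (v_imul_le hℓ.le le_rfl) hx.le
    have n1 := p1.near hε h.eq₁ hc ok1 (big _ _ h1 h.h₁ c1)
    have n2 := p2.near hε h.eq₂ hc ok2 (big _ _ h2 h.h₂ c2)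
    have n3 := p3.near hε h.eq₃ hc ok3 (big _ _ h3 h.h₃ c3)
    refine ((n1.mul n2 hε).mul n3 hε).trans ?_ hε
    rw [h.prod_xy]
    refine Near.of_eq_add (s := ν ^ 3 - c * (ℓ * (ℓ * (ℓ + 3) + 3))) ?_ (by ring)
    rw [Valuation.map_neg]
    refine (v.map_sub _ _).trans (max_le ?_ ?_)
    · rw [map_pow, pow_succ, mul_comm]
      exact mul_le_mul' hνε hcν.le
    · rw [mul_comm]
      refine v_mul_le ?_ le_rfl
      rw [mul_comm]
      refine v_imul_le ?_ hℓε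
      exact v.map_add_le (v_imul_le hℓ.le (v.map_add_le hℓ.le v_three_le_one)) v_three_le_one
  · -- some abscissa is small
    by_cases c3 : v x₃ ≤ v ν
    · obtain ⟨q1, q2, q3, hn⟩ := coll_three_nodes_aux₁ hε hc h h1 h2 h3 hx1 hx2 hνε hℓε hcν c3
      have n1 := p1.near hε h.eq₁ hc ok1 q1
      have n2 := p2.near hε h.eq₂ hc ok2 q2
      have n3 := p3.near hε h.eq₃ hc ok3 q3
      exact ((n1.mul n2 hε).mul n3 hε).trans hn hε
    by_cases c2 : v x₂ ≤ v ν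
    · obtain ⟨q1, q2, q3, hn⟩ := coll_three_nodes_aux₁ hε hc h.swap₂₃ h1 h3 h2 hx1 hx3 hνε hℓε hcν c2
      have n1 := p1.near hε h.eq₁ hc ok1 q1
      have n2 := p2.near hε h.eq₂ hc ok2 q3
      have n3 := p3.near hε h.eq₃ hc ok3 q2
      refine ((n1.mul n2 hε).mul n3 hε).trans ?_ hε
      convert hn using 1
      ring
    by_cases c1 : v x₁ ≤ v ν
    · obtain ⟨q1, q2, q3, hn⟩ := coll_three_nodes_aux₁ hε hc h.swap₁₂.swap₂₃ h2 h3 h1 hx2 hx3 hνε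
        hℓε hcν c1
      have n1 := p1.near hε h.eq₁ hc ok1 q3
      have n2 := p2.near hε h.eq₂ hc ok2 q1
      have n3 := p3.near hε h.eq₃ hc ok3 q2
      refine ((n1.mul n2 hε).mul n3 hε).trans ?_ hε
      convert hn using 1
      ring
    exfalso
    push Not at c1 c2 c3
    have hprod : v (x₁ * x₂ * x₃) ≤ v ν ^ 2 := by
      rw [h.e₃]
      exact (v.map_sub _ _).trans (max_le (by rw [map_pow]) hcν)
    have hνpos : 0 < v ν := by
      rw [pos_iff_ne_zero]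
      intro h0
      rw [h0, zero_pow two_ne_zero] at hcν
      exact absurd hcν (not_le.mpr hvc)
    have small : ∀ a b d : K, v ν < v d → v (a * b * d) ≤ v ν ^ 2 → v (a * b) < v ν := by
      intro a b d hd habd
      by_contra hle
      push Not at hle
      have : v ν ^ 2 < v (a * b * d) := by
        rw [map_mul, sq]
        calc v ν * v ν < v ν * v d := mul_lt_mul_of_pos_left hd hνpos
          _ ≤ v (a * b) * v d := mul_le_mul_left hle _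
      exact absurd habd (not_le.mpr this)
    have s1 := small x₁ x₂ x₃ c3 hprod
    have s2 := small x₁ x₃ x₂ c2 (by rw [mul_right_comm]; exact hprod)
    have s3 := small x₂ x₃ x₁ c1 (by rw [mul_comm, ← mul_assoc]; exact hprod)
    have : v (x₁ * x₂ + x₁ * x₃ + x₂ * x₃) < v ν := v.map_add_lt (v.map_add_lt s1 s2) s3
    exact absurd he₂ this.ne

/-- Three node points. -/
lemma coll_three_nodes (hε : ε < 1) (hc1 : v c < 1) (hc : c ≠ 0)
    (h : Coll c x₁ y₁ x₂ y₂ x₃ y₃ ℓ ν) (h1 : v x₁ < 1) (h2 : v x₂ < 1) (h3 : v x₃ < 1)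
    (hy1 : v y₁ ≤ ε) (hxy1 : v (x₁ + y₁) ≤ ε) (hy2 : v y₂ ≤ ε) (hxy2 : v (x₂ + y₂) ≤ ε)
    (hy3 : v y₃ ≤ ε) (hxy3 : v (x₃ + y₃) ≤ ε)
    (p1 : IsPhi v c x₁ y₁ φ₁) (p2 : IsPhi v c x₂ y₂ φ₂) (p3 : IsPhi v c x₃ y₃ φ₃) :
    ∃ n : ℕ, Near v ε (φ₁ * φ₂ * φ₃) ((-c) ^ n) := by
  rcases lt_or_ge (v ℓ) 1 with hℓ | hℓ
  · refine ⟨1, ?_⟩
    rw [pow_one]
    exact coll_three_nodes_aux hε hc h h1 h2 h3 hy1 hxy1 hy2 hxy2 hy3
      hxy3 p1 p2 p3 hℓ
  · refine ⟨2, ?_⟩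
    have hlt : v (ℓ * (1 + ℓ)) < 1 := by
      rw [show ℓ * (1 + ℓ) = x₁ + x₂ + x₃ by linear_combination -h.e₁]
      exact v.map_add_lt (v.map_add_lt h1 h2) h3
    have hℓ' : v (-1 - ℓ) < 1 := by
      rw [show (-1 - ℓ : K) = -(1 + ℓ) by ring, Valuation.map_neg]
      by_contra hle
      push Not at hle
      rw [map_mul] at hlt
      exact absurd (one_le_mul_of_one_le_of_one_le hℓ hle) (not_le.mpr hlt)
    have f : ∀ x y : K, v (-y - x) = v (x + y) ∧ v (x + (-y - x)) = v y := by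
      intro x y
      refine ⟨by rw [show -y - x = -(x + y) by ring, Valuation.map_neg],
        by rw [show x + (-y - x) = -y by ring, Valuation.map_neg]⟩
    obtain ⟨a1, b1⟩ := f x₁ y₁
    obtain ⟨a2, b2⟩ := f x₂ y₂
    obtain ⟨a3, b3⟩ := f x₃ y₃
    have := coll_three_nodes_aux hε hc h.neg h1 h2 h3 (by rw [a1]; exact hxy1)
      (by rw [b1]; exact hy1) (by rw [a2]; exact hxy2) (by rw [b2]; exact hy2)
      (by rw [a3]; exact hxy3) (by rw [b3]; exact hy3) (p1.neg hc h1) (p2.neg hc h2)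
      (p3.neg hc h3) hℓ'
    have hφ1 := p1.ne_zero hc1 hc h.eq₁
    have hφ2 := p2.ne_zero hc1 hc h.eq₂
    have hφ3 := p3.ne_zero hc1 hc h.eq₃
    have hinv := ((Near.refl ε ((-c) ^ 3)).div this hε)
    have e1 : (-c) ^ 3 / (-c / φ₁ * (-c / φ₂) * (-c / φ₃)) = φ₁ * φ₂ * φ₃ := by
      field_simp
    have e2 : (-c) ^ 3 / (-c) = (-c) ^ 2 := by
      field_simp
    rwa [e1, e2] at hinv

/-- **Main theorem**: the parameter `φ` is multiplicative on collinear points. -/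
theorem isPhi_coll (hε : ε < 1) (hcε : v c ≤ ε) (hc : c ≠ 0)
    (h : Coll c x₁ y₁ x₂ y₂ x₃ y₃ ℓ ν)
    (ok1 : Ok v ε x₁ y₁) (ok2 : Ok v ε x₂ y₂) (ok3 : Ok v ε x₃ y₃)
    (p1 : IsPhi v c x₁ y₁ φ₁) (p2 : IsPhi v c x₂ y₂ φ₂) (p3 : IsPhi v c x₃ y₃ φ₃) :
    ∃ n : ℕ, Near v ε (φ₁ * φ₂ * φ₃) ((-c) ^ n) := by
  have hc1 : v c < 1 := lt_of_le_of_lt hcε hε
  rcases ok1 with k1 | ⟨k1, hy1, hxy1⟩ <;> rcases ok2 with k2 | ⟨k2, hy2, hxy2⟩ <;>
    rcases ok3 with k3 | ⟨k3, hy3, hxy3⟩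
  · refine ⟨0, ?_⟩
    have e : ∀ {x y φ : K}, 1 ≤ v x → IsPhi v c x y φ → φ = y / (x + y) := by
      rintro x y φ hx (⟨-, h⟩ | ⟨h, -⟩ | ⟨h, -⟩)
      · exact h
      · exact absurd hx (not_le.mpr h)
      · exact absurd hx (not_le.mpr h)
    rw [pow_zero, e k1 p1, e k2 p2, e k3 p3]
    exact coll_nonsing hc1 hcε h k1 k2 k3
  · exact (coll_not_one_node hc1 h k1 k2 k3).elim
  · exact (coll_not_one_node hc1 h.swap₂₃ k1 k3 k2).elim
  · refine ⟨1, ?_⟩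
    rw [pow_one]
    have := coll_two_nodes hε hc h.swap₁₂.swap₂₃ k2 k3 k1 hy2 hxy2 hy3 hxy3 p2 p3 p1
    convert this using 1
    ring
  · exact (coll_not_one_node hc1 h.swap₁₂.swap₂₃ k2 k3 k1).elim
  · refine ⟨1, ?_⟩
    rw [pow_one]
    have := coll_two_nodes hε hc h.swap₂₃ k1 k3 k2 hy1 hxy1 hy3 hxy3 p1 p3 p2
    convert this using 1
    ring
  · refine ⟨1, ?_⟩
    rw [pow_one]
    exact coll_two_nodes hε hc h k1 k2 k3 hy1 hxy1 hy2 hxy2 p1 p2 p3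
  · exact coll_three_nodes hε hc1 hc h k1 k2 k3 hy1 hxy1 hy2 hxy2 hy3 hxy3 p1 p2 p3

end Main

end Fermat.Agent.LOC.TatePhi
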