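import Fermat.Agent.LOC.TateHom
import Fermat.Agent.EllTorsion.Card
import Fermat.Agent.EllTorsion.MulXDivPoly
import Mathlib.RingTheory.Valuation.Integral
import Mathlib.Algebra.CharP.Lemmas

/-! # Torsion points and the Tate parameter -/

set_option autoImplicit false

namespace Fermat.Agent.LOC.TateHom

open WeierstrassCurve WeierstrassCurve.Affine Fermat.Agent.ECRed Fermat.Agent.LOC.TatePhi
open Polynomial Fermat.Agent.EllTorsion

variable {K Γ₀ : Type*} [Field K] [LinearOrderedCommGroupWithZero Γ₀] {v : Valuation K Γ₀} {c : K}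

lemma nf_Δ_ne_zero (hc1 : v c < 1) (hc : c ≠ 0) : (nf c).Δ ≠ 0 := by
  rw [nf_Δ]
  refine mul_ne_zero (neg_ne_zero.mpr hc) ?_
  rw [← Valuation.pos_iff (v := v), v.map_one_add_of_lt]
  · exact one_pos
  · have : v (432 : K) ≤ 1 := by simpa using v_nat_le_one (v := v) 432
    exact v_imul_lt this hc1

lemma nf_isElliptic (hc1 : v c < 1) (hc : c ≠ 0) : (nf c).IsElliptic :=
  ⟨isUnit_iff_ne_zero.mpr (nf_Δ_ne_zero hc1 hc)⟩

/-! ### Integrality of the division polynomials -/

/-- The curve over the ring of integers. -/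
def nfO (v : Valuation K Γ₀) (c : K) (hc1 : v c < 1) : WeierstrassCurve v.integer :=
  ⟨1, 0, 0, 0, ⟨c, hc1.le⟩⟩

lemma nfO_map (hc1 : v c < 1) : (nfO v c hc1).map v.integer.subtype = nf c := by
  ext <;> simp [nfO]

lemma v_eval_map_le_one (f : v.integer[X]) {x : K} (hx : v x ≤ 1) :
    v ((f.map v.integer.subtype).eval x) ≤ 1 := by
  have : (f.map v.integer.subtype).eval x = ((f.eval ⟨x, hx⟩ : v.integer) : K) := by
    rw [eval_map]
    exact (Polynomial.hom_eval₂ f (RingHom.id _) v.integer.subtype ⟨x, hx⟩).symm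
  rw [this]
  exact (f.eval ⟨x, hx⟩).2

lemma v_eval_ΨSq_le_one (hc1 : v c < 1) (n : ℤ) {x : K} (hx : v x ≤ 1) :
    v (((nf c).ΨSq n).eval x) ≤ 1 := by
  rw [← nfO_map hc1, map_ΨSq]
  exact v_eval_map_le_one _ hx

lemma v_eval_Φ_le_one (hc1 : v c < 1) (n : ℤ) {x : K} (hx : v x ≤ 1) :
    v (((nf c).Φ n).eval x) ≤ 1 := by
  rw [← nfO_map hc1, map_Φ]
  exact v_eval_map_le_one _ hx

/-- There is an integral `x` such that `x` and `Φ_n(x)` are units. -/
lemma exists_unit_Φ [IsAlgClosed K] (hc1 : v c < 1) {n : ℕ} (hn : n ≠ 0) :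
    ∃ x : K, v x = 1 ∧ v (((nf c).Φ n).eval x) = 1 := by
  classical
  have hmon : ∀ {R : Type _} [CommRing R] [Nontrivial R] (W : WeierstrassCurve R),
      (X * W.Φ n - 1 : R[X]).Monic ∧ (X * W.Φ n - 1 : R[X]).natDegree = n ^ 2 + 1 := by
    intro R _ _ W
    have h1 : (W.Φ n).Monic := by
      rw [Monic, leadingCoeff_Φ]
    have h2 : (W.Φ n).natDegree = n ^ 2 := by
      rw [natDegree_Φ]; simp
    have h3 : (X * W.Φ n).Monic := monic_X.mul h1
    have h4 : (X * W.Φ n).natDegree = n ^ 2 + 1 := by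
      rw [monic_X.natDegree_mul h1, natDegree_X, h2, add_comm]
    have h5 : (1 : R[X]).degree < (X * W.Φ n).degree := by
      rw [degree_one, degree_eq_natDegree h3.ne_zero, h4]
      exact_mod_cast Nat.succ_pos _
    exact ⟨h3.sub_of_left h5, by rw [natDegree_sub_eq_left_of_natDegree_lt (by
      rw [natDegree_one, h4]; exact Nat.succ_pos _), h4]⟩
  obtain ⟨x, hx⟩ := IsAlgClosed.exists_root (X * (nf c).Φ n - 1) (by
    rw [degree_eq_natDegree (hmon (nf c)).1.ne_zero, (hmon (nf c)).2]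
    exact_mod_cast Nat.succ_ne_zero (n ^ 2))
  rw [IsRoot.def, eval_sub, eval_mul, eval_X, eval_one, sub_eq_zero] at hx
  have hint : v x ≤ 1 := by
    have hv : v.Integers v.integer := Valuation.integer.integers v
    refine hv.mem_of_integral (R := K) ⟨X * (nfO v c hc1).Φ n - 1, (hmon _).1, ?_⟩
    have : (eval₂ (algebraMap v.integer K) x (X * (nfO v c hc1).Φ n - 1)) =
        ((X * (nf c).Φ n - 1 : K[X])).eval x := by
      rw [← nfO_map hc1, map_Φ, eval₂_eq_eval_map]
      congr 1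
      simp only [Polynomial.map_sub, Polynomial.map_mul, map_X, Polynomial.map_one]
      rfl
    rw [this, eval_sub, eval_mul, eval_X, eval_one, hx, sub_self]
  have h1 := v_eval_Φ_le_one hc1 (n : ℤ) hint
  have h2 : v x * v (((nf c).Φ n).eval x) = 1 := by rw [← map_mul, hx, map_one]
  refine ⟨x, ?_, ?_⟩
  · refine le_antisymm hint ?_
    by_contra hlt
    push Not at hlt
    exact absurd h2 (mul_lt_one_of_lt_of_le hlt h1).ne
  · refine le_antisymm h1 ?_
    by_contra hlt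
    push Not at hlt
    exact absurd h2 (lt_of_le_of_lt (mul_le_of_le_one_left' hint) hlt).ne

/-! ### Roots of `-c` -/

lemma v_root_bounds (hc1 : v c < 1) (hc : c ≠ 0) {n : ℕ} (hn : 2 ≤ n) {t : K} (ht : t ^ n = -c) :
    v c < v t ∧ v t < 1 := by
  have hvc : 0 < v c := by rwa [Valuation.pos_iff]
  have h1 : v t ^ n = v c := by rw [← map_pow, ht, Valuation.map_neg]
  have hlt : v t < 1 := by
    by_contra hle
    push Not at hle
    exact absurd (one_le_pow₀ hle (n := n)) (not_le.mpr (by rw [h1]; exact hc1))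
  refine ⟨?_, hlt⟩
  by_contra hle
  push Not at hle
  have : v t ^ n ≤ v c * v c := by
    calc v t ^ n ≤ v t ^ 2 := pow_le_pow_of_le_one zero_le hlt.le hn
      _ = v t * v t := sq _
      _ ≤ v c * v c := mul_le_mul' hle hle
  rw [h1] at this
  have h2 : v c * v c < v c := by
    calc v c * v c < 1 * v c := mul_lt_mul_of_pos_right hc1 hvc
      _ = v c := one_mul _
  exact absurd this (not_le.mpr h2)

lemma root_ne_zero (hc : c ≠ 0) {n : ℕ} {t : K} (hn : n ≠ 0) (ht : t ^ n = -c) : t ≠ 0 := by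
  rintro rfl
  rw [zero_pow hn] at ht
  exact hc (by rw [← neg_eq_zero, ← ht])

lemma cls_root_pow (hc : c ≠ 0) {n : ℕ} {t : K} (hn : n ≠ 0) (ht : t ^ n = -c) :
    cls v c t ^ n = 1 := by
  rw [← cls_pow (root_ne_zero hc hn ht), ht, cls_neg_c]

/-- The `n`-torsion of `Q`. -/
lemma exists_of_pow_eq_one (hc : c ≠ 0) {n : ℕ} (hn : n ≠ 0) {t : K} (ht : t ^ n = -c)
    {q : Q v c} (hq : q ^ n = 1) :
    ∃ s : K, v (s ^ n - 1) < 1 ∧ s ≠ 0 ∧ ∃ j : ℤ, q = cls v c s * cls v c t ^ j := by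
  obtain ⟨u, rfl⟩ := mkQ_surjective v c q
  rw [← map_pow, mkQ_eq_one_iff] at hq
  obtain ⟨j, w, hw, hu⟩ := hq
  have ht0 := root_ne_zero hc hn ht
  set T : Kˣ := Units.mk0 t ht0 with hT
  refine ⟨(u * T⁻¹ ^ j : Kˣ), ?_, Units.ne_zero _, j, ?_⟩
  · have : (((u * T⁻¹ ^ j : Kˣ) : K)) ^ n = w := by
      have h2 : ((u * T⁻¹ ^ j) ^ n : Kˣ) = w := by
        have h3 : T ^ n = Units.mk0 (-c) (neg_ne_zero.mpr hc) := by
          ext; simp [hT, ht]
        have h4 : (u ^ n : Kˣ) = w * (Units.mk0 (-c) (neg_ne_zero.mpr hc)) ^ j := by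
          ext; rw [hu]; simp
        rw [mul_pow, h4, ← h3]
        rw [inv_zpow, inv_pow, ← zpow_natCast, ← zpow_natCast, ← zpow_mul, ← zpow_mul,
          mul_comm (n : ℤ) j, mul_inv_cancel_right]
      rw [← h2]; simp
    rw [this]
    exact hw
  · rw [cls_units, map_mul, map_zpow, map_inv, cls_of_ne ht0, inv_zpow, inv_mul_cancel_right]

/-! ### Residue characteristic `p` -/

lemma v_sub_one_lt_of_pow {p : ℕ} (hp : p.Prime) (hvp : v (p : K) < 1) {s : K}
    (hs : v (s ^ p - 1) < 1) : v (s - 1) < 1 := by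
  have hs1 : v s = 1 := by
    have h1 : v (s ^ p) = 1 := by
      have := v.map_one_add_of_lt hs
      rwa [add_sub_cancel] at this
    rw [map_pow] at h1
    exact (pow_eq_one_iff_of_nonneg zero_le hp.ne_zero).mp h1
  have hs2 : v (s - 1) ≤ 1 := (v.map_sub _ _).trans (max_le hs1.le (by rw [map_one]))
  obtain ⟨r, hr⟩ := exists_add_pow_prime_eq hp (⟨s - 1, hs2⟩ : v.integer) 1
  have hr' := congrArg (fun z : v.integer => (z : K)) hr
  simp only [Subring.coe_pow, Subring.coe_add, Subring.coe_one, Subring.coe_mul,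
    one_pow, mul_one, sub_add_cancel, Subring.coe_natCast] at hr'
  have h2 : (s - 1) ^ p = (s ^ p - 1) - (p : K) * ((s - 1) * r) := by
    rw [hr']; ring
  have h3 : v ((s - 1) ^ p) < 1 := by
    rw [h2]
    refine v.map_sub_lt hs ?_
    rw [mul_comm]
    exact v_imul_lt (v_imul_le hs2 r.2) hvp
  rw [map_pow] at h3
  by_contra hle
  push Not at hle
  exact absurd (one_le_pow₀ hle) (not_le.mpr h3)

lemma v_sub_one_lt_of_pow_pow {p : ℕ} (hp : p.Prime) (hvp : v (p : K) < 1) (n : ℕ) {s : K}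
    (hs : v (s ^ p ^ n - 1) < 1) : v (s - 1) < 1 := by
  induction n with
  | zero => simpa using hs
  | succ n ih =>
    rw [pow_succ, pow_mul] at hs
    exact ih (v_sub_one_lt_of_pow hp hvp hs)

lemma cls_eq_one_of_sub_one {s : K} (hs : v (s - 1) < 1) : cls v c s = 1 := by
  have h1 : v s = 1 := by
    have := v.map_one_add_of_lt hs
    rwa [add_sub_cancel] at this
  have hs0 : s ≠ 0 := by rw [← Valuation.pos_iff (v := v), h1]; exact one_pos
  rw [cls_eq_one_iff hs0]
  exact ⟨0, Units.mk0 s hs0, hs, by simp⟩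

/-- In residue characteristic `p`, the `p^n`-torsion of `Q` is generated by the class of a
`p^n`-th root of `-c`. -/
lemma exists_zpow_of_pow_eq_one (hc : c ≠ 0) {p : ℕ} (hp : p.Prime) (hvp : v (p : K) < 1) {n : ℕ}
    {t : K} (ht : t ^ p ^ n = -c) {q : Q v c} (hq : q ^ p ^ n = 1) : ∃ j : ℤ, q = cls v c t ^ j := by
  obtain ⟨s, hs, -, j, rfl⟩ := exists_of_pow_eq_one hc (pow_ne_zero n hp.ne_zero) ht hq
  refine ⟨j, ?_⟩
  rw [cls_eq_one_of_sub_one (v_sub_one_lt_of_pow_pow hp hvp n hs), one_mul]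

variable [DecidableEq K] [IsAlgClosed K]

/-- Not all the `p`-torsion is in the kernel of reduction. -/
theorem exists_not_inKer (hc1 : v c < 1) (hc : c ≠ 0) {p : ℕ} (hp : p.Prime)
    (hvp : v (p : K) < 1) : ∃ P : (nf c).toAffine.Point, p • P = 0 ∧ ¬ InKer v P := by
  by_contra hcon
  push Not at hcon
  have := nf_isElliptic hc1 hc
  have hmul := isMulX_Φ_ΨSq (nf c) p
  set B : K[X] := (nf c).ΨSq p with hB
  set A : K[X] := (nf c).Φ p with hA
  have hroot : ∀ r ∈ B.roots, 1 < v r := by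
    intro r hr
    obtain ⟨y, hy⟩ := exists_nonsingular (W := nf c) r
    have h1 : p • Point.some r y hy = 0 := (hmul.nsmul_eq_zero_iff hy).mpr (isRoot_of_mem_roots hr)
    exact (inKer_some hy).mp (hcon _ h1)
  have hconst : ∀ x : K, v x ≤ 1 → v (B.eval x) = v B.leadingCoeff * (B.roots.map v).prod := by
    intro x hx
    rw [(IsAlgClosed.splits B).eval_eq_prod_roots, map_mul, map_multiset_prod, Multiset.map_map]
    congr 2
    refine Multiset.map_congr rfl fun r hr => ?_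
    exact v.map_sub_eq_of_lt_right (lt_of_le_of_lt hx (hroot r hr))
  -- a node point
  obtain ⟨t, ht⟩ := IsAlgClosed.exists_pow_nat_eq (-c) hp.pos
  obtain ⟨hct, ht1⟩ := v_root_bounds hc1 hc hp.two_le ht
  obtain ⟨x₀, y₀, h₀, hx₀, hφ₀⟩ := exists_phi_eq hc1 hc hct ht1
  have hker : InKer v (p • (Point.some x₀ y₀ h₀ : (nf c).toAffine.Point)) := by
    rw [← phi_eq_zero_iff hc1 hc, map_nsmul, hφ₀, ← ofMul_pow, cls_root_pow hc hp.ne_zero ht]
    rfl
  have hB0 : v (B.eval x₀) < 1 := by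
    have h1 := hmul.eval x₀ y₀ h₀
    rcases hP : p • (Point.some x₀ y₀ h₀ : (nf c).toAffine.Point) with _ | ⟨x', y', h'⟩
    · have := (hmul.nsmul_eq_zero_iff h₀).mp hP
      rw [this, map_zero]; exact one_pos
    · rw [hP] at h1 hker
      rw [inKer_some] at hker
      simp only [Fin.isValue, Point.xRep_some, Matrix.cons_val_zero, Matrix.cons_val_one,
        one_mul] at h1
      have h2 := v_eval_Φ_le_one hc1 (p : ℤ) hx₀.le
      rw [← h1, map_mul] at h2
      by_contra hle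
      push Not at hle
      have : 1 < v x' * v (B.eval x₀) := one_lt_mul_of_lt_of_le hker hle
      exact absurd h2 (not_le.mpr this)
  -- a point with unit abscissa
  obtain ⟨x₁, hx₁, hΦ₁⟩ := exists_unit_Φ hc1 (n := p) hp.ne_zero
  obtain ⟨y₁, h₁⟩ := exists_nonsingular (W := nf c) x₁
  have hB1 : v (B.eval x₁) < 1 := by
    rw [hconst x₁ hx₁.le, ← hconst x₀ hx₀.le]; exact hB0
  have hker1 : InKer v (p • (Point.some x₁ y₁ h₁ : (nf c).toAffine.Point)) := by
    have h1 := hmul.eval x₁ y₁ h₁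
    rcases hP : p • (Point.some x₁ y₁ h₁ : (nf c).toAffine.Point) with _ | ⟨x', y', h'⟩
    · exact inKer_zero
    · rw [hP] at h1
      simp only [Fin.isValue, Point.xRep_some, Matrix.cons_val_zero, Matrix.cons_val_one,
        one_mul] at h1
      rw [inKer_some]
      rw [← h1, map_mul] at hΦ₁
      by_contra hle
      push Not at hle
      exact absurd hΦ₁ (lt_of_le_of_lt (mul_le_of_le_one_left' hle) hB1).ne
  have he := nf_equation.mp h₁.1
  have hφ := isPhi_rep v c x₁ y₁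
  obtain ⟨g1, g2⟩ := isPhi_nonsing hc1 he hx₁.ge hφ
  have hne : rep v c x₁ y₁ ≠ 0 := hφ.ne_zero hc1 hc he
  rw [← phi_eq_zero_iff hc1 hc, map_nsmul, phi_some hc1 hc h₁ hφ, ← ofMul_pow, ← cls_pow hne] at hker1
  have h5 : v (rep v c x₁ y₁ ^ p) = 1 := by rw [map_pow, g1, one_pow]
  have h6 := sub_one_lt_of_cls_eq_one hc1 hc (by rw [h5]; exact hc1) h5.le hker1
  have h7 := g2.mp (v_sub_one_lt_of_pow hp hvp h6)
  exact absurd hx₁ h7.ne'

end Fermat.Agent.LOC.TateHom
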