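import Fermat.Agent.LOC.TauTorsion
import Fermat.Agent.RT.Wiring.TypeOf

/-!
# `TauProp`: an element `τ` of inertia at `p` moves `E[p]` if `p ∣ Δ`, `p ∤ v_p(Δ)`
-/

set_option autoImplicit false

open WeierstrassCurve WeierstrassCurve.Affine WeierstrassCurve.Affine.Point IsLocalRing
open scoped WeierstrassCurve.Affine TensorProduct

namespace Fermat.Agent.LOC.TauInput

open Fermat.Agent.RT.Wiring Fermat.Agent.RT

local notation "Qbar" => AlgebraicClosure ℚ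
local notation "Γℚ" => (AlgebraicClosure ℚ ≃ₐ[ℚ] AlgebraicClosure ℚ)

theorem eq_one_of_isEquiv {k : Type} [Field k] {ρ ρ' : ResidualGaloisRep k}
    (h : ρ.IsEquiv ρ') {σ : Γℚ} (hσ : ρ.ρ σ = 1) : ρ'.ρ σ = 1 := by
  obtain ⟨e⟩ := h
  refine LinearMap.ext fun x => ?_
  obtain ⟨y, rfl⟩ := e.toLinearEquiv.surjective x
  rw [← e.map_apply, hσ]
  rfl

theorem eq_one_of_baseChangeAlong {k k' : Type} [Field k] [Field k'] (ψ : k →+* k')
    (ρ : ResidualGaloisRep k) {σ : Γℚ} (h : (ρ.baseChangeAlong ψ).ρ σ = 1) : ρ.ρ σ = 1 := by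
  let _ : Algebra k k' := ψ.toAlgebra
  have h1 : (ρ.ρ σ).baseChange k' = 1 := h
  refine LinearMap.ext fun x => ?_
  have h2 := LinearMap.congr_fun h1 (1 ⊗ₜ[k] x)
  rw [LinearMap.baseChange_tmul, Module.End.one_apply] at h2
  have h3 : Function.Injective (fun x : ρ.V => (1 : k') ⊗ₜ[k] x) :=
    Module.FaithfullyFlat.tensorProduct_mk_injective (A := k) (B := k') ρ.V
  exact h3 h2

/-- If `ρbar(σ) = 1` then `σ` acts trivially on `E[p]`. -/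
theorem smul_eq_of_rhoBar {W : WeierstrassCurve ℤ} (hΔ : W.Δ ≠ 0) {p : ℕ} [Fact p.Prime]
    (𝒪 : Type) [CommRing 𝒪] [IsLocalRing 𝒪] [Algebra ℤ_[p] 𝒪]
    [IsLocalHom (algebraMap ℤ_[p] 𝒪)] {σ : Γℚ} (h : (rhoBar W hΔ p 𝒪).ρ σ = 1)
    {x : ((W.map (Int.castRingHom ℚ))⁄Qbar).Point} (hx : p • x = 0) : σ • x = x := by
  have hcard := hcard_of (W := W) (p := p) hΔ
  have hker := hker_of (W := W) (p := p) hΔ
  have e := rhoBar_isEquiv hΔ 𝒪 hcard hker (zmodToResidue p 𝒪)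
  have h1 := eq_one_of_baseChangeAlong _ _ (eq_one_of_isEquiv e h)
  have hx' : x ∈ Submodule.torsionBy ℤ ((W.map (Int.castRingHom ℚ))⁄Qbar).Point p := by
    rw [Submodule.mem_torsionBy_iff, natCast_zsmul, hx]
  have h2 := LinearMap.congr_fun h1 ⟨x, hx'⟩
  exact congrArg Subtype.val h2

theorem tauInput (p : ℕ) [Fact p.Prime] (hp2 : p ≠ 2) (W : WeierstrassCurve ℤ) (hΔ : W.Δ ≠ 0)
    (hss : W.IsSemistableModel) (𝒪 : Type) [CommRing 𝒪] [IsLocalRing 𝒪] [Algebra ℤ_[p] 𝒪]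
    [IsLocalHom (algebraMap ℤ_[p] 𝒪)] : Typ.TauInput hΔ (p := p) 𝒪 := by
  intro hbad hdvd P hP
  have hp : p.Prime := Fact.out
  obtain ⟨τ, hτ⟩ := PStep.exists_isTau hp hp2 hP
  refine ⟨τ, hτ, fun h => hdvd ?_⟩
  exact (TauTorsion.tau_fixes_iff W hΔ hp hp2 (hss p hp hbad) hbad P hP hτ).mp
    fun x hx => smul_eq_of_rhoBar hΔ 𝒪 h hx

/-- **`TauProp`** (input of `typeMinProp_of`, `typeSigProp_of`). -/
theorem tauProp : TauProp := by
  intro p _ hp2 W hΔ hss _ 𝒪 _ _ _ _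
  exact tauInput p hp2 W hΔ hss 𝒪

end Fermat.Agent.LOC.TauInput
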